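import Fermat.Agent.LG.Rep
import Fermat.Prelude.Def_AlgebraicCurve_BaseChangeGalois

/-!
# The Galois action on homomorphisms `Γ → ℤ/n`
-/

set_option autoImplicit false
set_option linter.unusedSectionVars false
set_option linter.style.haveILetI false

noncomputable section

open UpperHalfPlane Function ModularCurve Filter ModularForm AlgebraicCurve WithZero
  CongruenceSubgroup
open scoped Manifold MatrixGroups Topology ModularForm

namespace Fermat.Agent.LG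

open Fermat.Agent.X0Places Fermat.Agent.FunField Fermat.Agent.FunField.PlaceLemmas
open Fermat.Agent.TorsCmp

variable {L : Type*} [Field L] [Algebra ℚ L]

/-- The field of modular functions is stable under automorphisms of the coefficients. -/
class GalSt (ι : L →+* ℂ) (Γ : Subgroup SL(2, ℤ)) (N : ℕ) : Prop where
  map_mem : ∀ (σ : L ≃ₐ[ℚ] L) (x : LaurentSeries L), x ∈ FG ι Γ N →
    coeffMap (σ : L →+* L) x ∈ FG ι Γ N
  fin : ∀ x : LaurentSeries L, x ∈ FG ι Γ N → ∃ E : IntermediateField ℚ L,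
    FiniteDimensional ℚ E ∧ ∀ σ : L ≃ₐ[ℚ] L, (∀ z ∈ E, σ z = z) → coeffMap (σ : L →+* L) x = x

/-- Every homomorphism killing parabolic and elliptic elements is represented. -/
class RepEx (ι : L →+* ℂ) (Γ : Subgroup SL(2, ℤ)) (N : ℕ) : Prop where
  ex : ∀ (n : ℕ) [NeZero n] (x : Additive Γ →+ ZMod n), x ∈ PE Γ (ZMod n) →
    ∃ f : FG ι Γ N, Rep ι Γ N n x f

variable (ι : L →+* ℂ) (Γ : Subgroup SL(2, ℤ)) (N : ℕ) [hst : GalSt ι Γ N]

/-- The action on the field of modular functions. -/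
def galF (σ : L ≃ₐ[ℚ] L) : FG ι Γ N ≃+* FG ι Γ N where
  toFun x := ⟨coeffMap (σ : L →+* L) (x : LaurentSeries L), hst.map_mem σ _ x.2⟩
  invFun x := ⟨coeffMap (σ.symm : L →+* L) (x : LaurentSeries L), hst.map_mem σ.symm _ x.2⟩
  left_inv x := Subtype.ext <| by
    show coeffMap (σ.symm : L →+* L) (coeffMap (σ : L →+* L) (x : LaurentSeries L))
      = (x : LaurentSeries L)
    rw [coeffMap_coeffMap,
      coeffMap_congr (g := RingHom.id L) (RingHom.ext fun a => σ.symm_apply_apply a)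
        (x : LaurentSeries L),
      coeffMap_id]
  right_inv x := Subtype.ext <| by
    show coeffMap (σ : L →+* L) (coeffMap (σ.symm : L →+* L) (x : LaurentSeries L))
      = (x : LaurentSeries L)
    rw [coeffMap_coeffMap,
      coeffMap_congr (g := RingHom.id L) (RingHom.ext fun a => σ.apply_symm_apply a)
        (x : LaurentSeries L),
      coeffMap_id]
  map_mul' x y :=
    Subtype.ext (map_mul (coeffMap (σ : L →+* L)) (x : LaurentSeries L) (y : LaurentSeries L))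
  map_add' x y :=
    Subtype.ext (map_add (coeffMap (σ : L →+* L)) (x : LaurentSeries L) (y : LaurentSeries L))

@[simp]
theorem coe_galF (σ : L ≃ₐ[ℚ] L) (x : FG ι Γ N) :
    (galF ι Γ N σ x : LaurentSeries L) = coeffMap (σ : L →+* L) (x : LaurentSeries L) := rfl

theorem galF_algebraMap (σ : L ≃ₐ[ℚ] L) (a : L) :
    galF ι Γ N σ (algebraMap L (FG ι Γ N) a) = algebraMap L (FG ι Γ N) (σ a) :=
  Subtype.ext (coeffMap_algebraMap (σ : L →+* L) a)

theorem galF_mul (σ τ : L ≃ₐ[ℚ] L) (x : FG ι Γ N) :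
    galF ι Γ N (σ * τ) x = galF ι Γ N σ (galF ι Γ N τ x) := by
  apply Subtype.ext
  rw [coe_galF, coe_galF, coe_galF, coeffMap_coeffMap]
  exact coeffMap_congr (RingHom.ext fun _ => rfl) _

theorem galF_one (x : FG ι Γ N) : galF ι Γ N 1 x = x := by
  apply Subtype.ext
  rw [coe_galF, show ((1 : L ≃ₐ[ℚ] L) : L →+* L) = RingHom.id L from RingHom.ext fun _ => rfl,
    coeffMap_id]

/-- the semilinear automorphism -/
def galS (σ : L ≃ₐ[ℚ] L) : SemilinearAut L (FG ι Γ N) :=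
  ⟨(galF ι Γ N σ, σ.toRingEquiv), fun a => galF_algebraMap ι Γ N σ a⟩

theorem galS_smul (σ : L ≃ₐ[ℚ] L) (x : FG ι Γ N) : galS ι Γ N σ • x = galF ι Γ N σ x := rfl

variable {ι Γ N}

theorem dvd_galF (σ : L ≃ₐ[ℚ] L) {n : ℤ} {f : FG ι Γ N}
    (h : ∀ v : Place L (FG ι Γ N), n ∣ v.ord f) (v : Place L (FG ι Γ N)) :
    n ∣ v.ord (galF ι Γ N σ f) := by
  have h1 := SemilinearAut.ord_smul (galS ι Γ N σ) ((galS ι Γ N σ)⁻¹ • v) f
  rw [smul_inv_smul, galS_smul] at h1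
  rw [h1]
  exact h _

variable [NeZero N] [IsAlgClosed L] [hMF : MF ι Γ N] [hRep : RepEx ι Γ N]

theorem exists_gal (n : ℕ) [NeZero n] (σ : L ≃ₐ[ℚ] L) (x : PE Γ (ZMod n)) :
    ∃ y : PE Γ (ZMod n), ∀ f : FG ι Γ N, Rep ι Γ N n x f → Rep ι Γ N n y (galF ι Γ N σ f) := by
  obtain ⟨f, hf⟩ := hRep.ex n x x.2
  have h1 := dvd_galF σ (hf.dvd x.2)
  obtain ⟨y, hy, hyf⟩ := exists_rep_of_dvd (n := n) (f := galF ι Γ N σ f)
    (by rw [Ne, map_eq_zero_iff _ (galF ι Γ N σ).injective]; exact hf.ne_zero) h1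
  refine ⟨⟨y, hy⟩, fun g hg => ?_⟩
  obtain ⟨u, hu, rfl⟩ := hg.exists_pow hf
  rw [map_mul, map_pow]
  exact hyf.mul_pow (by rwa [Ne, map_eq_zero_iff _ (galF ι Γ N σ).injective])

variable (ι N) in
/-- the image of a class under `σ` -/
def galFun (n : ℕ) [NeZero n] (σ : L ≃ₐ[ℚ] L) (x : PE Γ (ZMod n)) : PE Γ (ZMod n) :=
  (exists_gal (ι := ι) (N := N) n σ x).choose

theorem rep_galFun {n : ℕ} [NeZero n] (σ : L ≃ₐ[ℚ] L) (x : PE Γ (ZMod n)) {f : FG ι Γ N}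
    (hf : Rep ι Γ N n x f) : Rep ι Γ N n (galFun ι N n σ x) (galF ι Γ N σ f) :=
  (exists_gal (ι := ι) (N := N) n σ x).choose_spec f hf

theorem galFun_eq {n : ℕ} [NeZero n] {σ : L ≃ₐ[ℚ] L} {x y : PE Γ (ZMod n)} {f : FG ι Γ N}
    (hf : Rep ι Γ N n x f) (hy : Rep ι Γ N n y (galF ι Γ N σ f)) : galFun ι N n σ x = y :=
  Subtype.ext ((rep_galFun σ x hf).unique hy)

variable (ι N) in
/-- **The Galois action on `PE Γ (ℤ/n)`.** -/
def galH (n : ℕ) [NeZero n] (σ : L ≃ₐ[ℚ] L) : PE Γ (ZMod n) →+ PE Γ (ZMod n) :=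
  AddMonoidHom.mk' (galFun ι N n σ) (by
    intro x y
    obtain ⟨f, hf⟩ := hRep.ex n x x.2
    obtain ⟨g, hg⟩ := hRep.ex n y y.2
    refine galFun_eq (hf.mul hg) ?_
    rw [map_mul]
    exact (rep_galFun σ x hf).mul (rep_galFun σ y hg))

theorem rep_galH {n : ℕ} [NeZero n] (σ : L ≃ₐ[ℚ] L) {x : PE Γ (ZMod n)} {f : FG ι Γ N}
    (hf : Rep ι Γ N n x f) : Rep ι Γ N n (galH ι N n σ x) (galF ι Γ N σ f) := rep_galFun σ x hf

theorem galH_eq {n : ℕ} [NeZero n] {σ : L ≃ₐ[ℚ] L} {x y : PE Γ (ZMod n)} {f : FG ι Γ N}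
    (hf : Rep ι Γ N n x f) (hy : Rep ι Γ N n y (galF ι Γ N σ f)) : galH ι N n σ x = y :=
  galFun_eq hf hy

theorem galH_mul {n : ℕ} [NeZero n] (σ τ : L ≃ₐ[ℚ] L) (x : PE Γ (ZMod n)) :
    galH ι N n (σ * τ) x = galH ι N n σ (galH ι N n τ x) := by
  obtain ⟨f, hf⟩ := hRep.ex n x x.2
  refine galH_eq hf ?_
  rw [galF_mul]
  exact rep_galH σ (rep_galH τ hf)

theorem galH_one {n : ℕ} [NeZero n] (x : PE Γ (ZMod n)) : galH ι N n (1 : L ≃ₐ[ℚ] L) x = x := by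
  obtain ⟨f, hf⟩ := hRep.ex n x x.2
  refine galH_eq hf ?_
  rw [galF_one]
  exact hf

/-- continuity -/
theorem exists_level {n : ℕ} [NeZero n] (x : PE Γ (ZMod n)) :
    ∃ E : IntermediateField ℚ L, FiniteDimensional ℚ E ∧
      ∀ σ : L ≃ₐ[ℚ] L, (∀ z ∈ E, σ z = z) → galH ι N n σ x = x := by
  obtain ⟨f, hf⟩ := hRep.ex n x x.2
  obtain ⟨E, hE, h⟩ := hst.fin f f.2
  refine ⟨E, hE, fun σ hσ => galH_eq hf ?_⟩
  have h1 : galF ι Γ N σ f = f := Subtype.ext (h σ hσ)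
  rw [h1]
  exact hf

theorem exists_level' {n : ℕ} [NeZero n] (x : PE Γ (ZMod n)) :
    ∃ E : IntermediateField ℚ L, FiniteDimensional ℚ E ∧
      ∀ σ τ : L ≃ₐ[ℚ] L, (∀ z ∈ E, σ z = τ z) → galH ι N n σ x = galH ι N n τ x := by
  obtain ⟨E, hE, h⟩ := exists_level (ι := ι) (N := N) x
  refine ⟨E, hE, fun σ τ hστ => ?_⟩
  have h1 := h (τ⁻¹ * σ) (fun z hz => by
    show τ.symm (σ z) = z
    rw [hστ z hz, τ.symm_apply_apply])
  have h2 := congrArg (galH ι N n τ) h1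
  rwa [← galH_mul, mul_inv_cancel_left] at h2

/-- compatibility of the Galois action with operators -/
theorem galH_comm {Γ' : Subgroup SL(2, ℤ)} {N' : ℕ} [NeZero N'] [GalSt ι Γ' N'] [MF ι Γ' N']
    [RepEx ι Γ' N'] {n n' : ℕ} [NeZero n] [NeZero n'] (T : PE Γ (ZMod n) → PE Γ' (ZMod n'))
    (t : FG ι Γ N → FG ι Γ' N')
    (ht : ∀ x f, Rep ι Γ N n (x : PE Γ (ZMod n)) f → Rep ι Γ' N' n' (T x) (t f))
    {σ : L ≃ₐ[ℚ] L} (hσ : ∀ f, t (galF ι Γ N σ f) = galF ι Γ' N' σ (t f)) (x : PE Γ (ZMod n)) :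
    galH ι N' n' σ (T x) = T (galH ι N n σ x) := by
  obtain ⟨f, hf⟩ := hRep.ex n x x.2
  refine galH_eq (ht x f hf) ?_
  rw [← hσ]
  exact ht _ _ (rep_galH σ hf)

end Fermat.Agent.LG
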