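import Fermat.Agent.LG.THecke
import Fermat.Agent.TorsCmp.Final

/-!
# Hecke data for `Γ₀(N)` and for subgroups defined by a congruence condition on the lower right
entry; extension of homomorphisms
-/

set_option autoImplicit false
set_option linter.unusedSectionVars false
set_option linter.style.haveILetI false

noncomputable section

open UpperHalfPlane Function ModularCurve Filter ModularForm AlgebraicCurve WithZero
  CongruenceSubgroup
open scoped Manifold MatrixGroups Topology ModularForm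

namespace Fermat.Agent.LG

open Fermat.Agent.X0Places Fermat.Agent.TorsCmp
open Fermat.Agent.HeckeHom (HData mapGL_inj)
open Matrix.SpecialLinearGroup (mapGL)
open P2MW.S_ModularForm_heckeT_slash_eq_self_of_mem_Gamma0.ModularForm.HeckeSlashInvariance

/-! ### Homomorphisms on a normal subgroup and Hecke operators -/

section Ext

variable {G Γ : Subgroup SL(2, ℤ)} {A : Type*} [AddCommGroup A]

open Classical in
/-- extension of `z` by zero -/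
def zz (z : Additive Γ →+ A) (g : SL(2, ℤ)) : A :=
  if h : g ∈ Γ then z (Additive.ofMul ⟨g, h⟩) else 0

theorem zz_of_mem (z : Additive Γ →+ A) {g : SL(2, ℤ)} (h : g ∈ Γ) :
    zz z g = z (Additive.ofMul ⟨g, h⟩) := dif_pos h

theorem zz_mul (z : Additive Γ →+ A) {g h : SL(2, ℤ)} (hg : g ∈ Γ) (hh : h ∈ Γ) :
    zz z (g * h) = zz z g + zz z h := by
  rw [zz_of_mem z hg, zz_of_mem z hh, zz_of_mem z (mul_mem hg hh), ← map_add]
  rfl

theorem zz_inv (z : Additive Γ →+ A) {g : SL(2, ℤ)} (hg : g ∈ Γ) : zz z g⁻¹ = -zz z g := by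
  rw [zz_of_mem z hg, zz_of_mem z (inv_mem hg), ← map_neg]
  rfl

/-- Obstruction-free extension of `(T - deg) z`. -/
theorem exists_ext (hle : Γ ≤ G) (hnorm : ∀ g ∈ G, ∀ h ∈ Γ, g * h * g⁻¹ ∈ Γ) (D : HData G G)
    (hcoc : ∀ (g : G) (c : D.X), (D.coc g c : SL(2, ℤ)) * (g : SL(2, ℤ))⁻¹ ∈ Γ)
    (z : Additive Γ →+ A) (hz : ∀ g ∈ G, ∀ h ∈ Γ, zz z (g * h * g⁻¹) = zz z h) :
    ∃ E : Additive G →+ A, ∀ h : G, (h : SL(2, ℤ)) ∈ Γ → E (Additive.ofMul h) =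
      ∑ c : D.X, zz z (D.coc h c) - Fintype.card D.X • zz z h := by
  classical
  -- a section
  let r : SL(2, ℤ) → SL(2, ℤ) → Prop := fun g h => g * h⁻¹ ∈ Γ
  have hr : Equivalence r := by
    refine ⟨fun g => ?_, fun {g h} hgh => ?_, fun {g h k} hgh hhk => ?_⟩
    · show g * g⁻¹ ∈ Γ
      rw [mul_inv_cancel]; exact one_mem _
    · show h * g⁻¹ ∈ Γ
      have := inv_mem hgh
      rwa [mul_inv_rev, inv_inv] at this
    · show g * k⁻¹ ∈ Γ
      have := mul_mem hgh hhk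
      rwa [mul_assoc, inv_mul_cancel_left] at this
  let st : Setoid SL(2, ℤ) := ⟨r, hr⟩
  let s : SL(2, ℤ) → SL(2, ℤ) := fun g => (Quotient.mk st g).out
  have hs : ∀ g, g * (s g)⁻¹ ∈ Γ := fun g => hr.symm (Quotient.exact (Quotient.out_eq (Quotient.mk st g)))
  have hs' : ∀ g h, g * h⁻¹ ∈ Γ → s g = s h := by
    intro g h hgh
    show (Quotient.mk st g).out = (Quotient.mk st h).out
    have : Quotient.mk st g = Quotient.mk st h := Quotient.sound hgh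
    rw [this]
  have hsG : ∀ g ∈ G, s g ∈ G := by
    intro g hg
    have h1 := mul_mem (inv_mem (hle (hs g))) hg
    have h2 : (g * (s g)⁻¹)⁻¹ * g = s g := by group
    rwa [h2] at h1
  let Z : SL(2, ℤ) → A := fun g => zz z (g * (s g)⁻¹)
  -- the defect
  have hdef : ∀ g ∈ G, ∀ h ∈ G, Z (g * h) = Z g + Z h + zz z (s g * s h * (s (g * h))⁻¹) := by
    intro g hg h hh
    have e : g * h * (s (g * h))⁻¹ = (g * (s g)⁻¹) * (s g * (h * (s h)⁻¹) * (s g)⁻¹) *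
        (s g * s h * (s (g * h))⁻¹) := by group
    have m1 := hs g
    have m2 := hnorm _ (hsG g hg) _ (hs h)
    have m3 : s g * s h * (s (g * h))⁻¹ ∈ Γ := by
      have h1 := mul_mem (inv_mem (mul_mem m1 m2)) (hs (g * h))
      have h2 : (g * (s g)⁻¹ * (s g * (h * (s h)⁻¹) * (s g)⁻¹))⁻¹ * (g * h * (s (g * h))⁻¹) =
        s g * s h * (s (g * h))⁻¹ := by group
      rwa [h2] at h1
    show zz z (g * h * (s (g * h))⁻¹) = _
    rw [e, zz_mul z (mul_mem m1 m2) m3, zz_mul z m1 m2, hz _ (hsG g hg) _ (hs h)]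
  have hcocG : ∀ (g : G) (c : D.X), s (D.coc g c) = s g := fun g c => hs' _ _ (hcoc g c)
  -- the homomorphism
  let E : Additive G →+ A :=
    AddMonoidHom.mk' (fun g : Additive G => ∑ c : D.X, Z (D.coc (Additive.toMul g) c) -
      Fintype.card D.X • Z ((Additive.toMul g : G) : SL(2, ℤ))) (by
      intro g h
      obtain ⟨g, rfl⟩ := Additive.ofMul.surjective g
      obtain ⟨h, rfl⟩ := Additive.ofMul.surjective h
      show ∑ c : D.X, Z (D.coc (g * h) c) - Fintype.card D.X • Z ((g * h : G) : SL(2, ℤ)) =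
        (∑ c : D.X, Z (D.coc g c) - Fintype.card D.X • Z (g : SL(2, ℤ))) +
        (∑ c : D.X, Z (D.coc h c) - Fintype.card D.X • Z (h : SL(2, ℤ)))
      have h1 : ∀ c : D.X, Z (D.coc (g * h) c) = Z (D.coc g c) + Z (D.coc h (D.actFun g c)) +
          zz z (s g * s h * (s ((g : SL(2, ℤ)) * h))⁻¹) := by
        intro c
        have h2 := hdef (D.coc g c) (D.coc g c).2 (D.coc h (D.actFun g c))
          (D.coc h (D.actFun g c)).2
        rw [hcocG, hcocG] at h2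
        have h3 : ((D.coc g c : G) : SL(2, ℤ)) * (D.coc h (D.actFun g c) : G) =
            (D.coc (g * h) c : G) := by
          rw [D.coc_mul, Subgroup.coe_mul]
        rw [h3, hcocG, Subgroup.coe_mul] at h2
        exact h2
      rw [Finset.sum_congr rfl fun c _ => h1 c, Finset.sum_add_distrib, Finset.sum_add_distrib]
      have h4 : ∑ c : D.X, Z (D.coc h (D.actFun g c)) = ∑ c : D.X, Z (D.coc h c) :=
        Equiv.sum_comp (D.perm g) (fun c => Z (D.coc h c))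
      rw [h4, Finset.sum_const, Finset.card_univ, Subgroup.coe_mul, hdef g g.2 h h.2, smul_add,
        smul_add]
      abel)
  refine ⟨E, fun h hh => ?_⟩
  show ∑ c : D.X, Z (D.coc h c) - Fintype.card D.X • Z h = _
  have h1 : ∀ g ∈ Γ, Z g = zz z g - zz z (s 1) := by
    intro g hg
    have h2 : s g = s 1 := hs' _ _ (by rwa [inv_one, mul_one])
    have h3 : s 1 ∈ Γ := by
      have := inv_mem (hs 1)
      rwa [one_mul, inv_inv] at this
    show zz z (g * (s g)⁻¹) = _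
    rw [h2, zz_mul z hg (inv_mem h3), zz_inv z h3, sub_eq_add_neg]
  have h2 : ∀ c : D.X, (D.coc h c : SL(2, ℤ)) ∈ Γ := by
    intro c
    have := mul_mem (hcoc h c) hh
    rwa [inv_mul_cancel_right] at this
  rw [Finset.sum_congr rfl fun c _ => h1 _ (h2 c), Finset.sum_sub_distrib, Finset.sum_const,
    Finset.card_univ, h1 _ hh, smul_sub]
  abel

end Ext

/-! ### Hecke data -/

section Data

variable {N l : ℕ} [hl : Fact l.Prime]

/-- the left factors -/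
def sx (σ : SL(2, ℤ)) (x : OnePoint (ZMod l)) : SL(2, ℤ) :=
  Option.elim x σ (fun _ => 1)

@[simp] theorem sx_infty (σ : SL(2, ℤ)) : sx σ (OnePoint.infty : OnePoint (ZMod l)) = σ := rfl
@[simp] theorem sx_coe (σ : SL(2, ℤ)) (j : ZMod l) : sx σ (j : OnePoint (ZMod l)) = 1 := rfl

theorem sx_mem {σ : SL(2, ℤ)} (hσ : σ ∈ Gamma0 N) (x : OnePoint (ZMod l)) :
    sx σ x ∈ Gamma0 N := by
  induction x using OnePoint.rec with
  | infty => exact hσ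
  | coe j => exact one_mem _

/-- the representatives -/
def repS (σ : SL(2, ℤ)) (x : OnePoint (ZMod l)) : GL (Fin 2) ℝ := mapGL ℝ (sx σ x) * heckeRep l x

theorem repS_ex (hlN : ¬ l ∣ N) {σ : SL(2, ℤ)} (hσ : σ ∈ Gamma0 N) (γ : Gamma0 N)
    (x : OnePoint (ZMod l)) : ∃ (y : OnePoint (ZMod l)) (δ : Gamma0 N),
      repS σ x * mapGL ℝ (γ : SL(2, ℤ)) = mapGL ℝ (δ : SL(2, ℤ)) * repS σ y := by
  obtain ⟨δ, hδ⟩ := HeckeHom.exists_cocyc hlN γ x
  refine ⟨redMatrix l (γ : SL(2, ℤ)) • x,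
    ⟨sx σ x, sx_mem hσ x⟩ * δ * ⟨sx σ (redMatrix l (γ : SL(2, ℤ)) • x), sx_mem hσ _⟩⁻¹, ?_⟩
  rw [repS, repS, mul_assoc, hδ]
  simp only [Subgroup.coe_mul, Subgroup.coe_inv, map_mul, map_inv]
  group

theorem repS_uniq {σ : SL(2, ℤ)} (hσ : σ ∈ Gamma0 N) (δ : Gamma0 N) (x y : OnePoint (ZMod l))
    (h : repS σ x = mapGL ℝ (δ : SL(2, ℤ)) * repS σ y) : x = y := by
  apply HeckeHom.heckeRep_uniq (l := l)
    ((⟨sx σ x, sx_mem hσ x⟩ : Gamma0 N)⁻¹ * δ * ⟨sx σ y, sx_mem hσ y⟩) x y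
  rw [repS, repS] at h
  simp only [Subgroup.coe_mul, Subgroup.coe_inv, map_mul, map_inv]
  rw [mul_assoc, mul_assoc, ← h]
  group

/-- integral matrices, lower right entries -/
theorem repS_val (σ : SL(2, ℤ)) (x : OnePoint (ZMod l)) :
    ∃ b : Matrix (Fin 2) (Fin 2) ℤ, ((repS σ x : GL (Fin 2) ℝ) : Matrix (Fin 2) (Fin 2) ℝ) =
      b.map (Int.castRingHom ℝ) ∧ (∀ q : ℕ, (q : ℤ) ∣ σ 1 0 → (q : ℤ) ∣ σ 1 1 - l →
        (q : ℤ) ∣ b 1 0 ∧ (q : ℤ) ∣ b 1 1 - l) := by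
  induction x using OnePoint.rec with
  | infty =>
    refine ⟨!![σ 0 0 * l, σ 0 1; σ 1 0 * l, σ 1 1], ?_, fun q h1 h2 => ?_⟩
    · rw [repS, Units.val_mul]
      ext i j
      fin_cases i <;> fin_cases j <;>
        simp [Matrix.mul_apply, Fin.sum_univ_two, hl.out.ne_zero]
    · exact ⟨Dvd.dvd.mul_right h1 _, h2⟩
  | coe j =>
    refine ⟨!![1, j.val; 0, l], ?_, fun q h1 h2 => ?_⟩
    · rw [repS, Units.val_mul]
      ext i k
      fin_cases i <;> fin_cases k <;>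
        simp [-ZMod.natCast_val, Matrix.mul_apply, Fin.sum_univ_two, hl.out.ne_zero]
    · simp

theorem lower_right {q : ℕ} (hql : IsCoprime (q : ℤ) (l : ℤ)) {σ : SL(2, ℤ)}
    (h0 : (q : ℤ) ∣ σ 1 0) (h1 : (q : ℤ) ∣ σ 1 1 - l) {γ δ : SL(2, ℤ)} {x y : OnePoint (ZMod l)}
    (hδ : (q : ℤ) ∣ δ 1 0)
    (h : repS σ x * mapGL ℝ γ = mapGL ℝ δ * repS σ y) : (q : ℤ) ∣ δ 1 1 - γ 1 1 := by
  obtain ⟨b, hb, hbq⟩ := repS_val σ x
  obtain ⟨b', hb', hbq'⟩ := repS_val σ y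
  obtain ⟨e1, e2⟩ := hbq q h0 h1
  obtain ⟨e3, e4⟩ := hbq' q h0 h1
  have h2 := congrArg (fun M : GL (Fin 2) ℝ => (M : Matrix (Fin 2) (Fin 2) ℝ) 1 1) h
  simp only [Units.val_mul, hb, hb', Matrix.mul_apply, Fin.sum_univ_two] at h2
  have h3 : b 1 0 * γ 0 1 + b 1 1 * γ 1 1 = δ 1 0 * b' 0 1 + δ 1 1 * b' 1 1 := by
    have h4 : ((b 1 0 : ℤ) : ℝ) * γ 0 1 + b 1 1 * γ 1 1 = δ 1 0 * b' 0 1 + δ 1 1 * b' 1 1 := by
      simpa using h2
    exact_mod_cast h4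
  have h4 : (q : ℤ) ∣ l * (δ 1 1 - γ 1 1) := by
    have h5 : (l : ℤ) * (δ 1 1 - γ 1 1) = b 1 0 * γ 0 1 + (b 1 1 - l) * γ 1 1 -
        δ 1 0 * b' 0 1 - δ 1 1 * (b' 1 1 - l) := by
      linear_combination -h3
    rw [h5]
    exact dvd_sub (dvd_sub (dvd_add (Dvd.dvd.mul_right e1 _) (Dvd.dvd.mul_right e2 _))
      (Dvd.dvd.mul_right hδ _)) (Dvd.dvd.mul_left e4 _)
  exact hql.dvd_of_dvd_mul_left h4

variable (N) in
/-- Hecke data for `Γ₀(N)` with a general representative at infinity -/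
def tdata0 (hlN : ¬ l ∣ N) (σ : SL(2, ℤ)) (hσ : σ ∈ Gamma0 N) : TData (Gamma0 N) l where
  H := { X := OnePoint (ZMod l)
         fin := inferInstance
         α := repS σ
         ex := fun γ x => repS_ex hlN hσ γ x
         uniq := fun δ x y h => repS_uniq hσ δ x y h }
  e := Equiv.refl _
  σ := σ
  α_coe j := by
    show repS σ (j : OnePoint (ZMod l)) = _
    rw [repS, sx_coe, map_one, one_mul, heckeRep_coe]
  α_infty := rfl

/-- The condition on the subgroup. -/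
structure IsCong (Γ : Subgroup SL(2, ℤ)) (N q : ℕ) : Prop where
  le : Γ ≤ Gamma0 N
  dvd : q ∣ N
  mem : ∀ γ ∈ Γ, ∀ δ ∈ Gamma0 N, (q : ℤ) ∣ δ 1 1 - γ 1 1 → δ ∈ Γ

theorem dvd_of_mem_Gamma0 {q : ℕ} (hqN : q ∣ N) {δ : SL(2, ℤ)} (hδ : δ ∈ Gamma0 N) :
    (q : ℤ) ∣ δ 1 0 := by
  rw [mem_Gamma0_iff] at hδ
  exact (Int.natCast_dvd_natCast.2 hqN).trans hδ

/-- Hecke data for `Γ` -/
def tdataG {Γ : Subgroup SL(2, ℤ)} {q : ℕ} (hΓ : IsCong Γ N q) (hlN : ¬ l ∣ N)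
    (σ : SL(2, ℤ)) (hσ : σ ∈ Gamma0 N) (hql : IsCoprime (q : ℤ) (l : ℤ))
    (hσl : (q : ℤ) ∣ σ 1 1 - l) : TData Γ l where
  H := { X := OnePoint (ZMod l)
         fin := inferInstance
         α := repS σ
         ex := fun γ x => by
           obtain ⟨y, δ, h⟩ := repS_ex hlN hσ ⟨γ, hΓ.le γ.2⟩ x
           have h1 := lower_right hql (dvd_of_mem_Gamma0 hΓ.dvd hσ) hσl
             (dvd_of_mem_Gamma0 hΓ.dvd δ.2) h
           exact ⟨y, ⟨δ, hΓ.mem γ γ.2 δ δ.2 h1⟩, h⟩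
         uniq := fun δ x y h => repS_uniq hσ ⟨δ, hΓ.le δ.2⟩ x y h }
  e := Equiv.refl _
  σ := σ
  α_coe j := by
    show repS σ (j : OnePoint (ZMod l)) = _
    rw [repS, sx_coe, map_one, one_mul, heckeRep_coe]
  α_infty := rfl

variable {Γ : Subgroup SL(2, ℤ)} {q : ℕ} (hΓ : IsCong Γ N q) (hlN : ¬ l ∣ N)
    (σ : SL(2, ℤ)) (hσ : σ ∈ Gamma0 N) (hql : IsCoprime (q : ℤ) (l : ℤ))
    (hσl : (q : ℤ) ∣ σ 1 1 - l)

theorem coc_eq (γ : Γ) (x : OnePoint (ZMod l)) :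
    (((tdataG hΓ hlN σ hσ hql hσl).H.coc γ x : Γ) : SL(2, ℤ)) =
      ((tdata0 N hlN σ hσ).H.coc ⟨γ, hΓ.le γ.2⟩ x : Gamma0 N) := by
  have h1 := (tdataG hΓ hlN σ hσ hql hσl).H.spec γ x
  have h2 := ((tdata0 N hlN σ hσ).H.eq_of_spec (γ := ⟨γ, hΓ.le γ.2⟩) (x := x)
    (y := (tdataG hΓ hlN σ hσ hql hσl).H.actFun γ x)
    (δ := ⟨(tdataG hΓ hlN σ hσ hql hσl).H.coc γ x,
      hΓ.le ((tdataG hΓ hlN σ hσ hql hσl).H.coc γ x).2⟩) h1).2
  exact congrArg Subtype.val h2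

/-- restriction commutes with `T_l` -/
theorem hom_res {A : Type*} [AddCommGroup A] (x : Additive (Gamma0 N) →+ A) :
    (tdataG hΓ hlN σ hσ hql hσl).H.hom A
      (x.comp (MonoidHom.toAdditive (Subgroup.inclusion hΓ.le))) =
    ((tdata0 N hlN σ hσ).H.hom A x).comp (MonoidHom.toAdditive (Subgroup.inclusion hΓ.le)) := by
  refine AddMonoidHom.ext fun γ' => ?_
  obtain ⟨γ, rfl⟩ := Additive.ofMul.surjective γ'
  rw [HData.hom_apply]
  show _ = (tdata0 N hlN σ hσ).H.hom A x (Additive.ofMul (Subgroup.inclusion hΓ.le γ))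
  rw [HData.hom_apply]
  refine Finset.sum_congr rfl fun (c : OnePoint (ZMod l)) _ => ?_
  show x (Additive.ofMul (Subgroup.inclusion hΓ.le
    ((tdataG hΓ hlN σ hσ hql hσl).H.coc γ c))) = _
  congr 2
  exact Subtype.ext (coc_eq hΓ hlN σ hσ hql hσl γ c)

/-- `T_l` on `Γ₀(N)` does not depend on `σ` -/
theorem tdata0_hom (hl' : l.Prime) {A : Type*} [AddCommGroup A] :
    (tdata0 N hlN σ hσ).H.hom A = HeckeHom.heckeHom hl' hlN A := by
  rw [← HeckeHom.hom_dataT hl' hlN]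
  exact hdata_hom_eq (tdata0 N hlN σ hσ).H (HeckeHom.dataT hl' hlN)
    (fun (x : OnePoint (ZMod l)) => ⟨x, ⟨sx σ x, sx_mem hσ x⟩, rfl⟩) rfl A

/-- **Extension of invariant eigenvectors from `Γ` to `Γ₀(N)`.** -/
theorem exists_ext_T {A : Type*} [AddCommGroup A] (z : Additive Γ →+ A)
    (hz : ∀ g ∈ Gamma0 N, ∀ h ∈ Γ, zz z (g * h * g⁻¹) = zz z h)
    (hnorm : ∀ g ∈ Gamma0 N, ∀ h ∈ Γ, g * h * g⁻¹ ∈ Γ) :
    ∃ E : Additive (Gamma0 N) →+ A,
      E.comp (MonoidHom.toAdditive (Subgroup.inclusion hΓ.le)) =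
        (tdataG hΓ hlN σ hσ hql hσl).H.hom A z - (l + 1) • z := by
  have hcoc : ∀ (g : Gamma0 N) (c : (tdata0 N hlN σ hσ).H.X),
      (((tdata0 N hlN σ hσ).H.coc g c : Gamma0 N) : SL(2, ℤ)) * (g : SL(2, ℤ))⁻¹ ∈ Γ := by
    intro g c
    have h1 := (tdata0 N hlN σ hσ).H.spec g c
    have h2 : (q : ℤ) ∣ ((tdata0 N hlN σ hσ).H.coc g c : SL(2, ℤ)) 1 1 - (g : SL(2, ℤ)) 1 1 :=
      lower_right hql (dvd_of_mem_Gamma0 hΓ.dvd hσ) hσl
        (dvd_of_mem_Gamma0 hΓ.dvd ((tdata0 N hlN σ hσ).H.coc g c).2) h1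
    refine hΓ.mem 1 (one_mem _) _ (mul_mem ((tdata0 N hlN σ hσ).H.coc g c).2 (inv_mem g.2)) ?_
    set δ : SL(2, ℤ) := (((tdata0 N hlN σ hσ).H.coc g c : Gamma0 N) : SL(2, ℤ))
    have hg := Fermat.Agent.JInv.det_eq (g : SL(2, ℤ))
    have hg0 := dvd_of_mem_Gamma0 hΓ.dvd g.2
    have hδ0 := dvd_of_mem_Gamma0 hΓ.dvd ((tdata0 N hlN σ hσ).H.coc g c).2
    have e : (δ * (g : SL(2, ℤ))⁻¹) 1 1 = -(δ 1 0 * (g : SL(2, ℤ)) 0 1) +
        δ 1 1 * (g : SL(2, ℤ)) 0 0 := by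
      rw [Matrix.SpecialLinearGroup.coe_mul, Matrix.SpecialLinearGroup.coe_inv,
        Matrix.adjugate_fin_two, Matrix.mul_apply]
      simp [Fin.sum_univ_two]
    have e1 : ((1 : SL(2, ℤ)) 1 1 : ℤ) = 1 := by simp
    rw [e, e1]
    have e2 : -(δ 1 0 * (g : SL(2, ℤ)) 0 1) + δ 1 1 * (g : SL(2, ℤ)) 0 0 - 1 =
        -(δ 1 0 * (g : SL(2, ℤ)) 0 1) + (δ 1 1 - (g : SL(2, ℤ)) 1 1) * (g : SL(2, ℤ)) 0 0 +
        (g : SL(2, ℤ)) 0 1 * (g : SL(2, ℤ)) 1 0 := by linear_combination hg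
    rw [e2]
    exact dvd_add (dvd_add ((Dvd.dvd.mul_right hδ0 _).neg_right) (Dvd.dvd.mul_right h2 _))
      (Dvd.dvd.mul_left hg0 _)
  obtain ⟨E, hE⟩ := exists_ext hΓ.le hnorm (tdata0 N hlN σ hσ).H hcoc z hz
  refine ⟨E, AddMonoidHom.ext fun γ' => ?_⟩
  obtain ⟨γ, rfl⟩ := Additive.ofMul.surjective γ'
  show E (Additive.ofMul (Subgroup.inclusion hΓ.le γ)) = _
  rw [hE _ γ.2, AddMonoidHom.sub_apply, HData.hom_apply]
  congr 1
  · refine Finset.sum_congr rfl fun (c : OnePoint (ZMod l)) _ => ?_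
    have h1 := coc_eq hΓ hlN σ hσ hql hσl γ c
    show zz z ((tdata0 N hlN σ hσ).H.coc ⟨γ, hΓ.le γ.2⟩ c : SL(2, ℤ)) = _
    rw [← h1, zz_of_mem z ((tdataG hΓ hlN σ hσ hql hσl).H.coc γ c).2]
  · have h2 : Fintype.card (tdata0 N hlN σ hσ).H.X = l + 1 := card_onePoint l
    rw [h2]
    show _ • zz z (γ : SL(2, ℤ)) = _
    rw [zz_of_mem z γ.2]
    rfl

end Data

end Fermat.Agent.LG
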