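import Fermat.Agent.LG.MFHMain
import Fermat.Agent.LG.Gal
import Fermat.Agent.LG.TDataC
import Fermat.Agent.LGRes.Main
import Fermat.Agent.HeckeRed.Dat

/-!
# Galois action and diamond operators for `GH M ω`
-/

set_option autoImplicit false
set_option linter.unusedSectionVars false
set_option linter.style.haveILetI false

noncomputable section

open UpperHalfPlane Function ModularCurve Filter ModularForm AlgebraicCurve WithZero
  CongruenceSubgroup IntermediateField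
open scoped Manifold MatrixGroups Topology ModularForm

namespace Fermat.Agent.LG

open Fermat.Agent.X0Places Fermat.Agent.TorsCmp Fermat.Agent.FunField Fermat.Agent.LGU
open Fermat.Agent.Igusa Fermat.Agent.LGRes

section Fin

variable {L : Type*} [Field L] [Algebra ℚ L]

/-- fixed by an open subgroup -/
def FixF (x : LaurentSeries L) : Prop := ∃ E : IntermediateField ℚ L,
    FiniteDimensional ℚ E ∧ ∀ σ : L ≃ₐ[ℚ] L, (∀ z ∈ E, σ z = z) → coeffMap (σ : L →+* L) x = x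

theorem fixF_of_adjoin [Algebra.IsAlgebraic ℚ L] {S : Set (LaurentSeries L)}
    (hS : ∀ s ∈ S, FixF s) {x : LaurentSeries L} (hx : x ∈ adjoin L S) : FixF x := by
  induction hx using IntermediateField.adjoin_induction with
  | mem x hx => exact hS x hx
  | algebraMap c =>
    refine ⟨ℚ⟮c⟯, adjoin.finiteDimensional (Algebra.IsAlgebraic.isAlgebraic c).isIntegral,
      fun σ hσ => ?_⟩
    rw [coeffMap_algebraMap]
    congr 1
    exact hσ c (mem_adjoin_simple_self ℚ c)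
  | add a b _ _ ha hb =>
    obtain ⟨E, hE, h⟩ := ha
    obtain ⟨E', hE', h'⟩ := hb
    refine ⟨E ⊔ E', IntermediateField.finiteDimensional_sup E E', fun σ hσ => ?_⟩
    rw [map_add, h σ fun z hz => hσ z ((le_sup_left : E ≤ E ⊔ E') hz),
      h' σ fun z hz => hσ z ((le_sup_right : E' ≤ E ⊔ E') hz)]
  | inv a _ ha =>
    obtain ⟨E, hE, h⟩ := ha
    exact ⟨E, hE, fun σ hσ => by rw [map_inv₀, h σ hσ]⟩
  | mul a b _ _ ha hb =>
    obtain ⟨E, hE, h⟩ := ha
    obtain ⟨E', hE', h'⟩ := hb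
    refine ⟨E ⊔ E', IntermediateField.finiteDimensional_sup E E', fun σ hσ => ?_⟩
    rw [map_mul, h σ fun z hz => hσ z ((le_sup_left : E ≤ E ⊔ E') hz),
      h' σ fun z hz => hσ z ((le_sup_right : E' ≤ E ⊔ E') hz)]

theorem fixF_coeffEmb (x : LaurentSeries ℚ) : FixF (coeffEmb L x) := by
  refine ⟨⊥, inferInstance, fun σ _ => ?_⟩
  exact coeffMap_coeffEmb' (σ : L →+* L) x

theorem fixF_FF [Algebra.IsAlgebraic ℚ L] {N : ℕ} {x : LaurentSeries L} (hx : x ∈ FF L N) :
    FixF x := by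
  rw [FF, laurentBaseChange] at hx
  refine fixF_of_adjoin ?_ hx
  rintro _ ⟨y, -, rfl⟩
  exact fixF_coeffEmb y

theorem fixF_uL [Algebra.IsAlgebraic ℚ L] {q : ℕ} [NeZero q] (ω : DirichletCharacter L q) :
    FixF (uL ω) := by
  have hfin : (Set.range (ω : ZMod q → L)).Finite := Set.finite_range _
  have hfin' : Finite (Set.range (ω : ZMod q → L)) := hfin
  refine ⟨adjoin ℚ (Set.range (ω : ZMod q → L)), ?_, fun σ hσ => ?_⟩
  · exact IntermediateField.finiteDimensional_adjoin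
      fun x _ => (Algebra.IsAlgebraic.isAlgebraic x).isIntegral
  · rw [coeffMap_uL]
    congr 1
    ext a
    rw [MulChar.ringHomComp_apply]
    exact hσ _ (subset_adjoin _ _ ⟨_, rfl⟩)

theorem fixF_SH [Algebra.IsAlgebraic ℚ L] {M q : ℕ} [NeZero q] (ω : DirichletCharacter L q)
    {x : LaurentSeries L} (hx : x ∈ SH M ω) : FixF x := by
  rw [SH] at hx
  refine fixF_of_adjoin ?_ hx
  rintro x (hx | rfl)
  · exact fixF_FF hx
  · exact fixF_uL ω

end Fin

section Gal

variable {L : Type*} [Field L] [Algebra ℚ L] (ι : L →+* ℂ) {M : ℕ} [NeZero M]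
  {q : ℕ} [hq : Fact q.Prime] (hqM : q ∣ M) (ω : DirichletCharacter L q)

/-- `GalSt` for `Γ₀(M)` -/
instance galSt_gamma0 [Algebra.IsAlgebraic ℚ L] : GalSt ι (Gamma0 M) M where
  map_mem σ x hx := by
    rw [FG_gamma0] at hx ⊢
    exact coeffMap_mem_laurentBaseChange σ hx
  fin x hx := by
    rw [FG_gamma0] at hx
    exact fixF_FF hx

include hqM in
theorem uL_comp_mem (hω : ω (-1) = 1) (σ : L ≃ₐ[ℚ] L) :
    uL (ω.ringHomComp (σ : L →+* L)) ∈ AnR ι (GH M ω) M := by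
  have h := uL_mem_anR ι hqM (ω.ringHomComp (σ : L →+* L)) (by
    rw [MulChar.ringHomComp_apply, hω, map_one])
  rwa [GH_comp] at h

include hqM in
/-- `GalSt` for `GH M ω` -/
theorem galSt_GH [Algebra.IsAlgebraic ℚ L] (hω : ω (-1) = 1) : GalSt ι (GH M ω) M where
  map_mem σ x hx := by
    rw [FG_GH ι hqM ω hω, SH] at hx
    have h1 : (adjoin L ((FF L M : Set (LaurentSeries L)) ∪ {uL ω})).toSubfield ≤
        (FG ι (GH M ω) M).toSubfield.comap (coeffMap (σ : L →+* L)) := by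
      rw [adjoin_toSubfield, Subfield.closure_le]
      rintro y (⟨a, rfl⟩ | (hy | rfl))
      · show coeffMap (σ : L →+* L) _ ∈ FG ι (GH M ω) M
        rw [coeffMap_algebraMap]
        exact (FG ι (GH M ω) M).algebraMap_mem _
      · show coeffMap (σ : L →+* L) _ ∈ FG ι (GH M ω) M
        exact FG_mono (GH_le_gamma0 ω) (FF_le_FG ι M (coeffMap_mem_laurentBaseChange σ hy))
      · show coeffMap (σ : L →+* L) _ ∈ FG ι (GH M ω) M
        rw [coeffMap_uL]
        exact anR_le_FG (uL_comp_mem ι hqM ω hω σ)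
    exact h1 hx
  fin x hx := by
    rw [FG_GH ι hqM ω hω] at hx
    exact fixF_SH ω hx

include hqM in
theorem isTameField_GH [CharZero L] (hω : ω (-1) = 1) : IsTameField (FG ι (GH M ω) M) := by
  rw [FG_GH ι hqM ω hω, SH]
  exact isTameField_adjoin_union (Fermat.Agent.HeckeRed.isTameField_bar M)
    (mem_tameQ_of_tame (uL_mem_tame ω))

theorem isTameField_gamma0 [CharZero L] : IsTameField (FG ι (Gamma0 M) M) := by
  rw [FG_gamma0 ι M]
  exact Fermat.Agent.HeckeRed.isTameField_bar M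

omit hq in
include hqM in
theorem isCong_GH : IsCong (GH M ω) M q where
  le := GH_le_gamma0 ω
  dvd := hqM
  mem γ hγ δ hδ h := by
    rw [mem_GH hqM] at hγ ⊢
    refine ⟨hδ, ?_⟩
    rw [← hγ.2]
    congr 1
    rw [← ZMod.intCast_zmod_eq_zero_iff_dvd] at h
    push_cast at h
    exact sub_eq_zero.1 h

/-! ### diamond operators -/

include hqM in
theorem mem_FG_GH_iff (hω : ω (-1) = 1) {x : LaurentSeries L} : x ∈ FG ι (GH M ω) M ↔
    x ∈ adjoin L ((FF L M : Set (LaurentSeries L)) ∪ {uL ω}) := by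
  rw [FG_GH ι hqM ω hω, SH]

include hqM in
theorem fg_eq_of_gens {R : Type*} [Field R] (φ ψ : FG ι (GH M ω) M →+* R) (hω : ω (-1) = 1)
    (h1 : ∀ c : L, φ (algebraMap L (FG ι (GH M ω) M) c) = ψ (algebraMap L (FG ι (GH M ω) M) c))
    (h2 : ∀ x : FG ι (GH M ω) M, (x : LaurentSeries L) ∈ FF L M → φ x = ψ x)
    (h3 : ∀ x : FG ι (GH M ω) M, (x : LaurentSeries L) = uL ω → φ x = ψ x) : φ = ψ := by
  have hle : (adjoin L ((FF L M : Set (LaurentSeries L)) ∪ {uL ω})).toSubfield ≤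
      (φ.eqLocusField ψ).map (FG ι (GH M ω) M).toSubfield.subtype := by
    rw [adjoin_toSubfield, Subfield.closure_le]
    rintro y (⟨a, rfl⟩ | hy)
    · exact ⟨algebraMap L (FG ι (GH M ω) M) a, h1 a, rfl⟩
    · have hy' : y ∈ FG ι (GH M ω) M :=
        (mem_FG_GH_iff ι hqM ω hω).2 (subset_adjoin _ _ hy)
      refine ⟨⟨y, hy'⟩, ?_, rfl⟩
      rcases hy with hy | hy
      · exact h2 ⟨y, hy'⟩ hy
      · exact h3 ⟨y, hy'⟩ hy
  ext x
  have hx : (x : LaurentSeries L) ∈ adjoin L ((FF L M : Set (LaurentSeries L)) ∪ {uL ω}) :=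
    (mem_FG_GH_iff ι hqM ω hω).1 x.2
  obtain ⟨z, hz, hzx⟩ := hle hx
  have h4 : z = x := Subtype.ext hzx
  rw [← h4]
  exact hz

include hqM in
/-- translate of `u` -/
theorem compMer_uL {σ : SL(2, ℤ)} (hσ : σ ∈ Gamma0 M) {x : FG ι (GH M ω) M}
    (ω' : DirichletCharacter L q) (hG : GH M ω' = GH M ω) (hω' : ω' (-1) = 1)
    (hx : (x : LaurentSeries L) = uL ω') :
    compMer σ (toM ι (GH M ω) M x) =
      toM ι (GH M ω) M (algebraMap L (FG ι (GH M ω) M) (ω' ((σ 1 1 : ℤ) : ZMod q)) * x) := by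
  obtain ⟨U, hU1, hU2, hU3, hU4, -⟩ := exists_UH ι hqM ω' hω'
  rw [hG] at hU1
  have h1 : toM ι (GH M ω) M x = algebraMap Holo Mer ⟨U, hU1.hol⟩ := by
    apply toM_of_mem _ hU1
    rw [hx]
    exact hU3
  rw [map_mul, toM_algebraMap, h1, compMer_algebraMap, ← map_mul]
  congr 1
  apply Subtype.ext
  funext τ
  exact hU4 ⟨σ, hσ⟩ τ

/-- a ring homomorphism from a stable range -/
theorem exists_lift_of_range {K F : Type*} [Field K] [Field F] (t : K →+* F) (c : F →+* F)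
    (h : ∀ f : K, ∃ g : K, t g = c (t f)) : ∃ D : K →+* K, ∀ f, t (D f) = c (t f) := by
  choose d hd using h
  exact ⟨{ toFun := d
           map_one' := t.injective (by rw [hd, map_one, map_one])
           map_zero' := t.injective (by rw [hd, map_zero, map_zero])
           map_mul' := fun x y => t.injective (by rw [hd, map_mul, map_mul, map_mul, hd, hd])
           map_add' := fun x y => t.injective (by rw [hd, map_add, map_add, map_add, hd, hd]) }, hd⟩

theorem compMer_of_mem_FF {σ : SL(2, ℤ)} (hσ : σ ∈ Gamma0 M) (x : FG ι (GH M ω) M)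
    (hx : (x : LaurentSeries L) ∈ FF L M) :
    compMer σ (toM ι (GH M ω) M x) = toM ι (GH M ω) M x := by
  have hx' : (x : LaurentSeries L) ∈ FG ι (Gamma0 M) M := FF_le_FG ι M hx
  have h1 : inclFG (GH_le_gamma0 ω) (⟨x, hx'⟩ : FG ι (Gamma0 M) M) = x := Subtype.ext rfl
  have h2 := toM_inclFG (GH_le_gamma0 ω) (⟨x, hx'⟩ : FG ι (Gamma0 M) M)
  rw [h1] at h2
  rw [h2]
  exact compMer_toM hσ _

include hqM in
theorem compMer_mem_range (hω : ω (-1) = 1) {σ : SL(2, ℤ)} (hσ : σ ∈ Gamma0 M)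
    (f : FG ι (GH M ω) M) :
    compMer σ (toM ι (GH M ω) M f) ∈ (toM ι (GH M ω) M).fieldRange := by
  have hle : (adjoin L ((FF L M : Set (LaurentSeries L)) ∪ {uL ω})).toSubfield ≤
      ((toM ι (GH M ω) M).fieldRange.comap ((compMer σ).comp (toM ι (GH M ω) M))).map
        (FG ι (GH M ω) M).toSubfield.subtype := by
    rw [adjoin_toSubfield, Subfield.closure_le]
    rintro y (⟨a, rfl⟩ | hy)
    · refine ⟨algebraMap L (FG ι (GH M ω) M) a, ?_, rfl⟩
      show compMer σ (toM ι (GH M ω) M (algebraMap L (FG ι (GH M ω) M) a)) ∈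
        (toM ι (GH M ω) M).fieldRange
      rw [toM_algebraMap, compMer_algebraMap, compHolo_const, ← toM_algebraMap]
      exact ⟨_, rfl⟩
    · have hy' : y ∈ FG ι (GH M ω) M :=
        (mem_FG_GH_iff ι hqM ω hω).2 (subset_adjoin _ _ hy)
      refine ⟨⟨y, hy'⟩, ?_, rfl⟩
      show compMer σ (toM ι (GH M ω) M _) ∈ (toM ι (GH M ω) M).fieldRange
      rcases hy with hy | hy
      · rw [compMer_of_mem_FF ι ω hσ ⟨y, hy'⟩ hy]
        exact ⟨_, rfl⟩
      · rw [compMer_uL ι hqM ω hσ ω rfl hω (x := ⟨y, hy'⟩) hy]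
        exact ⟨_, rfl⟩
  have hx : (f : LaurentSeries L) ∈ adjoin L ((FF L M : Set (LaurentSeries L)) ∪ {uL ω}) :=
    (mem_FG_GH_iff ι hqM ω hω).1 f.2
  obtain ⟨z, hz, hzx⟩ := hle hx
  have h4 : z = f := Subtype.ext hzx
  rw [← h4]
  exact hz

section dia

variable {σ : SL(2, ℤ)} (hσ : σ ∈ Gamma0 M) {D : FG ι (GH M ω) M →+* FG ι (GH M ω) M}
  (hD : ∀ f, toM ι (GH M ω) M (D f) = compMer σ (toM ι (GH M ω) M f))

include hD in
theorem dia_algebraMap (c : L) :
    D (algebraMap L (FG ι (GH M ω) M) c) = algebraMap L (FG ι (GH M ω) M) c := by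
  apply (toM ι (GH M ω) M).injective
  rw [hD, toM_algebraMap, compMer_algebraMap, compHolo_const]

include hσ hD in
theorem dia_FF (x : FG ι (GH M ω) M) (hx : (x : LaurentSeries L) ∈ FF L M) : D x = x := by
  apply (toM ι (GH M ω) M).injective
  rw [hD, compMer_of_mem_FF ι ω hσ x hx]

include hqM hσ hD in
theorem dia_uL (x : FG ι (GH M ω) M) (ω' : DirichletCharacter L q) (h1 : GH M ω' = GH M ω)
    (h2 : ω' (-1) = 1) (h3 : (x : LaurentSeries L) = uL ω') :
    D x = algebraMap L (FG ι (GH M ω) M) (ω' ((σ 1 1 : ℤ) : ZMod q)) * x := by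
  apply (toM ι (GH M ω) M).injective
  rw [hD, compMer_uL ι hqM ω hσ ω' h1 h2 h3]

variable [hst : GalSt ι (GH M ω) M] (s : L ≃ₐ[ℚ] L)

include hD in
theorem dia_gal_c (c : L) : D (galF ι (GH M ω) M s (algebraMap L (FG ι (GH M ω) M) c)) =
    galF ι (GH M ω) M s (D (algebraMap L (FG ι (GH M ω) M) c)) := by
  rw [galF_algebraMap, dia_algebraMap ι ω hD, dia_algebraMap ι ω hD, galF_algebraMap]

include hσ hD in
theorem dia_gal_FF (x : FG ι (GH M ω) M) (hx : (x : LaurentSeries L) ∈ FF L M) :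
    D (galF ι (GH M ω) M s x) = galF ι (GH M ω) M s (D x) := by
  rw [dia_FF ι ω hσ hD x hx]
  apply dia_FF ι ω hσ hD
  rw [coe_galF]
  exact coeffMap_mem_laurentBaseChange s hx

include hqM hσ hD in
theorem dia_gal_uL (hω : ω (-1) = 1) (x : FG ι (GH M ω) M) (hx : (x : LaurentSeries L) = uL ω) :
    D (galF ι (GH M ω) M s x) = galF ι (GH M ω) M s (D x) := by
  have h1 : ((galF ι (GH M ω) M s x : FG ι (GH M ω) M) : LaurentSeries L) =
      uL (ω.ringHomComp (s : L →+* L)) := by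
    rw [coe_galF, hx, coeffMap_uL]
  have h2 : (ω.ringHomComp (s : L →+* L)) (-1) = 1 := by
    rw [MulChar.ringHomComp_apply, hω, map_one]
  have h3 := dia_uL ι hqM ω hσ hD x ω rfl hω hx
  have h4 := dia_uL ι hqM ω hσ hD _ (ω.ringHomComp (s : L →+* L)) (GH_comp ω _) h2 h1
  rw [h4, h3, MulChar.ringHomComp_apply, map_mul, galF_algebraMap]
  rfl

include hqM hσ hD in
theorem dia_gal (hω : ω (-1) = 1) (f : FG ι (GH M ω) M) :
    D (galF ι (GH M ω) M s f) = galF ι (GH M ω) M s (D f) :=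
  RingHom.congr_fun (fg_eq_of_gens ι hqM ω
    (D.comp (galF ι (GH M ω) M s : FG ι (GH M ω) M →+* FG ι (GH M ω) M))
    ((galF ι (GH M ω) M s : FG ι (GH M ω) M →+* FG ι (GH M ω) M).comp D) hω
    (dia_gal_c ι ω hD s) (dia_gal_FF ι ω hσ hD s) (dia_gal_uL ι hqM ω hσ hD s hω)) f

end dia

include hqM in
/-- **diamond operators** -/
theorem exists_dia (hω : ω (-1) = 1) [GalSt ι (GH M ω) M] {σ : SL(2, ℤ)} (hσ : σ ∈ Gamma0 M) :
    ∃ dia : FG ι (GH M ω) M →+* FG ι (GH M ω) M,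
      (∀ f, toM ι (GH M ω) M (dia f) = compMer σ (toM ι (GH M ω) M f)) ∧
      ∀ (s : L ≃ₐ[ℚ] L) (f : FG ι (GH M ω) M),
        dia (galF ι (GH M ω) M s f) = galF ι (GH M ω) M s (dia f) := by
  obtain ⟨D, hD⟩ := exists_lift_of_range (toM ι (GH M ω) M) (compMer σ)
    (compMer_mem_range ι hqM ω hω hσ)
  exact ⟨D, hD, fun s f => dia_gal ι hqM ω hσ hD s hω f⟩


end Gal

end Fermat.Agent.LG
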