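import Fermat.Agent.LG.FG
import Fermat.Agent.TorsCmp.Descent

/-!
# Descent of constants for fields of Laurent series
-/

set_option autoImplicit false
set_option linter.unusedSectionVars false

noncomputable section

open ModularCurve IntermediateField

namespace Fermat.Agent.LG

open Fermat.Agent.X0Places Fermat.Agent.TorsCmp

section Desc

variable {L M : Type*} [Field L] [Field M] (ι : L →+* M)

/-- the image of a field of Laurent series under a map of coefficients generates a field -/
def genF (S : IntermediateField L (LaurentSeries L)) : IntermediateField M (LaurentSeries M) :=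
  adjoin M (coeffMap ι '' (S : Set (LaurentSeries L)))

theorem coeffMap_mem_genF {S : IntermediateField L (LaurentSeries L)} {x : LaurentSeries L}
    (hx : x ∈ S) : coeffMap ι x ∈ genF ι S := subset_adjoin M _ ⟨x, hx, rfl⟩

theorem lamMap_C_mul [Algebra L M] (φ : M →ₗ[L] L) (c : M) (x : LaurentSeries L) :
    lamMap φ (HahnSeries.C c * coeffMap (algebraMap L M) x) =
      x * algebraMap L (LaurentSeries L) (φ c) := by
  have h2 : lamMap φ (HahnSeries.C c) = algebraMap L (LaurentSeries L) (φ c) := by
    ext k
    rw [lamMap_coeff, algebraMap_laurentSeries_eq_single, HahnSeries.C_apply,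
      HahnSeries.coeff_single, HahnSeries.coeff_single]
    split_ifs
    · rfl
    · rw [map_zero]
  rw [mul_comm, lamMap_mul, h2]

/-- elements of the algebra generated by the image are linear combinations -/
theorem mem_span_of_mem_adjoin (S : IntermediateField L (LaurentSeries L)) {v : LaurentSeries M}
    (hv : v ∈ Algebra.adjoin M (coeffMap ι '' (S : Set (LaurentSeries L)))) :
    v ∈ (@Submodule.span M (LaurentSeries M) _ _ Algebra.toModule
      (coeffMap ι '' (S : Set (LaurentSeries L)))) := by
  rw [← Subalgebra.mem_toSubmodule, Algebra.adjoin_eq_span] at hv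
  have hcl : (Submonoid.closure (coeffMap ι '' (S : Set (LaurentSeries L))) :
      Set (LaurentSeries M)) = coeffMap ι '' (S : Set (LaurentSeries L)) := by
    apply Set.Subset.antisymm
    · have h1 : Submonoid.closure (coeffMap ι '' (S : Set (LaurentSeries L))) ≤
          (S.toSubfield.toSubring.toSubmonoid).map (coeffMap ι).toMonoidHom := by
        rw [Submonoid.closure_le]
        rintro _ ⟨x, hx, rfl⟩
        exact ⟨x, hx, rfl⟩
      intro x hx
      obtain ⟨y, hy, rfl⟩ := h1 hx
      exact ⟨y, hy, rfl⟩
    · exact Submonoid.subset_closure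
  rwa [hcl] at hv

/-- **Descent**: a Laurent series over `L` whose image is in the field generated by `S` over the
bigger constants is in `S`. -/
theorem mem_of_coeffMap_mem_genF {S : IntermediateField L (LaurentSeries L)} {w : LaurentSeries L}
    (hw : coeffMap ι w ∈ genF ι S) : w ∈ S := by
  let _ : Algebra L M := ι.toAlgebra
  have halg : algebraMap L M = ι := rfl
  obtain ⟨φ, hφ⟩ := (Algebra.linearMap L M).exists_leftInverse_of_injective
    (LinearMap.ker_eq_bot.2 (algebraMap L M).injective)
  have hφ1 : φ 1 = 1 := by
    have := LinearMap.congr_fun hφ 1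
    simpa using this
  have key : ∀ v ∈ Algebra.adjoin M (coeffMap ι '' (S : Set (LaurentSeries L))),
      ∀ c : M, lamMap φ (HahnSeries.C c * v) ∈ S := by
    intro v hv
    have hv' := mem_span_of_mem_adjoin ι S hv
    clear hv
    induction hv' using Submodule.span_induction with
    | mem x hx =>
      obtain ⟨x, hx, rfl⟩ := hx
      intro c
      rw [← halg, lamMap_C_mul]
      exact mul_mem hx (S.algebraMap_mem _)
    | zero =>
      intro c
      rw [mul_zero, lamMap_zero]
      exact zero_mem _
    | add x y _ _ hx hy =>
      intro c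
      rw [mul_add, lamMap_add]
      exact add_mem (hx c) (hy c)
    | smul a x _ hx =>
      intro c
      rw [Algebra.smul_def, algebraMap_laurentSeries_eq_single, ← HahnSeries.C_apply, ← mul_assoc,
        ← map_mul]
      exact hx _
  rw [genF, IntermediateField.mem_adjoin_iff_div] at hw
  obtain ⟨r, hr, s, hs, hrs⟩ := hw
  rcases eq_or_ne s 0 with rfl | hs0
  · rw [div_zero] at hrs
    have : w = 0 := by
      apply Fermat.Agent.ModPoly.coeffMap_injective ι.injective
      rw [hrs, map_zero]
    rw [this]
    exact zero_mem _
  set c : M := (s.coeff s.order)⁻¹ with hc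
  have hs1 : s.coeff s.order ≠ 0 := HahnSeries.coeff_order_eq_zero.not.2 hs0
  have h1 : w * lamMap φ (HahnSeries.C c * s) = lamMap φ (HahnSeries.C c * r) := by
    rw [← lamMap_mul]
    congr 1
    rw [halg, hrs]
    field_simp
  have h2 : lamMap φ (HahnSeries.C c * s) ≠ 0 := by
    intro h
    have h3 := congrArg (fun z => z.coeff s.order) h
    simp only [lamMap_coeff, HahnSeries.coeff_zero] at h3
    rw [HahnSeries.C_mul_eq_smul, HahnSeries.coeff_smul, smul_eq_mul, hc,
      inv_mul_cancel₀ hs1, hφ1] at h3
    exact one_ne_zero h3
  rw [eq_div_of_mul_eq h2 h1]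
  exact div_mem (key r hr c) (key s hs c)

/-- linear independence is preserved by extending the constants of Laurent series -/
theorem linearIndependent_coeffMap {n : Type*} {f : n → LaurentSeries L}
    (hf : LinearIndependent L f) : LinearIndependent M (fun i => coeffMap ι (f i)) := by
  classical
  let _ : Algebra L M := ι.toAlgebra
  rw [linearIndependent_iff'] at hf ⊢
  intro s c hc i hi
  by_contra hci
  -- a functional which is nonzero at `c i`
  obtain ⟨φ, hφ⟩ := (Algebra.linearMap L M).exists_leftInverse_of_injective
    (LinearMap.ker_eq_bot.2 (algebraMap L M).injective)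
  have hφ1 : φ 1 = 1 := by
    have := LinearMap.congr_fun hφ 1
    simpa using this
  have h1 : ∑ j ∈ s, HahnSeries.C ((c i)⁻¹ * c j) * coeffMap (algebraMap L M) (f j) = 0 := by
    have h2 : ∀ j, HahnSeries.C ((c i)⁻¹ * c j) * coeffMap (algebraMap L M) (f j) =
        HahnSeries.C (c i)⁻¹ * (c j • coeffMap ι (f j)) := by
      intro j
      rw [map_mul, mul_assoc, ← HahnSeries.C_mul_eq_smul]
      rfl
    rw [Finset.sum_congr rfl fun j _ => h2 j, ← Finset.mul_sum, hc, mul_zero]
  have h3 : ∀ t : Finset n, lamMap φ (∑ j ∈ t,
      HahnSeries.C ((c i)⁻¹ * c j) * coeffMap (algebraMap L M) (f j)) =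
      ∑ j ∈ t, φ ((c i)⁻¹ * c j) • f j := by
    intro t
    induction t using Finset.induction_on with
    | empty => rw [Finset.sum_empty, Finset.sum_empty, lamMap_zero]
    | insert a t ha ih =>
      rw [Finset.sum_insert ha, Finset.sum_insert ha, lamMap_add, ih, lamMap_C_mul, mul_comm,
        algebraMap_laurentSeries_eq_single, ← HahnSeries.C_apply, HahnSeries.C_mul_eq_smul]
  have h4 := h3 s
  rw [h1, lamMap_zero] at h4
  have h5 := hf s _ h4.symm i hi
  rw [inv_mul_cancel₀ hci, hφ1] at h5
  exact one_ne_zero h5

end Desc

end Fermat.Agent.LG
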