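import Fermat.Agent.BaseChangeFF.Transfer
import Fermat.Agent.LG.MFDesc

/-!
# Base change for fields of Laurent series; divisible divisors
-/

set_option autoImplicit false
set_option linter.unusedSectionVars false

noncomputable section

open AlgebraicCurve Module IntermediateField ModularCurve
open Fermat.Agent.FunField Fermat.Agent.FunField.PlaceLemmas

namespace Fermat.Agent.LG.BCx

section Tors

open Fermat.Agent.BaseChangeFF

variable {K₀ K F₀ F : Type*} [Field K₀] [Field K] [Algebra K₀ K] [Field F₀] [Algebra K₀ F₀]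
  [Field F] [Algebra K F] [Algebra F₀ F] [Algebra K₀ F] [IsScalarTower K₀ K F]
  [IsScalarTower K₀ F₀ F]
  [IsAlgClosed K₀] [IsAlgClosed K] [BC K₀ K F₀ F] [IsFF K₀ F₀] [IsFF K F]

/-- Equal divisors differ by a constant. -/
theorem exists_const_of_divOf_eq {K E : Type*} [Field K] [Field E] [Algebra K E] [IsFF K E]
    [IsAlgClosed K] {f g : E} (hf : f ≠ 0) (hg : g ≠ 0)
    (h : (divOf f : Divisor K E) = divOf g) : ∃ c : K, c ≠ 0 ∧ f = algebraMap K E c * g := by
  obtain ⟨c, hc⟩ : ∃ c : K, algebraMap K E c = f * g⁻¹ := by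
    apply exists_eq_algebraMap_of_forall_ord_nonneg (K := K)
    intro v
    rw [← divOf_apply, TorsInj.divOf_mul hf (inv_ne_zero hg), TorsInj.divOf_inv, h, add_neg_cancel,
      Finsupp.zero_apply]
  refine ⟨c, ?_, ?_⟩
  · rintro rfl
    rw [map_zero] at hc
    exact mul_ne_zero hf (inv_ne_zero hg) hc.symm
  · rw [hc, mul_assoc, inv_mul_cancel₀ hg, mul_one]

/-- a function whose divisor is divisible by `n` descends to the smaller constant field, up to
`n`-th powers. -/
theorem exists_descent_of_dvd [CharZero K₀] {n : ℕ} (hn : n ≠ 0) {x : F} (hx : x ≠ 0)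
    (hd : ∀ w : Place K F, (n : ℤ) ∣ w.ord x) :
    ∃ f : F₀, f ≠ 0 ∧ ∃ g : F, g ≠ 0 ∧ x = algebraMap F₀ F f * g ^ n := by
  classical
  obtain ⟨ρ, h1, h2⟩ := exists_retraction K₀ K F₀ F
  have hn' : (n : K₀) ≠ 0 := by exact_mod_cast hn
  have hnz : (n : ℤ) ≠ 0 := by exact_mod_cast hn
  -- the divisor
  set D : Divisor K F := (divOf x : Divisor K F).mapRange (fun a => a / (n : ℤ)) (Int.zero_ediv _)
    with hD
  have hnD : n • D = divOf x := by
    ext w
    rw [Finsupp.smul_apply, hD, Finsupp.mapRange_apply, divOf_apply, nsmul_eq_mul]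
    exact Int.mul_ediv_cancel' (hd w)
  have hD0 : D ∈ Divisor.degZero (K := K) (F := F) := by
    rw [Divisor.mem_degZero]
    have h3 : n • Divisor.degree D = 0 := by
      rw [← map_nsmul, hnD]
      exact degree_divOf x
    rw [nsmul_eq_mul] at h3
    exact (mul_eq_zero.1 h3).resolve_left hnz
  set c : Pic0 K F := Pic0.mk ⟨D, hD0⟩ with hc
  have hnc : (n : ℤ) • c = 0 := by
    rw [natCast_zsmul]
    have h3 : n • c = Pic0.mk ⟨n • D, by
        rw [Divisor.mem_degZero, map_nsmul, Divisor.mem_degZero.mp hD0, smul_zero]⟩ := rfl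
    rw [h3, BaseChangeFF.mk_eq_zero_iff, hnD]
    exact isPrincipal_iff.2 ⟨x, hx, rfl⟩
  have hcρ : iotaPic K F (ρ c) = c := by
    have h3 := h2 n (c - iotaPic K F (ρ c)) hn'
      (by rw [zsmul_sub, hnc, ← map_zsmul, ← map_zsmul, hnc, map_zero, map_zero, sub_zero])
      (by rw [map_sub, h1, sub_self])
    exact (sub_eq_zero.mp h3).symm
  obtain ⟨⟨D₀, hD₀⟩, hD₀'⟩ := Pic0.mk_surjective (ρ c)
  -- `n D₀` is principal
  have hnρ : (n : ℤ) • ρ c = 0 := by rw [← map_zsmul, hnc, map_zero]
  have h4 : Divisor.IsPrincipal (n • D₀) := by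
    rw [← BaseChangeFF.mk_eq_zero_iff (n • D₀) (by
      rw [Divisor.mem_degZero, map_nsmul, Divisor.mem_degZero.mp hD₀, smul_zero])]
    rw [← hD₀', natCast_zsmul] at hnρ
    exact hnρ
  obtain ⟨f, hf, hfd⟩ := isPrincipal_iff.1 h4
  have h5 : Divisor.IsPrincipal (D - iotaDiv K F D₀) := by
    rw [← BaseChangeFF.mk_eq_zero_iff _ (by
      rw [Divisor.mem_degZero, map_sub, degree_iotaDiv, Divisor.mem_degZero.mp hD₀,
        Divisor.mem_degZero.mp hD0, sub_zero])]
    have h6 : iotaPic K F (Pic0.mk ⟨D₀, hD₀⟩ : Pic0 K₀ F₀) = Pic0.mk ⟨iotaDiv K F D₀, by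
        rw [Divisor.mem_degZero, degree_iotaDiv]; exact hD₀⟩ := rfl
    have h7 : c - iotaPic K F (ρ c) = 0 := sub_eq_zero.2 hcρ.symm
    rw [← hD₀', h6, hc] at h7
    exact h7
  obtain ⟨g, hg, hgd⟩ := isPrincipal_iff.1 h5
  have hf' : algebraMap F₀ F f ≠ 0 := by simpa using hf
  have h6 : (divOf x : Divisor K F) = divOf (algebraMap F₀ F f * g ^ n) := by
    rw [TorsInj.divOf_mul hf' (pow_ne_zero n hg), TorsInj.divOf_pow, ← hgd, ← iotaDiv_divOf (K₀ := K₀) f,
      ← hfd, map_nsmul, smul_sub, hnD]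
    abel
  have hy : algebraMap F₀ F f * g ^ n ≠ 0 := mul_ne_zero hf' (pow_ne_zero n hg)
  obtain ⟨a, ha, hxa⟩ : ∃ a : K, a ≠ 0 ∧ x = algebraMap K F a * (algebraMap F₀ F f * g ^ n) :=
    exists_const_of_divOf_eq hx hy h6
  obtain ⟨d, hd⟩ := IsAlgClosed.exists_pow_nat_eq a (Nat.pos_of_ne_zero hn)
  have hd0 : d ≠ 0 := by
    rintro rfl
    rw [zero_pow hn] at hd
    exact ha hd.symm
  refine ⟨f, hf, algebraMap K F d * g, mul_ne_zero (by simpa using hd0) hg, ?_⟩
  rw [hxa, mul_pow, ← map_pow, hd]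
  ring

end Tors

section Lin

variable {L M : Type*} [Field L] [Field M] [Algebra L M]

theorem coe_smul_coeff (E : IntermediateField L (LaurentSeries L)) (c : L) (x : E) (k : ℤ) :
    ((c • x : E) : LaurentSeries L).coeff k = c * (x : LaurentSeries L).coeff k := by
  have h1 : ((c • x : E) : LaurentSeries L) = HahnSeries.C c * (x : LaurentSeries L) := by
    rw [Algebra.smul_def]
    show algebraMap L (LaurentSeries L) c * (x : LaurentSeries L) = _
    rw [ModularCurve.algebraMap_laurentSeries_eq_single, HahnSeries.C_apply]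
  rw [h1, HahnSeries.C_mul_eq_smul, HahnSeries.coeff_smul, smul_eq_mul]

theorem coe_sum_coeff (E : IntermediateField L (LaurentSeries L)) {ι : Type*} (s : Finset ι)
    (f : ι → E) (k : ℤ) :
    ((∑ i ∈ s, f i : E) : LaurentSeries L).coeff k = ∑ i ∈ s, (f i : LaurentSeries L).coeff k := by
  classical
  induction s using Finset.induction_on with
  | empty => rw [Finset.sum_empty, Finset.sum_empty]; rfl
  | insert a s ha ih =>
    rw [Finset.sum_insert ha, Finset.sum_insert ha, ← ih]
    rfl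

theorem mem_span_lift {E₀ : IntermediateField L (LaurentSeries L)}
    {E : IntermediateField M (LaurentSeries M)} [Algebra E₀ E]
    (hφ : ∀ x : E₀, ((algebraMap E₀ E x : E) : LaurentSeries M) =
      coeffMap (algebraMap L M) (x : LaurentSeries L)) {v : LaurentSeries M}
    (hv : v ∈ (@Submodule.span M (LaurentSeries M) _ _ Algebra.toModule
      ((coeffMap (algebraMap L M)) '' (E₀ : Set (LaurentSeries L))))) :
    ∃ a : E, a ∈ Submodule.span M (Set.range (algebraMap E₀ E)) ∧ (a : LaurentSeries M) = v := by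
  induction hv using Submodule.span_induction with
  | mem x hx =>
    obtain ⟨y, hy, rfl⟩ := hx
    exact ⟨algebraMap E₀ E ⟨y, hy⟩, Submodule.subset_span ⟨_, rfl⟩, hφ ⟨y, hy⟩⟩
  | zero => exact ⟨0, Submodule.zero_mem _, rfl⟩
  | add x y _ _ hx hy =>
    obtain ⟨a, ha, rfl⟩ := hx
    obtain ⟨b, hb, rfl⟩ := hy
    exact ⟨a + b, Submodule.add_mem _ ha hb, rfl⟩
  | smul c x _ hx =>
    obtain ⟨a, ha, rfl⟩ := hx
    exact ⟨c • a, Submodule.smul_mem _ c ha, rfl⟩

/-- fields of Laurent series generated by a field with smaller constants. -/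
theorem bc_of_adjoin (E₀ : IntermediateField L (LaurentSeries L))
    (E : IntermediateField M (LaurentSeries M)) [Algebra E₀ E] [Algebra L E]
    [IsScalarTower L M E] [IsScalarTower L E₀ E]
    (hφ : ∀ x : E₀, ((algebraMap E₀ E x : E) : LaurentSeries M) =
      coeffMap (algebraMap L M) (x : LaurentSeries L))
    (hgen : ∀ z ∈ E, z ∈ IntermediateField.adjoin M
      ((coeffMap (algebraMap L M)) '' (E₀ : Set (LaurentSeries L)))) :
    BaseChangeFF.BC L M E₀ E where
  lin n f hf := by
    rw [Fintype.linearIndependent_iff] at hf ⊢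
    intro g hg i
    rw [← Module.forall_dual_apply_eq_zero_iff L]
    intro φ
    refine hf (fun i => φ (g i)) ?_ i
    apply Subtype.ext
    ext k
    have h1 := congrArg (fun z : E => φ ((z : LaurentSeries M).coeff k)) hg
    simp only [coe_sum_coeff, coe_smul_coeff, hφ, coeffMap_coeff, map_sum] at h1 ⊢
    refine Eq.trans ?_ (h1.trans (map_zero φ))
    refine Finset.sum_congr rfl fun j _ => ?_
    rw [mul_comm (g j), ← Algebra.smul_def, map_smul, smul_eq_mul, mul_comm]
  gen z := by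
    have h1 := hgen z.1 z.2
    rw [IntermediateField.mem_adjoin_iff_div] at h1
    obtain ⟨r, hr, s, hs, hrs⟩ := h1
    obtain ⟨a, ha, rfl⟩ := mem_span_lift hφ (mem_span_of_mem_adjoin (algebraMap L M) E₀ hr)
    obtain ⟨b, hb, rfl⟩ := mem_span_lift hφ (mem_span_of_mem_adjoin (algebraMap L M) E₀ hs)
    by_cases hb0 : b = 0
    · refine ⟨0, 1, Submodule.zero_mem _, ?_, one_ne_zero, ?_⟩
      · rw [← map_one (algebraMap E₀ E)]
        exact Submodule.subset_span ⟨1, rfl⟩
      · apply Subtype.ext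
        show (z : LaurentSeries M) * 1 = 0
        rw [hrs, hb0]
        show ((a : LaurentSeries M) / 0) * 1 = 0
        rw [div_zero, zero_mul]
    · refine ⟨a, b, ha, hb, hb0, ?_⟩
      apply Subtype.ext
      show (z : LaurentSeries M) * b = a
      rw [hrs, div_mul_cancel₀]
      exact fun h => hb0 (Subtype.ext h)

end Lin

end Fermat.Agent.LG.BCx
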