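import Fermat.Agent.LG.Exist
import Fermat.Agent.LG.Gal
import Fermat.Agent.LG.BCLin

/-!
# Every homomorphism is represented by a function over `L`
-/

set_option autoImplicit false
set_option linter.unusedSectionVars false
set_option linter.style.haveILetI false

noncomputable section

open UpperHalfPlane Function ModularCurve Filter ModularForm AlgebraicCurve WithZero
  CongruenceSubgroup
open scoped Manifold MatrixGroups Topology ModularForm

namespace Fermat.Agent.LG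

open Fermat.Agent.X0Places Fermat.Agent.FunField Fermat.Agent.FunField.PlaceLemmas
open Fermat.Agent.TorsCmp

namespace BCx

section Map

variable {L : Type*} [Field L] {ι : L →+* ℂ} {Γ : Subgroup SL(2, ℤ)} {N : ℕ}

theorem coeffMap_mem_anR {a : LaurentSeries L} (ha : a ∈ AnR ι Γ N) :
    coeffMap ι a ∈ AnR (RingHom.id ℂ) Γ N := by
  obtain ⟨f, hf, h⟩ := ha
  exact ⟨f, hf, by rw [coeffMap_id']; exact h⟩

theorem coeffMap_mem_FG {x : LaurentSeries L} (hx : x ∈ FG ι Γ N) :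
    coeffMap ι x ∈ FG (RingHom.id ℂ) Γ N := by
  obtain ⟨a, ha, b, hb, hb0, h⟩ := hx
  refine ⟨_, coeffMap_mem_anR ha, _, coeffMap_mem_anR hb, ?_, by rw [← map_mul, h]⟩
  rwa [map_ne_zero_iff _ (Fermat.Agent.ModPoly.coeffMap_injective ι.injective)]

variable (ι Γ N) in
/-- the inclusion of the field of functions over `L` in the field over `ℂ`. -/
def toC : FG ι Γ N →+* FG (RingHom.id ℂ) Γ N where
  toFun x := ⟨coeffMap ι (x : LaurentSeries L), coeffMap_mem_FG x.2⟩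
  map_one' := Subtype.ext (map_one (coeffMap ι))
  map_mul' x y := Subtype.ext (map_mul (coeffMap ι) (x : LaurentSeries L) (y : LaurentSeries L))
  map_zero' := Subtype.ext (map_zero (coeffMap ι))
  map_add' x y := Subtype.ext (map_add (coeffMap ι) (x : LaurentSeries L) (y : LaurentSeries L))

theorem coe_toC (x : FG ι Γ N) :
    (toC ι Γ N x : LaurentSeries ℂ) = coeffMap ι (x : LaurentSeries L) := rfl

theorem toM_toC (x : FG ι Γ N) : toM (RingHom.id ℂ) Γ N (toC ι Γ N x) = toM ι Γ N x := by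
  have h : (toM (RingHom.id ℂ) Γ N).comp (toC ι Γ N) = toM ι Γ N := by
    apply fg_ringHom_ext
    intro a
    rw [RingHom.comp_apply, toM_coe]
    refine toM_of_mem _ (isAnG_anFn a) ?_
    rw [coeffMap_id', coe_toC]
    exact hasLaurent_anFn a
  exact RingHom.congr_fun h x

theorem toC_algebraMap (c : L) : toC ι Γ N (algebraMap L (FG ι Γ N) c) =
    algebraMap ℂ (FG (RingHom.id ℂ) Γ N) (ι c) := by
  apply Subtype.ext
  rw [coe_toC]
  show coeffMap ι (algebraMap L (LaurentSeries L) c) = algebraMap ℂ (LaurentSeries ℂ) (ι c)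
  rw [algebraMap_laurentSeries_eq_single, coeffMap_single, algebraMap_laurentSeries_eq_single]

end Map

end BCx

open BCx

variable {L : Type*} [Field L] [Algebra ℚ L] [IsAlgClosed L]

/-- **LG-BC** -/
theorem repEx_of_gen (ι : L →+* ℂ) (Γ : Subgroup SL(2, ℤ)) (N : ℕ) [NeZero N] [hMF : MF ι Γ N]
    [hMF' : MF (RingHom.id ℂ) Γ N]
    (hgen : ∀ z ∈ FG (RingHom.id ℂ) Γ N, z ∈ IntermediateField.adjoin ℂ
      ((coeffMap ι) '' (FG ι Γ N : Set (LaurentSeries L)))) : RepEx ι Γ N := by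
  refine ⟨fun n hn x hx => ?_⟩
  have hn0 : n ≠ 0 := NeZero.ne n
  haveI : CharZero L := algebraRat.charZero L
  haveI i0 : IsFF L (FG ι Γ N) := hMF.isFF
  haveI i1 : IsFF ℂ (FG (RingHom.id ℂ) Γ N) := hMF'.isFF
  let χ : Γ →* ℂˣ := AddMonoidHom.toMultiplicativeRight ((muHom n).comp x)
  have hχ : ∀ γ : Γ, χ γ = mu n (x (Additive.ofMul γ)) := fun γ => rfl
  obtain ⟨x0, G, hx0, hG, hGx⟩ := exists_of_char (N := N) hMF.gam (T_mem ι Γ N) hn0 (χ := χ)
    (fun γ => by rw [hχ]; exact mu_pow_eq_one n _) (fun γ hγ => by rw [hχ, hx.1 γ hγ, mu_zero])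
  have hrep : Rep (RingHom.id ℂ) Γ N n x x0 := ⟨hx0, G, hG, hGx⟩
  have hd : ∀ w : Place ℂ (FG (RingHom.id ℂ) Γ N), (n : ℤ) ∣ w.ord x0 := hrep.dvd hx
  letI a1 : Algebra L ℂ := ι.toAlgebra
  letI a2 : Algebra (FG ι Γ N) (FG (RingHom.id ℂ) Γ N) := (toC ι Γ N).toAlgebra
  letI a3 : Algebra L (FG (RingHom.id ℂ) Γ N) :=
    ((algebraMap ℂ (FG (RingHom.id ℂ) Γ N)).comp ι).toAlgebra
  haveI t1 : IsScalarTower L ℂ (FG (RingHom.id ℂ) Γ N) :=
    IsScalarTower.of_algebraMap_eq fun _ => rfl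
  haveI t2 : IsScalarTower L (FG ι Γ N) (FG (RingHom.id ℂ) Γ N) :=
    IsScalarTower.of_algebraMap_eq fun c => (toC_algebraMap c).symm
  haveI hBC : BaseChangeFF.BC L ℂ (FG ι Γ N) (FG (RingHom.id ℂ) Γ N) :=
    bc_of_adjoin (FG ι Γ N) (FG (RingHom.id ℂ) Γ N) (fun x => coe_toC x) hgen
  obtain ⟨f, hf, g, hg, hfg⟩ := exists_descent_of_dvd (K₀ := L) (F₀ := FG ι Γ N) hn0 hx0 hd
  have hfg' : x0 = toC ι Γ N f * g ^ n := hfg
  have hg' : toM (RingHom.id ℂ) Γ N g ≠ 0 := by rwa [map_ne_zero]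
  refine ⟨f, hf, G / toM (RingHom.id ℂ) Γ N g, ?_, fun γ => ?_⟩
  · rw [div_pow, hG, hfg', map_mul, map_pow, mul_div_assoc, div_self (pow_ne_zero n hg'), mul_one,
      toM_toC]
  · rw [map_div₀, compMer_toM γ.2, hGx, hχ, mul_div_assoc]

end Fermat.Agent.LG
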