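import Fermat.Agent.TW.Shapiro
import Fermat.Agent.TorsCmp.Final

/-!
# Commutation of the Hecke operators on `Hom(Γ₀(N), A)`
-/

set_option autoImplicit false
set_option linter.unusedSectionVars false
set_option linter.style.haveILetI false

noncomputable section

namespace Fermat.Agent.LG

open CongruenceSubgroup Fermat.Agent.TW
open Fermat.Agent.HeckeHom (HData heckeHom dataT hom_dataT)
open Matrix.SpecialLinearGroup (mapGL)
open scoped MatrixGroups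

section Comp

variable {Γ₁ Γ₂ Γ₃ : Subgroup SL(2, ℤ)} (D₁ : HData Γ₁ Γ₂) (D₂ : HData Γ₂ Γ₃)

/-- composition of Hecke data -/
def compHD (hu : ∀ (δ : Γ₁) (x x' : D₁.X) (y y' : D₂.X), D₁.α x * D₂.α y =
    mapGL ℝ (δ : SL(2, ℤ)) * (D₁.α x' * D₂.α y') → x = x' ∧ y = y') : HData Γ₁ Γ₃ where
  X := D₁.X × D₂.X
  α z := D₁.α z.1 * D₂.α z.2
  ex γ z := by
    refine ⟨(D₁.actFun (D₂.coc γ z.2) z.1, D₂.actFun γ z.2), D₁.coc (D₂.coc γ z.2) z.1, ?_⟩
    rw [mul_assoc, D₂.spec, ← mul_assoc, D₁.spec, mul_assoc]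
  uniq δ z z' h := by
    obtain ⟨h1, h2⟩ := hu δ z.1 z'.1 z.2 z'.2 h
    exact Prod.ext h1 h2

theorem compHD_hom (hu : ∀ (δ : Γ₁) (x x' : D₁.X) (y y' : D₂.X), D₁.α x * D₂.α y =
    mapGL ℝ (δ : SL(2, ℤ)) * (D₁.α x' * D₂.α y') → x = x' ∧ y = y') {A : Type*}
    [AddCommGroup A] (φ : Additive Γ₁ →+ A) :
    (compHD D₁ D₂ hu).hom A φ = D₂.hom A (D₁.hom A φ) := by
  refine AddMonoidHom.ext fun γ' => ?_
  obtain ⟨γ, rfl⟩ := Additive.ofMul.surjective γ'
  rw [HData.hom_apply, HData.hom_apply]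
  have key : ∀ z : D₁.X × D₂.X, (compHD D₁ D₂ hu).coc γ z = D₁.coc (D₂.coc γ z.2) z.1 := by
    intro z
    refine ((compHD D₁ D₂ hu).eq_of_spec (γ := γ) (x := z)
      (y := (D₁.actFun (D₂.coc γ z.2) z.1, D₂.actFun γ z.2)) ?_).2.symm
    change D₁.α z.1 * D₂.α z.2 * _ = _ * (D₁.α _ * D₂.α _)
    rw [mul_assoc, D₂.spec, ← mul_assoc, D₁.spec, mul_assoc]
  change ∑ z : D₁.X × D₂.X, φ (Additive.ofMul ((compHD D₁ D₂ hu).coc γ z)) = _
  rw [Finset.sum_congr rfl fun z _ => by rw [key z], Fintype.sum_prod_type_right]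
  rfl

end Comp

section Int

theorem coe_dataT {N l : ℕ} (hl : l.Prime) (hlN : ¬ l ∣ N) (y : OnePoint (ZMod l)) :
    (((dataT hl hlN).α y : GL (Fin 2) ℝ) : Matrix (Fin 2) (Fin 2) ℝ) =
      (bI l y).map (Int.castRingHom ℝ) := by
  have : Fact l.Prime := ⟨hl⟩
  induction y using OnePoint.rec with
  | infty =>
    change ((P2MW.S_ModularForm_heckeT_slash_eq_self_of_mem_Gamma0.ModularForm.HeckeSlashInvariance.heckeRep
      l OnePoint.infty : GL (Fin 2) ℝ) : Matrix (Fin 2) (Fin 2) ℝ) = _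
    rw [P2MW.S_ModularForm_heckeT_slash_eq_self_of_mem_Gamma0.ModularForm.HeckeSlashInvariance.heckeRep_infty,
      ModularForm.val_heckeDiagMatrix hl.ne_zero, bI_infty]
    ext i j
    fin_cases i <;> fin_cases j <;> simp
  | coe j =>
    change ((P2MW.S_ModularForm_heckeT_slash_eq_self_of_mem_Gamma0.ModularForm.HeckeSlashInvariance.heckeRep
      l (j : OnePoint (ZMod l)) : GL (Fin 2) ℝ) : Matrix (Fin 2) (Fin 2) ℝ) = _
    rw [P2MW.S_ModularForm_heckeT_slash_eq_self_of_mem_Gamma0.ModularForm.HeckeSlashInvariance.heckeRep_coe,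
      ModularForm.val_heckeMatrix hl.ne_zero, bI_coe]
    ext i k
    fin_cases i <;> fin_cases k <;> simp [-ZMod.natCast_val]

theorem coe_mapGL' (g : SL(2, ℤ)) : ((mapGL ℝ g : GL (Fin 2) ℝ) : Matrix (Fin 2) (Fin 2) ℝ) =
    (g : M2Z).map (Int.castRingHom ℝ) := rfl

theorem mul_iff_int {N l l' : ℕ} (hl : l.Prime) (hlN : ¬ l ∣ N) (hl' : l'.Prime) (hlN' : ¬ l' ∣ N)
    (g : SL(2, ℤ)) (x : OnePoint (ZMod l)) (y : OnePoint (ZMod l')) {a b : ℕ} (ha : a.Prime)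
    (haN : ¬ a ∣ N) (hb : b.Prime) (hbN : ¬ b ∣ N) (x' : OnePoint (ZMod a))
    (y' : OnePoint (ZMod b)) :
    (dataT hl hlN).α x * (dataT hl' hlN').α y =
      mapGL ℝ g * ((dataT ha haN).α x' * (dataT hb hbN).α y') ↔
      bI l x * bI l' y = (g : M2Z) * (bI a x' * bI b y') := by
  rw [Units.ext_iff, Units.val_mul, Units.val_mul, Units.val_mul, coe_dataT, coe_dataT, coe_dataT,
    coe_dataT, coe_mapGL', ← Matrix.map_mul, ← Matrix.map_mul, ← Matrix.map_mul]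
  constructor
  · intro h
    ext i j
    have h2 := congrFun (congrFun h i) j
    exact Int.cast_injective (α := ℝ) h2
  · intro h
    rw [h]

theorem exists_swap {N l l' : ℕ} (hl : l.Prime) (hlN : ¬ l ∣ N) (hl' : l'.Prime)
    (hlN' : ¬ l' ∣ N) (x : OnePoint (ZMod l')) (y : OnePoint (ZMod l)) :
    ∃ (x' : OnePoint (ZMod l)) (y' : OnePoint (ZMod l')) (h' : Gamma0 N),
      bI l' x * bI l y = ((h' : SL(2, ℤ)) : M2Z) * (bI l x' * bI l' y') := by
  have hcl : l.Coprime N := (Nat.Prime.coprime_iff_not_dvd hl).mpr hlN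
  have hcl' : l'.Coprime N := (Nat.Prime.coprime_iff_not_dvd hl').mpr hlN'
  have hL : (Lvl.gamma0 N).Ok l := Lvl.ok_gamma0 hcl
  have hL' : (Lvl.gamma0 N).Ok l' := Lvl.ok_gamma0 hcl'
  obtain ⟨y', B, hB⟩ := exists_factor hl' (bI l' x * bI l y)
    (by rw [Matrix.det_mul, det_bI]; exact Dvd.intro _ rfl)
  have hdB : B.det = l := by
    have h2 := congrArg Matrix.det hB
    rw [Matrix.det_mul, Matrix.det_mul, det_bI, det_bI, det_bI, mul_comm] at h2
    have h3 : (l' : ℤ) ≠ 0 := by exact_mod_cast hl'.ne_zero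
    exact (mul_right_cancel₀ h3 h2).symm
  obtain ⟨x', g, hg⟩ := exists_mul_bI hl B hdB
  rw [hg, mul_assoc] at hB
  obtain ⟨h', rfl⟩ := (Lvl.gamma0 N).sat g _ ((Lvl.gamma0 N).mul _ _ (hL x') (hL' y'))
    (by rw [← hB]; exact (Lvl.gamma0 N).mul _ _ (hL' x) (hL y))
  exact ⟨x', y', h', hB⟩

end Int

/-- **The Hecke operators commute.** -/
theorem heckeHom_comm {N l l' : ℕ} (hl : l.Prime) (hlN : ¬ l ∣ N) (hl' : l'.Prime)
    (hlN' : ¬ l' ∣ N) (h : l ≠ l') {A : Type*} [AddCommGroup A]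
    (φ : Additive (Gamma0 N) →+ A) :
    HeckeHom.heckeHom hl hlN A (HeckeHom.heckeHom hl' hlN' A φ) =
      HeckeHom.heckeHom hl' hlN' A (HeckeHom.heckeHom hl hlN A φ) := by
  have hu : ∀ (δ : Gamma0 N) (x x' : (dataT hl' hlN').X) (y y' : (dataT hl hlN).X),
      (dataT hl' hlN').α x * (dataT hl hlN).α y =
        mapGL ℝ (δ : SL(2, ℤ)) * ((dataT hl' hlN').α x' * (dataT hl hlN).α y') →
        x = x' ∧ y = y' := fun δ x x' y y' hh =>
    uniq_mul hl' hl h.symm ((mul_iff_int hl' hlN' hl hlN δ x y hl' hlN' hl hlN x' y').mp hh)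
  have hu' : ∀ (δ : Gamma0 N) (x x' : (dataT hl hlN).X) (y y' : (dataT hl' hlN').X),
      (dataT hl hlN).α x * (dataT hl' hlN').α y =
        mapGL ℝ (δ : SL(2, ℤ)) * ((dataT hl hlN).α x' * (dataT hl' hlN').α y') →
        x = x' ∧ y = y' := fun δ x x' y y' hh =>
    uniq_mul hl hl' h ((mul_iff_int hl hlN hl' hlN' δ x y hl hlN hl' hlN' x' y').mp hh)
  rw [← hom_dataT, ← hom_dataT, ← compHD_hom (dataT hl' hlN') (dataT hl hlN) hu,
    ← compHD_hom (dataT hl hlN) (dataT hl' hlN') hu']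
  refine DFunLike.congr_fun (Fermat.Agent.TorsCmp.hdata_hom_eq _ _ ?_ ?_ A) φ
  · rintro ⟨x, y⟩
    obtain ⟨x', y', h', hB⟩ := exists_swap hl hlN hl' hlN' x y
    exact ⟨(x', y'), h', (mul_iff_int hl' hlN' hl hlN _ x y hl hlN hl' hlN' x' y').mpr hB⟩
  · change Fintype.card ((dataT hl' hlN').X × (dataT hl hlN).X) =
      Fintype.card ((dataT hl hlN).X × (dataT hl' hlN').X)
    rw [Fintype.card_prod, Fintype.card_prod, mul_comm]

end Fermat.Agent.LG

end
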