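import Fermat.Agent.DefRing.Mat
import Fermat.Agent.Cheb.Exist
import Fermat.Agent.QuadRep.RootsOfUnity

/-!
# Determinants at inertia and continuity of twisted traces
-/

set_option autoImplicit false
set_option linter.unusedSectionVars false

noncomputable section

open IsLocalRing

namespace Fermat.Agent.LG

open Fermat.Agent.DefRing Fermat.Agent.QuadRep

section Cyc

variable (q : ℕ) [NeZero q]

/-- The cyclotomic character modulo `q`. -/
def cyc : GQ →* (ZMod q)ˣ :=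
  (modularCyclotomicCharacter (AlgebraicClosure ℚ)
    (HasEnoughRootsOfUnity.natCard_rootsOfUnity (AlgebraicClosure ℚ) q)).comp
    (MonoidHom.mk' (fun σ : GQ => (σ : AlgebraicClosure ℚ ≃+* AlgebraicClosure ℚ)) (fun _ _ => rfl))

variable {q}

theorem cyc_spec (s : GQ) {t : AlgebraicClosure ℚ} (ht : t ^ q = 1) :
    s t = t ^ ((cyc q s : (ZMod q)ˣ) : ZMod q).val := by
  have hn : q ≠ 0 := NeZero.ne q
  have ht0 : t ≠ 0 := by
    rintro rfl
    rw [zero_pow hn] at ht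
    exact zero_ne_one ht
  have h1 : Units.mk0 t ht0 ∈ rootsOfUnity q (AlgebraicClosure ℚ) := by
    rw [mem_rootsOfUnity]
    exact Units.ext (by simpa using ht)
  exact modularCyclotomicCharacter.spec (AlgebraicClosure ℚ)
    (HasEnoughRootsOfUnity.natCard_rootsOfUnity (AlgebraicClosure ℚ) q)
    (s : AlgebraicClosure ℚ ≃+* AlgebraicClosure ℚ) h1

theorem cyc_natCast (s : GQ) {ζ : AlgebraicClosure ℚ} (hζ : IsPrimitiveRoot ζ q) {u : ℕ}
    (h : s ζ = ζ ^ u) : ((cyc q s : (ZMod q)ˣ) : ZMod q) = (u : ZMod q) := by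
  have h1 := cyc_spec s hζ.pow_eq_one
  rw [h] at h1
  have hu : IsUnit ζ := hζ.isUnit (NeZero.ne q)
  lift ζ to (AlgebraicClosure ℚ)ˣ using hu
  have h5 : ζ ^ u = ζ ^ ((cyc q s : (ZMod q)ˣ) : ZMod q).val := Units.ext (by simpa using h1)
  rw [pow_eq_pow_iff_modEq, ← (IsPrimitiveRoot.coe_units_iff.1 hζ).eq_orderOf] at h5
  have := (ZMod.natCast_eq_natCast_iff _ _ _).2 h5
  rw [ZMod.natCast_zmod_val] at this
  exact this.symm

/-- characterisation of the cyclotomic character -/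
theorem cyc_eq (s : GQ) {ζ : AlgebraicClosure ℚ} (hζ : IsPrimitiveRoot ζ q) {c : (ZMod q)ˣ}
    (h : s ζ = ζ ^ (c : ZMod q).val) : cyc q s = c := by
  apply Units.ext
  rw [cyc_natCast s hζ h, ZMod.natCast_zmod_val]

theorem cyc_congr {s s' : GQ} {ζ : AlgebraicClosure ℚ} (hζ : IsPrimitiveRoot ζ q)
    (h : s' ζ = s ζ) : cyc q s' = cyc q s :=
  cyc_eq s' hζ (h.trans (cyc_spec s hζ.pow_eq_one))

theorem cyc_frob {l : ℕ} (hl : l.Prime) (hlq : q.Coprime l) {A : ValuationSubring (AlgebraicClosure ℚ)}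
    (hA : A.LiesOverPrime l) {Φ : GQ} (hΦ : A.IsFrobeniusAt Φ l) :
    ((cyc q Φ : (ZMod q)ˣ) : ZMod q) = (l : ZMod q) := by
  obtain ⟨ζ, hζ⟩ := HasEnoughRootsOfUnity.exists_primitiveRoot (AlgebraicClosure ℚ) q
  exact cyc_natCast Φ hζ (frobenius_smul_root hl hA hΦ (NeZero.pos q) hlq ζ hζ.pow_eq_one)

theorem cyc_inertia {l : ℕ} (hl : l.Prime) (hlq : q.Coprime l)
    {A : ValuationSubring (AlgebraicClosure ℚ)} (hA : A.LiesOverPrime l) {s : GQ}
    (hs : s ∈ A.inertiaSubgroupIn ℚ) : cyc q s = 1 := by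
  obtain ⟨ζ, hζ⟩ := HasEnoughRootsOfUnity.exists_primitiveRoot (AlgebraicClosure ℚ) q
  have h1 := inertia_smul_root hl hA hs (NeZero.pos q) hlq ζ hζ.pow_eq_one
  apply Units.ext
  rw [cyc_natCast s hζ (u := 1) (by rw [pow_one]; exact h1), Nat.cast_one, Units.val_one]

end Cyc

section Cont

variable {O : Type} [CommRing O] [IsDomain O] [IsDiscreteValuationRing O] [CharZero O]
  {p : ℕ} {r : GQ →* M2 O}

theorem sub_mem_of_fix {n : ℕ} {σ σ' : GQ}
    (h : ∀ i j, (r (σ⁻¹ * σ') - 1) i j ∈ maximalIdeal O ^ n) (i j : Fin 2) :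
    (r σ' - r σ) i j ∈ maximalIdeal O ^ n := by
  have h1 : r σ' - r σ = r σ * (r (σ⁻¹ * σ') - 1) := by
    rw [mul_sub, mul_one, ← map_mul, mul_inv_cancel_left]
  rw [h1, Matrix.mul_apply]
  exact Ideal.sum_mem _ fun k _ => Ideal.mul_mem_left _ _ (h k j)

theorem det_sub_mem {n : ℕ} {X Y : M2 O} (h : ∀ i j, (X - Y) i j ∈ maximalIdeal O ^ n) :
    X.det - Y.det ∈ maximalIdeal O ^ n := by
  have e : X.det - Y.det = (X - Y) 0 0 * X 1 1 + Y 0 0 * (X - Y) 1 1 - (X - Y) 0 1 * X 1 0 -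
      Y 0 1 * (X - Y) 1 0 := by
    rw [Matrix.det_fin_two, Matrix.det_fin_two]
    simp only [Matrix.sub_apply]
    ring
  rw [e]
  exact sub_mem (sub_mem (add_mem (Ideal.mul_mem_right _ _ (h 0 0)) (Ideal.mul_mem_left _ _ (h 1 1)))
    (Ideal.mul_mem_right _ _ (h 0 1))) (Ideal.mul_mem_left _ _ (h 1 0))

theorem trace_sub_mem {n : ℕ} {X Y : M2 O} (h : ∀ i j, (X - Y) i j ∈ maximalIdeal O ^ n) :
    X.trace - Y.trace ∈ maximalIdeal O ^ n := by
  have e : X.trace - Y.trace = (X - Y) 0 0 + (X - Y) 1 1 := by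
    rw [Matrix.trace_fin_two, Matrix.trace_fin_two]
    simp only [Matrix.sub_apply]
    ring
  rw [e]
  exact add_mem (h 0 0) (h 1 1)

theorem pow_le_span (hp : p ≠ 0) (e : ℕ) :
    ∃ n : ℕ, ∀ x ∈ maximalIdeal O ^ n, ∃ c : O, x = (p : O) ^ e * c := by
  have h0 : (p : O) ^ e ≠ 0 := pow_ne_zero _ (Nat.cast_ne_zero.mpr hp)
  obtain ⟨n, hn⟩ := exists_maximalIdeal_pow_eq_of_principal O
    (IsPrincipalIdealRing.principal (maximalIdeal O)) (Ideal.span {(p : O) ^ e})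
    (by rwa [Ne, Ideal.span_singleton_eq_bot])
  refine ⟨n, fun x hx => ?_⟩
  rw [← hn, Ideal.mem_span_singleton] at hx
  exact hx

/-- **(B)** The determinant is trivial on inertia away from `p`. -/
theorem det_inertia (hp : p.Prime) (hpO : (p : O) ∈ maximalIdeal O) (hr : MatCont O r)
    (m : ℕ) (hm : m ≠ 0) (hdet : ∀ l : ℕ, l.Prime → ¬ l ∣ m →
      ∀ A : ValuationSubring (AlgebraicClosure ℚ), A.LiesOverPrime l →
        ∀ Φ : GQ, A.IsFrobeniusAt Φ l → (r Φ).det = (l : O)) {q : ℕ} (hq : q.Prime) (hqp : q ≠ p)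
    {A : ValuationSubring (AlgebraicClosure ℚ)} (hA : A.LiesOverPrime q) {s : GQ}
    (hs : s ∈ A.inertiaSubgroupIn ℚ) : (r s).det = 1 := by
  have key : ∀ n : ℕ, (r s).det - 1 ∈ maximalIdeal O ^ n := by
    intro n
    obtain ⟨L, hL, hLr⟩ := hr n
    have hpn : NeZero (p ^ n) := ⟨(pow_pos hp.pos n).ne'⟩
    obtain ⟨ζ, hζ⟩ := HasEnoughRootsOfUnity.exists_primitiveRoot (AlgebraicClosure ℚ) (p ^ n)
    have hfin : FiniteDimensional ℚ (IntermediateField.adjoin ℚ {ζ}) :=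
      IntermediateField.adjoin.finiteDimensional
        ((AlgebraicClosure.isAlgebraic ℚ).isIntegral.isIntegral ζ)
    obtain ⟨l, hl, hlS, -, B, hB, Φ, hΦ, hΦs⟩ := Fermat.Agent.Cheb.exists_frobenius_eq
      (L ⊔ IntermediateField.adjoin ℚ {ζ}) inferInstance s (insert p m.primeFactors)
    rw [Finset.mem_insert, not_or] at hlS
    have hlm : ¬ l ∣ m := fun h => hlS.2 (Nat.mem_primeFactors.2 ⟨hl, h, hm⟩)
    have h1 : ∀ i j, (r Φ - r s) i j ∈ maximalIdeal O ^ n :=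
      sub_mem_of_fix (hLr _ fun x hx => by
        rw [AlgEquiv.mul_apply, hΦs x ((le_sup_left : L ≤ _) hx)]
        exact s.symm_apply_apply x)
    have h2 := det_sub_mem h1
    rw [hdet l hl hlm B hB Φ hΦ] at h2
    -- `l ≡ 1 mod p ^ n`
    have h3 : Φ ζ = ζ ^ l := frobenius_smul_root hl hB hΦ (pow_pos hp.pos n)
      (Nat.Coprime.pow_left n ((Nat.coprime_primes hp hl).2 (Ne.symm hlS.1))) ζ hζ.pow_eq_one
    have h4 : Φ ζ = s ζ := hΦs ζ ((le_sup_right : IntermediateField.adjoin ℚ {ζ} ≤ _)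
      (IntermediateField.mem_adjoin_simple_self ℚ ζ))
    have h5 : s ζ = ζ := inertia_smul_root hq hA hs (pow_pos hp.pos n)
      (Nat.Coprime.pow_left n ((Nat.coprime_primes hp hq).2 (Ne.symm hqp))) ζ hζ.pow_eq_one
    have h6 : ζ ^ l = ζ ^ 1 := by rw [pow_one, ← h3, h4, h5]
    have h7 : (l : ZMod (p ^ n)) = ((1 : ℕ) : ZMod (p ^ n)) := by
      have hu : IsUnit ζ := hζ.isUnit (pow_pos hp.pos n).ne'
      lift ζ to (AlgebraicClosure ℚ)ˣ using hu
      have h8 : ζ ^ l = ζ ^ 1 := Units.ext (by simpa using h6)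
      rw [pow_eq_pow_iff_modEq, ← (IsPrimitiveRoot.coe_units_iff.1 hζ).eq_orderOf] at h8
      exact (ZMod.natCast_eq_natCast_iff _ _ _).2 h8
    have h8 : ((p ^ n : ℕ) : ℤ) ∣ (l : ℤ) - 1 := by
      rw [← ZMod.intCast_zmod_eq_zero_iff_dvd]
      push_cast
      rw [h7, Nat.cast_one, sub_self]
    obtain ⟨c, hc⟩ := h8
    have h9 : (l : O) - 1 ∈ maximalIdeal O ^ n := by
      have h10 : (l : O) - 1 = (p : O) ^ n * (c : O) := by
        have := congrArg (Int.cast : ℤ → O) hc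
        push_cast at this
        exact this
      rw [h10]
      exact Ideal.mul_mem_right _ _ (Ideal.pow_mem_pow hpO n)
    have h11 := sub_mem h9 h2
    rwa [sub_sub_sub_cancel_left] at h11
  have h0 : (r s).det - 1 ∈ (⨅ n : ℕ, maximalIdeal O ^ n) := by
    rw [Ideal.mem_iInf]
    exact key
  rw [Ideal.iInf_pow_eq_bot_of_isLocalRing _ (Ideal.IsPrime.ne_top inferInstance),
    Ideal.mem_bot, sub_eq_zero] at h0
  exact h0

/-- **(C)** Continuity of twisted traces and determinants. -/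
theorem cont_mul (hp : p ≠ 0) (hr : MatCont O r) {q : ℕ} [NeZero q] (η₁ η₂ : (ZMod q)ˣ → O)
    (e : ℕ) (s : GQ) : ∃ E : IntermediateField ℚ (AlgebraicClosure ℚ), FiniteDimensional ℚ E ∧
      ∀ s' : GQ, (∀ z ∈ E, s' z = s z) →
        (∃ c, η₁ (cyc q s') * (r s').trace - η₁ (cyc q s) * (r s).trace = (p : O) ^ e * c) ∧
        ∃ c, η₂ (cyc q s') * (r s').det - η₂ (cyc q s) * (r s).det = (p : O) ^ e * c := by
  obtain ⟨n, hn⟩ := pow_le_span (O := O) hp e
  obtain ⟨L, hL, hLr⟩ := hr n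
  obtain ⟨ζ, hζ⟩ := HasEnoughRootsOfUnity.exists_primitiveRoot (AlgebraicClosure ℚ) q
  have hfin : FiniteDimensional ℚ (IntermediateField.adjoin ℚ {ζ}) :=
    IntermediateField.adjoin.finiteDimensional
      ((AlgebraicClosure.isAlgebraic ℚ).isIntegral.isIntegral ζ)
  refine ⟨L ⊔ IntermediateField.adjoin ℚ {ζ}, inferInstance, fun s' hs' => ?_⟩
  have h1 : ∀ i j, (r s' - r s) i j ∈ maximalIdeal O ^ n :=
    sub_mem_of_fix (hLr _ fun x hx => by
      rw [AlgEquiv.mul_apply, hs' x ((le_sup_left : L ≤ _) hx)]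
      exact s.symm_apply_apply x)
  have h2 : cyc q s' = cyc q s := cyc_congr hζ
    (hs' ζ ((le_sup_right : IntermediateField.adjoin ℚ {ζ} ≤ _)
      (IntermediateField.mem_adjoin_simple_self ℚ ζ)))
  rw [h2, ← mul_sub, ← mul_sub]
  exact ⟨hn _ (Ideal.mul_mem_left _ _ (trace_sub_mem h1)),
    hn _ (Ideal.mul_mem_left _ _ (det_sub_mem h1))⟩

end Cont

end Fermat.Agent.LG
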