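import Fermat.Agent.LGR.Es
import Fermat.Agent.LGRes.Main

/-!
# Reductions of `T_l`-images
-/

set_option autoImplicit false
set_option linter.unusedSectionVars false

noncomputable section

open ModularCurve

namespace Fermat.Agent.LG

open Fermat.Agent.Igusa Fermat.Agent.HeckeRed Fermat.Agent.LGR Fermat.Agent.LGRes
open Fermat.Agent.ModPoly (twist)

variable {L : Type*} [Field L] {A : ValuationSubring L} {κ : Type*} [Field κ] {π : A →+* κ}

theorem Red.prod {ι : Type*} (s : Finset ι) {x : ι → LaurentSeries L} {y : ι → LaurentSeries κ}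
    (h : ∀ i ∈ s, Red A π (x i) (y i)) : Red A π (∏ i ∈ s, x i) (∏ i ∈ s, y i) := by
  classical
  induction s using Finset.induction_on with
  | empty => simpa using Red.one
  | insert a s ha ih =>
    rw [Finset.prod_insert ha, Finset.prod_insert ha]
    exact (h a (Finset.mem_insert_self a s)).mul
      (ih fun i hi => h i (Finset.mem_insert_of_mem hi))

theorem Red.qExpand {x : LaurentSeries L} {y : LaurentSeries κ} (h : Red A π x y) (l : ℕ)
    [NeZero l] : Red A π (ModularCurve.qExpand L l x) (ModularCurve.qExpand κ l y) := by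
  obtain ⟨h1, rfl⟩ := h
  exact ⟨(GaussEnd.qExp A π l).mem h1, (GaussEnd.qExp A π l).res h1⟩

theorem Red.twist {x : LaurentSeries L} {y : LaurentSeries κ} (h : Red A π x y) (u : Aˣ) :
    Red A π (Fermat.Agent.ModPoly.twist (Units.map (A.subtype : A →* L) u) x)
      (Fermat.Agent.ModPoly.twist (Units.map (π : A →* κ) u) y) := by
  obtain ⟨h1, rfl⟩ := h
  exact ⟨(GaussEnd.twi π u).mem h1, (GaussEnd.twi π u).res h1⟩

theorem Red.frob [Algebra ℚ L] [IsLocalHom π] {l : ℕ} [Fact l.Prime] [CharP κ l]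
    {σ : L ≃ₐ[ℚ] L} (hσ : A.IsFrobeniusAt σ l) {x : LaurentSeries L} {y : LaurentSeries κ}
    (h : Red A π x y) :
    Red A π (coeffMap (σ : L →+* L) x) (coeffMap (frobenius κ l) y) := by
  obtain ⟨h1, rfl⟩ := h
  exact gaussRes_frobenius hσ h1

theorem Red.inertia [Algebra ℚ L] [IsLocalHom π] {σ : L ≃ₐ[ℚ] L}
    (hσ : σ ∈ A.inertiaSubgroupIn ℚ) {x : LaurentSeries L} {y : LaurentSeries κ}
    (h : Red A π x y) : Red A π (coeffMap (σ : L →+* L) x) y := by
  obtain ⟨h1, rfl⟩ := h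
  exact gaussRes_inertia hσ h1

theorem Red.zpow {x : LaurentSeries L} {y : LaurentSeries κ} (h : Red A π x y) (hy : y ≠ 0)
    (n : ℤ) : Red A π (x ^ n) (y ^ n) := by
  cases n with
  | ofNat n => simpa using h.pow n
  | negSucc n =>
    rw [zpow_negSucc, zpow_negSucc]
    exact (h.pow _).inv (pow_ne_zero _ hy)

theorem Red.div {x x' : LaurentSeries L} {y y' : LaurentSeries κ} (h : Red A π x y)
    (h' : Red A π x' y') (hy' : y' ≠ 0) : Red A π (x / x') (y / y') := by
  rw [div_eq_mul_inv, div_eq_mul_inv]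
  exact h.mul (h'.inv hy')

variable [IsLocalHom π]

/-- the reduction of `T_l f` -/
theorem red_isT {l : ℕ} [NeZero l] {ζ : Lˣ} (hζ : ζ ^ l = 1) {f g h : LaurentSeries L}
    (H : IsT l ζ f g h) {y y' : LaurentSeries κ} (hf : Red A π f y) (hg : Red A π g y')
    (hy : y ≠ 0) (hy' : y' ≠ 0) (hh : h ∈ tameQ L) :
    ∃ z : LaurentSeries κ, z ≠ 0 ∧ Red A π h z ∧
      ∃ u : κˣ, u ^ l = 1 ∧ IsT l u y y' z := by
  obtain ⟨u, hu, hul⟩ := exists_unit_of_pow_eq_one (A := A) hζ
  have hR : Red A π (ModularCurve.qExpand L l h)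
      ((∏ j ∈ Finset.range l, Fermat.Agent.ModPoly.twist
        (Units.map (π : A →* κ) u ^ j) y) * ModularCurve.qExpand κ l (ModularCurve.qExpand κ l y')) := by
    rw [H]
    refine Red.mul (Red.prod _ fun j _ => ?_) ((Red.qExpand (Red.qExpand hg l) l))
    have h1 := Red.twist hf (u ^ j)
    rwa [map_pow, map_pow, hu] at h1
  have h0 : h ≠ 0 := H.ne_zero (hf.ne_zero hy) (hg.ne_zero hy')
  obtain ⟨c, hc0, w, v, hv, hw, hcw⟩ := exists_norm (A := A) (π := π) hh h0
  have hR2 : Red A π (ModularCurve.qExpand L l h)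
      ((∏ j ∈ Finset.range l, Fermat.Agent.ModPoly.twist
        (Units.map (π : A →* κ) u ^ j) y) * ModularCurve.qExpand κ l (ModularCurve.qExpand κ l y')) := hR
  have e1 : ModularCurve.qExpand L l h =
      algebraMap L (LaurentSeries L) c * ModularCurve.qExpand L l w := by
    rw [hcw, map_mul]
    congr 1
    rw [Fermat.Agent.ModPoly.algebraMap_eq_single, qExpand_single, mul_zero]
  rw [e1] at hR2
  have hv' : ModularCurve.qExpand κ l v ≠ 0 := by
    intro h1
    apply hv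
    exact qExpand_injective l (h1.trans (map_zero _).symm)
  obtain ⟨hcA, hc1⟩ := mem_of_red_mul (Red.qExpand hw l) hv' hR2
  have hz : Red A π h (algebraMap κ (LaurentSeries κ) (π ⟨c, hcA⟩) * v) := by
    rw [hcw]
    exact (red_algebraMap (π := π) ⟨c, hcA⟩).mul hw
  have hIs : IsT l (Units.map (π : A →* κ) u) y y'
      (algebraMap κ (LaurentSeries κ) (π ⟨c, hcA⟩) * v) := by
    rw [IsT, hc1, map_mul]
    congr 1
    rw [Fermat.Agent.ModPoly.algebraMap_eq_single, qExpand_single, mul_zero]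
  refine ⟨_, hIs.ne_zero hy hy', hz, Units.map (π : A →* κ) u, ?_, hIs⟩
  rw [← map_pow, hul, map_one]

/-- Eichler–Shimura -/
theorem red_isT_char {l : ℕ} [Fact l.Prime] [NeZero l] [CharP κ l] [PerfectRing κ l] {ζ : Lˣ}
    (hζ : ζ ^ l = 1) {f g h : LaurentSeries L}
    (H : IsT l ζ f g h) {y y' : LaurentSeries κ} (hf : Red A π f y) (hg : Red A π g y')
    (hy : y ≠ 0) (hy' : y' ≠ 0) (hh : h ∈ tameQ L) :
    Red A π h (coeffMap (frobenius κ l) y *
      (coeffMap ((frobeniusEquiv κ l).symm : κ →+* κ) y') ^ l) := by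
  obtain ⟨z, hz, hR, -⟩ := red_isT hζ H hf hg hy hy' hh
  obtain ⟨h1, rfl⟩ := hf
  obtain ⟨h2, rfl⟩ := hg
  obtain ⟨h3, rfl⟩ := hR
  exact ⟨h3, H.res_eq hζ h1 h2 h3⟩

theorem coeffMap_frob_frobInv {l : ℕ} [Fact l.Prime] [CharP κ l] [PerfectRing κ l]
    (y : LaurentSeries κ) :
    coeffMap (frobenius κ l) (coeffMap ((frobeniusEquiv κ l).symm : κ →+* κ) y) = y := by
  rw [coeffMap_coeffMap, coeffMap_congr (g := RingHom.id κ), coeffMap_id]
  ext a
  exact frobenius_apply_frobeniusEquiv_symm κ l a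

end Fermat.Agent.LG
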