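import Fermat.Agent.LG.Ell
import Fermat.Agent.LG.RedT
import Fermat.Agent.LG.TDataC

/-!
# Classes with trivial reduction
-/

set_option autoImplicit false
set_option linter.unusedSectionVars false
set_option linter.style.haveILetI false

noncomputable section

open UpperHalfPlane Function ModularCurve Filter ModularForm AlgebraicCurve WithZero
  CongruenceSubgroup
open scoped Manifold MatrixGroups Topology ModularForm

namespace Fermat.Agent.LG

open Fermat.Agent.X0Places Fermat.Agent.FunField Fermat.Agent.FunField.PlaceLemmas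
open Fermat.Agent.TorsCmp Fermat.Agent.Igusa Fermat.Agent.LGRes Fermat.Agent.LGR
open Fermat.Agent.HeckeHom (HData)
open Matrix.SpecialLinearGroup (mapGL)

/-! ### conjugation -/

section Conj

variable {Γ : Subgroup SL(2, ℤ)} {A : Type*} [AddCommGroup A]

/-- `γ ↦ σ γ σ⁻¹` -/
def conjM (σ : SL(2, ℤ)) (hσ : ∀ γ ∈ Γ, σ * γ * σ⁻¹ ∈ Γ) : Γ →* Γ where
  toFun γ := ⟨σ * γ * σ⁻¹, hσ γ γ.2⟩
  map_one' := Subtype.ext (by
    show σ * 1 * σ⁻¹ = 1
    rw [mul_one, mul_inv_cancel])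
  map_mul' γ δ := Subtype.ext (by
    show σ * (γ * δ : Γ) * σ⁻¹ = (σ * γ * σ⁻¹) * (σ * δ * σ⁻¹)
    rw [Subgroup.coe_mul]; group)

/-- `x ↦ (γ ↦ x (σ γ σ⁻¹))` -/
def conjH (σ : SL(2, ℤ)) (hσ : ∀ γ ∈ Γ, σ * γ * σ⁻¹ ∈ Γ) (x : Additive Γ →+ A) :
    Additive Γ →+ A := x.comp (MonoidHom.toAdditive (conjM σ hσ))

theorem conjH_apply (σ : SL(2, ℤ)) (hσ : ∀ γ ∈ Γ, σ * γ * σ⁻¹ ∈ Γ) (x : Additive Γ →+ A) (γ : Γ) :
    conjH σ hσ x (Additive.ofMul γ) = x (Additive.ofMul ⟨σ * γ * σ⁻¹, hσ γ γ.2⟩) := rfl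

theorem conjH_mem (σ : SL(2, ℤ)) (hσ : ∀ γ ∈ Γ, σ * γ * σ⁻¹ ∈ Γ) {x : Additive Γ →+ A}
    (hx : x ∈ PE Γ A) : conjH σ hσ x ∈ PE Γ A := by
  refine ⟨fun γ hγ => hx.1 ⟨_, hσ γ γ.2⟩ ?_, fun γ τ hγ => hx.2 ⟨_, hσ γ γ.2⟩ (σ • τ) ?_⟩
  · show ((σ * γ * σ⁻¹ : SL(2, ℤ)) : Matrix (Fin 2) (Fin 2) ℤ).trace ^ 2 = 4
    rw [Matrix.SpecialLinearGroup.coe_mul, Matrix.trace_mul_comm,
      ← Matrix.SpecialLinearGroup.coe_mul, ← mul_assoc, inv_mul_cancel, one_mul]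
    exact hγ
  · show (σ * γ * σ⁻¹) • σ • τ = σ • τ
    rw [mul_smul, inv_smul_smul, mul_smul, hγ]

end Conj

variable {L : Type*} [Field L] {A : ValuationSubring L} {κ : Type*} [Field κ] {π : A →+* κ}
variable {ι : L →+* ℂ} {Γ : Subgroup SL(2, ℤ)} {N : ℕ}

theorem rep_dia (σ : SL(2, ℤ)) (hσ : ∀ γ ∈ Γ, σ * γ * σ⁻¹ ∈ Γ) {dia : FG ι Γ N →+* FG ι Γ N}
    (hdia : ∀ f, toM ι Γ N (dia f) = compMer σ (toM ι Γ N f)) {n : ℕ}
    {x : Additive Γ →+ ZMod n} {f : FG ι Γ N} (h : Rep ι Γ N n x f) :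
    Rep ι Γ N n (conjH σ hσ x) (dia f) := by
  obtain ⟨hf, G, hG, hGx⟩ := h
  refine ⟨?_, compMer σ G, ?_, fun γ => ?_⟩
  · rwa [Ne, map_eq_zero]
  · rw [← map_pow, hG, hdia]
  · rw [compMer_mul]
    have h1 := congrArg (compMer σ) (hGx ⟨_, hσ γ γ.2⟩)
    rw [compMer_mul, map_mul, compMer_cM] at h1
    have h2 : (σ * γ * σ⁻¹) * σ = σ * (γ : SL(2, ℤ)) := by group
    have h3 : ((⟨σ * γ * σ⁻¹, hσ γ γ.2⟩ : Γ) : SL(2, ℤ)) * σ = σ * (γ : SL(2, ℤ)) := h2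
    rw [h3] at h1
    exact h1

variable (A π ι N) in
/-- `x` is represented by a function with residue one -/
def TR (n : ℕ) (x : Additive Γ →+ ZMod n) : Prop :=
  ∃ f : FG ι Γ N, Rep ι Γ N n x f ∧ Red A π (f : LaurentSeries L) 1

theorem TR.zero {n : ℕ} : TR A π ι N n (0 : Additive Γ →+ ZMod n) :=
  ⟨1, rep_one, Red.one⟩

theorem TR.add {n : ℕ} {x y : Additive Γ →+ ZMod n} (hx : TR A π ι N n x) (hy : TR A π ι N n y) :
    TR A π ι N n (x + y) := by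
  obtain ⟨f, hf, hf'⟩ := hx
  obtain ⟨g, hg, hg'⟩ := hy
  refine ⟨f * g, hf.mul hg, ?_⟩
  have := hf'.mul hg'
  rwa [mul_one] at this

theorem TR.neg {n : ℕ} {x : Additive Γ →+ ZMod n} (hx : TR A π ι N n x) :
    TR A π ι N n (-x) := by
  obtain ⟨f, hf, hf'⟩ := hx
  refine ⟨f⁻¹, hf.inv, ?_⟩
  have := hf'.inv one_ne_zero
  rwa [inv_one] at this

theorem TR.sub {n : ℕ} {x y : Additive Γ →+ ZMod n} (hx : TR A π ι N n x) (hy : TR A π ι N n y) :
    TR A π ι N n (x - y) := by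
  rw [sub_eq_add_neg]; exact hx.add hy.neg

theorem TR.nsmul {n : ℕ} {x : Additive Γ →+ ZMod n} (hx : TR A π ι N n x) (k : ℕ) :
    TR A π ι N n (k • x) := by
  induction k with
  | zero => rw [zero_smul]; exact TR.zero
  | succ k ih => rw [succ_nsmul]; exact ih.add hx

theorem mem_of_pow_mem {n : ℕ} (hn : n ≠ 0) {c : L} (h : c ^ n ∈ A) : c ∈ A := by
  rcases A.mem_or_inv_mem c with h1 | h1
  · exact h1
  · obtain ⟨m, rfl⟩ := Nat.exists_eq_succ_of_ne_zero hn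
    rcases eq_or_ne c 0 with rfl | hc
    · exact zero_mem A
    · have h2 : c = c ^ (m + 1) * (c⁻¹) ^ m := by
        rw [pow_succ, inv_pow]
        field_simp
      rw [h2]
      exact mul_mem h (pow_mem h1 m)

section Norm

variable [IsAlgClosed L]

/-- normalisation -/
theorem exists_red (ht : IsTameField (FG ι Γ N)) {f : FG ι Γ N} (hf : f ≠ 0) {n : ℕ} (hn : n ≠ 0) :
    ∃ d : L, d ≠ 0 ∧ ∃ y : LaurentSeries κ, y ≠ 0 ∧
      Red A π ((f * algebraMap L (FG ι Γ N) d ^ n : FG ι Γ N) : LaurentSeries L) y := by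
  have hf' : (f : LaurentSeries L) ≠ 0 := fun h => hf (Subtype.ext h)
  obtain ⟨c, hc, w, y, hy, hw, hcw⟩ := exists_norm (A := A) (π := π) (le_tameQ ht f.2) hf'
  obtain ⟨d, hd⟩ := IsAlgClosed.exists_pow_nat_eq c (Nat.pos_of_ne_zero hn)
  have hd0 : d ≠ 0 := by
    rintro rfl
    rw [zero_pow hn] at hd
    exact hc hd.symm
  refine ⟨d⁻¹, inv_ne_zero hd0, y, hy, ?_⟩
  have h1 : ((f * algebraMap L (FG ι Γ N) d⁻¹ ^ n : FG ι Γ N) : LaurentSeries L) = w := by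
    have h2 : ((f * algebraMap L (FG ι Γ N) d⁻¹ ^ n : FG ι Γ N) : LaurentSeries L) =
        (f : LaurentSeries L) * algebraMap L (LaurentSeries L) (d⁻¹) ^ n := rfl
    rw [h2, hcw, ← map_pow, inv_pow, hd, mul_comm, ← mul_assoc, ← map_mul, inv_mul_cancel₀ hc,
      map_one, one_mul]
  rw [h1]
  exact hw

theorem exists_rep_red (ht : IsTameField (FG ι Γ N)) {n : ℕ} [NeZero n]
    {x : Additive Γ →+ ZMod n} {f : FG ι Γ N} (hf : Rep ι Γ N n x f) :
    ∃ g : FG ι Γ N, Rep ι Γ N n x g ∧ ∃ y : LaurentSeries κ, y ≠ 0 ∧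
      Red A π (g : LaurentSeries L) y := by
  obtain ⟨d, hd, y, hy, h⟩ := exists_red (A := A) (π := π) ht hf.ne_zero (NeZero.ne n)
  exact ⟨_, hf.mul_pow (by rwa [Ne, map_eq_zero]), y, hy, h⟩

variable [IsLocalHom π]

variable [NeZero N] [Algebra ℚ L] [hMF : MF ι Γ N]

theorem TR.exists_root (ht : IsTameField (FG ι Γ N)) {n : ℕ} [NeZero n]
    {x : Additive Γ →+ ZMod n} (h : TR A π ι N n x) {f : FG ι Γ N} (hf : Rep ι Γ N n x f)
    {y : LaurentSeries κ} (hy : y ≠ 0) (hr : Red A π (f : LaurentSeries L) y) :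
    ∃ (u : FG ι Γ N) (w : LaurentSeries κ), w ≠ 0 ∧ Red A π (u : LaurentSeries L) w ∧
      y = w ^ n := by
  obtain ⟨f', hf', hr'⟩ := h
  obtain ⟨u, hu, hfu⟩ := hf.exists_pow hf'
  have hu' : (u : LaurentSeries L) ≠ 0 := fun h => hu (Subtype.ext h)
  obtain ⟨c, hc, w, v, hv, hw, hcw⟩ := exists_norm (A := A) (π := π) (le_tameQ ht u.2) hu'
  have h1 : (f : LaurentSeries L) =
      algebraMap L (LaurentSeries L) (c ^ n) * ((f' : LaurentSeries L) * w ^ n) := by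
    have h2 : (f : LaurentSeries L) = (f' : LaurentSeries L) * (u : LaurentSeries L) ^ n :=
      congrArg (fun z : FG ι Γ N => (z : LaurentSeries L)) hfu
    rw [h2, hcw, mul_pow, map_pow]
    ring
  have h2 := hr'.mul (hw.pow n)
  rw [one_mul] at h2
  rw [h1] at hr
  obtain ⟨hcA, hy'⟩ := mem_of_red_mul h2 (pow_ne_zero _ hv) hr
  have hcA' : c ∈ A := mem_of_pow_mem (NeZero.ne n) hcA
  have h3 : Red A π (u : LaurentSeries L) (algebraMap κ (LaurentSeries κ) (π ⟨c, hcA'⟩) * v) := by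
    rw [hcw]
    exact (red_algebraMap (π := π) ⟨c, hcA'⟩).mul hw
  have h4 : π ⟨c ^ n, hcA⟩ = π ⟨c, hcA'⟩ ^ n := by
    rw [← map_pow]; rfl
  refine ⟨u, _, ?_, h3, ?_⟩
  · intro h0
    rw [h0] at h3
    have h5 : y = 0 := by
      rw [hy', h4, map_pow, ← mul_pow, h0, zero_pow (NeZero.ne n)]
    exact hy h5
  · rw [hy', h4, map_pow, mul_pow]

theorem exists_const_of_pow_eq_one [IsAlgClosed κ] {n : ℕ} (hn : n ≠ 0) {y : LaurentSeries κ}
    (hy : y ^ n = 1) : ∃ c : κ, c ^ n = 1 ∧ y = algebraMap κ (LaurentSeries κ) c := by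
  have h1 : Polynomial.aeval y (Polynomial.X ^ n - 1 : Polynomial κ) = 0 := by
    rw [map_sub, map_pow, Polynomial.aeval_X, map_one, hy, sub_self]
  have hne : (Polynomial.X ^ n - 1 : Polynomial κ) ≠ 0 :=
    Polynomial.X_pow_sub_C_ne_zero (R := κ) (Nat.pos_of_ne_zero hn) 1
  have hsp := IsAlgClosed.splits (Polynomial.X ^ n - 1 : Polynomial κ)
  have h2 := hsp.eq_prod_roots
  have h3 : (Polynomial.X ^ n - 1 : Polynomial κ).leadingCoeff = 1 :=
    (Polynomial.monic_X_pow_sub_C (1 : κ) hn).leadingCoeff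
  rw [h3, map_one, one_mul] at h2
  rw [h2, Polynomial.aeval_def, Polynomial.eval₂_multiset_prod, Multiset.map_map,
    Multiset.prod_eq_zero_iff, Multiset.mem_map] at h1
  obtain ⟨c, hc, hc'⟩ := h1
  rw [Polynomial.mem_roots hne, Polynomial.IsRoot, Polynomial.eval_sub, Polynomial.eval_pow,
    Polynomial.eval_X, Polynomial.eval_one, sub_eq_zero] at hc
  refine ⟨c, hc, ?_⟩
  have h4 : Polynomial.eval₂ (algebraMap κ (LaurentSeries κ)) y (Polynomial.X - Polynomial.C c) =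
    0 := hc'
  rw [Polynomial.eval₂_sub, Polynomial.eval₂_X, Polynomial.eval₂_C, sub_eq_zero] at h4
  exact h4

/-- descent of trivial reduction from level `p m` to level `p` -/
theorem TR.of_mulK [IsAlgClosed κ] (hπ : Surjective π) (ht : IsTameField (FG ι Γ N)) {p m : ℕ}
    [NeZero p] [NeZero m] [NeZero (p * m)]
    {x : Additive Γ →+ ZMod p} {f : FG ι Γ N} (hf : Rep ι Γ N p x f)
    (h : TR A π ι N (p * m) ((mulK p m).comp x)) : TR A π ι N p x := by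
  obtain ⟨g, hg, y, hy, hgy⟩ := exists_rep_red (A := A) (π := π) ht hf
  have h1 := hg.mulK (k := m)
  have h2 : Red A π ((g ^ m : FG ι Γ N) : LaurentSeries L) (y ^ m) := hgy.pow m
  obtain ⟨u, w, hw, huw, hyw⟩ := h.exists_root ht h1 (pow_ne_zero _ hy) h2
  have h3 : (y / w ^ p) ^ m = 1 := by
    rw [div_pow, hyw, ← pow_mul, div_self (pow_ne_zero _ hw)]
  obtain ⟨c, hc, hyc⟩ := exists_const_of_pow_eq_one (NeZero.ne m) h3
  obtain ⟨ξ, hξ⟩ := IsAlgClosed.exists_pow_nat_eq c (Nat.pos_of_ne_zero (NeZero.ne p))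
  obtain ⟨ξ', rfl⟩ := hπ ξ
  have hξ0 : π ξ' ≠ 0 := by
    intro h0
    rw [h0, zero_pow (NeZero.ne p)] at hξ
    rw [← hξ, zero_pow (NeZero.ne m)] at hc
    exact zero_ne_one hc
  have hξ1 : (ξ' : L) ≠ 0 := by
    intro h0
    apply hξ0
    have : ξ' = 0 := Subtype.ext h0
    rw [this, map_zero]
  have hu0 : u ≠ 0 := by
    rintro rfl
    exact huw.ne_zero hw rfl
  set v : FG ι Γ N := (u * algebraMap L (FG ι Γ N) ξ')⁻¹ with hv
  have hv0 : v ≠ 0 := inv_ne_zero (mul_ne_zero hu0 (by rwa [Ne, map_eq_zero]))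
  refine ⟨g * v ^ p, hg.mul_pow hv0, ?_⟩
  have h4 : Red A π (v : LaurentSeries L) (w * algebraMap κ (LaurentSeries κ) (π ξ'))⁻¹ := by
    have h5 := (huw.mul (red_algebraMap (π := π) ξ')).inv (mul_ne_zero hw (by
      rwa [Ne, map_eq_zero]))
    exact h5
  have h5 := hgy.mul (h4.pow p)
  have h6 : y * ((w * algebraMap κ (LaurentSeries κ) (π ξ'))⁻¹) ^ p = 1 := by
    rw [inv_pow, mul_pow, ← map_pow, hξ, ← hyc]
    field_simp
  rw [h6] at h5
  exact h5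

/-! ### Galois -/

variable [hst : GalSt ι Γ N] [hRep : RepEx ι Γ N]

/-- **inertia acts trivially modulo classes with trivial reduction** -/
theorem TR_inertia (ht : IsTameField (FG ι Γ N)) {n : ℕ} [NeZero n] {s : L ≃ₐ[ℚ] L}
    (hs : s ∈ A.inertiaSubgroupIn ℚ) (x : PE Γ (ZMod n)) :
    TR A π ι N n ((galH ι N n s x - x : PE Γ (ZMod n)) : Additive Γ →+ ZMod n) := by
  obtain ⟨f₀, hf₀⟩ := hRep.ex n x x.2
  obtain ⟨f, hf, y, hy, hr⟩ := exists_rep_red (A := A) (π := π) ht hf₀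
  refine ⟨galF ι Γ N s f / f, (rep_galH s hf).div hf, ?_⟩
  have h1 := Red.div (Red.inertia hs hr) hr hy
  rw [div_self hy] at h1
  exact h1

/-- **Eichler–Shimura relation modulo classes with trivial reduction** -/
theorem TR_frob (ht : IsTameField (FG ι Γ N)) {l : ℕ} [hl : Fact l.Prime] [NeZero l] [CharP κ l]
    [PerfectRing κ l] (D : TData Γ l) {dia : FG ι Γ N →+* FG ι Γ N}
    (hdia : ∀ f, toM ι Γ N (dia f) = compMer D.σ (toM ι Γ N f))
    (hσ : ∀ γ ∈ Γ, D.σ * γ * D.σ⁻¹ ∈ Γ) {ζ : Lˣ} (hζ : Units.map (ι : L →* ℂ) ζ = zetaN l)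
    {n : ℕ} [NeZero n] {x Tx dx : PE Γ (ZMod n)}
    (hTx : (Tx : Additive Γ →+ ZMod n) = D.H.hom (ZMod n) x)
    (hdx : (dx : Additive Γ →+ ZMod n) = conjH D.σ hσ (x : Additive Γ →+ ZMod n))
    {Φ : L ≃ₐ[ℚ] L} (hΦ : A.IsFrobeniusAt Φ l) :
    TR A π ι N n ((galH ι N n Φ (galH ι N n Φ x) - galH ι N n Φ Tx + l • dx : PE Γ (ZMod n)) :
      Additive Γ →+ ZMod n) := by
  have hζl : ζ ^ l = 1 := by
    have h1 : (Units.map (ι : L →* ℂ) (ζ ^ l)) = 1 := by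
      rw [map_pow, hζ]
      have := pow_orderOf_eq_one (zetaN l)
      rwa [orderOf_zetaN] at this
    have h2 : Injective (Units.map (ι : L →* ℂ)) := Units.map_injective ι.injective
    exact h2 (h1.trans (map_one _).symm)
  obtain ⟨f₀, hf₀⟩ := hRep.ex n x x.2
  obtain ⟨f, hf, y, hy, hr⟩ := exists_rep_red (A := A) (π := π) ht hf₀
  have hd := rep_dia D.σ hσ hdia hf
  rw [← hdx] at hd
  obtain ⟨d, hd0, y', hy', hr'⟩ := exists_red (A := A) (π := π) ht hd.ne_zero (NeZero.ne n)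
  have hdF : algebraMap L (FG ι Γ N) d ≠ 0 := by rwa [Ne, map_eq_zero]
  have hg := hd.mul_pow hdF
  set g : FG ι Γ N := dia f * algebraMap L (FG ι Γ N) d ^ n with hgdef
  obtain ⟨h, hh, hT⟩ := D.exists_T (T_mem ι Γ N) (MF.gam ι) hζ dia hdia f
  have hhR : Rep ι Γ N n Tx h := by
    rw [hTx]
    exact hf.hdata D.H D.pos hh
  have hh' := hhR.mul_pow hdF
  set h' : FG ι Γ N := h * algebraMap L (FG ι Γ N) d ^ n with hh'def
  have hT' : IsT l ζ (f : LaurentSeries L) (g : LaurentSeries L) (h' : LaurentSeries L) := by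
    have h1 := hT.mul (IsT.const (l := l) (ζ := ζ) (1 : L) (d ^ n))
    rw [map_one, mul_one, one_pow, one_mul, map_pow] at h1
    exact h1
  have hr'' := red_isT_char hζl hT' hr hr' hy hy' (le_tameQ ht h'.2)
  refine ⟨galF ι Γ N Φ (galF ι Γ N Φ f) / galF ι Γ N Φ h' * g ^ l, ?_, ?_⟩
  · exact ((rep_galH Φ (rep_galH Φ hf)).div (rep_galH Φ hh')).mul (hg.pow l)
  · have hfr : coeffMap (frobenius κ l) y ≠ 0 := by
      rwa [Ne, map_eq_zero_iff _ (Fermat.Agent.ModPoly.coeffMap_injective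
        (frobenius_inj κ l))]
    have hfr' : coeffMap ((frobeniusEquiv κ l).symm : κ →+* κ) y' ≠ 0 := by
      rwa [Ne, map_eq_zero_iff _ (Fermat.Agent.ModPoly.coeffMap_injective
        (frobeniusEquiv κ l).symm.injective)]
    have h1 := Red.div (Red.frob hΦ (Red.frob hΦ hr)) (Red.frob hΦ hr'') (by
      rw [Ne, map_eq_zero_iff _ (Fermat.Agent.ModPoly.coeffMap_injective (frobenius_inj κ l))]
      exact mul_ne_zero hfr (pow_ne_zero _ hfr'))
    have h2 := h1.mul (hr'.pow l)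
    have h3 : coeffMap (frobenius κ l) (coeffMap (frobenius κ l) y) /
        coeffMap (frobenius κ l) (coeffMap (frobenius κ l) y *
          coeffMap ((frobeniusEquiv κ l).symm : κ →+* κ) y' ^ l) * y' ^ l = 1 := by
      rw [map_mul, map_pow, coeffMap_frob_frobInv]
      have h4 : coeffMap (frobenius κ l) (coeffMap (frobenius κ l) y) ≠ 0 := by
        rwa [Ne, map_eq_zero_iff _ (Fermat.Agent.ModPoly.coeffMap_injective
          (frobenius_inj κ l))]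
      field_simp
    rw [h3] at h2
    exact h2

end Norm

end Fermat.Agent.LG
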