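import Mathlib

/-!
# The auxiliary Dirichlet character
-/

set_option autoImplicit false

namespace Fermat.Agent.LG

theorem exists_omega {q p s : ℕ} [hq : Fact q.Prime] [hp : Fact p.Prime] (hp2 : p ≠ 2) {D : Type}
    [CommGroup D] (χ : (ZMod q)ˣ →* D) (hD : ∀ d : D, d ^ p ^ s = 1) :
    ∃ ω : DirichletCharacter (AlgebraicClosure ℚ) q, ω (-1) = 1 ∧
      (∀ c : (ZMod q)ˣ, ω c ^ p ^ s = 1) ∧ ∀ c : (ZMod q)ˣ, ω c = 1 ↔ χ c = 1 := by
  have hfin : Finite χ.range := Finite.of_surjective _ χ.rangeRestrict_surjective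
  set n := Nat.card χ.range with hn
  have hn0 : NeZero n := ⟨Nat.card_pos.ne'⟩
  have hc1 : IsCyclic χ.range := isCyclic_of_surjective χ.rangeRestrict χ.rangeRestrict_surjective
  have hcard : Nat.card (rootsOfUnity n (AlgebraicClosure ℚ)) = n :=
    HasEnoughRootsOfUnity.natCard_rootsOfUnity (AlgebraicClosure ℚ) n
  have hc2 : IsCyclic (rootsOfUnity n (AlgebraicClosure ℚ)) := inferInstance
  let e : χ.range ≃* rootsOfUnity n (AlgebraicClosure ℚ) :=
    mulEquivOfCyclicCardEq (hn.symm.trans hcard.symm)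
  let f : (ZMod q)ˣ →* (AlgebraicClosure ℚ)ˣ :=
    (rootsOfUnity n (AlgebraicClosure ℚ)).subtype.comp
      ((e : χ.range →* rootsOfUnity n (AlgebraicClosure ℚ)).comp χ.rangeRestrict)
  have hf : ∀ c, f c = 1 ↔ χ c = 1 := by
    intro c
    show ((e (χ.rangeRestrict c) : rootsOfUnity n (AlgebraicClosure ℚ)) :
      (AlgebraicClosure ℚ)ˣ) = 1 ↔ _
    rw [OneMemClass.coe_eq_one, map_eq_one_iff e e.injective, Subtype.ext_iff]
    rfl
  have hfc : ∀ c : (ZMod q)ˣ, MulChar.ofUnitHom f (c : ZMod q) = (f c : AlgebraicClosure ℚ) :=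
    fun c => MulChar.ofUnitHom_coe f c
  have hpow : ∀ c, f c ^ p ^ s = 1 := fun c => by
    rw [← map_pow, hf, map_pow, hD]
  refine ⟨MulChar.ofUnitHom f, ?_, fun c => ?_, fun c => ?_⟩
  · have h1 : ((-1 : (ZMod q)ˣ) : ZMod q) = -1 := by simp
    rw [← h1, hfc, Units.val_eq_one, hf]
    have h2 : χ (-1) ^ 2 = 1 := by
      rw [← map_pow]
      simp
    have h3 : χ (-1) ^ p ^ s = 1 := hD _
    have h4 : Nat.Coprime 2 (p ^ s) :=
      ((Nat.coprime_primes Nat.prime_two hp.out).2 hp2.symm).pow_right s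
    have h5 : orderOf (χ (-1)) ∣ Nat.gcd 2 (p ^ s) :=
      Nat.dvd_gcd (orderOf_dvd_of_pow_eq_one h2) (orderOf_dvd_of_pow_eq_one h3)
    rw [h4] at h5
    exact orderOf_eq_one_iff.1 (Nat.dvd_one.1 h5)
  · rw [hfc, ← Units.val_pow_eq_pow_val, hpow, Units.val_one]
  · rw [hfc, Units.val_eq_one, hf]

end Fermat.Agent.LG
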