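import Fermat.Agent.LG.AsmE
import Fermat.Agent.Frob.Exists

/-!
# Base change of the residual hypotheses
-/

set_option autoImplicit false
set_option linter.unusedSectionVars false

noncomputable section

namespace Fermat.Agent.LG

open IsLocalRing Matrix Fermat.Agent.DefRing Fermat.Agent.TW

section Rep

variable {O : Type} [CommRing O] [IsLocalRing O] (O₁ : Type) [CommRing O₁] [IsLocalRing O₁]
  [Algebra O O₁] [IsLocalHom (algebraMap O O₁)] (rbar : GQ →* M2 (ResidueField O))

/-- base change of the residual representation -/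
def rbarC : GQ →* M2 (ResidueField O₁) := mapRep (ResidueField.map (algebraMap O O₁)) rbar

variable {rbar}

theorem rbarC_apply (σ : GQ) (i j : Fin 2) :
    rbarC O₁ rbar σ i j = ResidueField.map (algebraMap O O₁) (rbar σ i j) := rfl

theorem rbarC_trace (σ : GQ) :
    (rbarC O₁ rbar σ).trace = ResidueField.map (algebraMap O O₁) (rbar σ).trace := by
  rw [trace_fin_two, trace_fin_two, map_add, rbarC_apply, rbarC_apply]

theorem rbarC_det (σ : GQ) :
    (rbarC O₁ rbar σ).det = ResidueField.map (algebraMap O O₁) (rbar σ).det := by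
  rw [det_fin_two, det_fin_two]
  simp only [map_sub, map_mul, rbarC_apply]

theorem rbarC_eq_one {σ : GQ} (h : rbar σ = 1) : rbarC O₁ rbar σ = 1 := by
  ext i j
  rw [rbarC_apply, h]
  by_cases hij : i = j
  · rw [hij, one_apply_eq, one_apply_eq, map_one]
  · rw [one_apply_ne hij, one_apply_ne hij, map_zero]

theorem span_rbarC (hspan : Submodule.span (ResidueField O) (Set.range rbar) = ⊤) :
    Submodule.span (ResidueField O₁) (Set.range (rbarC O₁ rbar)) = ⊤ := by
  let f := ResidueField.map (algebraMap O O₁)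
  have hS : ∀ N : M2 (ResidueField O),
      N.map f ∈ Submodule.span (ResidueField O₁) (Set.range (rbarC O₁ rbar)) := by
    intro N
    have hN : N ∈ Submodule.span (ResidueField O) (Set.range rbar) := by rw [hspan]; trivial
    induction hN using Submodule.span_induction with
    | mem x hx =>
      obtain ⟨σ, rfl⟩ := hx
      exact Submodule.subset_span ⟨σ, rfl⟩
    | zero =>
      have h1 : (0 : M2 (ResidueField O)).map f = 0 := by
        ext i j
        exact map_zero f
      rw [h1]
      exact zero_mem _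
    | add a b _ _ ha hb =>
      have h1 : (a + b).map f = a.map f + b.map f := by
        ext i j
        exact map_add f _ _
      rw [h1]
      exact add_mem ha hb
    | smul c a _ ha =>
      have h1 : (c • a).map f = f c • a.map f := by
        ext i j
        exact map_mul f _ _
      rw [h1]
      exact Submodule.smul_mem _ _ ha
  rw [eq_top_iff]
  intro N _
  rw [matrix_eq_sum_single N]
  refine Submodule.sum_mem _ fun i _ => Submodule.sum_mem _ fun j _ => ?_
  have h2 : single i j (N i j) = N i j • ((single i j (1 : ResidueField O)).map f) := by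
    ext a b
    rw [Matrix.smul_apply, Matrix.map_apply, Matrix.single_apply, Matrix.single_apply]
    split_ifs with h
    · rw [map_one, smul_eq_mul, mul_one]
    · rw [map_zero, smul_zero]
  rw [h2]
  exact Submodule.smul_mem _ _ (hS _)

theorem nonempty_sliceData_rbarC
    (hspan : Submodule.span (ResidueField O) (Set.range rbar) = ⊤) :
    Nonempty (SliceData (rbarC O₁ rbar)) := exists_sliceData _ (span_rbarC O₁ hspan)

theorem level_rbarC (hrbar : ∃ L : IntermediateField ℚ (AlgebraicClosure ℚ),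
      FiniteDimensional ℚ L ∧ ∀ σ : GQ, (∀ x ∈ L, σ x = x) → rbar σ = 1) :
    ∃ L : IntermediateField ℚ (AlgebraicClosure ℚ), FiniteDimensional ℚ L ∧
      ∀ σ : GQ, (∀ x ∈ L, σ x = x) → rbarC O₁ rbar σ = 1 := by
  obtain ⟨L, hL, h⟩ := hrbar
  exact ⟨L, hL, fun σ hσ => rbarC_eq_one O₁ (h σ hσ)⟩

variable {O₁}

theorem red_rbarC {r : GQ →* M2 O₁} (hr : Red rbar r) : Red (rbarC O₁ rbar) r := by
  intro σ i j o ho
  rw [← residue_eq_zero_iff, map_sub, residue_entry hr, sub_eq_zero, ← rbarC_apply, ← ho]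
  rfl

theorem mapRep_residue {r : GQ →* M2 O₁} (hr : Red rbar r) :
    mapRep (residue O₁) r = rbarC O₁ rbar := by
  ext σ i j
  exact residue_entry hr σ i j

end Rep

section Ideal

variable {m : ℕ} {O : Type} [CommRing O] [IsLocalRing O] {rbar : GQ →* M2 (ResidueField O)}

/-- the ideal of a residual eigensystem -/
def resIdeal (t : Pr m → ResidueField O) : Ideal (TPoly m O) :=
  RingHom.ker (MvPolynomial.eval₂Hom (residue O) t)

theorem mem_resIdeal {t : Pr m → ResidueField O} {P : TPoly m O} :
    P ∈ resIdeal t ↔ MvPolynomial.eval₂Hom (residue O) t P = 0 := Iff.rfl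

instance isMaximal_resIdeal (t : Pr m → ResidueField O) : (resIdeal t).IsMaximal := by
  refine RingHom.ker_isMaximal_of_surjective _ fun x => ?_
  obtain ⟨o, rfl⟩ := residue_surjective x
  exact ⟨MvPolynomial.C o, by rw [MvPolynomial.eval₂Hom_C]⟩

theorem resId_resIdeal {t : Pr m → ResidueField O}
    (h : ∀ (l : Pr m) (B : ValuationSubring (AlgebraicClosure ℚ)), B.LiesOverPrime l →
      ∀ τ : GQ, B.IsFrobeniusAt τ l → (rbar τ).trace = t l) : ResId rbar (resIdeal t) where
  cmem a ha := by
    rw [mem_resIdeal, MvPolynomial.eval₂Hom_C, residue_eq_zero_iff]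
    exact ha
  tmem l B hB τ hτ o ho := by
    rw [mem_resIdeal, map_sub, MvPolynomial.eval₂Hom_X', MvPolynomial.eval₂Hom_C, ho,
      h l B hB τ hτ, sub_self]

/-- a residual ideal is the ideal of its eigensystem -/
theorem resId_exists_eq {𝔪 : Ideal (TPoly m O)} (h𝔪 : ResId rbar 𝔪) (hne : 𝔪 ≠ ⊤) :
    ∃ t : Pr m → ResidueField O, 𝔪 = resIdeal t ∧
      ∀ (l : Pr m) (B : ValuationSubring (AlgebraicClosure ℚ)), B.LiesOverPrime l →
        ∀ τ : GQ, B.IsFrobeniusAt τ l → (rbar τ).trace = t l := by
  have hex : ∀ l : Pr m, ∃ o : O, (MvPolynomial.X l - MvPolynomial.C o : TPoly m O) ∈ 𝔪 := by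
    intro l
    obtain ⟨B, hB⟩ := Frob.exists_liesOverPrime (AlgebraicClosure ℚ) l.2.1
    obtain ⟨Φ, hΦ⟩ := Frob.exists_isFrobeniusAt l.2.1 hB
    obtain ⟨o, ho⟩ := residue_surjective (rbar Φ).trace
    exact ⟨o, h𝔪.tmem l B hB Φ hΦ o ho⟩
  choose o ho using hex
  have hC : ∀ a : O, (MvPolynomial.C a : TPoly m O) ∈ 𝔪 → residue O a = 0 := by
    intro a ha
    rw [residue_eq_zero_iff]
    intro hu
    exact hne (Ideal.eq_top_of_isUnit_mem _ ha (hu.map MvPolynomial.C))
  have hP : ∀ P : TPoly m O, ∃ a : O, P - MvPolynomial.C a ∈ 𝔪 ∧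
      residue O a = MvPolynomial.eval₂Hom (residue O) (fun l => residue O (o l)) P := by
    intro P
    induction P using MvPolynomial.induction_on with
    | C a => exact ⟨a, by rw [sub_self]; exact zero_mem _, by rw [MvPolynomial.eval₂Hom_C]⟩
    | add P Q hP hQ =>
      obtain ⟨a, h1, h2⟩ := hP
      obtain ⟨b, h3, h4⟩ := hQ
      refine ⟨a + b, ?_, by rw [map_add, map_add, h2, h4]⟩
      rw [map_add, add_sub_add_comm]
      exact add_mem h1 h3
    | mul_X P l hP =>
      obtain ⟨a, h1, h2⟩ := hP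
      refine ⟨a * o l, ?_, by rw [map_mul, map_mul, h2, MvPolynomial.eval₂Hom_X']⟩
      have h3 : P * MvPolynomial.X l - MvPolynomial.C (a * o l) =
          (P - MvPolynomial.C a) * MvPolynomial.X l +
            MvPolynomial.C a * (MvPolynomial.X l - MvPolynomial.C (o l)) := by
        rw [map_mul]; ring
      rw [h3]
      exact add_mem (Ideal.mul_mem_right _ _ h1) (Ideal.mul_mem_left _ _ (ho l))
  refine ⟨fun l => residue O (o l), ?_, fun l B hB τ hτ => ?_⟩
  · ext P
    obtain ⟨a, h1, h2⟩ := hP P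
    rw [mem_resIdeal, ← h2]
    constructor
    · intro hP'
      apply hC
      have h3 : (MvPolynomial.C a : TPoly m O) = P - (P - MvPolynomial.C a) := by ring
      rw [h3]
      exact sub_mem hP' h1
    · intro ha
      have h3 : P = (P - MvPolynomial.C a) + MvPolynomial.C a := by ring
      rw [h3]
      exact add_mem h1 (h𝔪.cmem a ((residue_eq_zero_iff a).mp ha))
  · obtain ⟨o', ho'⟩ := residue_surjective (rbar τ).trace
    have h1 := h𝔪.tmem l B hB τ hτ o' ho'
    rw [← ho', ← sub_eq_zero, ← map_sub]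
    apply hC
    have h2 : (MvPolynomial.C (o' - o l) : TPoly m O) =
        (MvPolynomial.X l - MvPolynomial.C (o l)) - (MvPolynomial.X l - MvPolynomial.C o') := by
      rw [map_sub]; ring
    rw [h2]
    exact sub_mem (ho l) h1

variable (O₁ : Type) [CommRing O₁] [IsLocalRing O₁] [Algebra O O₁] [IsLocalHom (algebraMap O O₁)]

/-- **base change of the residual ideal** -/
theorem resId_baseChange {𝔪 : Ideal (TPoly m O)} (h𝔪 : ResId rbar 𝔪) (hne : 𝔪 ≠ ⊤) :
    ∃ 𝔪₁ : Ideal (TPoly m O₁), 𝔪₁.IsMaximal ∧ ResId (rbarC O₁ rbar) 𝔪₁ ∧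
      (∀ P : TPoly m O, MvPolynomial.map (algebraMap O O₁) P ∈ 𝔪₁ ↔ P ∈ 𝔪) ∧
      ∀ M : ℕ, NonEis M 𝔪 → NonEis M 𝔪₁ := by
  obtain ⟨t, rfl, ht⟩ := resId_exists_eq h𝔪 hne
  have key : ∀ P : TPoly m O, MvPolynomial.map (algebraMap O O₁) P ∈
      resIdeal (fun l => ResidueField.map (algebraMap O O₁) (t l)) ↔ P ∈ resIdeal t := by
    intro P
    have h1 : MvPolynomial.eval₂Hom (residue O₁)
        (fun l => ResidueField.map (algebraMap O O₁) (t l))
          (MvPolynomial.map (algebraMap O O₁) P) =
        ResidueField.map (algebraMap O O₁) (MvPolynomial.eval₂Hom (residue O) t P) := by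
      induction P using MvPolynomial.induction_on with
      | C a =>
        rw [MvPolynomial.map_C, MvPolynomial.eval₂Hom_C, MvPolynomial.eval₂Hom_C,
          ResidueField.map_residue]
      | add P Q hP hQ => rw [map_add, map_add, map_add, map_add, hP, hQ]
      | mul_X P l hP =>
        rw [map_mul, map_mul, map_mul, map_mul, hP, MvPolynomial.map_X,
          MvPolynomial.eval₂Hom_X', MvPolynomial.eval₂Hom_X']
    rw [mem_resIdeal, mem_resIdeal, h1, map_eq_zero]
  refine ⟨resIdeal fun l => ResidueField.map (algebraMap O O₁) (t l), inferInstance,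
    resId_resIdeal fun l B hB τ hτ => ?_, key, fun M hM => ?_⟩
  · rw [rbarC_trace, ht l B hB τ hτ]
  · obtain ⟨l, hl, h⟩ := hM
    refine ⟨l, hl, fun h' => h ?_⟩
    rw [← key]
    have h2 : MvPolynomial.map (algebraMap O O₁)
        (MvPolynomial.X l - MvPolynomial.C (((l : ℕ) : O) + 1) : TPoly m O) =
        MvPolynomial.X l - MvPolynomial.C (((l : ℕ) : O₁) + 1) := by
      rw [map_sub, MvPolynomial.map_X, MvPolynomial.map_C, map_add, map_natCast, map_one]
    rw [h2]
    exact h'

end Ideal

end Fermat.Agent.LG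

end
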