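import Fermat.Agent.LG.Deg
import Fermat.Agent.TW.Mat

/-!
# Atkin–Lehner operators on homomorphisms

`W = (q x, y; N' q z, q t)` with `det W = q` normalises `Γ₀(N' q)` and the groups between
`Γ₀(N' q) ∩ Γ₁(q)` and `Γ₀(N' q)`. We record the action of `F ↦ F(W · W⁻¹)` on Hecke operators, on
the conjugation action of `Γ₀(N' q)` and on the degeneracy maps.
-/

set_option autoImplicit false
set_option linter.unusedSectionVars false
set_option linter.style.haveILetI false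

noncomputable section

open UpperHalfPlane Function ModularCurve Filter ModularForm AlgebraicCurve WithZero
  CongruenceSubgroup
open scoped Manifold MatrixGroups Topology ModularForm

namespace Fermat.Agent.LG

open Fermat.Agent.X0Places Fermat.Agent.TorsCmp
open Fermat.Agent.HeckeHom (HData mapGL_inj)
open Matrix.SpecialLinearGroup (mapGL)
open Fermat.Agent.TW (M2Z bI bI_infty bI_coe exists_mul_bI mul_right_cancel_det)
open P2MW.S_ModularForm_heckeT_slash_eq_self_of_mem_Gamma0.ModularForm.HeckeSlashInvariance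

/-- Atkin–Lehner matrices `(q x, y; N' q z, q t)` of determinant `q` -/
structure ALM (N' q : ℕ) where
  /-- entry -/
  x : ℤ
  /-- entry -/
  y : ℤ
  /-- entry -/
  z : ℤ
  /-- entry -/
  t : ℤ
  rel : (q : ℤ) * x * t - N' * y * z = 1

theorem exists_ALM {N' q : ℕ} (h : Nat.Coprime q N') : ∃ w : ALM N' q, w.x = 1 ∧ w.y = 1 := by
  obtain ⟨a, b, hab⟩ : IsCoprime (q : ℤ) (N' : ℤ) := Nat.isCoprime_iff_coprime.2 h
  refine ⟨⟨1, 1, -b, a, ?_⟩, rfl, rfl⟩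
  linear_combination hab

/-- `diag(q, 1)` -/
def dM (q : ℕ) : M2Z := !![(q : ℤ), 0; 0, 1]

namespace ALM

variable {N' q : ℕ} (w : ALM N' q)

/-- the matrix -/
def mat : M2Z := !![(q : ℤ) * w.x, w.y; (N' : ℤ) * q * w.z, q * w.t]

theorem det_mat : w.mat.det = q := by
  rw [mat, Matrix.det_fin_two_of]
  linear_combination (q : ℤ) * w.rel

/-- the matrix `(x, y; N' z, q t)` in `Γ₀(N')` -/
def u : SL(2, ℤ) := ⟨!![w.x, w.y; (N' : ℤ) * w.z, q * w.t], by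
  rw [Matrix.det_fin_two_of]
  linear_combination w.rel⟩

/-- the matrix `(q x, y; N' z, t)` in `Γ₀(N')` -/
def v : SL(2, ℤ) := ⟨!![(q : ℤ) * w.x, w.y; (N' : ℤ) * w.z, w.t], by
  rw [Matrix.det_fin_two_of]
  linear_combination w.rel⟩

theorem u_mem : w.u ∈ Gamma0 N' := by
  rw [mem_Gamma0_iff]
  exact ⟨w.z, rfl⟩

theorem v_mem : w.v ∈ Gamma0 N' := by
  rw [mem_Gamma0_iff]
  exact ⟨w.z, rfl⟩

theorem mat_eq_u : w.mat = (w.u : M2Z) * dM q := by
  show !![(q : ℤ) * w.x, w.y; (N' : ℤ) * q * w.z, q * w.t] =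
    !![w.x, w.y; (N' : ℤ) * w.z, q * w.t] * !![(q : ℤ), 0; 0, 1]
  rw [Matrix.mul_fin_two]
  congr! 2 <;> ring_nf

theorem dM_mul_mat : dM q * w.mat = (q : ℤ) • (w.v : M2Z) := by
  show !![(q : ℤ), 0; 0, 1] * !![(q : ℤ) * w.x, w.y; (N' : ℤ) * q * w.z, q * w.t] =
    (q : ℤ) • !![(q : ℤ) * w.x, w.y; (N' : ℤ) * w.z, w.t]
  rw [Matrix.mul_fin_two, Matrix.smul_of, Matrix.smul_cons, Matrix.smul_cons, Matrix.smul_cons,
    Matrix.smul_cons, Matrix.smul_cons, Matrix.smul_cons]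
  simp only [smul_eq_mul, Matrix.smul_empty]
  congr! 2 <;> ring_nf

/-- conjugation by `W` -/
theorem exists_conj (A : M2Z) (hA : ((N' * q : ℕ) : ℤ) ∣ A 1 0) :
    ∃ B : M2Z, w.mat * A = B * w.mat ∧ ((N' * q : ℕ) : ℤ) ∣ B 1 0 ∧ (q : ℤ) ∣ B 1 1 - A 0 0 ∧
      (q : ℤ) ∣ B 0 0 - A 1 1 := by
  obtain ⟨c, hc⟩ := hA
  obtain ⟨a, ha⟩ : ∃ a, a = A 0 0 := ⟨_, rfl⟩
  obtain ⟨b, hb⟩ : ∃ b, b = A 0 1 := ⟨_, rfl⟩
  obtain ⟨d, hd⟩ : ∃ d, d = A 1 1 := ⟨_, rfl⟩
  have hA : A = !![a, b; (N' : ℤ) * q * c, d] := by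
    rw [ha, hb, hd]
    have : (N' : ℤ) * q * c = A 1 0 := by rw [hc]; push_cast; ring
    rw [this]
    exact Matrix.eta_fin_two A
  obtain ⟨x, y, z, t, rel⟩ := w
  refine ⟨!![(q * x * a + y * (N' * q * c)) * t - (q * x * b + y * d) * N' * z,
      -x * y * a - y * y * N' * c + q * x * x * b + x * y * d;
      N' * q * (z * a * t + t * t * q * c - N' * z * z * b - t * z * d),
      -N' * z * y * a - t * y * N' * q * c + N' * q * z * x * b + q * t * x * d], ?_, ?_, ?_, ?_⟩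
  · rw [hA]
    show !![(q : ℤ) * x, y; (N' : ℤ) * q * z, q * t] * !![a, b; (N' : ℤ) * q * c, d] =
      _ * !![(q : ℤ) * x, y; (N' : ℤ) * q * z, q * t]
    rw [Matrix.mul_fin_two, Matrix.mul_fin_two]
    have h00 : (q : ℤ) * x * a + y * (N' * q * c) =
        ((q * x * a + y * (N' * q * c)) * t - (q * x * b + y * d) * N' * z) * (q * x) +
        (-x * y * a - y * y * N' * c + q * x * x * b + x * y * d) * (N' * q * z) := by
      linear_combination (-((q : ℤ) * x * a + y * (N' * q * c))) * rel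
    have h01 : (q : ℤ) * x * b + y * d =
        ((q * x * a + y * (N' * q * c)) * t - (q * x * b + y * d) * N' * z) * y +
        (-x * y * a - y * y * N' * c + q * x * x * b + x * y * d) * (q * t) := by
      linear_combination (-((q : ℤ) * x * b + y * d)) * rel
    have h10 : (N' : ℤ) * q * z * a + q * t * (N' * q * c) =
        (N' * q * (z * a * t + t * t * q * c - N' * z * z * b - t * z * d)) * (q * x) +
        (-N' * z * y * a - t * y * N' * q * c + N' * q * z * x * b + q * t * x * d) *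
          (N' * q * z) := by
      linear_combination (-((N' : ℤ) * q * z * a + q * t * (N' * q * c))) * rel
    have h11 : (N' : ℤ) * q * z * b + q * t * d =
        (N' * q * (z * a * t + t * t * q * c - N' * z * z * b - t * z * d)) * y +
        (-N' * z * y * a - t * y * N' * q * c + N' * q * z * x * b + q * t * x * d) *
          (q * t) := by
      linear_combination (-((N' : ℤ) * q * z * b + q * t * d)) * rel
    rw [← h00, ← h01, ← h10, ← h11]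
  · refine ⟨z * a * t + t * t * q * c - N' * z * z * b - t * z * d, ?_⟩
    push_cast
    rfl
  · refine ⟨-x * t * a - t * y * N' * c + N' * z * x * b + t * x * d, ?_⟩
    rw [hA]
    show -N' * z * y * a - t * y * N' * q * c + N' * q * z * x * b + q * t * x * d - a = _
    linear_combination a * rel
  · refine ⟨x * t * a + y * t * N' * c - x * b * N' * z - x * t * d, ?_⟩
    rw [hA]
    show (q * x * a + y * (N' * q * c)) * t - (q * x * b + y * d) * N' * z - d = _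
    linear_combination d * rel

/-- the adjugate -/
def adj : ALM N' q := ⟨w.t, -w.y, -w.z, w.x, by linear_combination w.rel⟩

theorem mat_mul_adj : w.mat * w.adj.mat = (q : ℤ) • (1 : M2Z) := by
  have h1 : w.adj.mat = w.mat.adjugate := by
    show !![(q : ℤ) * w.t, -w.y; (N' : ℤ) * q * (-w.z), q * w.x] =
      (!![(q : ℤ) * w.x, w.y; (N' : ℤ) * q * w.z, q * w.t]).adjugate
    rw [Matrix.adjugate_fin_two_of, mul_neg]
  rw [h1, Matrix.mul_adjugate, w.det_mat]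

theorem adj_mul_mat : w.adj.mat * w.mat = (q : ℤ) • (1 : M2Z) := by
  have h1 : w.adj.mat = w.mat.adjugate := by
    show !![(q : ℤ) * w.t, -w.y; (N' : ℤ) * q * (-w.z), q * w.x] =
      (!![(q : ℤ) * w.x, w.y; (N' : ℤ) * q * w.z, q * w.t]).adjugate
    rw [Matrix.adjugate_fin_two_of, mul_neg]
  rw [h1, Matrix.adjugate_mul, w.det_mat]

theorem exists_conj_inv [NeZero q] (B : M2Z) (hB : ((N' * q : ℕ) : ℤ) ∣ B 1 0) :
    ∃ A : M2Z, w.mat * A = B * w.mat ∧ ((N' * q : ℕ) : ℤ) ∣ A 1 0 ∧ (q : ℤ) ∣ A 1 1 - B 0 0 := by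
  obtain ⟨A, h1, h2, h3, -⟩ := w.adj.exists_conj B hB
  refine ⟨A, ?_, h2, h3⟩
  have h4 := congrArg (fun X => w.mat * X * w.mat) h1
  beta_reduce at h4
  rw [← mul_assoc, mat_mul_adj, smul_mul_assoc, one_mul, smul_mul_assoc, mul_assoc w.mat,
    mul_assoc A, adj_mul_mat, mul_smul_comm, mul_one, mul_smul_comm] at h4
  exact (smul_right_injective _ (by exact_mod_cast NeZero.ne q : (q : ℤ) ≠ 0) h4).symm

theorem exists_SL_conj {g : SL(2, ℤ)} (hg : g ∈ Gamma0 (N' * q)) [NeZero q] :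
    ∃ h ∈ Gamma0 (N' * q), w.mat * (g : M2Z) = (h : M2Z) * w.mat ∧ (q : ℤ) ∣ h 1 1 - g 0 0 := by
  rw [mem_Gamma0_iff] at hg
  obtain ⟨B, h1, h2, h3, -⟩ := w.exists_conj (g : M2Z) hg
  have hd : B.det = 1 := by
    have h4 := congrArg Matrix.det h1
    rw [Matrix.det_mul, Matrix.det_mul, w.det_mat, g.det_coe, mul_one] at h4
    have h5 : (q : ℤ) ≠ 0 := by exact_mod_cast NeZero.ne q
    exact (mul_right_cancel₀ h5 (by rw [one_mul]; exact h4)).symm
  refine ⟨⟨B, hd⟩, ?_, h1, h3⟩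
  rw [mem_Gamma0_iff]
  exact h2

theorem exists_SL_conj_inv {g : SL(2, ℤ)} (hg : g ∈ Gamma0 (N' * q)) [NeZero q] :
    ∃ h ∈ Gamma0 (N' * q), w.mat * (h : M2Z) = (g : M2Z) * w.mat ∧ (q : ℤ) ∣ h 1 1 - g 0 0 := by
  rw [mem_Gamma0_iff] at hg
  obtain ⟨B, h1, h2, h3⟩ := w.exists_conj_inv (g : M2Z) hg
  have hd : B.det = 1 := by
    have h4 := congrArg Matrix.det h1
    rw [Matrix.det_mul, Matrix.det_mul, w.det_mat, g.det_coe, one_mul] at h4
    have h5 : (q : ℤ) ≠ 0 := by exact_mod_cast NeZero.ne q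
    exact mul_left_cancel₀ h5 (by rw [mul_one]; exact h4)
  refine ⟨⟨B, hd⟩, ?_, h1, h3⟩
  rw [mem_Gamma0_iff]
  exact h2


section GLs

variable [NeZero q]

/-- the real matrix -/
def gl : GL (Fin 2) ℝ := Matrix.GeneralLinearGroup.mk'' (w.mat.map (Int.castRingHom ℝ)) (by
  rw [← RingHom.mapMatrix_apply, ← RingHom.map_det, det_mat]
  simpa using NeZero.ne q)

theorem coe_gl : (w.gl : Matrix (Fin 2) (Fin 2) ℝ) = w.mat.map (Int.castRingHom ℝ) := rfl

theorem mapGL_val (g : SL(2, ℤ)) : ((mapGL ℝ g : GL (Fin 2) ℝ) : Matrix (Fin 2) (Fin 2) ℝ) =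
    (g : M2Z).map (Int.castRingHom ℝ) := by
  ext i j
  simp

theorem map_inj {A B : M2Z} (h : A.map (Int.castRingHom ℝ) = B.map (Int.castRingHom ℝ)) :
    A = B := by
  ext i j
  have h1 := congrFun (congrFun h i) j
  simpa using h1

theorem map_mul' (A B : M2Z) : (A * B).map (Int.castRingHom ℝ) =
    A.map (Int.castRingHom ℝ) * B.map (Int.castRingHom ℝ) := Matrix.map_mul

theorem gl_iff {g h : SL(2, ℤ)} : w.gl * mapGL ℝ g = mapGL ℝ h * w.gl ↔
    w.mat * (g : M2Z) = (h : M2Z) * w.mat := by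
  rw [← Units.val_inj, Units.val_mul, Units.val_mul, coe_gl, mapGL_val, mapGL_val, ← map_mul',
    ← map_mul']
  exact ⟨fun h => map_inj h, fun h => by rw [h]⟩

end GLs

section Data

variable [NeZero q] {Γ : Subgroup SL(2, ℤ)} (hΓ : IsCong Γ (N' * q) q)

omit [NeZero q] in
theorem inv_11 (g : SL(2, ℤ)) : (g⁻¹ : SL(2, ℤ)) 1 1 = g 0 0 := by
  rw [Matrix.SpecialLinearGroup.coe_inv, Matrix.adjugate_fin_two]
  rfl

include hΓ in
theorem exists_conj_mem (γ : Γ) : ∃ δ : Γ, w.gl * mapGL ℝ (γ : SL(2, ℤ)) =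
    mapGL ℝ (δ : SL(2, ℤ)) * w.gl := by
  obtain ⟨h, h1, h2, h3⟩ := w.exists_SL_conj (hΓ.le γ.2)
  refine ⟨⟨h, hΓ.mem _ (inv_mem γ.2) h h1 ?_⟩, (w.gl_iff).2 h2⟩
  rwa [inv_11]

include hΓ in
theorem exists_conj_inv_mem (δ : Γ) : ∃ γ : Γ, w.gl * mapGL ℝ (γ : SL(2, ℤ)) =
    mapGL ℝ (δ : SL(2, ℤ)) * w.gl := by
  obtain ⟨h, h1, h2, h3⟩ := w.exists_SL_conj_inv (hΓ.le δ.2)
  refine ⟨⟨h, hΓ.mem _ (inv_mem δ.2) h h1 ?_⟩, (w.gl_iff).2 h2⟩
  rwa [inv_11]

/-- the Atkin–Lehner operator as a Hecke operator with one coset -/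
def data : HData Γ Γ where
  X := Unit
  fin := inferInstance
  α := fun _ => w.gl
  ex := fun γ _ => by
    obtain ⟨δ, h⟩ := w.exists_conj_mem hΓ γ
    exact ⟨(), δ, h⟩
  uniq := fun _ _ _ _ => rfl

instance : Unique (w.data hΓ).X := inferInstanceAs (Unique Unit)

/-- `F ↦ F(W · W⁻¹)` -/
def alH {A : Type*} [AddCommGroup A] (F : Additive Γ →+ A) : Additive Γ →+ A :=
  (w.data hΓ).hom A F

theorem alH_apply {A : Type*} [AddCommGroup A] (F : Additive Γ →+ A) {γ δ : Γ}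
    (h : w.gl * mapGL ℝ (γ : SL(2, ℤ)) = mapGL ℝ (δ : SL(2, ℤ)) * w.gl) :
    w.alH hΓ F (Additive.ofMul γ) = F (Additive.ofMul δ) := by
  rw [alH, HData.hom_apply]
  refine (Fintype.sum_unique _).trans ?_
  have h1 := ((w.data hΓ).eq_of_spec (γ := γ) (x := default) (y := default) (δ := δ) h).2
  rw [← h1]

theorem alH_comp {A B : Type*} [AddCommGroup A] [AddCommGroup B] (f : A →+ B)
    (F : Additive Γ →+ A) : w.alH hΓ (f.comp F) = f.comp (w.alH hΓ F) :=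
  (w.data hΓ).hom_comp f F

theorem trace_conj {g h : SL(2, ℤ)} (hgh : w.mat * (g : M2Z) = (h : M2Z) * w.mat) :
    (h : M2Z).trace = (g : M2Z).trace := by
  have h1 := congrArg (fun X => (X * w.adj.mat).trace) hgh
  beta_reduce at h1
  rw [Matrix.trace_mul_comm, ← mul_assoc, adj_mul_mat, mul_assoc, mat_mul_adj, smul_mul_assoc,
    one_mul, mul_smul_comm, mul_one, Matrix.trace_smul, Matrix.trace_smul, smul_eq_mul,
    smul_eq_mul] at h1
  exact (mul_left_cancel₀ (by exact_mod_cast NeZero.ne q : (q : ℤ) ≠ 0) h1).symm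

theorem det_gl_pos : 0 < ((w.gl).det : ℝ) := by
  have h1 : ((w.gl).det : ℝ) = q := by
    show (w.mat.map (Int.castRingHom ℝ)).det = q
    rw [← RingHom.mapMatrix_apply, ← RingHom.map_det, det_mat]
    simp
  rw [h1]
  exact_mod_cast Nat.pos_of_ne_zero (NeZero.ne q)

theorem alH_mem {A : Type*} [AddCommGroup A] {F : Additive Γ →+ A} (hF : F ∈ PE Γ A) :
    w.alH hΓ F ∈ PE Γ A := by
  refine ⟨fun γ hγ => ?_, fun γ τ hγ => ?_⟩
  · obtain ⟨δ, hδ⟩ := w.exists_conj_mem hΓ γ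
    rw [w.alH_apply hΓ F hδ]
    apply hF.1
    rw [w.trace_conj ((w.gl_iff).1 hδ)]
    exact hγ
  · obtain ⟨δ, hδ⟩ := w.exists_conj_mem hΓ γ
    rw [w.alH_apply hΓ F hδ]
    refine hF.2 δ (w.gl • τ) ?_
    have h1 : (mapGL ℝ (δ : SL(2, ℤ)) : GL (Fin 2) ℝ) • (w.gl • τ) = w.gl • τ := by
      rw [← mul_smul, ← hδ, mul_smul]
      congr 1
    exact h1

/-! ### conjugation -/

theorem conjH_alH {A : Type*} [AddCommGroup A] (F : Additive Γ →+ A) {g g' : SL(2, ℤ)}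
    (hg : ∀ γ ∈ Γ, g * γ * g⁻¹ ∈ Γ) (hg' : ∀ γ ∈ Γ, g' * γ * g'⁻¹ ∈ Γ)
    (h : w.gl * mapGL ℝ g = mapGL ℝ g' * w.gl) :
    conjH g hg (w.alH hΓ F) = w.alH hΓ (conjH g' hg' F) := by
  refine AddMonoidHom.ext fun γ' => ?_
  obtain ⟨γ, rfl⟩ := Additive.ofMul.surjective γ'
  obtain ⟨δ, hδ⟩ := w.exists_conj_mem hΓ γ
  rw [conjH_apply, w.alH_apply hΓ _ hδ, conjH_apply]
  refine w.alH_apply hΓ F ?_
  show w.gl * mapGL ℝ (g * (γ : SL(2, ℤ)) * g⁻¹) = mapGL ℝ (g' * (δ : SL(2, ℤ)) * g'⁻¹) * w.gl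
  simp only [map_mul, map_inv]
  rw [← mul_assoc, ← mul_assoc, h, mul_assoc (mapGL ℝ g'), hδ, ← mul_assoc, mul_assoc _ w.gl,
    mul_assoc _ _ w.gl]
  congr 1
  rw [eq_inv_mul_iff_mul_eq, ← mul_assoc, ← h, mul_assoc, mul_inv_cancel, mul_one]

/-- conjugation characters are inverted -/
theorem conjH_alH_eig {R : Type*} [CommRing R] {F : Additive Γ →+ R} {ψ : SL(2, ℤ) → R}
    (hn : ∀ g ∈ Gamma0 (N' * q), ∀ γ ∈ Γ, g * γ * g⁻¹ ∈ Γ)
    (hψ : ∀ g (hg : g ∈ Gamma0 (N' * q)), conjH g (hn g hg) F = (AddMonoidHom.mulLeft (ψ g)).comp F)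
    (hψc : ∀ g ∈ Gamma0 (N' * q), ∀ h ∈ Gamma0 (N' * q), (q : ℤ) ∣ h 1 1 - g 1 1 → ψ h = ψ g)
    (g : SL(2, ℤ)) (hg : g ∈ Gamma0 (N' * q)) :
    conjH g (hn g hg) (w.alH hΓ F) = (AddMonoidHom.mulLeft (ψ g⁻¹)).comp (w.alH hΓ F) := by
  obtain ⟨g', h1, h2, h3⟩ := w.exists_SL_conj hg
  rw [w.conjH_alH hΓ F (hn g hg) (hn g' h1) ((w.gl_iff).2 h2), hψ g' h1, w.alH_comp hΓ,
    hψc g⁻¹ (inv_mem hg) g' h1 (by rwa [inv_11])]

/-! ### Hecke operators -/

section Hecke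

variable {l : ℕ} [hl : Fact l.Prime] (hlN : ¬ l ∣ N' * q) (σ : SL(2, ℤ))
    (hσ : σ ∈ Gamma0 (N' * q)) (hql : IsCoprime (q : ℤ) (l : ℤ)) (hσl : (q : ℤ) ∣ σ 1 1 - l)

/-- conjugate data -/
def twData (τ : SL(2, ℤ)) (hτ : ∀ γ ∈ Γ, τ * γ * τ⁻¹ ∈ Γ) (hτ' : ∀ γ ∈ Γ, τ⁻¹ * γ * τ ∈ Γ)
    (D : HData Γ Γ) : HData Γ Γ where
  X := D.X
  fin := D.fin
  α := fun x => mapGL ℝ τ * D.α x
  ex := fun γ x => by
    obtain ⟨y, δ, h⟩ := D.ex γ x
    refine ⟨y, ⟨_, hτ δ δ.2⟩, ?_⟩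
    rw [mul_assoc, h]
    simp only [map_mul, map_inv]
    group
  uniq := fun δ x y h => by
    apply D.uniq ⟨_, hτ' δ δ.2⟩
    simp only [map_mul, map_inv]
    rw [mul_assoc, mul_assoc, ← h]
    group

omit [NeZero q] in
theorem twData_hom (τ : SL(2, ℤ)) (hτ : ∀ γ ∈ Γ, τ * γ * τ⁻¹ ∈ Γ)
    (hτ' : ∀ γ ∈ Γ, τ⁻¹ * γ * τ ∈ Γ) (D : HData Γ Γ) {A : Type*} [AddCommGroup A]
    (F : Additive Γ →+ A) : (twData τ hτ hτ' D).hom A F = D.hom A (conjH τ hτ F) := by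
  refine AddMonoidHom.ext fun γ' => ?_
  obtain ⟨γ, rfl⟩ := Additive.ofMul.surjective γ'
  rw [HData.hom_apply, HData.hom_apply]
  refine Finset.sum_congr rfl fun (x : D.X) _ => ?_
  rw [conjH_apply]
  congr 2
  symm
  refine ((twData τ hτ hτ' D).eq_of_spec (γ := γ) (x := x) (y := D.actFun γ x) ?_).2
  show mapGL ℝ τ * D.α x * mapGL ℝ (γ : SL(2, ℤ)) =
    mapGL ℝ (τ * (D.coc γ x : SL(2, ℤ)) * τ⁻¹) * (mapGL ℝ τ * D.α (D.actFun γ x))
  rw [mul_assoc, D.spec]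
  simp only [map_mul, map_inv]
  group

omit [NeZero q] hl in
theorem lr_mul {X Y : M2Z} (h : (q : ℤ) ∣ X 1 0) :
    (((X * Y) 1 1 : ℤ) : ZMod q) = ((X 1 1 : ℤ) : ZMod q) * ((Y 1 1 : ℤ) : ZMod q) := by
  rw [← ZMod.intCast_zmod_eq_zero_iff_dvd] at h
  rw [Matrix.mul_apply, Fin.sum_univ_two]
  push_cast
  rw [h, zero_mul, zero_add]

omit [NeZero q] hl in
theorem ul_mul_lr {X : M2Z} (h : (q : ℤ) ∣ X 1 0) :
    ((X 0 0 : ℤ) : ZMod q) * ((X 1 1 : ℤ) : ZMod q) = ((X.det : ℤ) : ZMod q) := by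
  rw [← ZMod.intCast_zmod_eq_zero_iff_dvd] at h
  rw [Matrix.det_fin_two]
  push_cast
  rw [h, mul_zero, sub_zero]

/-- the integral matrix of `repS` -/
theorem repS_eq_map (x : OnePoint (ZMod l)) :
    ((repS σ x : GL (Fin 2) ℝ) : Matrix (Fin 2) (Fin 2) ℝ) =
      (((sx σ x : SL(2, ℤ)) : M2Z) * bI l x).map (Int.castRingHom ℝ) := by
  rw [repS, Units.val_mul, map_mul', mapGL_val]
  congr 1
  have hl0 : l ≠ 0 := hl.out.ne_zero
  induction x using OnePoint.rec with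
  | infty =>
    rw [heckeRep_infty, bI_infty]
    ext i j
    fin_cases i <;> fin_cases j <;> simp [hl0]
  | coe j =>
    rw [heckeRep_coe, bI_coe]
    ext i j
    fin_cases i <;> fin_cases j <;> simp [-ZMod.natCast_val, hl0]

include hlN hσ hql hσl hΓ in
/-- the main comparison -/
theorem exists_comm (x : OnePoint (ZMod l)) : ∃ (y : OnePoint (ZMod l)) (t : Γ),
    w.gl * repS σ x = mapGL ℝ (t : SL(2, ℤ)) * (mapGL ℝ σ⁻¹ * repS σ y) * w.gl := by
  have hqM : (q : ℤ) ∣ ((N' * q : ℕ) : ℤ) := by exact_mod_cast Dvd.intro_left _ rfl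
  have hlM : IsCoprime ((N' * q : ℕ) : ℤ) (l : ℤ) := by
    rw [Nat.isCoprime_iff_coprime, Nat.coprime_comm]
    exact (Nat.Prime.coprime_iff_not_dvd hl.out).2 hlN
  have hqu : IsUnit ((l : ℕ) : ZMod q) := by
    rw [ZMod.isUnit_iff_coprime]
    exact (Nat.isCoprime_iff_coprime.1 hql).symm
  have hσ' := hσ
  rw [mem_Gamma0_iff] at hσ'
  have hσ1 : ((σ 1 1 : ℤ) : ZMod q) = l := by
    have h1 := (ZMod.intCast_zmod_eq_zero_iff_dvd _ _).2 hσl
    push_cast at h1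
    exact sub_eq_zero.1 h1
  -- facts about `sx σ x * bI l x`
  have hA : ∀ x : OnePoint (ZMod l), ((N' * q : ℕ) : ℤ) ∣ (((sx σ x : SL(2, ℤ)) : M2Z) * bI l x) 1 0 ∧
      (((((sx σ x : SL(2, ℤ)) : M2Z) * bI l x) 1 1 : ℤ) : ZMod q) = l := by
    intro x
    induction x using OnePoint.rec with
    | infty =>
      rw [sx_infty, bI_infty]
      refine ⟨?_, ?_⟩
      · have : ((σ : M2Z) * !![(l : ℤ), 0; 0, 1]) 1 0 = σ 1 0 * l := by
          simp [Matrix.mul_apply, Fin.sum_univ_two]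
        rw [this]
        exact hσ'.mul_right _
      · have : ((σ : M2Z) * !![(l : ℤ), 0; 0, 1]) 1 1 = σ 1 1 := by
          simp [Matrix.mul_apply, Fin.sum_univ_two]
        rw [this, hσ1]
    | coe j =>
      rw [sx_coe, bI_coe, Matrix.SpecialLinearGroup.coe_one, one_mul]
      exact ⟨dvd_zero _, by simp⟩
  have hdA : ∀ x : OnePoint (ZMod l), (((sx σ x : SL(2, ℤ)) : M2Z) * bI l x).det = l := by
    intro x
    rw [Matrix.det_mul, Matrix.SpecialLinearGroup.det_coe, one_mul, Fermat.Agent.TW.det_bI]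
  obtain ⟨B, hB, hB10, hB11, -⟩ := w.exists_conj _ (hA x).1
  have hdB : B.det = l := by
    have h1 := congrArg Matrix.det hB
    rw [Matrix.det_mul w.mat, hdA, Matrix.det_mul B, det_mat, mul_comm] at h1
    exact (mul_right_cancel₀ (by exact_mod_cast NeZero.ne q : (q : ℤ) ≠ 0) h1).symm
  have hB1 : ((B 1 1 : ℤ) : ZMod q) = 1 := by
    have h1 := ul_mul_lr (q := q) (hqM.trans (hA x).1)
    rw [(hA x).2, hdA] at h1
    have h2 := (ZMod.intCast_zmod_eq_zero_iff_dvd _ _).2 hB11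
    push_cast at h1 h2
    rw [sub_eq_zero.1 h2]
    exact hqu.mul_right_cancel (by rw [h1, one_mul])
  obtain ⟨y, g, hg⟩ := exists_mul_bI hl.out B hdB
  have hg0 : g ∈ Gamma0 (N' * q) := by
    rw [mem_Gamma0_iff]
    rw [hg] at hB10
    clear hg
    induction y using OnePoint.rec with
    | infty =>
      rw [bI_infty] at hB10
      have : ((g : M2Z) * !![(l : ℤ), 0; 0, 1]) 1 0 = g 1 0 * l := by
        simp [Matrix.mul_apply, Fin.sum_univ_two]
      rw [this] at hB10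
      exact hlM.dvd_of_dvd_mul_right hB10
    | coe j =>
      rw [bI_coe] at hB10
      have : ((g : M2Z) * !![(1 : ℤ), (j.val : ℤ); 0, (l : ℤ)]) 1 0 = g 1 0 := by
        simp [Matrix.mul_apply, Fin.sum_univ_two]
      rwa [this] at hB10
  have hs := sx_mem hσ y
  set g' : SL(2, ℤ) := g * (sx σ y)⁻¹ with hg'
  have hg'0 : g' ∈ Gamma0 (N' * q) := mul_mem hg0 (inv_mem hs)
  have e1 : B = (g' : M2Z) * (((sx σ y : SL(2, ℤ)) : M2Z) * bI l y) := by
    rw [← mul_assoc, ← Matrix.SpecialLinearGroup.coe_mul, hg', inv_mul_cancel_right, hg]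
  have h1 : ((g' 1 1 : ℤ) : ZMod q) * l = 1 := by
    have h2 := lr_mul (q := q) (X := (g' : M2Z)) (Y := ((sx σ y : SL(2, ℤ)) : M2Z) * bI l y)
      (hqM.trans (mem_Gamma0_iff.1 hg'0))
    rw [← e1, hB1, (hA y).2] at h2
    exact h2.symm
  have ht0 : g' * σ ∈ Gamma0 (N' * q) := mul_mem hg'0 hσ
  have ht : g' * σ ∈ Γ := by
    refine hΓ.mem 1 (one_mem _) _ ht0 ?_
    rw [← ZMod.intCast_zmod_eq_zero_iff_dvd]
    have h2 := lr_mul (q := q) (X := (g' : M2Z)) (Y := (σ : M2Z))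
      (hqM.trans (mem_Gamma0_iff.1 hg'0))
    rw [← Matrix.SpecialLinearGroup.coe_mul, hσ1, h1] at h2
    push_cast
    rw [h2]
    simp
  refine ⟨y, ⟨g' * σ, ht⟩, ?_⟩
  have e2 : mapGL ℝ (((⟨g' * σ, ht⟩ : Γ) : SL(2, ℤ))) * (mapGL ℝ σ⁻¹ * repS σ y) =
      mapGL ℝ g' * repS σ y := by
    show mapGL ℝ (g' * σ) * (mapGL ℝ σ⁻¹ * repS σ y) = mapGL ℝ g' * repS σ y
    simp only [map_mul, map_inv]
    group
  rw [e2, ← Units.val_inj, Units.val_mul, Units.val_mul, Units.val_mul, coe_gl, mapGL_val,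
    repS_eq_map, repS_eq_map, ← map_mul', ← map_mul', ← map_mul', hB, e1]

variable (hn : ∀ g ∈ Gamma0 (N' * q), ∀ γ ∈ Γ, g * γ * g⁻¹ ∈ Γ)

/-- **`T_l` and the Atkin–Lehner operator** -/
theorem T_alH {A : Type*} [AddCommGroup A] (F : Additive Γ →+ A) :
    (tdataG hΓ hlN σ hσ hql hσl).H.hom A (w.alH hΓ F) =
      w.alH hΓ ((tdataG hΓ hlN σ hσ hql hσl).H.hom A (conjH σ⁻¹ (hn _ (inv_mem hσ)) F)) := by
  have hn' : ∀ γ ∈ Γ, σ⁻¹⁻¹ * γ * σ⁻¹ ∈ Γ := by
    intro γ hγ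
    rw [inv_inv]
    exact hn σ hσ γ hγ
  rw [← twData_hom σ⁻¹ (hn _ (inv_mem hσ)) hn' (tdataG hΓ hlN σ hσ hql hσl).H F]
  choose e t ht using fun x => w.exists_comm hΓ hlN σ hσ hql hσl x
  have hinj : Injective e := by
    intro x x' hxx
    obtain ⟨γ, hγ⟩ := w.exists_conj_inv_mem hΓ (t x * (t x')⁻¹)
    apply (tdataG hΓ hlN σ hσ hql hσl).H.uniq γ
    show repS σ x = mapGL ℝ (γ : SL(2, ℤ)) * repS σ x'
    have h1 : w.gl * repS σ x = w.gl * (mapGL ℝ (γ : SL(2, ℤ)) * repS σ x') := by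
      rw [ht x, ← mul_assoc w.gl, hγ, mul_assoc _ w.gl, ht x', hxx]
      simp only [Subgroup.coe_mul, Subgroup.coe_inv, map_mul, map_inv]
      group
    exact mul_left_cancel h1
  have hbij : Bijective e := Finite.injective_iff_bijective.1 hinj
  exact hom_comm_of (w.data hΓ) (twData σ⁻¹ (hn _ (inv_mem hσ)) hn'
    (tdataG hΓ hlN σ hσ hql hσl).H) (tdataG hΓ hlN σ hσ hql hσl).H (Equiv.ofBijective e hbij)
    (fun x => ⟨t x, ht x⟩) F

/-- eigenvalues -/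
theorem T_alH_eig {R : Type*} [CommRing R] {F : Additive Γ →+ R} {ψ a : R}
    (hψ : conjH σ⁻¹ (hn _ (inv_mem hσ)) F = (AddMonoidHom.mulLeft ψ).comp F)
    (hT : (tdataG hΓ hlN σ hσ hql hσl).H.hom R F = (AddMonoidHom.mulLeft a).comp F) :
    (tdataG hΓ hlN σ hσ hql hσl).H.hom R (w.alH hΓ F) =
      (AddMonoidHom.mulLeft (ψ * a)).comp (w.alH hΓ F) := by
  rw [w.T_alH hΓ hlN σ hσ hql hσl hn, hψ, HData.hom_comp, hT, alH_comp, alH_comp]
  refine AddMonoidHom.ext fun γ => ?_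
  show ψ * (a * w.alH hΓ F γ) = ψ * a * w.alH hΓ F γ
  rw [mul_assoc]

end Hecke

/-! ### degeneracy maps -/

section Deg

omit [NeZero q] in
theorem hom_apply_unique {Γ Γ' : Subgroup SL(2, ℤ)} (B : HData Γ Γ') [hB : Unique B.X]
    {A : Type*} [AddCommGroup A] (φ : Additive Γ →+ A) {γ : Γ'} {δ : Γ}
    (h : B.α default * mapGL ℝ (γ : SL(2, ℤ)) = mapGL ℝ (δ : SL(2, ℤ)) * B.α default) :
    B.hom A φ (Additive.ofMul γ) = φ (Additive.ofMul δ) := by
  rw [HData.hom_apply]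
  refine (Fintype.sum_unique _).trans ?_
  rw [← (B.eq_of_spec h).2]

omit [NeZero q] in
theorem apply_conj {G : Type*} [Group G] {A : Type*} [AddCommGroup A] (φ : Additive G →+ A)
    {u x y : G} (h : u * x = y * u) : φ (Additive.ofMul y) = φ (Additive.ofMul x) := by
  have h1 := congrArg (fun z => φ (Additive.ofMul z)) h
  simp only [ofMul_mul, map_add] at h1
  rw [add_comm] at h1
  exact (add_right_cancel h1).symm

theorem diag_val : ((heckeDiagMatrix q : GL (Fin 2) ℝ) : Matrix (Fin 2) (Fin 2) ℝ) =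
    (dM q).map (Int.castRingHom ℝ) := by
  rw [dM]
  ext i j
  fin_cases i <;> fin_cases j <;> simp [NeZero.ne q]

theorem diag_iff {g h : SL(2, ℤ)} : heckeDiagMatrix q * mapGL ℝ g = mapGL ℝ h * heckeDiagMatrix q ↔
    dM q * (g : M2Z) = (h : M2Z) * dM q := by
  rw [← Units.val_inj, Units.val_mul, Units.val_mul, diag_val, mapGL_val, mapGL_val, ← map_mul',
    ← map_mul']
  exact ⟨fun h => map_inj h, fun h => by rw [h]⟩

/-- restriction to `Γ` of the degeneracy maps -/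
def degH [NeZero N'] {A : Type*} [AddCommGroup A] (a b : Additive (Gamma0 N') →+ A) :
    Additive Γ →+ A :=
  ((alphaPull N' q).hom A a + (betaPull N' q).hom A b).comp
    (MonoidHom.toAdditive (Subgroup.inclusion hΓ.le))

/-- **The Atkin–Lehner operator exchanges the degeneracy maps.** -/
theorem alH_degH [NeZero N'] {A : Type*} [AddCommGroup A] (a b : Additive (Gamma0 N') →+ A) :
    w.alH hΓ (degH hΓ a b) = degH hΓ b a := by
  refine AddMonoidHom.ext fun γ' => ?_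
  obtain ⟨γ, rfl⟩ := Additive.ofMul.surjective γ'
  obtain ⟨δ, hδ⟩ := w.exists_conj_mem hΓ γ
  rw [w.alH_apply hΓ _ hδ]
  have hδ' := (w.gl_iff).1 hδ
  set γ₁ : Gamma0 (N' * q) := Subgroup.inclusion hΓ.le γ with hγ₁
  set δ₁ : Gamma0 (N' * q) := Subgroup.inclusion hΓ.le δ with hδ₁
  show (alphaPull N' q).hom A a (Additive.ofMul δ₁) + (betaPull N' q).hom A b (Additive.ofMul δ₁) =
    (alphaPull N' q).hom A b (Additive.ofMul γ₁) + (betaPull N' q).hom A a (Additive.ofMul γ₁)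
  obtain ⟨ε, hε, h1⟩ := exists_diag N' q γ₁.2
  obtain ⟨ε', hε', h2⟩ := exists_diag N' q δ₁.2
  have hq0 : (q : ℤ) ≠ 0 := by exact_mod_cast NeZero.ne q
  have a1 : ∀ (c : Additive (Gamma0 N') →+ A) (x : Gamma0 (N' * q)),
      (alphaPull N' q).hom A c (Additive.ofMul x) =
        c (Additive.ofMul ⟨x, Gamma0_mul_le N' q x.2⟩) := by
    intro c x
    refine hom_apply_unique (alphaPull N' q) c ?_
    show (1 : GL (Fin 2) ℝ) * mapGL ℝ (x : SL(2, ℤ)) = mapGL ℝ (x : SL(2, ℤ)) * 1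
    rw [one_mul, mul_one]
  have b1 : (betaPull N' q).hom A a (Additive.ofMul γ₁) = a (Additive.ofMul ⟨ε, hε⟩) :=
    hom_apply_unique (betaPull N' q) a h1
  have b2 : (betaPull N' q).hom A b (Additive.ofMul δ₁) = b (Additive.ofMul ⟨ε', hε'⟩) :=
    hom_apply_unique (betaPull N' q) b h2
  rw [a1, a1, b1, b2, add_comm]
  have h1' := diag_iff.1 h1
  have h2' := diag_iff.1 h2
  have hu : w.u * ε = (δ : SL(2, ℤ)) * w.u := by
    apply Subtype.ext
    rw [Matrix.SpecialLinearGroup.coe_mul, Matrix.SpecialLinearGroup.coe_mul]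
    refine mul_right_cancel_det (C := dM q) ?_ ?_
    · rw [dM, Matrix.det_fin_two_of]
      simpa using hq0
    · rw [mul_assoc, ← h1', ← mul_assoc, ← mat_eq_u, mul_assoc, ← mat_eq_u]
      exact hδ'
  have hv : w.v * (γ : SL(2, ℤ)) = ε' * w.v := by
    apply Subtype.ext
    rw [Matrix.SpecialLinearGroup.coe_mul, Matrix.SpecialLinearGroup.coe_mul]
    apply smul_right_injective _ hq0
    beta_reduce
    rw [← smul_mul_assoc, ← dM_mul_mat, mul_assoc, hδ', ← mul_assoc]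
    have h3 : dM q * ((δ : SL(2, ℤ)) : M2Z) = (ε' : M2Z) * dM q := h2'
    rw [h3, mul_assoc, dM_mul_mat, mul_smul_comm]
  congr 1
  · exact apply_conj b (u := ⟨w.v, w.v_mem⟩) (x := ⟨γ, Gamma0_mul_le N' q γ₁.2⟩) (y := ⟨ε', hε'⟩)
      (Subtype.ext hv)
  · exact apply_conj a (u := ⟨w.u, w.u_mem⟩) (x := ⟨ε, hε⟩)
      (y := ⟨(δ : SL(2, ℤ)), Gamma0_mul_le N' q δ₁.2⟩) (Subtype.ext hu)

end Deg

end Data

end ALM

end Fermat.Agent.LG
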