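import Fermat.Agent.LG.RT
import Fermat.Agent.LG.AL
import Fermat.Agent.LG.MFGal

/-!
# Shapiro's lemma at a level which is of type `χ` at one Taylor–Wiles prime
-/

set_option autoImplicit false
set_option linter.unusedSectionVars false

noncomputable section

namespace Fermat.Agent.LG.SH

open Fermat.Agent.TW
open Matrix.SpecialLinearGroup CongruenceSubgroup
open Fermat.Agent.HeckeHom (HData)
open scoped MatrixGroups

section Main

variable {D : Type} [CommGroup D] (W : TWD D) {q : ℕ} (hq : q ∈ W.Q)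

/-- `N ∏_{q' ≠ q} q'` -/
def eq' (W : TWD D) (q : ℕ) : ℕ := W.N * ∏ q' ∈ W.Q.erase q, q'

include hq in
theorem dd_eq : W.dd = (∏ q' ∈ W.Q.erase q, q') * q := by
  rw [mul_comm]
  exact (Finset.mul_prod_erase W.Q (fun q => q) hq).symm

/-- the level `N ∏_{q' ≠ q} q'²` -/
def N1 (W : TWD D) (q : ℕ) : ℕ := W.N * ∏ q' ∈ W.Q.erase q, q' ^ 2

include hq in
theorem N1_mul : N1 W q * q = eq' W q * W.dd := by
  rw [dd_eq W hq, N1, eq', Finset.prod_pow]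
  ring

theorem eq'_dvd {k : ℤ} (hN : (W.N : ℤ) ∣ k) (h : ∀ q' ∈ W.Q, q' ≠ q → (q' : ℤ) ∣ k) :
    (eq' W q : ℤ) ∣ k := by
  rw [eq', Nat.cast_mul, Nat.cast_prod]
  refine IsCoprime.mul_dvd ?_ hN ?_
  · refine IsCoprime.prod_right fun q' hq' => ?_
    exact Nat.isCoprime_iff_coprime.mpr (W.tws.coprime_N (Finset.mem_of_mem_erase hq'))
  · refine Finset.prod_dvd_of_coprime ?_ fun q' hq' => ?_
    · intro a ha b hb hne
      exact Nat.isCoprime_iff_coprime.mpr (W.tws.coprime_of_ne (Finset.mem_of_mem_erase hb)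
        (Finset.mem_of_mem_erase ha) hne)
    · exact h q' (Finset.mem_of_mem_erase hq') (Finset.ne_of_mem_erase hq')

theorem of_eq'_dvd {k : ℤ} (h : (eq' W q : ℤ) ∣ k) : (W.N : ℤ) ∣ k ∧
    ∀ q' ∈ W.Q, q' ≠ q → (q' : ℤ) ∣ k := by
  rw [eq', Nat.cast_mul] at h
  refine ⟨(dvd_mul_right _ _).trans h, fun q' hq' hne => ?_⟩
  refine (dvd_trans ?_ (dvd_mul_left _ _)).trans h
  exact_mod_cast Finset.dvd_prod_of_mem (fun q => q) (Finset.mem_erase.2 ⟨hne, hq'⟩)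

theorem of_dd_dvd {k : ℤ} (h : (W.dd : ℤ) ∣ k) : ∀ q' ∈ W.Q, (q' : ℤ) ∣ k := fun q' hq' =>
  dvd_trans (by exact_mod_cast Finset.dvd_prod_of_mem (fun q => q) hq') h

variable {n : ℕ} (hn : n = eq' W q * W.dd) {t : ℕ → LT} (ht : t q = .chi)
  (htor : ∀ q' ∈ W.Q, q' ≠ q → t q' = .tor)

include hn in
theorem dd_dvd_n : W.dd ∣ n := by
  rw [hn]
  exact dvd_mul_left _ _

include hq hn in
theorem q_dvd_n : q ∣ n := by
  refine dvd_trans ?_ (dd_dvd_n W hn)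
  exact Finset.dvd_prod_of_mem (fun q => q) hq

/-- conjugation by `diag(dd, 1)` -/
abbrev cjD : Gamma0 n →* SL(2, ℤ) := conjD n W.dd (dd_dvd_n W hn)

theorem cjD_10 (γ : Gamma0 n) : (eq' W q : ℤ) ∣ (cjD W hn γ : M2Z) 1 0 := by
  have hd0' : (W.dd : ℤ) ≠ 0 := by exact_mod_cast W.dd_ne_zero
  rw [conjD_10]
  obtain ⟨c, hc⟩ := dvd_10 γ
  rw [hc, hn, Nat.cast_mul, show (eq' W q : ℤ) * W.dd * c = (eq' W q * c) * W.dd by ring,
    Int.mul_ediv_cancel _ hd0']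
  exact dvd_mul_right _ _

theorem cjD_01 (γ : Gamma0 n) : (W.dd : ℤ) ∣ (cjD W hn γ : M2Z) 0 1 := by
  rw [conjD_01]
  exact dvd_mul_right _ _

include ht htor in
/-- action of `Γ₀(n)` on the base point -/
theorem cjD_smul (γ : Gamma0 n) {a d c : (ZMod q)ˣ} (ha : ((γ : SL(2, ℤ)) 0 0 : ZMod q) = a)
    (hd : ((γ : SL(2, ℤ)) 1 1 : ZMod q) = d) (hc : W.χ q (a / d) = W.χ q c) :
    (iM W.M (cjD W hn γ)).2 • W.pt t =
      rsm (W.K t) (kq W hq c) (kq_conj W hq t ht c) (W.pt t) := by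
  rw [← toGp_SL]
  obtain ⟨h1, h2⟩ := of_eq'_dvd W (cjD_10 W hn γ)
  refine toGp_smul_pt W hq t ht htor _ h1 h2 (of_dd_dvd W (cjD_01 W hn γ)) (r := a / d) ?_ hc
  rw [conjD_00, conjD_11]
  show (((γ : SL(2, ℤ)) 0 0 : ℤ) : ZMod q) = ((a / d : (ZMod q)ˣ) : ZMod q) *
    (((γ : SL(2, ℤ)) 1 1 : ℤ) : ZMod q)
  rw [ha, hd, ← Units.val_mul, div_mul_cancel]

omit hq in
theorem rsm_one (hk : ∀ x ∈ W.K t, (1 : GL (Fin 2) (ZMod W.M))⁻¹ * x * 1 ∈ W.K t) (y : W.Yt t) :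
    rsm (W.K t) 1 hk y = y := by
  induction y using QuotientGroup.induction_on with
  | H g => rw [rsm_mk, mul_one]

theorem rsm_kq_one (y : W.Yt t) :
    rsm (W.K t) (kq W hq 1) (kq_conj W hq t ht 1) y = y := by
  induction y using QuotientGroup.induction_on with
  | H g => rw [rsm_mk, kq_one, mul_one]

include hq hn in
theorem exists_unit (γ : Gamma0 n) : ∃ d : (ZMod q)ˣ, (((γ : SL(2, ℤ)) 1 1 : ℤ) : ZMod q) = d ∧
    (((γ : SL(2, ℤ)) 0 0 : ℤ) : ZMod q) = ((d⁻¹ : (ZMod q)ˣ) : ZMod q) := by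
  have h0 : (((γ : SL(2, ℤ)) 1 0 : ℤ) : ZMod q) = 0 := by
    rw [ZMod.intCast_zmod_eq_zero_iff_dvd]
    exact (Int.natCast_dvd_natCast.2 (q_dvd_n W hq hn)).trans (dvd_10 γ)
  have h1 := congrArg (Int.cast : ℤ → ZMod q) (Gamma0Comb.det_eq (γ : SL(2, ℤ)))
  push_cast at h1
  have h2 : (((γ : SL(2, ℤ)) 1 1 : ℤ) : ZMod q) * (((γ : SL(2, ℤ)) 0 0 : ℤ) : ZMod q) = 1 := by
    linear_combination h1 + (((γ : SL(2, ℤ)) 0 1 : ℤ) : ZMod q) * h0
  refine ⟨Units.mkOfMulEqOne _ _ h2, rfl, ?_⟩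
  rfl

variable {L : Type} [Field L] (ω : DirichletCharacter L q)
  (hω : ∀ c : (ZMod q)ˣ, ω (c : ZMod q) = 1 → W.χ q c = 1)

/-- the map `GH n ω → SL₂(ℤ)` -/
def kap : GH n ω →* SL(2, ℤ) := (cjD W hn).comp (Subgroup.inclusion (GH_le_gamma0 ω))

theorem kap_apply (γ : GH n ω) : kap W hn ω γ = cjD W hn ⟨γ, GH_le_gamma0 ω γ.2⟩ := rfl

include hq ht htor hω in
theorem kap_smul (γ : GH n ω) : (iM W.M (kap W hn ω γ)).2 • W.pt t = W.pt t := by
  obtain ⟨d, h1, h2⟩ := exists_unit W hq hn ⟨γ, GH_le_gamma0 ω γ.2⟩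
  have h3 : W.χ q d = 1 := by
    apply hω
    have h4 := ((mem_GH (q_dvd_n W hq hn) ω).1 γ.2).2
    rw [← h1]
    exact h4
  have h5 := cjD_smul W hq hn ht htor ⟨γ, GH_le_gamma0 ω γ.2⟩ (c := 1) h2 h1 (by
    rw [map_div, map_inv, h3, inv_one, one_div, inv_one, map_one])
  rw [rsm_kq_one W hq ht] at h5
  exact h5

variable (E : Type) [Field E] {m : ℕ} (hM : W.M ∣ m)

/-- the homomorphism attached to a class -/
def FH (v : (XF hM).H (funRep (M := W.M) E E (W.Yt t))) : Additive (GH n ω) →+ E :=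
  shap (R := E) (A := E) (W.pt t) (kap W hn ω) (kap_smul W hq hn ht htor ω hω) v

theorem FH_cl (c : Z1 ((XF hM).L.ι W.M) (funRep (M := W.M) E E (W.Yt t))) (γ : GH n ω) :
    FH W hq hn ht htor ω hω E hM ((XF hM).cl _ c) (Additive.ofMul γ) =
      c.1 (kap W hn ω γ) (W.pt t) := rfl

theorem FH_smul (e : E) (v : (XF hM).H (funRep (M := W.M) E E (W.Yt t))) :
    FH W hq hn ht htor ω hω E hM (e • v) =
      (AddMonoidHom.mulLeft e).comp (FH W hq hn ht htor ω hω E hM v) := by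
  obtain ⟨c, rfl⟩ := (XF hM).cl_surj _ v
  rfl

theorem FH_sub (v v' : (XF hM).H (funRep (M := W.M) E E (W.Yt t))) :
    FH W hq hn ht htor ω hω E hM (v - v') =
      FH W hq hn ht htor ω hω E hM v - FH W hq hn ht htor ω hω E hM v' :=
  map_sub (shap (R := E) (A := E) (W.pt t) (kap W hn ω) (kap_smul W hq hn ht htor ω hω)) v v'

/-! ### conjugation -/

theorem map_rtq_cl (c : (ZMod q)ˣ) (f : Z1 ((XF hM).L.ι W.M) (funRep (M := W.M) E E (W.Yt t))) :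
    (XF hM).map (rtq W hq E E t ht c) ((XF hM).cl _ f) =
      (XF hM).cl _ (Z1.map ((XF hM).L.ι W.M) (rtq W hq E E t ht c) f) := rfl

/-- conjugation by `Γ₀(n)` -/
theorem FH_conj (g : Gamma0 n) (hg : ∀ γ ∈ GH n ω, (g : SL(2, ℤ)) * γ * (g : SL(2, ℤ))⁻¹ ∈ GH n ω)
    {d : (ZMod q)ˣ} (hd : (((g : SL(2, ℤ)) 1 1 : ℤ) : ZMod q) = d)
    (v : (XF hM).H (funRep (M := W.M) E E (W.Yt t))) :
    conjH (g : SL(2, ℤ)) hg (FH W hq hn ht htor ω hω E hM v) =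
      FH W hq hn ht htor ω hω E hM ((XF hM).map (rtq W hq E E t ht (d * d)) v) := by
  obtain ⟨f, rfl⟩ := (XF hM).cl_surj _ v
  refine AddMonoidHom.ext fun γ' => ?_
  obtain ⟨γ, rfl⟩ := Additive.ofMul.surjective γ'
  rw [conjH_apply, map_rtq_cl, FH_cl, FH_cl, Z1.map_apply, rtq_apply]
  set k := cjD W hn g with hk
  set h := kap W hn ω γ with hh
  have e1 : kap W hn ω ⟨(g : SL(2, ℤ)) * γ * (g : SL(2, ℤ))⁻¹, hg γ γ.2⟩ = k * h * k⁻¹ := by
    rw [hk, hh, kap_apply, kap_apply, ← map_inv, ← map_mul, ← map_mul]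
    rfl
  rw [e1]
  -- `g⁻¹ • pt`
  have e2 : (iM W.M k).2⁻¹ • W.pt t = rsm (W.K t) (kq W hq (d * d)) (kq_conj W hq t ht (d * d))
      (W.pt t) := by
    obtain ⟨d', h1, h2⟩ := exists_unit W hq hn g
    have h3 : d' = d := Units.ext (h1.symm.trans hd)
    subst h3
    have h4 : (((g⁻¹ : Gamma0 n) : SL(2, ℤ)) 1 1 : ℤ) = (g : SL(2, ℤ)) 0 0 := ALM.inv_11 _
    have h5 : (((g⁻¹ : Gamma0 n) : SL(2, ℤ)) 0 0 : ℤ) = (g : SL(2, ℤ)) 1 1 := by
      rw [Subgroup.coe_inv, Matrix.SpecialLinearGroup.coe_inv, Matrix.adjugate_fin_two]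
      rfl
    have h6 := cjD_smul W hq hn ht htor g⁻¹ (a := d') (d := d'⁻¹) (c := d' * d')
      (by rw [h5, h1]) (by rw [h4, h2]) (by rw [div_inv_eq_mul])
    rw [map_inv, map_inv, Prod.snd_inv] at h6
    exact h6
  have e3 : (iM W.M h).2 • W.pt t = W.pt t := kap_smul W hq hn ht htor ω hω γ
  have e4 : (iM W.M h).2⁻¹ • (iM W.M k).2⁻¹ • W.pt t = (iM W.M k).2⁻¹ • W.pt t := by
    rw [inv_smul_eq_iff, e2, ← rsm_smul, e3]
  have a1 := Z1.fun_mul f (k * h) k⁻¹ (W.pt t)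
  have a2 := Z1.fun_mul f k h (W.pt t)
  have a3 := Z1.fun_mul f k k⁻¹ (W.pt t)
  have a4 : f.1 1 (W.pt t) = 0 := by
    rw [Z1.one]
    rfl
  rw [mul_inv_cancel, a4] at a3
  rw [map_mul, Prod.snd_mul, mul_inv_rev, mul_smul, e4, a2, e2] at a1
  rw [e2] at a3
  refine a1.trans ?_
  linear_combination -a3

/-! ### nonvanishing -/

include hq hn htor in
theorem FH_ne_zero [CharZero E] [NeZero q] {v : (XF hM).H (funRep (M := W.M) E E (W.Yt t))}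
    (hv : v ≠ 0) : FH W hq hn ht htor ω hω E hM v ≠ 0 := by
  intro h0
  apply hv
  -- the stabiliser
  let S : Subgroup SL(2, ℤ) :=
    { carrier := {g | (iM W.M g).2 • W.pt t = W.pt t}
      one_mem' := by
        show (iM W.M 1).2 • W.pt t = W.pt t
        rw [map_one, Prod.snd_one, one_smul]
      mul_mem' := fun {a b} ha hb => by
        show (iM W.M (a * b)).2 • W.pt t = W.pt t
        rw [map_mul, Prod.snd_mul, mul_smul, show (iM W.M b).2 • W.pt t = W.pt t from hb]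
        exact ha
      inv_mem' := fun {a} ha => by
        show (iM W.M a⁻¹).2 • W.pt t = W.pt t
        rw [map_inv, Prod.snd_inv, inv_smul_eq_iff]
        exact (show (iM W.M a).2 • W.pt t = W.pt t from ha).symm }
  have hfix : ∀ γ : S, (iM W.M (S.subtype γ)).2 • W.pt t = W.pt t := fun γ => γ.2
  have hinj := shap_injective (R := E) (A := E) (W.pt t) S.subtype hfix (W.trans t)
    (fun g hg => ⟨⟨g, hg⟩, rfl⟩)
  apply hinj
  refine Eq.trans ?_ (map_zero (shap (R := E) (A := E) (W.pt t) S.subtype hfix)).symm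
  refine AddMonoidHom.ext fun s' => ?_
  obtain ⟨s, rfl⟩ := Additive.ofMul.surjective s'
  -- `s` comes from `Γ₀(n)`
  have hs : (iM W.M (s : SL(2, ℤ))).2 ∈ W.K t := (W.smul_pt_iff t _).1 s.2
  have h1 : ∀ (k : ℕ) (hk : k ∣ W.M) i j, red hk (iM W.M (s : SL(2, ℤ))).2 i j =
      ((((s : SL(2, ℤ)) : M2Z) i j : ℤ) : ZMod k) := by
    intro k hk i j
    rw [red_apply]
    change ZMod.castHom hk (ZMod k) (((((s : SL(2, ℤ)) : M2Z) i j : ℤ) : ZMod W.M)) = _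
    rw [map_intCast]
  have h10 : (eq' W q : ℤ) ∣ ((s : SL(2, ℤ)) : M2Z) 1 0 := by
    refine eq'_dvd W ?_ fun q' hq' hne => ?_
    · have := mem_upB.mp hs.1
      rwa [h1, ZMod.intCast_zmod_eq_zero_iff_dvd] at this
    · have h2 := hs.2 q' hq'
      rw [htor q' hq' hne] at h2
      have := mem_upB.mp h2.2
      rwa [h1, ZMod.intCast_zmod_eq_zero_iff_dvd] at this
  have h01 : (W.dd : ℤ) ∣ ((s : SL(2, ℤ)) : M2Z) 0 1 := by
    refine W.dd_dvd fun q' hq' => ?_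
    have := mem_lowB.mp (Kloc_le _ _ (hs.2 q' hq'))
    rwa [h1, ZMod.intCast_zmod_eq_zero_iff_dvd] at this
  obtain ⟨γ, hγ⟩ := exists_conjD (dd_dvd_n W hn) W.dd_ne_zero hn (s : SL(2, ℤ)) h10 h01
  -- a power lies in `GH`
  have hqn := q_dvd_n W hq hn
  have hfin := finite_range_chiM hqn ω
  set k := Nat.card (chiM hqn ω).range with hk
  have hk0 : k ≠ 0 := Nat.card_pos.ne'
  have hmem : ((γ ^ k : Gamma0 n) : SL(2, ℤ)) ∈ GH n ω := by
    rw [← chiM_eq_one_iff hqn ω, map_pow]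
    have h2 : (⟨chiM hqn ω γ, ⟨γ, rfl⟩⟩ : (chiM hqn ω).range) ^ k = 1 := pow_card_eq_one'
    exact congrArg Subtype.val h2
  have h3 : FH W hq hn ht htor ω hω E hM v (Additive.ofMul ⟨_, hmem⟩) = 0 := by
    rw [h0]
    rfl
  obtain ⟨c, rfl⟩ := (XF hM).cl_surj _ v
  rw [FH_cl] at h3
  have h4 : kap W hn ω ⟨_, hmem⟩ = ((s ^ k : S) : SL(2, ℤ)) := by
    have h6 : kap W hn ω ⟨_, hmem⟩ = cjD W hn (γ ^ k) := rfl
    rw [h6, map_pow, hγ]
    rfl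
  rw [h4] at h3
  have h5 : shap (R := E) (A := E) (W.pt t) S.subtype hfix ((XF hM).cl _ c)
      (Additive.ofMul (s ^ k)) = 0 := h3
  rw [ofMul_pow, map_nsmul] at h5
  rw [AddMonoidHom.zero_apply]
  exact (smul_eq_zero.1 h5).resolve_left hk0

/-! ### Hecke operators -/

variable {l : ℕ} [hl : Fact l.Prime]

/-- conjugates of the representatives -/
def AS (σ : SL(2, ℤ)) (hσ : σ ∈ Gamma0 n) (x : OnePoint (ZMod l)) : M2Z :=
  (cjD W hn ⟨sx σ x, sx_mem hσ x⟩ : M2Z) * aD W.dd l x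

theorem dD_mul_S (σ : SL(2, ℤ)) (hσ : σ ∈ Gamma0 n) (x : OnePoint (ZMod l)) :
    dD W.dd * (((sx σ x : SL(2, ℤ)) : M2Z) * bI l x) = AS W hn σ hσ x * dD W.dd := by
  rw [AS, mul_assoc, ← dD_mul_bI, ← mul_assoc, ← mul_assoc, ← dD_mul (dd_dvd_n W hn)]

theorem det_AS (σ : SL(2, ℤ)) (hσ : σ ∈ Gamma0 n) (x : OnePoint (ZMod l)) :
    (AS W hn σ hσ x).det = l := by
  rw [AS, Matrix.det_mul, det_aD, Matrix.SpecialLinearGroup.det_coe, one_mul]

theorem isGd_AS (σ : SL(2, ℤ)) (hσ : σ ∈ Gamma0 n) (hlM : l.Coprime W.M)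
    (x : OnePoint (ZMod l)) : IsGd W.M (AS W hn σ hσ x) :=
  (isGd_SL W.M _).mul (isGd_aD W.dd hl.out hlM x)

include ht htor in
theorem AS_smul (σ : SL(2, ℤ)) (hσ : σ ∈ Gamma0 n) (hlM : l.Coprime W.M) {c : (ZMod q)ˣ}
    (hc : (c : ZMod q) = l) (hσl : (q : ℤ) ∣ σ 1 1 - l) (x : OnePoint (ZMod l)) :
    (toGp W.M (AS W hn σ hσ x) (isGd_AS W hn σ hσ hlM x)).2 • W.pt t =
      rsm (W.K t) (kq W hq c⁻¹) (kq_conj W hq t ht c⁻¹) (W.pt t) := by
  have hσ1 : ((σ 1 1 : ℤ) : ZMod q) = c := by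
    have h1 := (ZMod.intCast_zmod_eq_zero_iff_dvd _ _).2 hσl
    push_cast at h1
    rw [hc]
    exact sub_eq_zero.1 h1
  obtain ⟨d', h1, h2⟩ := exists_unit W hq hn ⟨σ, hσ⟩
  have h3 : d' = c := Units.ext (h1.symm.trans hσ1)
  subst h3
  have hN : ∀ (k : ℤ), k ∣ (cjD W hn ⟨sx σ x, sx_mem hσ x⟩ : M2Z) 1 0 →
      k ∣ (AS W hn σ hσ x) 1 0 := by
    intro k hk
    rw [AS, Matrix.mul_apply, Fin.sum_univ_two]
    induction x using OnePoint.rec with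
    | infty =>
      rw [aD_infty]
      simpa using hk.mul_right _
    | coe j =>
      rw [aD_coe]
      simpa using hk
  obtain ⟨g1, g2⟩ := of_eq'_dvd W (cjD_10 W hn ⟨sx σ x, sx_mem hσ x⟩)
  have g3 := cjD_01 W hn ⟨sx σ x, sx_mem hσ x⟩
  have hd : (W.dd : ℤ) ∣ (AS W hn σ hσ x) 0 1 := by
    rw [AS, Matrix.mul_apply, Fin.sum_univ_two]
    refine dvd_add ?_ (g3.mul_right _)
    refine Dvd.dvd.mul_left ?_ _
    induction x using OnePoint.rec with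
    | infty =>
      rw [aD_infty]
      exact dvd_zero _
    | coe j =>
      rw [aD_coe]
      show (W.dd : ℤ) ∣ (W.dd : ℤ) * (j.val : ℤ)
      exact dvd_mul_right _ _
  refine toGp_smul_pt W hq t ht htor _ (hN _ g1) (fun q' hq' hne => hN _ (g2 q' hq' hne))
    (of_dd_dvd W hd) (r := d'⁻¹) ?_ rfl
  have hq01 : (((cjD W hn ⟨sx σ x, sx_mem hσ x⟩ : M2Z) 0 1 : ℤ) : ZMod q) = 0 :=
    (ZMod.intCast_zmod_eq_zero_iff_dvd _ _).2 (of_dd_dvd W g3 q hq)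
  rw [AS, Matrix.mul_apply, Fin.sum_univ_two, Matrix.mul_apply, Fin.sum_univ_two]
  push_cast
  rw [hq01, zero_mul, add_zero]
  induction x using OnePoint.rec with
  | infty =>
    rw [aD_infty]
    have e0 : (((cjD W hn ⟨sx σ (OnePoint.infty : OnePoint (ZMod l)), sx_mem hσ _⟩ : M2Z) 0 0 : ℤ) :
        ZMod q) = ((d'⁻¹ : (ZMod q)ˣ) : ZMod q) := h2
    have e1 : (((cjD W hn ⟨sx σ (OnePoint.infty : OnePoint (ZMod l)), sx_mem hσ _⟩ : M2Z) 1 1 : ℤ) :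
        ZMod q) = d' := h1
    rw [e0, e1]
    simp [← hc]
  | coe j =>
    rw [aD_coe]
    have hdq : ((W.dd : ℕ) : ZMod q) = 0 := by
      rw [ZMod.natCast_eq_zero_iff]
      exact Finset.dvd_prod_of_mem (fun q => q) hq
    have e0 : (cjD W hn ⟨sx σ (j : OnePoint (ZMod l)), sx_mem hσ _⟩ : M2Z) 0 0 = 1 := rfl
    have e1 : (cjD W hn ⟨sx σ (j : OnePoint (ZMod l)), sx_mem hσ _⟩ : M2Z) 1 1 = 1 := rfl
    rw [e0, e1]
    simp only [Matrix.of_apply, Matrix.cons_val', Matrix.cons_val_zero, Matrix.cons_val_one,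
      Matrix.cons_val_fin_one, Int.cast_one, Int.cast_mul, Int.cast_natCast, mul_one, one_mul, hdq,
      zero_mul, mul_zero, zero_add]
    rw [← hc, ← Units.val_mul, inv_mul_cancel, Units.val_one]

theorem S_spec {ω : DirichletCharacter L q} (hΓ : IsCong (GH n ω) n q) (hln : ¬ l ∣ n) (σ : SL(2, ℤ))
    (hσ : σ ∈ Gamma0 n) (hql : IsCoprime (q : ℤ) (l : ℤ)) (hσl : (q : ℤ) ∣ σ 1 1 - l)
    (γ : GH n ω) (x : OnePoint (ZMod l)) :
    (((sx σ x : SL(2, ℤ)) : M2Z) * bI l x) * ((γ : SL(2, ℤ)) : M2Z) =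
      (((tdataG hΓ hln σ hσ hql hσl).H.coc γ x : SL(2, ℤ)) : M2Z) *
      (((sx σ ((tdataG hΓ hln σ hσ hql hσl).H.actFun γ x) : SL(2, ℤ)) : M2Z) *
        bI l ((tdataG hΓ hln σ hσ hql hσl).H.actFun γ x)) := by
  have h := (tdataG hΓ hln σ hσ hql hσl).H.spec γ x
  have h1 := congrArg (fun z : GL (Fin 2) ℝ => (z : Matrix (Fin 2) (Fin 2) ℝ)) h
  beta_reduce at h1
  change ((repS σ x : GL (Fin 2) ℝ) * _ : GL (Fin 2) ℝ).1 = (_ * repS σ _ : GL (Fin 2) ℝ).1 at h1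
  rw [Units.val_mul, Units.val_mul, ALM.mapGL_val, ALM.mapGL_val] at h1
  erw [ALM.repS_eq_map, ALM.repS_eq_map] at h1
  rw [← ALM.map_mul', ← ALM.map_mul'] at h1
  exact ALM.map_inj h1

/-- **Hecke operators** -/
theorem FH_T (hΓ : IsCong (GH n ω) n q) (l : Pr m) [Fact (l : ℕ).Prime] (hln : ¬ (l : ℕ) ∣ n) (σ : SL(2, ℤ))
    (hσ : σ ∈ Gamma0 n) (hql : IsCoprime (q : ℤ) ((l : ℕ) : ℤ))
    (hσl : (q : ℤ) ∣ σ 1 1 - ((l : ℕ) : ℤ)) {c : (ZMod q)ˣ} (hc : (c : ZMod q) = (l : ℕ))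
    (v : (XF hM).H (funRep (M := W.M) E E (W.Yt t))) :
    FH W hq hn ht htor ω hω E hM ((XF hM).T _ l v) =
      (tdataG hΓ hln σ hσ hql hσl).H.hom E
        (FH W hq hn ht htor ω hω E hM ((XF hM).map (rtq W hq E E t ht c⁻¹) v)) := by
  obtain ⟨f, rfl⟩ := (XF hM).cl_surj _ v
  refine AddMonoidHom.ext fun γ' => ?_
  obtain ⟨γ, rfl⟩ := Additive.ofMul.surjective γ'
  have hlM := l.coprime hM
  set D' := (tdataG hΓ hln σ hσ hql hσl).H with hD'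
  rw [HData.hom_apply, map_rtq_cl, Stg.T_cl, FH_cl]
  set D₀ := (XF hM).corrT l with hD₀
  have hdl : ¬ (l : ℕ) ∣ W.dd := fun h => hln (h.trans (dd_dvd_n W hn))
  obtain ⟨e, he⟩ := exists_aD_eq hdl
  choose h hh using he
  have hrel : ∀ z : OnePoint (ZMod (l : ℕ)), AS W hn σ hσ z * (kap W hn ω γ : M2Z) =
      (kap W hn ω (D'.coc γ z) : M2Z) * AS W hn σ hσ (D'.actFun γ z) := by
    intro z
    apply mul_right_cancel_det (C := dD W.dd)
    · rw [det_dD]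
      exact_mod_cast W.dd_ne_zero
    · have e1 : (kap W hn ω γ : M2Z) * dD W.dd = dD W.dd * ((γ : SL(2, ℤ)) : M2Z) :=
        (dD_mul (dd_dvd_n W hn) ⟨γ, GH_le_gamma0 ω γ.2⟩).symm
      have e2 : (kap W hn ω (D'.coc γ z) : M2Z) * dD W.dd =
          dD W.dd * ((D'.coc γ z : SL(2, ℤ)) : M2Z) :=
        (dD_mul (dd_dvd_n W hn) ⟨D'.coc γ z, GH_le_gamma0 ω (D'.coc γ z).2⟩).symm
      rw [mul_assoc, e1, ← mul_assoc, ← dD_mul_S, mul_assoc, S_spec hΓ hln σ hσ hql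
        hσl γ z, ← mul_assoc, ← e2, mul_assoc, mul_assoc, dD_mul_S]
  have key := D₀.compare f (fun z : OnePoint (ZMod (l : ℕ)) =>
      toGp W.M (AS W hn σ hσ z) (isGd_AS W hn σ hσ hlM z))
    (kap W hn ω γ) (fun z => D'.actFun γ z) (D'.perm γ).bijective
    (fun z => kap W hn ω (D'.coc γ z)) (fun z => by
      change toGp W.M (AS W hn σ hσ z) _ * iM W.M (kap W hn ω γ) = iM W.M _ * toGp W.M _ _
      rw [← toGp_SL, ← toGp_mul, ← toGp_SL, ← toGp_mul]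
      exact toGp_congr (hrel z) _ _) e (fun z => cjD W hn ⟨sx σ z, sx_mem hσ z⟩ * h z) (fun z => by
      refine (toGp_eq_iff (hA := isGd_AS W hn σ hσ hlM z)
        (hB := isGd_bI l.2.1 hlM (e z))).mpr ?_
      rw [AS, hh, Matrix.SpecialLinearGroup.coe_mul, mul_assoc])
  have key2 := congrFun key (W.pt t)
  rw [Finset.sum_apply] at key2
  have h1 : ∀ z : OnePoint (ZMod (l : ℕ)), (funRep (M := W.M) E E (W.Yt t)
      (toGp W.M (AS W hn σ hσ z) (isGd_AS W hn σ hσ hlM z))⁻¹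
        (f.1 (kap W hn ω (D'.coc γ z)))) (W.pt t) =
      f.1 (kap W hn ω (D'.coc γ z)) (rsm (W.K t) (kq W hq c⁻¹) (kq_conj W hq t ht c⁻¹)
        (W.pt t)) := by
    intro z
    rw [funRep_apply, Prod.snd_inv, inv_inv, AS_smul W hq hn ht htor σ hσ hlM hc hσl]
  rw [Finset.sum_congr rfl fun z _ => h1 z] at key2
  have h2 : ∀ v : W.Yt t → E, funRep (M := W.M) E E (W.Yt t)
      ((XF hM).L.ι W.M (kap W hn ω γ)) v (W.pt t) = v (W.pt t) := by
    intro v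
    rw [funRep_apply]
    change v ((iM W.M (kap W hn ω γ)).2⁻¹ • W.pt t) = v (W.pt t)
    rw [inv_smul_eq_iff.mpr (kap_smul W hq hn ht htor ω hω γ).symm]
  rw [Pi.add_apply, Pi.sub_apply, h2, sub_self, add_zero] at key2
  have h3 : (((D₀.zmap (funRep (M := W.M) E E (W.Yt t))) f).1 (kap W hn ω γ)) (W.pt t) =
      (∑ z : OnePoint (ZMod (l : ℕ)), funRep (M := W.M) E E (W.Yt t) (D₀.α (e z))⁻¹
        (f.1 (D₀.coc (kap W hn ω γ) (e z)))) (W.pt t) := by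
    rw [Corr.zmap_apply]
    exact congrFun (Equiv.sum_comp e fun z => funRep (M := W.M) E E (W.Yt t) (D₀.α z)⁻¹
      (f.1 (D₀.coc (kap W hn ω γ) z))).symm (W.pt t)
  refine h3.trans (key2.symm.trans ?_)
  rfl

/-! ### parabolicity -/

include hq hn ht htor in
theorem FH_parabolic [CharZero E] (l : Pr m) (hl : ((l : ℕ) : ZMod W.M) = 1)
    (x : (XF hM).H (funRep (M := W.M) E E (W.Yt t))) :
    ModularCurve.Period.IsParabolicHom (GH n ω)
      (FH W hq hn ht htor ω hω E hM ((XF hM).T _ l x - ((l : ℕ) + 1) • x)) := by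
  obtain ⟨c, rfl⟩ := (XF hM).cl_surj _ x
  rw [Stg.T_cl, ← map_nsmul, ← map_sub]
  intro γ hγ
  set κ := kap W hn ω with hκ
  set c' := ((XF hM).corrT l).zmap (funRep (M := W.M) E E (W.Yt t)) c - ((l : ℕ) + 1) • c with hc'
  have htr : ((κ γ : SL(2, ℤ)) : M2Z).trace ^ 2 = 4 := by
    rw [← hγ, Matrix.trace_fin_two, Matrix.trace_fin_two]
    rfl
  obtain ⟨g, k, hgk⟩ := exists_sq_eq (κ γ) htr
  have hpow : κ (γ ^ (2 * ((l : ℕ) * W.M))) =
      g * ModularGroup.T ^ (((l : ℕ) : ℤ) * (W.M * k)) * g⁻¹ := by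
    rw [pow_mul, map_pow, map_pow, hgk]
    have h1 : (g * ModularGroup.T ^ k * g⁻¹) ^ ((l : ℕ) * W.M) =
        g * (ModularGroup.T ^ k) ^ ((l : ℕ) * W.M) * g⁻¹ := by
      have := (MulAut.conj g).toMonoidHom.map_pow (ModularGroup.T ^ k) ((l : ℕ) * W.M)
      exact this.symm
    rw [h1, ← zpow_natCast, ← zpow_mul]
    congr 3
    push_cast
    ring
  have hne : 2 * ((l : ℕ) * W.M) ≠ 0 := mul_ne_zero two_ne_zero
    (mul_ne_zero l.2.1.ne_zero W.tws.modu_ne_zero)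
  have h3 : (2 * ((l : ℕ) * W.M)) • FH W hq hn ht htor ω hω E hM ((XF hM).cl _ c')
      (Additive.ofMul γ) = 0 := by
    rw [← map_nsmul, ← ofMul_pow, FH_cl, hpow]
    have h2 := zmap_conj c infl_funRep l.2.1 (l.coprime hM) hl (dvd_mul_right (W.M : ℤ) k) g
    change (((XF hM).corrT l).zmap (funRep (M := W.M) E E (W.Yt t)) c).1 _ (W.pt t) -
      (((l : ℕ) + 1) • c).1 _ (W.pt t) = 0
    rw [sub_eq_zero]
    exact congrFun h2 (W.pt t)
  exact (smul_eq_zero.1 h3).resolve_left hne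

include hq hn in
theorem conj_mem_GH' {g : SL(2, ℤ)} (hg : g ∈ Gamma0 n) {γ : SL(2, ℤ)} (hγ : γ ∈ GH n ω) :
    g * γ * g⁻¹ ∈ GH n ω := by
  have hqn := q_dvd_n W hq hn
  have h1 : chiM hqn ω (⟨g, hg⟩ * ⟨γ, GH_le_gamma0 ω hγ⟩ * ⟨g, hg⟩⁻¹) = 1 := by
    have h2 : chiM hqn ω ⟨γ, GH_le_gamma0 ω hγ⟩ = 1 := (chiM_eq_one_iff hqn ω _).2 hγ
    rw [map_mul, map_mul, map_inv, h2, mul_one, mul_inv_cancel]
  exact (chiM_eq_one_iff hqn ω _).1 h1

/-! ### characters -/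

section Eta

variable {v : (XF hM).H (funRep (M := W.M) E E (W.Yt t))} {η : (ZMod q)ˣ → E}

omit [Fact l.Prime] in
theorem map_rtq_mul (c c' : (ZMod q)ˣ) (v : (XF hM).H (funRep (M := W.M) E E (W.Yt t))) :
    (XF hM).map (rtq W hq E E t ht (c * c')) v =
      (XF hM).map (rtq W hq E E t ht c) ((XF hM).map (rtq W hq E E t ht c') v) := by
  obtain ⟨f, rfl⟩ := (XF hM).cl_surj _ v
  rw [map_rtq_cl, map_rtq_cl, map_rtq_cl]
  congr 1
  ext g y
  rw [Z1.map_apply, Z1.map_apply, Z1.map_apply, rtq_apply, rtq_apply, rtq_apply]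
  induction y using QuotientGroup.induction_on with
  | H x =>
    rw [rsm_mk, rsm_mk, rsm_mk, kq_mul, mul_assoc]

theorem map_rtq_one (v : (XF hM).H (funRep (M := W.M) E E (W.Yt t))) :
    (XF hM).map (rtq W hq E E t ht 1) v = v := by
  obtain ⟨f, rfl⟩ := (XF hM).cl_surj _ v
  rw [map_rtq_cl]
  congr 1
  ext g y
  rw [Z1.map_apply, rtq_apply, rsm_kq_one W hq ht]

theorem map_rtq_smul (c : (ZMod q)ˣ) (e : E)
    (v : (XF hM).H (funRep (M := W.M) E E (W.Yt t))) :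
    (XF hM).map (rtq W hq E E t ht c) (e • v) = e • (XF hM).map (rtq W hq E E t ht c) v :=
  (H1.map ((XF hM).L.ι W.M) (rtq W hq E E t ht c)).map_smul e v

theorem smul_right_inj' (hv : v ≠ 0) {a b : E} (h : a • v = b • v) : a = b := by
  by_contra hne
  apply hv
  have h1 : (a - b) • v = 0 := by rw [sub_smul, h, sub_self]
  have h2 : (a - b)⁻¹ • (a - b) • v = 0 := by rw [h1, smul_zero]
  rwa [← mul_smul, inv_mul_cancel₀ (sub_ne_zero.2 hne), one_smul] at h2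

variable (hη : ∀ c, (XF hM).map (rtq W hq E E t ht c) v = η c • v)

include hη in
theorem eta_mul (hv : v ≠ 0) (c c' : (ZMod q)ˣ) : η (c * c') = η c * η c' := by
  apply smul_right_inj' W E hM hv
  rw [← hη, map_rtq_mul, hη, map_rtq_smul, hη, ← mul_smul, mul_comm]

include hη in
theorem eta_one (hv : v ≠ 0) : η 1 = 1 := by
  apply smul_right_inj' W E hM hv
  rw [← hη, map_rtq_one, one_smul]

end Eta

include hq hn ht htor hω in
/-- **The homomorphism attached to an eigenvector.** -/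
theorem exists_FH [CharZero E] [NeZero q] (h2 : 2 ∣ n)
    {v : (XF hM).H (funRep (M := W.M) E E (W.Yt t))} (hv : v ≠ 0) {τ : Pr m → E}
    (hT : ∀ l, (XF hM).T _ l v = τ l • v) {η : (ZMod q)ˣ → E}
    (hη : ∀ c, (XF hM).map (rtq W hq E E t ht c) v = η c • v)
    (l₀ : Pr m) (hl₀ : ((l₀ : ℕ) : ZMod W.M) = 1) (hl₀' : τ l₀ ≠ (l₀ : ℕ) + 1)
    (hΓ : IsCong (GH n ω) n q) (hnorm : ∀ g ∈ Gamma0 n, ∀ γ ∈ GH n ω, g * γ * g⁻¹ ∈ GH n ω) :
    ∃ F : Additive (GH n ω) →+ E, F ≠ 0 ∧ F ∈ PE (GH n ω) E ∧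
      (∀ (g : SL(2, ℤ)) (hg : g ∈ Gamma0 n) (d : (ZMod q)ˣ), ((g 1 1 : ℤ) : ZMod q) = d →
        conjH g (hnorm g hg) F = (AddMonoidHom.mulLeft (η d * η d)).comp F) ∧
      (∀ (l : Pr m) [Fact (l : ℕ).Prime] (hln : ¬ (l : ℕ) ∣ n) (σ : SL(2, ℤ))
        (hσ : σ ∈ Gamma0 n) (hql : IsCoprime (q : ℤ) ((l : ℕ) : ℤ))
        (hσl : (q : ℤ) ∣ σ 1 1 - ((l : ℕ) : ℤ)) (c : (ZMod q)ˣ), (c : ZMod q) = (l : ℕ) →
        (tdataG hΓ hln σ hσ hql hσl).H.hom E F = (AddMonoidHom.mulLeft (η c * τ l)).comp F) := by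
  refine ⟨FH W hq hn ht htor ω hω E hM v, FH_ne_zero W hq hn ht htor ω hω E hM hv, ?_, ?_, ?_⟩
  · refine mem_PE_of_parabolic h2 (GH_le_gamma0 ω) (fun a ha => ?_) fun γ hγ => ?_
    · exact (smul_eq_zero.1 ha).resolve_left (by norm_num)
    · have h3 := FH_parabolic W hq hn ht htor ω hω E hM l₀ hl₀ v γ hγ
      have h4 : (XF hM).T _ l₀ v - ((l₀ : ℕ) + 1) • v = (τ l₀ - ((l₀ : ℕ) + 1)) • v := by
        rw [hT, sub_smul, ← Nat.cast_smul_eq_nsmul E]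
        push_cast
        rfl
      rw [h4, FH_smul] at h3
      exact (mul_eq_zero.1 h3).resolve_left (sub_ne_zero.2 hl₀')
  · intro g hg d hd
    have h3 := FH_conj W hq hn ht htor ω hω E hM ⟨g, hg⟩ (hnorm g hg) hd v
    rw [hη, FH_smul, eta_mul W hq ht E hM hη hv] at h3
    exact h3
  · intro l _ hln σ hσ hql hσl c hc
    have h3 := FH_T W hq hn ht htor ω hω E hM hΓ l hln σ hσ hql hσl hc v
    rw [hT, hη, FH_smul, FH_smul, HData.hom_comp] at h3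
    have h4 : η c * η c⁻¹ = 1 := by
      rw [← eta_mul W hq ht E hM hη hv, mul_inv_cancel, eta_one W hq ht E hM hη hv]
    refine AddMonoidHom.ext fun γ => ?_
    have h5 := DFunLike.congr_fun h3 γ
    set G := (tdataG hΓ hln σ hσ hql hσl).H.hom E (FH W hq hn ht htor ω hω E hM v) γ with hG
    change τ l * FH W hq hn ht htor ω hω E hM v γ = η c⁻¹ * G at h5
    change G = η c * τ l * FH W hq hn ht htor ω hω E hM v γ
    rw [mul_assoc, h5, ← mul_assoc, h4, one_mul]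

end Main

end Fermat.Agent.LG.SH

end
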