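import Fermat.Agent.LG.FromTWa
import Fermat.Agent.LG.FromTWb

/-!
# From eigenvectors of Taylor–Wiles level to homomorphisms on `GH M ω`
-/

set_option autoImplicit false
set_option linter.unusedSectionVars false

noncomputable section

namespace Fermat.Agent.LG

open Fermat.Agent.TW
open Matrix.SpecialLinearGroup CongruenceSubgroup
open Fermat.Agent.HeckeHom (HData)
open scoped MatrixGroups

open Classical in
/-- **Eigenvectors of Taylor–Wiles level give homomorphisms on `GH M' ω`.** -/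
theorem exists_fromTW {D : Type} [CommGroup D] [Fintype D] (W : TWD D) {m : ℕ} (hM : W.M ∣ m)
    {E : Type} [Field E] [CharZero E] [IsAlgClosed E]
    (v : (XF hM).H (funRep (M := W.M) E E W.YQ)) (hv : v ≠ 0) (τ : Pr m → E)
    (hτ : ∀ l, (XF hM).T _ l v = τ l • v) (ψ : (W.Q → D) → E)
    (hψ : ∀ δ, (XF hM).map (actC W.M E E W.YQ δ) v = ψ δ • v)
    {q : ℕ} (hq : q ∈ W.Q) {L : Type} [Field L] (ω : DirichletCharacter L q)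
    (hω : ∀ c : (ZMod q)ˣ, ω (c : ZMod q) = 1 → W.χ q c = 1)
    (l₀ : Pr m) (hl₀ : ((l₀ : ℕ) : ZMod W.M) = 1) (hl₀' : τ l₀ ≠ (l₀ : ℕ) + 1)
    {n : ℕ} (hn : n = W.N * (∏ q' ∈ W.Q.erase q, q' ^ 2) * q) (h2 : 2 ∣ n)
    (hΓ : IsCong (GH n ω) n q) (hnorm : ∀ g ∈ Gamma0 n, ∀ γ ∈ GH n ω, g * γ * g⁻¹ ∈ GH n ω) :
    (∀ c c', ψ (Pi.mulSingle ⟨q, hq⟩ (W.χ q (c * c'))) =
      ψ (Pi.mulSingle ⟨q, hq⟩ (W.χ q c)) * ψ (Pi.mulSingle ⟨q, hq⟩ (W.χ q c'))) ∧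
    ψ (Pi.mulSingle ⟨q, hq⟩ (W.χ q 1)) = 1 ∧
    ∃ F : Additive (GH n ω) →+ E, F ≠ 0 ∧ F ∈ PE (GH n ω) E ∧
      (∀ (g : SL(2, ℤ)) (hg : g ∈ Gamma0 n) (d : (ZMod q)ˣ), ((g 1 1 : ℤ) : ZMod q) = d →
        conjH g (hnorm g hg) F = (AddMonoidHom.mulLeft
          (ψ (Pi.mulSingle ⟨q, hq⟩ (W.χ q d⁻¹)) * ψ (Pi.mulSingle ⟨q, hq⟩ (W.χ q d⁻¹)))).comp F) ∧
      (∀ (l : Pr m) [Fact (l : ℕ).Prime] (hln : ¬ (l : ℕ) ∣ n) (σ : SL(2, ℤ))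
        (hσ : σ ∈ Gamma0 n) (hql : IsCoprime (q : ℤ) ((l : ℕ) : ℤ))
        (hσl : (q : ℤ) ∣ σ 1 1 - ((l : ℕ) : ℤ)) (c : (ZMod q)ˣ), (c : ZMod q) = (l : ℕ) →
        (tdataG hΓ hln σ hσ hql hσl).H.hom E F =
          (AddMonoidHom.mulLeft (ψ (Pi.mulSingle ⟨q, hq⟩ (W.χ q c⁻¹)) * τ l)).comp F) := by
  have hq0 : NeZero q := ⟨(W.tws.prime q hq).ne_zero⟩
  have hn' : n = SH.eq' W q * W.dd := hn.trans (SH.N1_mul W hq)
  obtain ⟨v', hv', hT', hd'⟩ := exists_diaTW W hM v hv τ hτ ψ hψ hq l₀ hl₀ hl₀'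
  have ht : tq q q = .chi := if_pos rfl
  have htor : ∀ q' ∈ W.Q, q' ≠ q → tq q q' = .tor := fun q' _ hne => if_neg hne
  have hη : ∀ c, (XF hM).map (SH.rtq W hq E E (tq q) ht c) v' =
      ψ (Pi.mulSingle ⟨q, hq⟩ (W.χ q c⁻¹)) • v' := by
    intro c
    rw [← hd' c⁻¹]
    refine map_congr' (XF hM) _ _ (fun F => ?_) v'
    funext y
    induction y using QuotientGroup.induction_on with
    | H g =>
      rw [diaC_mk, inv_inv, SH.rtq_apply, SH.rsm_mk]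
      rfl
  have e1 := SH.eta_mul W hq ht E hM hη hv'
  have e2 := SH.eta_one W hq ht E hM hη hv'
  refine ⟨fun c c' => ?_, ?_, ?_⟩
  · have := e1 c'⁻¹ c⁻¹
    rw [mul_inv_rev, inv_inv, inv_inv] at this
    rw [this, mul_comm]
  · rw [inv_one] at e2
    exact e2
  · exact SH.exists_FH W hq hn' ht htor ω hω E hM h2 hv' hT' hη l₀ hl₀ hl₀' hΓ hnorm

end Fermat.Agent.LG

end
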