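import Fermat.Agent.LG.LowerQ

/-!
# Lowering the level of residual eigenclasses: the theorem [HOM-4]
-/

set_option autoImplicit false
set_option linter.unusedSectionVars false
set_option linter.style.haveILetI false

noncomputable section

namespace Fermat.Agent.LG.LowerQ

open IsLocalRing Module Matrix Fermat.Agent.DefRing Fermat.Agent.TWDeg Fermat.Agent.TW
open CongruenceSubgroup Fermat.Agent.LG.BaseW0 Fermat.Agent.LG.LowerRed
open ModularCurve.Period Fermat.Agent.HeckeHom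

section Loc

variable {B N₁ N₂ : Type} [CommRing B] [AddCommGroup N₁] [Module B N₁] [AddCommGroup N₂]
  [Module B N₂] (𝔪 : Ideal B) [𝔪.IsPrime]

theorem up_mk (D : DegData B N₁ N₂) (a b : N₁) :
    (D.loc 𝔪).up (Loc.mk 𝔪 N₁ a, Loc.mk 𝔪 N₁ b) = Loc.mk 𝔪 N₂ (D.up (a, b)) := by
  rw [DegData.up_apply, DegData.up_apply, map_add]
  have h1 : ∀ x, (D.loc 𝔪).I (Loc.mk 𝔪 N₁ x) = Loc.mk 𝔪 N₂ (D.I x) := fun x => Loc.map_mk 𝔪 _ _
  have h2 : ∀ x, (D.loc 𝔪).W (Loc.mk 𝔪 N₂ x) = Loc.mk 𝔪 N₂ (D.W x) := fun x => Loc.map_mk 𝔪 _ _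
  rw [h1, h1, h2]

theorem T_mk (D : DegData B N₁ N₂) (a : N₁) :
    (D.loc 𝔪).T (Loc.mk 𝔪 N₁ a) = Loc.mk 𝔪 N₁ (D.T a) := Loc.map_mk 𝔪 _ _

end Loc

section Cls

variable {m n : ℕ} (hn : n ∣ m) {O : Type} [CommRing O] [IsLocalRing O]

theorem triv_one (A : Type) [AddCommGroup A] [Module O A] (g : Gp 1) : triv 1 O A g = 1 := rfl

/-- the homomorphism attached to a class -/
def hom (x : HK m n hn O) : Additive (Gamma0 n) →+ ResidueField O :=
  TwHom.toHom (ι := (Lvl.gamma0 n).ι 1) (triv_one (O := O) (ResidueField O)) x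

/-- the class of a homomorphism -/
def cls (F : Additive (Gamma0 n) →+ ResidueField O) : HK m n hn O :=
  TwHom.ofHom (ι := (Lvl.gamma0 n).ι 1) (triv_one (O := O) (ResidueField O)) F

theorem hom_cls (F : Additive (Gamma0 n) →+ ResidueField O) : hom hn (cls hn F) = F := rfl

theorem cls_hom (x : HK m n hn O) : cls hn (hom hn x) = x :=
  TwHom.ofHom_toHom (ι := (Lvl.gamma0 n).ι 1) (triv_one (O := O) (ResidueField O)) x

theorem hom_injective : Function.Injective (hom hn (O := O)) :=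
  TwHom.toHom_injective (ι := (Lvl.gamma0 n).ι 1) (triv_one (O := O) (ResidueField O))

theorem hom_zero : hom hn (0 : HK m n hn O) = 0 :=
  map_zero (TwHom.toHom (ι := (Lvl.gamma0 n).ι 1) (triv_one (O := O) (ResidueField O)))

theorem hom_add (x y : HK m n hn O) : hom hn (x + y) = hom hn x + hom hn y :=
  map_add (TwHom.toHom (ι := (Lvl.gamma0 n).ι 1) (triv_one (O := O) (ResidueField O))) x y

theorem hom_smul (a : O) (x : HK m n hn O) : hom hn (a • x) = residue O a • hom hn x := by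
  refine (map_smul (TwHom.toHom (ι := (Lvl.gamma0 n).ι 1)
    (triv_one (O := O) (ResidueField O))) a x).trans ?_
  refine AddMonoidHom.ext fun g => ?_
  change a • hom hn x g = residue O a • hom hn x g
  rw [Algebra.smul_def, smul_eq_mul]
  rfl

theorem hom_T (l : Pr m) (x : HK m n hn O) :
    hom hn ((MvPolynomial.X l : TPoly m O) • x) =
      heckeHom l.2.1 (fun h => l.2.2 (h.trans hn)) (ResidueField O) (hom hn x) := by
  rw [Stg.X_smul, ← hom_dataT]
  exact TwHom.toHom_corrT (triv_one (O := O) (ResidueField O)) l.2.1 _ _ _ x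

variable (c : Pr m → ResidueField O)

/-- evaluation at an eigensystem -/
def ev : TPoly m O →+* ResidueField O := MvPolynomial.eval₂Hom (residue O) c

theorem ev_C (a : O) : ev c (MvPolynomial.C a) = residue O a := MvPolynomial.eval₂Hom_C _ _ _

theorem ev_X (l : Pr m) : ev c (MvPolynomial.X l) = c l := MvPolynomial.eval₂Hom_X' _ _ _

theorem ev_surjective : Function.Surjective (ev (O := O) c) := fun x => by
  obtain ⟨a, rfl⟩ := residue_surjective x
  exact ⟨_, ev_C c a⟩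

instance isMaximal_ker : (RingHom.ker (ev (O := O) c)).IsMaximal :=
  RingHom.ker_isMaximal_of_surjective _ (ev_surjective c)

theorem hom_poly {x : HK m n hn O}
    (hx : ∀ l : Pr m, heckeHom l.2.1 (fun h => l.2.2 (h.trans hn)) (ResidueField O) (hom hn x) =
      c l • hom hn x) (P : TPoly m O) : hom hn (P • x) = ev c P • hom hn x := by
  induction P using MvPolynomial.induction_on with
  | C a => rw [Stg.C_smul, hom_smul, ev_C]
  | add P Q hP hQ => rw [add_smul, hom_add, hP, hQ, map_add, add_smul]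
  | mul_X P l hP =>
    rw [mul_comm, mul_smul, hom_T, hP, heckeHom_smul, hx, map_mul, ev_X, smul_smul, mul_comm]

theorem kill_of_eig {x : HK m n hn O}
    (hx : ∀ l : Pr m, heckeHom l.2.1 (fun h => l.2.2 (h.trans hn)) (ResidueField O) (hom hn x) =
      c l • hom hn x) (P : TPoly m O) (hP : P ∈ RingHom.ker (ev (O := O) c)) : P • x = 0 := by
  apply hom_injective hn
  rw [hom_poly hn c hx, hom_zero, RingHom.mem_ker.mp hP, zero_smul]

theorem eig_of_kill {x : HK m n hn O}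
    (hx : ∀ P ∈ RingHom.ker (ev (O := O) c), P • x = 0) (l : Pr m) :
    heckeHom l.2.1 (fun h => l.2.2 (h.trans hn)) (ResidueField O) (hom hn x) =
      c l • hom hn x := by
  obtain ⟨o, ho⟩ := residue_surjective (R := O) (c l)
  have h1 := hx (MvPolynomial.X l - MvPolynomial.C o) (by
    rw [RingHom.mem_ker, map_sub, ev_X, ev_C, ho, sub_self])
  rw [sub_smul, sub_eq_zero] at h1
  rw [← hom_T, h1, Stg.C_smul, hom_smul, ho]

instance finite_HK [NeZero n] [Finite (ResidueField O)] : Finite (HK m n hn O) := by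
  obtain ⟨S, hS⟩ := (inferInstance : AddGroup.FG (Additive (Gamma0 n))).out
  let f : HK m n hn O → (S → ResidueField O) := fun x s => hom hn x s
  refine Finite.of_injective f fun x y h => hom_injective hn ?_
  refine AddMonoidHom.eq_of_eqOn_dense hS fun s hs => ?_
  exact congrFun h ⟨s, hs⟩

end Cls

section Par

variable {m n : ℕ} [NeZero n] (hn : n ∣ m) {O : Type} [CommRing O] [IsDomain O] [CharZero O]
  [IsDiscreteValuationRing O] [IsAdicComplete (maximalIdeal O) O] [Finite (ResidueField O)]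

/-- non-Eisenstein eigenclasses are parabolic -/
theorem par_of_eig (h2 : 2 ∣ n) (hO : IsUnit (2 : O)) {l₀ : ℕ} (hl₀ : l₀.Prime)
    (hln : ¬ l₀ ∣ n) (hl₀n : (l₀ : ZMod n) = 1) (y : HK m n hn O) {t : ResidueField O}
    (h1 : heckeHom hl₀ hln (ResidueField O) (hom hn y) = t • hom hn y)
    (hne₀ : t ≠ (l₀ : ResidueField O) + 1) :
    hom hn y ∈ parabolicHoms (ResidueField O) (Gamma0 n) (ResidueField O) := by
  obtain ⟨z, rfl⟩ := rd_surjective (m := m) hn h2 hO y
  let F : Additive (Gamma0 n) →+ O := TwHom.toHom (ι := (Lvl.gamma0 n).ι 1)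
    (triv_one (O := O) O) z
  have h3 : hom hn (rd m n hn O z) = ((residue O : O →+* ResidueField O) : O →+
      ResidueField O).comp F := by
    refine AddMonoidHom.ext fun g => ?_
    exact TwHom.toHom_coef (triv_one (O := O) O) (triv_one (O := O) (ResidueField O)) _ z _
  have h4 := hecke_sub_par (R := ℤ) (NeZero.ne n) (A := O) (fun k a hk ha => by
    rw [nsmul_eq_mul] at ha
    exact (mul_eq_zero.mp ha).resolve_left (Nat.cast_ne_zero.mpr hk)) hl₀ hln hl₀n F
  have h5 : (t - ((l₀ : ResidueField O) + 1)) • hom hn (rd m n hn O z) ∈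
      parabolicHoms (ResidueField O) (Gamma0 n) (ResidueField O) := by
    intro γ hγ
    have h6 := h4 γ hγ
    have h7 := congrArg (residue O) h6
    have h8 := DFunLike.congr_fun h1 (Additive.ofMul γ)
    rw [h3, heckeHom_comp] at h8
    rw [h3, sub_smul]
    change t • _ - ((l₀ : ResidueField O) + 1) • residue O (F (Additive.ofMul γ)) = 0
    have h9 : t • ((((residue O : O →+* ResidueField O) : O →+
      ResidueField O).comp F) (Additive.ofMul γ)) =
      residue O (heckeHom hl₀ hln O F (Additive.ofMul γ)) := h8.symm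
    rw [h9, smul_eq_mul, ← map_natCast (residue O), ← map_one (residue O), ← map_add, ← map_mul,
      ← map_sub]
    have h10 : (heckeHom hl₀ hln O F - (l₀ + 1) • F) (Additive.ofMul γ) =
        heckeHom hl₀ hln O F (Additive.ofMul γ) - ((l₀ : O) + 1) * F (Additive.ofMul γ) := by
      rw [AddMonoidHom.sub_apply]
      congr 1
      change (l₀ + 1) • F (Additive.ofMul γ) = _
      rw [nsmul_eq_mul]
      push_cast
      rfl
    rw [← h10, h7, map_zero]
  have h6 := (parabolicHoms (ResidueField O) (Gamma0 n) (ResidueField O)).smul_mem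
    (t - ((l₀ : ResidueField O) + 1))⁻¹ h5
  rwa [smul_smul, inv_mul_cancel₀ (sub_ne_zero.mpr hne₀), one_smul] at h6

end Par

section DGs

variable {n q m : ℕ} [NeZero n] [NeZero q] (hq : q.Prime) (hqn : ¬ q ∣ n) (hn : n ∣ m)
  (hnq : n * q ∣ m) {O : Type} [CommRing O] [IsLocalRing O]

/-- the operator `T_q` -/
theorem hom_DT (y : HK m n hn O) : hom hn ((DG hq hqn hn hnq O (ResidueField O)).T y) =
    heckeHom hq hqn (ResidueField O) (hom hn y) := by
  rw [← hom_dataT]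
  exact TwHom.toHom_corrT (triv_one (O := O) (ResidueField O)) hq _ _ _ y

/-- the degeneracy map -/
theorem hom_Dup (a b : HK m n hn O) :
    hom hnq ((DG hq hqn hn hnq O (ResidueField O)).up (a, b)) =
      (TorsCmp.alphaPull n q).hom _ (hom hn a) + (TorsCmp.betaPull n q).hom _ (hom hn b) := by
  rw [DegData.up_apply, hom_add]
  congr 1
  · exact TwHom.toHom_cI (triv_one (O := O) (ResidueField O)) a
  · have h3 : (DG hq hqn hn hnq O (ResidueField O)).W ((DG hq hqn hn hnq O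
        (ResidueField O)).I b) = (cD hq n (Nat.coprime_one_right q)).map _ b :=
      W_I _ hq (copr hq hqn) (Nat.coprime_one_right q) b
    rw [h3]
    exact TwHom.toHom_cD (triv_one (O := O) (ResidueField O)) hq _ b

end DGs

section Gen

variable {B N₁ N₂ : Type} [CommRing B] [AddCommGroup N₁] [Module B N₁] [AddCommGroup N₂]
  [Module B N₂] (𝔪 : Ideal B) [𝔪.IsMaximal] (D : DegData B N₁ N₂)

theorem T_eig {P c : B} (hTP : ∀ x, (D.loc 𝔪).T x = P • x) (hP : P - c ∈ 𝔪) (y : N₁)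
    (hy : ∀ P ∈ 𝔪, P • y = 0) : D.T y = c • y := by
  rw [← sub_eq_zero]
  refine eq_zero_of_kill 𝔪 ?_ fun P' hP' => ?_
  · rw [map_sub, sub_eq_zero]
    have h3 : Loc.mk 𝔪 _ (D.T y) = (D.loc 𝔪).T (Loc.mk 𝔪 _ y) := (T_mk 𝔪 D y).symm
    rw [h3, hTP, ← map_smul]
    congr 1
    rw [← sub_eq_zero, ← sub_smul]
    exact hy _ hP
  · rw [smul_sub, ← map_smul, hy P' hP', map_zero, smul_comm, hy P' hP', smul_zero, sub_zero]

theorem lift_up [Finite N₁] (hmk : Function.Surjective (Loc.mk 𝔪 N₁))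
    (hup : Function.Bijective (D.loc 𝔪).up) (x : N₂) (hx : ∀ P ∈ 𝔪, P • x = 0) :
    ∃ a b : N₁, (∀ P ∈ 𝔪, P • a = 0) ∧ (∀ P ∈ 𝔪, P • b = 0) ∧ x = D.up (a, b) := by
  obtain ⟨⟨a₁, b₁⟩, hab⟩ := hup.2 (Loc.mk 𝔪 _ x)
  have hk : ∀ P ∈ 𝔪, P • a₁ = 0 ∧ P • b₁ = 0 := by
    intro P hP
    have h1 : (D.loc 𝔪).up (P • (a₁, b₁)) = 0 := by
      rw [map_smul, hab, ← map_smul, hx P hP, map_zero]
    have h2 := hup.1 (h1.trans (map_zero _).symm)
    exact ⟨congrArg Prod.fst h2, congrArg Prod.snd h2⟩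
  obtain ⟨a, rfl, ha⟩ := exists_lift_kill 𝔪 hmk a₁ fun P hP => (hk P hP).1
  obtain ⟨b, rfl, hb⟩ := exists_lift_kill 𝔪 hmk b₁ fun P hP => (hk P hP).2
  refine ⟨a, b, ha, hb, ?_⟩
  rw [← sub_eq_zero]
  refine eq_zero_of_kill 𝔪 ?_ fun P hP => ?_
  · rw [map_sub, sub_eq_zero, ← hab]
    exact up_mk 𝔪 D a b
  · rw [smul_sub, hx P hP, ← map_smul]
    have h3 : P • (a, b) = (0 : N₁ × N₁) := Prod.ext (ha P hP) (hb P hP)
    rw [h3, map_zero, sub_zero]

end Gen

section Main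

variable {p n q m : ℕ} [Fact p.Prime] [NeZero n] (hq : q.Prime) (hqn : ¬ q ∣ n) [NeZero q]
  (hm : m ≠ 0) (hpm : p ∣ m) (hqp : q ≠ p) (hnq : n * q ∣ m)
  {O : Type} [CommRing O] [IsDomain O]
  [IsDiscreteValuationRing O] [IsAdicComplete (maximalIdeal O) O] [Finite (ResidueField O)]
  [CharZero O] (hpO : (p : O) ∈ maximalIdeal O) {rbar : GQ →* M2 (ResidueField O)}
  (sd : SliceData rbar) (hspan : Submodule.span (ResidueField O) (Set.range rbar) = ⊤)
  (hrbar : ∃ L : IntermediateField ℚ (AlgebraicClosure ℚ), FiniteDimensional ℚ L ∧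
      ∀ σ : GQ, (∀ x ∈ L, σ x = x) → rbar σ = 1)
  {B : ValuationSubring (AlgebraicClosure ℚ)} (hB : B.LiesOverPrime q) {τ : GQ}
  (hτ : B.IsFrobeniusAt τ q) (hne : (rbar τ).trace ^ 2 ≠ ((q : ResidueField O) + 1) ^ 2)

theorem isUnit_two (hp2 : p ≠ 2) (hpO : (p : O) ∈ maximalIdeal O) : IsUnit (2 : O) := by
  by_contra h
  have h1 : (2 : O) ∈ maximalIdeal O := h
  have h2 : p.Coprime 2 := (Nat.coprime_primes Fact.out Nat.prime_two).mpr hp2
  have h3 : (1 : O) ∈ maximalIdeal O := by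
    have h4 := Nat.gcd_eq_gcd_ab p 2
    rw [h2] at h4
    have h5 : (1 : O) = p * ((p.gcdA 2 : ℤ) : O) + 2 * ((p.gcdB 2 : ℤ) : O) := by
      have := congrArg (Int.cast : ℤ → O) h4
      push_cast at this
      exact this
    rw [h5]
    exact Ideal.add_mem _ (Ideal.mul_mem_right _ _ hpO) (Ideal.mul_mem_right _ _ h1)
  exact (Ideal.ne_top_iff_one _).mp (inferInstance : (maximalIdeal O).IsMaximal).ne_top h3

include hm hpm hqp hnq hpO sd hspan hrbar hB hτ hne in
/-- **[HOM-4]** Residual eigenclasses of level `N' q` come from level `N'`, if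
`(tr ρ̄(φ_q))² ≠ (q+1)²`. -/
theorem exists_lower (hp2 : p ≠ 2) (h2 : 2 ∣ n)
    (Eb : Additive (Gamma0 (n * q)) →+ ResidueField O)
    (hT : ∀ (l : ℕ) (hl : l.Prime) (hln : ¬ l ∣ n * q), ¬ l ∣ m →
      ∀ B : ValuationSubring (AlgebraicClosure ℚ), B.LiesOverPrime l → ∀ σ : GQ,
        B.IsFrobeniusAt σ l → heckeHom hl hln (ResidueField O) Eb = (rbar σ).trace • Eb)
    {l₀ : ℕ} (hl₀ : l₀.Prime) (hl₀m : ¬ l₀ ∣ m) (hl₀1 : (l₀ : ZMod (n * q)) = 1)
    {B₀ : ValuationSubring (AlgebraicClosure ℚ)} (hB₀ : B₀.LiesOverPrime l₀) {τ₀ : GQ}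
    (hτ₀ : B₀.IsFrobeniusAt τ₀ l₀) (hne₀ : (rbar τ₀).trace ≠ (l₀ : ResidueField O) + 1) :
    ∃ a b : Additive (Gamma0 n) →+ ResidueField O,
      a ∈ parabolicHoms (ResidueField O) (Gamma0 n) (ResidueField O) ∧
      b ∈ parabolicHoms (ResidueField O) (Gamma0 n) (ResidueField O) ∧
      Eb = (TorsCmp.alphaPull n q).hom _ a + (TorsCmp.betaPull n q).hom _ b ∧
      (∀ (l : ℕ) (hl : l.Prime) (hln : ¬ l ∣ n), ¬ l ∣ m →
        ∀ B : ValuationSubring (AlgebraicClosure ℚ), B.LiesOverPrime l → ∀ σ : GQ,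
        B.IsFrobeniusAt σ l → heckeHom hl hln (ResidueField O) a = (rbar σ).trace • a ∧
          heckeHom hl hln (ResidueField O) b = (rbar σ).trace • b) ∧
      heckeHom hq hqn (ResidueField O) a = (rbar τ).trace • a ∧
      heckeHom hq hqn (ResidueField O) b = (rbar τ).trace • b := by
  classical
  have hn : n ∣ m := (dvd_mul_right n q).trans hnq
  have hnq0 : NeZero (n * q) := ⟨mul_ne_zero (NeZero.ne n) hq.ne_zero⟩
  rcases eq_or_ne Eb 0 with rfl | hEb
  · refine ⟨0, 0, zero_mem _, zero_mem _, by rw [map_zero, map_zero, add_zero], ?_, ?_, ?_⟩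
    · intro l hl hln hlm B hB σ hσ
      rw [map_zero, smul_zero]
      exact ⟨rfl, rfl⟩
    · rw [map_zero, smul_zero]
    · rw [map_zero, smul_zero]
  have hO := isUnit_two hp2 hpO
  -- the eigensystem
  have hex : ∀ l : Pr m, ∃ (B : ValuationSubring (AlgebraicClosure ℚ)) (_ : B.LiesOverPrime l)
      (σ : GQ), B.IsFrobeniusAt σ l := fun l => by
    obtain ⟨B, hB, σ, hσ⟩ := Frob.exists_liesOverPrime_isFrobeniusAt
      (L := AlgebraicClosure ℚ) l.2.1
    exact ⟨B, hB, σ, hσ⟩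
  choose BB hBB σσ hσσ using hex
  let c : Pr m → ResidueField O := fun l => (rbar (σσ l)).trace
  have hc : ∀ (l : Pr m) (B : ValuationSubring (AlgebraicClosure ℚ)), B.LiesOverPrime l →
      ∀ σ : GQ, B.IsFrobeniusAt σ l → (rbar σ).trace = c l := by
    intro l B hB σ hσ
    have hln : ¬ (l : ℕ) ∣ n * q := fun h => l.2.2 (h.trans hnq)
    have h1 := hT l l.2.1 hln l.2.2 B hB σ hσ
    rw [hT l l.2.1 hln l.2.2 _ (hBB l) _ (hσσ l)] at h1
    have h2 : ((rbar (σσ l)).trace - (rbar σ).trace) • Eb = 0 := by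
      rw [sub_smul, h1, sub_self]
    rcases smul_eq_zero.mp h2 with h3 | h3
    · exact (sub_eq_zero.mp h3).symm
    · exact absurd h3 hEb
  set 𝔪 : Ideal (TPoly m O) := RingHom.ker (ev (O := O) c) with h𝔪def
  have h𝔪 : ResId rbar 𝔪 := by
    refine ⟨fun a ha => ?_, fun l B hB σ hσ o ho => ?_⟩
    · rw [RingHom.mem_ker, ev_C]
      exact (residue_eq_zero_iff a).mpr ha
    · rw [RingHom.mem_ker, map_sub, ev_X, ev_C, ho, hc l B hB σ hσ, sub_self]
  have hE : NonEis (n * q) 𝔪 := by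
    refine ⟨⟨l₀, hl₀, hl₀m⟩, hl₀1, fun h => hne₀ ?_⟩
    have h1 : ev c (eis O ⟨l₀, hl₀, hl₀m⟩) = 0 := h
    have h2 : ev c (eis O ⟨l₀, hl₀, hl₀m⟩) = c ⟨l₀, hl₀, hl₀m⟩ - ((l₀ : ResidueField O) + 1) := by
      change ev c (MvPolynomial.X _ - MvPolynomial.C _) = _
      rw [map_sub, ev_X, ev_C, map_add, map_natCast, map_one]
    rw [h2, sub_eq_zero] at h1
    rw [← h1]
    exact hc ⟨l₀, hl₀, hl₀m⟩ B₀ hB₀ τ₀ hτ₀
  obtain ⟨hup, P, hP, hTP⟩ := up_bij hq hqn hm hpm hqp hn hnq hpO sd hspan hrbar h𝔪 hE hB hτ hne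
    h2 hO
  -- the class
  set x : HK m (n * q) hnq O := cls hnq Eb with hx
  have hxk : ∀ P ∈ 𝔪, P • x = 0 := fun P hP => kill_of_eig hnq c (fun l => by
    rw [hx, hom_cls]
    exact hT l l.2.1 _ l.2.2 _ (hBB l) _ (hσσ l)) P hP
  have hfinn : Module.Finite O (HK m n hn O) := inferInstance
  obtain ⟨a, b, ha, hb, hxab⟩ := lift_up 𝔪 (DG hq hqn hn hnq O (ResidueField O))
    (Loc.mk_surjective 𝔪) hup x hxk
  -- Eigen-properties
  have heig : ∀ y : HK m n hn O, (∀ P ∈ 𝔪, P • y = 0) → ∀ (l : ℕ) (hl : l.Prime)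
      (hln : ¬ l ∣ n), ¬ l ∣ m → ∀ B : ValuationSubring (AlgebraicClosure ℚ),
      B.LiesOverPrime l → ∀ σ : GQ, B.IsFrobeniusAt σ l →
        heckeHom hl hln (ResidueField O) (hom hn y) = (rbar σ).trace • hom hn y := by
    intro y hy l hl hln hlm B hB σ hσ
    rw [hc ⟨l, hl, hlm⟩ B hB σ hσ]
    exact eig_of_kill hn c hy ⟨l, hl, hlm⟩
  have hTq : ∀ y : HK m n hn O, (∀ P ∈ 𝔪, P • y = 0) →
      heckeHom hq hqn (ResidueField O) (hom hn y) = (rbar τ).trace • hom hn y := by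
    intro y hy
    obtain ⟨o, ho⟩ := residue_surjective (R := O) (rbar τ).trace
    have h1 := T_eig 𝔪 (DG hq hqn hn hnq O (ResidueField O)) hTP (hP o ho) y hy
    rw [← hom_DT hq hqn hn hnq, h1, Stg.C_smul, hom_smul, ho]
  have hpar : ∀ y : HK m n hn O, (∀ P ∈ 𝔪, P • y = 0) →
      hom hn y ∈ parabolicHoms (ResidueField O) (Gamma0 n) (ResidueField O) := fun y hy =>
    par_of_eig hn h2 hO hl₀ (fun h => hl₀m (h.trans hn)) (by
      have h4 := congrArg (ZMod.castHom (dvd_mul_right n q) (ZMod n)) hl₀1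
      rwa [map_natCast, map_one] at h4) y (heig y hy l₀ hl₀ (fun h => hl₀m (h.trans hn)) hl₀m B₀
        hB₀ τ₀ hτ₀) hne₀
  refine ⟨hom hn a, hom hn b, hpar a ha, hpar b hb, ?_, fun l hl hln hlm B hB σ hσ =>
    ⟨heig a ha l hl hln hlm B hB σ hσ, heig b hb l hl hln hlm B hB σ hσ⟩, hTq a ha, hTq b hb⟩
  have h1 := congrArg (hom hnq) hxab
  rw [hx, hom_cls] at h1
  rw [h1, hom_Dup]

end Main

end Fermat.Agent.LG.LowerQ
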