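import Fermat.Agent.LG.Core
import Fermat.Agent.LG.AsmA
import Fermat.Agent.LG.AsmB
import Fermat.Agent.LG.BCRes
import Fermat.Agent.LG.LowerQ2
import Fermat.Agent.LG.FromTW
import Fermat.Agent.TW.ThetaTW

/-!
# Local-global compatibility at the Taylor-Wiles primes
-/

set_option autoImplicit false
set_option linter.unusedSectionVars false
set_option linter.style.haveILetI false

noncomputable section

namespace Fermat.Agent.LG

open IsLocalRing Matrix Fermat.Agent.DefRing Fermat.Agent.TW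
open Matrix.SpecialLinearGroup CongruenceSubgroup ModularCurve
open scoped MatrixGroups

section Gen

variable {A B : Type} [CommRing A] [IsLocalRing A] [CommRing B] [IsLocalRing B] (f : A →+* B)

theorem map_pow_max (hf : ∀ a ∈ maximalIdeal A, f a ∈ maximalIdeal B) (n : ℕ) {a : A}
    (ha : a ∈ maximalIdeal A ^ n) : f a ∈ maximalIdeal B ^ n := by
  have h1 : (maximalIdeal A).map f ≤ maximalIdeal B := Ideal.map_le_iff_le_comap.2 hf
  have h2 : f a ∈ (maximalIdeal A ^ n).map f := Ideal.mem_map_of_mem f ha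
  rw [Ideal.map_pow] at h2
  exact Ideal.pow_right_mono h1 n h2

theorem matCont_map (hf : ∀ a ∈ maximalIdeal A, f a ∈ maximalIdeal B) {r : GQ →* M2 A}
    (hr : MatCont A r) : MatCont B (mapRep f r) := by
  intro n
  obtain ⟨L, hL, h⟩ := hr n
  refine ⟨L, hL, fun σ hσ i j => ?_⟩
  have h1 := map_pow_max f hf n (h σ hσ i j)
  have h2 : (mapRep f r σ - 1) i j = f ((r σ - 1) i j) := by
    rw [Matrix.sub_apply, Matrix.sub_apply, map_sub]
    congr 1
    by_cases hij : i = j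
    · rw [hij, one_apply_eq, one_apply_eq, map_one]
    · rw [one_apply_ne hij, one_apply_ne hij, map_zero]
  rw [h2]
  exact h1

theorem mem_max_of_local [Algebra A B] [IsLocalHom (algebraMap A B)] (a : A)
    (ha : a ∈ maximalIdeal A) : algebraMap A B a ∈ maximalIdeal B := by
  rw [mem_maximalIdeal, mem_nonunits_iff] at ha ⊢
  exact fun h => ha (isUnit_of_map_unit (algebraMap A B) a h)

theorem mapRep_trace {A B : Type} [CommRing A] [CommRing B] (f : A →+* B) (r : GQ →* M2 A)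
    (σ : GQ) : (mapRep f r σ).trace = f (r σ).trace := by
  rw [trace_fin_two, trace_fin_two, map_add]
  rfl

/-- roots of unity of `p`-power order are `≡ 1` -/
theorem sub_one_mem_of_pow {p s : ℕ} [hp : Fact p.Prime] (hpA : (p : A) ∈ maximalIdeal A) {x : A}
    (hx : x ^ p ^ s = 1) : x - 1 ∈ maximalIdeal A := by
  haveI := charP_res (O := A) hpA
  haveI : ExpChar (ResidueField A) p := ExpChar.prime hp.out
  rw [← residue_eq_zero_iff, map_sub, map_one]
  have h1 : (residue A x - 1) ^ p ^ s = 0 := by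
    rw [sub_pow_expChar_pow, one_pow, ← map_pow, hx, map_one, sub_self]
  exact pow_eq_zero_iff (pow_ne_zero s hp.out.ne_zero) |>.1 h1

end Gen

section Char

variable {q : ℕ} {E O : Type} [Field E] [CommRing O] {ι : O →+* E} (hι : Function.Injective ι)
  {η : (ZMod q)ˣ → E} (h1 : η 1 = 1) (hmul : ∀ c c', η (c * c') = η c * η c')
  (hex : ∀ c, ∃ y, ι y = η c)

include hι h1 hmul hex in
/-- the integral character -/
theorem exists_char : ∃ R : MulChar (ZMod q) O, ∀ c : (ZMod q)ˣ, ι (R c) = η c⁻¹ := by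
  choose y hy using hex
  have y1 : y 1 = 1 := hι (by rw [hy, h1, map_one])
  have ym : ∀ c c', y (c * c') = y c * y c' := fun c c' => hι (by
    rw [hy, hmul, map_mul, hy, hy])
  let f : (ZMod q)ˣ →* Oˣ :=
    { toFun := fun c => ⟨y c⁻¹, y c, by rw [← ym, inv_mul_cancel, y1],
        by rw [← ym, mul_inv_cancel, y1]⟩
      map_one' := Units.ext (by
        show y 1⁻¹ = 1
        rw [inv_one, y1])
      map_mul' := fun c c' => Units.ext (by
        show y (c * c')⁻¹ = y c⁻¹ * y c'⁻¹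
        rw [mul_inv, ym]) }
  refine ⟨MulChar.ofUnitHom f, fun c => ?_⟩
  rw [MulChar.ofUnitHom_coe]
  exact hy _

end Char

section Main

variable {D : Type} [CommGroup D] [Fintype D] (W : TWD D) {m : ℕ} (hm : m ≠ 0) (hM : W.M ∣ m)
  {p : ℕ} [hp : Fact p.Prime] (hp2 : p ≠ 2) (hpm : p ∣ m)
  {O : Type} [CommRing O] [IsLocalRing O] (hpO : (p : O) ∈ maximalIdeal O)
  {rbar : GQ →* M2 (ResidueField O)}
  (hspan : Submodule.span (ResidueField O) (Set.range rbar) = ⊤)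
  (hrbar : ∃ L : IntermediateField ℚ (AlgebraicClosure ℚ), FiniteDimensional ℚ L ∧
      ∀ σ : GQ, (∀ x ∈ L, σ x = x) → rbar σ = 1)
  (h2 : 2 ∣ W.N) {s₀ : ℕ} (hD : ∀ d : D, d ^ p ^ s₀ = 1)
  (hE : ∀ M : ℕ, M ≠ 0 → ∃ l₀ : ℕ, l₀.Prime ∧ ¬ l₀ ∣ m ∧ ((l₀ : ℕ) : ZMod M) = 1 ∧
      ∀ B : ValuationSubring (AlgebraicClosure ℚ), B.LiesOverPrime l₀ →
        ∀ Φ : GQ, B.IsFrobeniusAt Φ l₀ → (rbar Φ).trace ≠ (l₀ : ResidueField O) + 1)
  (hq1 : ∀ q ∈ W.Q, ∃ r₀ : ℕ, q = 1 + p * r₀)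
  (hne : ∀ q ∈ W.Q, ∃ (B : ValuationSubring (AlgebraicClosure ℚ)) (τ : GQ), B.LiesOverPrime q ∧
    B.IsFrobeniusAt τ q ∧ (rbar τ).trace ^ 2 ≠ ((q : ResidueField O) + 1) ^ 2)
  (E : Type) [Field E] [IsAlgClosed E]

include hm hp2 hpm hpO hspan hrbar h2 hD hE hq1 hne in
/-- **Local–global compatibility at the Taylor–Wiles primes** -/
theorem lgHyp : LGHyp W hM rbar E := by
  classical
  intro O' _ _ _ _ _ _ _ _ _ ι hι r hcont hred v hv hT ψ hψ q B hB s hs ζ hζ c hc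
  haveI hqF : Fact (q : ℕ).Prime := ⟨W.tws.prime _ q.2⟩
  haveI : NeZero (q : ℕ) := ⟨hqF.out.ne_zero⟩
  haveI hE0 : CharZero E := charZero_of_injective_ringHom hι
  haveI hN0 : NeZero (W.N * ∏ q' ∈ W.Q.erase q, q' ^ 2) := ⟨mul_ne_zero W.tws.pos
    (Finset.prod_ne_zero_iff.2 fun q' hq' =>
      pow_ne_zero 2 (W.tws.prime q' (Finset.mem_of_mem_erase hq')).ne_zero)⟩
  set N := W.N * ∏ q' ∈ W.Q.erase q, q' ^ 2 with hN
  have h2N : 2 ∣ N := h2.mul_right _
  have hqN : ¬ (q : ℕ) ∣ N := by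
    rw [hN, hqF.out.dvd_mul, not_or]
    refine ⟨W.tws.ndvd _ q.2, ?_⟩
    rw [hqF.out.prime.dvd_finsetProd_iff]
    rintro ⟨q', hq', h⟩
    have h1 := hqF.out.dvd_of_dvd_pow h
    rw [Nat.prime_dvd_prime_iff_eq hqF.out (W.tws.prime q' (Finset.mem_of_mem_erase hq'))] at h1
    exact Finset.ne_of_mem_erase hq' h1.symm
  obtain ⟨r₀, hr₀⟩ := hq1 q q.2
  have hqp : (q : ℕ) ≠ p := by
    intro h
    rcases Nat.eq_zero_or_pos r₀ with h0 | h0
    · rw [h0, mul_zero, add_zero] at hr₀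
      exact hqF.out.one_lt.ne' hr₀
    · have h3 := Nat.le_mul_of_pos_right p h0
      omega
  -- the character
  obtain ⟨ω, hω1, hω2, hω3⟩ := exists_omega (p := p) (s := s₀) hp2 (W.χ q) hD
  have hqM : (q : ℕ) ∣ N * q := dvd_mul_left _ _
  -- eigenvalues
  choose! Al hAl Φl hΦl using fun (l : ℕ) (hl : l.Prime) =>
    Frob.exists_liesOverPrime_isFrobeniusAt (L := AlgebraicClosure ℚ) hl
  let τ : Pr m → E := fun l => ι (r (Φl l)).trace
  have hτ : ∀ l, (XF hM).T _ l v = τ l • v := fun l =>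
    (hT l (Al l) (hAl l l.2.1) (Φl l) (hΦl l l.2.1)).1
  have hτu : ∀ (l : Pr m) (B : ValuationSubring (AlgebraicClosure ℚ)), B.LiesOverPrime l →
      ∀ Φ : GQ, B.IsFrobeniusAt Φ l → ι (r Φ).trace = τ l := by
    intro l B hB Φ hΦ
    have h1 := (hT l B hB Φ hΦ).1
    rw [hτ l, ← sub_eq_zero, ← sub_smul, smul_eq_zero, sub_eq_zero] at h1
    exact (h1.resolve_right hv).symm
  -- the auxiliary prime
  obtain ⟨l₀, hl₀, hl₀m, hl₀1, hl₀t⟩ := hE (W.M * (N * q))
    (mul_ne_zero (NeZero.ne _) (mul_ne_zero (NeZero.ne _) hqF.out.ne_zero))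
  have hl₀W : ((l₀ : ℕ) : ZMod W.M) = 1 := by
    have h1 := congrArg (ZMod.castHom (dvd_mul_right W.M (N * q)) (ZMod W.M)) hl₀1
    rwa [map_natCast, map_one] at h1
  have hl₀N : ((l₀ : ℕ) : ZMod (N * q)) = 1 := by
    have h1 := congrArg (ZMod.castHom (dvd_mul_left (N * q) W.M) (ZMod (N * q))) hl₀1
    rwa [map_natCast, map_one] at h1
  have hl₀Nq : ¬ l₀ ∣ N * q := by
    intro h
    have h1 := congrArg (ZMod.castHom h (ZMod l₀)) hl₀N
    rw [map_natCast, map_one, ZMod.natCast_self] at h1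
    haveI : Fact l₀.Prime := ⟨hl₀⟩
    exact zero_ne_one h1
  set m' := m * (N * q) with hm'def
  have hm' : m' ≠ 0 := mul_ne_zero hm (mul_ne_zero (NeZero.ne _) hqF.out.ne_zero)
  have hmm' : ∀ l : ℕ, ¬ l ∣ m' → ¬ l ∣ m := fun l h h' => h (h'.mul_right _)
  have hl₀m' : ¬ l₀ ∣ m' := by
    rw [hm'def, hl₀.dvd_mul, not_or]
    exact ⟨hl₀m, hl₀Nq⟩
  have hτ₀ : τ ⟨l₀, hl₀, hl₀m⟩ ≠ (((⟨l₀, hl₀, hl₀m⟩ : Pr m) : ℕ) : E) + 1 := by
    intro h
    have h1 := isUnit_trace_sub hred (hl₀t (Al l₀) (hAl l₀ hl₀) (Φl l₀) (hΦl l₀ hl₀))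
    apply h1.ne_zero
    apply hι
    rw [map_sub, map_add, map_one, map_natCast, map_zero, sub_eq_zero]
    exact h
  obtain ⟨he1, he2, FE, hFE0, hFEpe, hFEconj, hFET⟩ := exists_fromTW W hM v hv τ hτ ψ hψ q.2 ω
    (fun c h => (hω3 c).1 h) ⟨l₀, hl₀, hl₀m⟩ hl₀W hτ₀ (n := N * q) rfl (h2N.mul_right _)
    (isCong_GH hqM ω) (conj_mem_GH hqM ω)
  -- the diamond character
  let η : (ZMod q)ˣ → E := fun c => ψ (Pi.mulSingle ⟨q, q.2⟩ (W.χ q c))
  have hη1 : η 1 = 1 := he2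
  have hηm : ∀ c c', η (c * c') = η c * η c' := he1
  have hηpow : ∀ (c : (ZMod q)ˣ) (n : ℕ), η (c ^ n) = η c ^ n := by
    intro c n
    induction n with
    | zero => rw [pow_zero, pow_zero, hη1]
    | succ n ih => rw [pow_succ, hηm, ih, pow_succ]
  have hηp : ∀ c : (ZMod q)ˣ, η c ^ p ^ s₀ = 1 := by
    intro c
    rw [← hηpow, ← hη1]
    show ψ (Pi.mulSingle _ (W.χ q (c ^ p ^ s₀))) = ψ (Pi.mulSingle _ (W.χ q 1))
    rw [map_pow, hD, map_one]
  obtain ⟨pt, ι₁, hι₁, hcomp, hS⟩ := exists_ext_ring ι hι (Set.range η) (Set.finite_range η) (by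
    rintro _ ⟨c, rfl⟩
    exact ⟨p ^ s₀, pow_pos hp.out.pos _, hηp c⟩)
  obtain ⟨R, hR⟩ := exists_char hι₁ hη1 hηm (fun c => hS _ ⟨c, rfl⟩)
  have hcomp' : ∀ x, ι₁ (algebraMap O' pt.A x) = ι x := fun x => RingHom.congr_fun hcomp x
  have hpO' : (p : O') ∈ maximalIdeal O' := by
    have h1 := mem_max_of_local (A := O) (B := O') _ hpO
    rwa [map_natCast] at h1
  have hpA : (p : pt.A) ∈ maximalIdeal pt.A := by
    have h1 := mem_max_of_local (A := O') (B := pt.A) _ hpO'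
    rwa [map_natCast] at h1
  have hR1 : ∀ u : (ZMod q)ˣ, R u - 1 ∈ maximalIdeal pt.A := by
    intro u
    refine sub_one_mem_of_pow (s := s₀) hpA (hι₁ ?_)
    rw [map_pow, hR, hηp, map_one]
  let r₁ : GQ →* M2 pt.A := mapRep (algebraMap O' pt.A) r
  have hr₁ : MatCont pt.A r₁ := matCont_map _ (fun a ha => mem_max_of_local a ha) hcont
  have htr : ∀ σ : GQ, ι₁ (r₁ σ).trace = ι (r σ).trace := by
    intro σ
    rw [mapRep_trace, hcomp']
  have hdet : ∀ (l : ℕ), l.Prime → ¬ l ∣ m' → ∀ (A : ValuationSubring (AlgebraicClosure ℚ)),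
      A.LiesOverPrime l → ∀ Φ, A.IsFrobeniusAt Φ l → (r₁ Φ).det = l := by
    intro l hl hlm A hA Φ hΦ
    rw [det_mapRep, (hT ⟨l, hl, hmm' l hlm⟩ A hA Φ hΦ).2, map_natCast]
  have hEig : EigD (R.ringHomComp ι₁) (fun s => ι₁ (r₁ s).trace) m' FE := by
    refine ⟨hFEpe, fun g hg => ?_, fun l hl hlm hlM σ hσ hql hσl A hA Φ hΦ => ?_⟩
    · obtain ⟨d, hd⟩ : IsUnit ((g 1 1 : ℤ) : ZMod q) :=
        IsUnit.of_mul_eq_one_right _ (isUnit_11 hqM hg)
      rw [hFEconj g hg d hd.symm, ← hd, MulChar.ringHomComp_apply, hR, pow_two]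
    · have hc1 : l.Coprime q := (Nat.coprime_primes hl.out hqF.out).2 (by
        intro h
        apply hlM
        rw [h]
        exact hqM)
      have h1 := hFET ⟨l, hl.out, hmm' l hlm⟩ hlM σ hσ hql hσl (ZMod.unitOfCoprime l hc1)
        (ZMod.coe_unitOfCoprime l hc1)
      rw [h1]
      congr 2
      rw [htr, hτu ⟨l, hl.out, hmm' l hlm⟩ A hA Φ hΦ, MulChar.ringHomComp_apply]
      congr 1
      rw [← ZMod.coe_unitOfCoprime l hc1, hR]
  -- the residual representation over `pt.A`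
  let rb : GQ →* M2 (ResidueField pt.A) := rbarC pt.A (rbarC O' rbar)
  have hrbt : ∀ σ, (rb σ).trace = residue pt.A (r₁ σ).trace := by
    intro σ
    rw [rbarC_trace, rbarC_trace, ← residue_trace hred, ResidueField.map_residue, mapRep_trace]
  have hrbt' : ∀ σ, (rb σ).trace = ((ResidueField.map (algebraMap O' pt.A)).comp
      (ResidueField.map (algebraMap O O'))) (rbar σ).trace := by
    intro σ
    rw [rbarC_trace, rbarC_trace]
    rfl
  have hlow : LowQ N q m' hqN r₁ := by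
    intro Eb hEbp hEbT
    obtain ⟨B₀, τ₀, hB₀, hτ₀, hne₀⟩ := hne q q.2
    obtain ⟨sd⟩ := nonempty_sliceData_rbarC pt.A (span_rbarC O' hspan)
    have hne₁ : (rb τ₀).trace ^ 2 ≠ (((q : ℕ) : ResidueField pt.A) + 1) ^ 2 := by
      intro h
      apply hne₀
      apply ((ResidueField.map (algebraMap O' pt.A)).comp
        (ResidueField.map (algebraMap O O'))).injective
      rw [map_pow, ← hrbt', h, map_pow, map_add, map_one, map_natCast]
    have hne₂ : (rb (Φl l₀)).trace ≠ (l₀ : ResidueField pt.A) + 1 := by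
      intro h
      apply hl₀t (Al l₀) (hAl l₀ hl₀) (Φl l₀) (hΦl l₀ hl₀)
      apply ((ResidueField.map (algebraMap O' pt.A)).comp
        (ResidueField.map (algebraMap O O'))).injective
      rw [← hrbt', h, map_add, map_one, map_natCast]
    obtain ⟨a, b, ha, hb, hab, hT', hqa, hqb⟩ := LowerQ.exists_lower (p := p) (n := N) (q := q)
      (m := m') hqF.out hqN hm' (hpm.mul_right _) hqp (dvd_mul_left _ _) hpA (rbar := rb) sd
      (span_rbarC pt.A (span_rbarC O' hspan)) (level_rbarC pt.A (level_rbarC O' hrbar)) hB₀ hτ₀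
      hne₁ hp2 h2N Eb (fun l hl hln hlm B hB σ hσ => by
        rw [hrbt]
        exact hEbT l hl hln hlm B hB σ hσ) hl₀ hl₀m' hl₀N (hAl l₀ hl₀) (hΦl l₀ hl₀) hne₂
    refine ⟨a, b, ha, hb, hab, fun l hl hln hlm A hA Φ hΦ => ?_, (rb τ₀).trace, ?_, hqa, hqb⟩
    · rw [← hrbt]
      exact hT' l hl hln hlm A hA Φ hΦ
    · intro h
      apply hne₁
      rw [natCast_eq_one (natCast_residue_eq_zero hpA) hr₀, h]
      norm_num
  have key := core (N := N) (q := q) (p := p) (m := m') (ω := ω) (O := pt.A) (R := R) (r := r₁)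
    (cyc := cyc q) h2N hqN hp2 hr₀ hm' (fun l hl hlN => hlN.trans (dvd_mul_left _ _)) hω1 hω2 hpA
    hι₁ hR1 (fun l hl hlq A hA Φ hΦ => cyc_frob hl
      ((Nat.coprime_primes hqF.out hl).2 (Ne.symm hlq)) hA hΦ) hdet
    (fun η₁ η₂ e s => cont_mul hp.out.ne_zero hr₁ η₁ η₂ e s) hFE0 hEig hl₀ hl₀m'
    (fun A hA Φ hΦ h => by
      rw [← hrbt, hrbt'] at h
      apply hl₀t A hA Φ hΦ
      apply ((ResidueField.map (algebraMap O' pt.A)).comp
        (ResidueField.map (algebraMap O O'))).injective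
      rw [h, map_add, map_one, map_natCast]) hlow hB hs
    (det_inertia hp.out hpA hr₁ m' hm' hdet hqF.out hqp hB hs)
  rw [cyc_eq s hζ hc] at key
  have h1 := congrArg ι₁ key
  rw [htr, map_add, hR, MulChar_inv_unit, hR, inv_inv, add_comm] at h1
  rw [h1]
  show ψ _ + ψ (Pi.mulSingle q (W.χ q c⁻¹)) = _
  rw [map_inv]

end Main

end Fermat.Agent.LG
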