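import Fermat.Agent.LG.ExtTR
import Fermat.Agent.LGR.Inj
import Fermat.Agent.LGR.V1

/-!
# Injectivity of the reduction for classes on `Γ₀(N)`
-/

set_option autoImplicit false
set_option linter.unusedSectionVars false
set_option linter.style.haveILetI false

noncomputable section

open UpperHalfPlane Function ModularCurve Filter ModularForm AlgebraicCurve WithZero
  CongruenceSubgroup
open scoped Manifold MatrixGroups Topology ModularForm

namespace Fermat.Agent.LG

open Fermat.Agent.X0Places Fermat.Agent.FunField Fermat.Agent.FunField.PlaceLemmas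
open Fermat.Agent.TorsCmp Fermat.Agent.Igusa Fermat.Agent.LGRes Fermat.Agent.LGR
open Fermat.Agent.Cusps Fermat.Agent.ModDeg

theorem dvd_ord_transport {L : Type*} [Field L] {K₁ K₂ : IntermediateField L (LaurentSeries L)}
    (h : K₁ = K₂) {n : ℤ} (f : K₁) (hf : ∀ v : Place L K₁, n ∣ v.ord f) (v : Place L K₂) :
    n ∣ v.ord (⟨f, h ▸ f.2⟩ : K₂) := by
  subst h
  exact hf v

theorem gaussImage_congr {L : Type*} [Field L] (A : ValuationSubring L) {κ : Type*} [Field κ]
    (π : A →+* κ) (hπ : Function.Surjective π) {K₁ K₂ : IntermediateField L (LaurentSeries L)}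
    (h : K₁ = K₂) (h₁ : IsTameField K₁) (h₂ : IsTameField K₂) :
    gaussImage A π h₁ hπ = gaussImage A π h₂ hπ := by
  subst h
  rfl

variable {L : Type*} [Field L] [Algebra ℚ L] [CharZero L] [IsAlgClosed L] {ι : L →+* ℂ}

section

variable (A : ValuationSubring L) {κ : Type*} [Field κ] [IsAlgClosed κ] (π : A →+* κ)
  [IsLocalHom π] (hπ : Function.Surjective π) (N : ℕ) [NeZero N]

theorem gaussImage_good (hN : (N : κ) ≠ 0) :
    gaussImage A π (isTameField_full (L := L) N) hπ ≤ modularFunctionFieldFullC κ N := by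
  rintro _ ⟨x, rfl⟩
  exact gaussValRes_mem_full A π N hπ (ModDeg.psi_pos (NeZero.ne N))
    (relfinrank_full_of_isAlgClosed N (by
      rw [Ne, Nat.cast_eq_zero]; exact NeZero.ne N))
    (relfinrank_full_of_isAlgClosed N hN) x

end

theorem pow_transport {K₁ K₂ : IntermediateField L (LaurentSeries L)}
    (h : K₁ = K₂) {p : ℕ} (f : K₁) (g : K₂) (hg : g ^ p = (⟨f, h ▸ f.2⟩ : K₂)) :
    f = (⟨g, h.symm ▸ g.2⟩ : K₁) ^ p := by
  subst h
  exact hg.symm

section Inj

variable {A : ValuationSubring (AlgebraicClosure ℚ)} {κ : Type*} [Field κ]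
    [IsAlgClosed κ] {π : A →+* κ} [IsLocalHom π] (hπ : Function.Surjective π)
    {ι : AlgebraicClosure ℚ →+* ℂ} {N : ℕ} [NeZero N] [MF ι (Gamma0 N) N]
    (hFG : FG ι (Gamma0 N) N = modularFunctionFieldFullC (AlgebraicClosure ℚ) N)

include hπ hFG in
/-- **Injectivity of the reduction** on classes killed by `p`. -/
theorem eq_zero_of_red (hN : (N : κ) ≠ 0) {p : ℕ} [hp : NeZero p] (hpκ : (p : κ) ≠ 0)
    {x : Additive (Gamma0 N) →+ ZMod p} (hx : x ∈ PE (Gamma0 N) (ZMod p))
    {f : FG ι (Gamma0 N) N} (hf : Rep ι (Gamma0 N) N p x f) {y : LaurentSeries κ}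
    (hy : y ∈ modularFunctionFieldFullC κ N) (hy0 : y ≠ 0)
    (hr : Red A π (f : LaurentSeries (AlgebraicClosure ℚ)) (y ^ p)) : x = 0 := by
  obtain ⟨hmem, hr'⟩ := hr
  have hd := dvd_ord_transport hFG f (hf.dvd hx)
  have hy0' : (⟨y, hy⟩ : modularFunctionFieldFullC κ N) ≠ 0 := fun h0 =>
    hy0 (congrArg Subtype.val h0)
  obtain ⟨h, hh0, hh⟩ := exists_root A π hπ N hN hpκ _ hd hmem hy0' hr'
  exact hf.eq_zero_of_pow (pow_transport hFG f h hh)

end Inj

end Fermat.Agent.LG
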