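import Fermat.Agent.LG.FG
import Fermat.Agent.X0Places.Counts

/-!
# Places of the field of modular functions on `Γ`
-/

set_option autoImplicit false
set_option linter.unusedSectionVars false
set_option linter.style.haveILetI false

noncomputable section

open UpperHalfPlane Function ModularCurve Filter ModularForm AlgebraicCurve WithZero
  CongruenceSubgroup
open scoped Manifold MatrixGroups Topology ModularForm

namespace Fermat.Agent.LG

open Fermat.Agent.X0Places Fermat.Agent.FunField Fermat.Agent.FunField.PlaceLemmas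
  IntermediateField
open Fermat.Agent.JInv (rho)

variable {L : Type*} [Field L] [Algebra ℚ L]

/-- The hypotheses on `Γ`: `FG ι Γ N` is the function field of `Γ\ℍ`. -/
class MF (ι : L →+* ℂ) (Γ : Subgroup SL(2, ℤ)) (N : ℕ) [NeZero N] : Prop where
  fin : Finite (XG Γ)
  gam : Gamma N ≤ Γ
  neg : (-1 : SL(2, ℤ)) ∈ Γ
  sep : ∀ g : SL(2, ℤ), (∀ x : FG ι Γ N, compMer g (toM ι Γ N x) = toM ι Γ N x) → g ∈ Γ
  isFF : IsFF L (FG ι Γ N)
  deg : Module.finrank L⟮jG ι Γ N⟯ (FG ι Γ N) = Nat.card (XG Γ)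

variable (ι : L →+* ℂ) (Γ : Subgroup SL(2, ℤ)) (N : ℕ) [NeZero N] [hMF : MF ι Γ N]

instance nonempty_XG : Nonempty (XG Γ) := ⟨((1 : SL(2, ℤ)) : XG Γ)⟩

include hMF in
theorem sig_injective : Injective (sig ι Γ N) := by
  intro c c' hcc
  induction c using QuotientGroup.induction_on with
  | H g =>
  induction c' using QuotientGroup.induction_on with
  | H h =>
  rw [QuotientGroup.eq]
  apply MF.sep (ι := ι) (N := N)
  intro x
  have h1 := RingHom.congr_fun hcc x
  rw [sig_mk, sig_mk] at h1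
  have h2 := congrArg (compMer h) h1
  rw [compMer_mul, compMer_mul, inv_mul_cancel] at h2
  have h3 : compMer 1 (toM ι Γ N x) = toM ι Γ N x := compMer_toM (one_mem Γ) x
  rw [h3] at h2
  exact h2

include hMF in
theorem csig_injective : Injective (csig ι Γ N) := by
  intro c c' hcc
  apply sig_injective ι Γ N
  induction c using QuotientGroup.induction_on with
  | H g =>
  induction c' using QuotientGroup.induction_on with
  | H h =>
  rw [csig_mk, csig_mk] at hcc
  ext x
  rw [sig_mk, sig_mk]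
  exact compMer_eq_of_cuspE_eq hcc x

/-- the embedding data attached to a point `τ` of the upper half plane with `j(τ) = ι a` -/
def embT (τ : ℍ) (a : L) (ha : Fermat.Agent.JInv.jInv τ = ι a) :
    EmbData L (FG ι Γ N) Mer (XG Γ) where
  w := valMer τ
  σ := sig ι Γ N
  inj := sig_injective ι Γ N
  hL i j c := by rw [sig_algebraMap, sig_algebraMap]
  hwL i c := by rw [sig_algebraMap, valMer_algebraMap]; exact valHolo_le_one _ _
  t := jG ι Γ N - algebraMap L (FG ι Γ N) a
  ht i j := by rw [map_sub, map_sub, sig_jG, sig_jG, sig_algebraMap, sig_algebraMap]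
  e0 := ordJ τ
  e0_pos := ordJ_pos τ
  hwt i := by
    rw [map_sub, sig_jG, sig_algebraMap, ← map_sub, valMer_algebraMap,
      valHolo_apply _ (jHolo_sub_ne_zero _), jHolo_sub, ordJ, ha]

/-- the embedding data attached to the cusps -/
def embC : EmbData L (FG ι Γ N) (LaurentSeries ℂ) (XG Γ) where
  w := valLaur
  σ := csig ι Γ N
  inj := csig_injective ι Γ N
  hL i j c := by rw [csig_algebraMap, csig_algebraMap]
  hwL i c := by
    rw [csig_algebraMap]
    rcases eq_or_ne (ι c) 0 with h | h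
    · rw [h]; simp
    · rw [valLaur_apply (by simpa using h), HahnSeries.C_apply, HahnSeries.order_single h]
      simp
  t := (jG ι Γ N)⁻¹
  ht i j := by rw [map_inv₀, map_inv₀, csig_jG, csig_jG]
  e0 := N
  e0_pos := Nat.pos_of_ne_zero (NeZero.ne N)
  hwt i := by rw [map_inv₀, map_inv₀, valLaur_csig_jG, ← exp_neg]

@[simp] theorem embT_t (τ : ℍ) (a : L) (ha : Fermat.Agent.JInv.jInv τ = ι a) :
    (embT ι Γ N τ a ha).t = jG ι Γ N - algebraMap L (FG ι Γ N) a := rfl

@[simp] theorem embC_t : (embC ι Γ N).t = (jG ι Γ N)⁻¹ := rfl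

omit hMF in
theorem adjoin_sub_algebraMap' (a : L) :
    L⟮jG ι Γ N - algebraMap L (FG ι Γ N) a⟯ = L⟮jG ι Γ N⟯ := by
  apply le_antisymm
  · rw [adjoin_simple_le_iff]
    exact sub_mem (mem_adjoin_simple_self L _) (IntermediateField.algebraMap_mem _ a)
  · rw [adjoin_simple_le_iff]
    have := add_mem (mem_adjoin_simple_self L (jG ι Γ N - algebraMap L (FG ι Γ N) a))
      (IntermediateField.algebraMap_mem L⟮jG ι Γ N - algebraMap L (FG ι Γ N) a⟯ a)
    rwa [sub_add_cancel] at this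

variable {Γ} in
omit hMF in
theorem card_orbit_eq' {g : SL(2, ℤ)} (x : XG Γ) :
    Nat.card (MulAction.orbit (Subgroup.zpowers g) x) = minimalPeriod (g • ·) x :=
  (Nat.card_congr (MulAction.orbitZPowersEquiv g x)).trans (Nat.card_zmod _)

variable {Γ} in
omit hMF in
theorem card_orbit_pos' [Finite (XG Γ)] {g : SL(2, ℤ)} (x : XG Γ) :
    0 < Nat.card (MulAction.orbit (Subgroup.zpowers g) x) := by
  have h : Nonempty (MulAction.orbit (Subgroup.zpowers g) x) :=
    ⟨⟨x, MulAction.mem_orbit_self x⟩⟩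
  exact Nat.card_pos

instance isFF_FG : IsFF L (FG ι Γ N) := MF.isFF

section Points

variable [IsAlgClosed L]

theorem place_smul_of_stab' {τ : ℍ} {a : L} (ha : Fermat.Agent.JInv.jInv τ = ι a) {g : SL(2, ℤ)}
    (hg : g • τ = τ) (x : XG Γ) :
    (embT ι Γ N τ a ha).place (g • x) = (embT ι Γ N τ a ha).place x := by
  apply EmbData.place_eq_of
  intro y
  show valMer τ (sig ι Γ N (g • x) y) ≤ 1 ↔ valMer τ (sig ι Γ N x y) ≤ 1
  rw [sig_smul, valMer_compMer]
  have h1 : g⁻¹ • τ = τ := by rw [inv_smul_eq_iff, hg]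
  rw [h1]

/-- at a coset fixed by the rotation `g` the index is divisible by the order of the rotation -/
theorem dvd_idx_of_fixed' {τ : ℍ} {a : L} (ha : Fermat.Agent.JInv.jInv τ = ι a) {g : SL(2, ℤ)}
    (hg : g • τ = τ) (x : XG Γ) (hx : g • x = x) :
    orderOf (derivAt g τ) ∣ (embT ι Γ N τ a ha).idx x := by
  obtain ⟨y, hy0, hy⟩ := exists_ord_eq_one ((embT ι Γ N τ a ha).place x)
  have h1 := (embT ι Γ N τ a ha).w_eq x hy0
  rw [hy, mul_one] at h1
  have h2 : compMer g (sig ι Γ N x y) = sig ι Γ N x y := by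
    have h3 := sig_smul (ι := ι) (N := N) g⁻¹ x y
    rw [inv_inv] at h3
    rw [← h3]
    have h4 : g⁻¹ • x = x := by rw [inv_smul_eq_iff, hx]
    rw [h4]
  have h5 := orderOf_dvd_of_compMer_eq hg ((map_ne_zero (sig ι Γ N x)).2 hy0) h2 h1
  exact_mod_cast h5

/-- The general point. -/
theorem orbitHypT {τ : ℍ} {a : L} (ha : Fermat.Agent.JInv.jInv τ = ι a) {g : SL(2, ℤ)}
    (hg : g • τ = τ) (hord : orderOf (derivAt g τ) = ordJ τ)
    (hfix : ∀ x : XG Γ, g • x = x ∨
      ordJ τ ≤ Nat.card (MulAction.orbit (Subgroup.zpowers g) x)) :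
    haveI := MF.fin (ι := ι) (Γ := Γ) (N := N)
    (embT ι Γ N τ a ha).OrbitHyp (Subgroup.zpowers g) :=
  haveI := MF.fin (ι := ι) (Γ := Γ) (N := N)
  { card := by
      rw [embT_t, adjoin_sub_algebraMap', MF.deg]
    smul := by
      rintro ⟨g', k, rfl⟩ x
      apply place_smul_of_stab'
      show g ^ k • τ = τ
      exact MulAction.mem_stabilizer_iff.1
        (Subgroup.zpow_mem _ (MulAction.mem_stabilizer_iff.2 hg) k)
    le := by
      intro x
      have h0 : 0 < (embT ι Γ N τ a ha).idx x := (embT ι Γ N τ a ha).idx_pos x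
      have h1 : 0 < Nat.card (MulAction.orbit (Subgroup.zpowers g) x) := card_orbit_pos' x
      show ordJ τ ≤ _
      rcases hfix x with h | h
      · have h2 := Nat.le_of_dvd h0 (dvd_idx_of_fixed' ι Γ N ha hg x h)
        rw [hord] at h2
        nlinarith
      · nlinarith }

theorem cuspPlace_smul' (k : ℤ) (x : XG Γ) :
    (embC ι Γ N).place (ModularGroup.T ^ k • x) = (embC ι Γ N).place x := by
  apply EmbData.place_eq_of
  intro y
  show valLaur (csig ι Γ N (ModularGroup.T ^ k • x) y) ≤ 1 ↔ valLaur (csig ι Γ N x y) ≤ 1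
  rw [csig_T_zpow_smul, valLaur_twist]

/-- The index at a cusp is a multiple of `N / width`. -/
theorem N_dvd_card_mul_idx' (x : XG Γ) :
    N ∣ Nat.card (MulAction.orbit (Subgroup.zpowers ModularGroup.T) x) *
      (embC ι Γ N).idx x := by
  rw [card_orbit_eq']
  set h := minimalPeriod (ModularGroup.T • ·) x with hh
  obtain ⟨y, hy0, hy⟩ := exists_ord_eq_one ((embC ι Γ N).place x)
  have h1 := (embC ι Γ N).w_eq x hy0
  rw [hy, mul_one] at h1
  have hne : csig ι Γ N x y ≠ 0 := (map_ne_zero (csig ι Γ N x)).2 hy0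
  have h2 : valLaur (csig ι Γ N x y) = exp (-((embC ι Γ N).idx x : ℤ)) := h1
  rw [valLaur_apply hne, exp_inj, neg_inj] at h2
  have hfix : ModularGroup.T ^ (h : ℤ) • x = x :=
    MulAction.zpow_smul_eq_iff_minimalPeriod_dvd.2 dvd_rfl
  have h3 := csig_T_zpow_smul (ι := ι) (N := N) x (h : ℤ) y
  rw [hfix] at h3
  have h4 := dvd_order_of_twist_eq hne h3.symm
  rw [h2, orderOf_dvd_iff_zpow_eq_one, ← zpow_mul, ← orderOf_dvd_iff_zpow_eq_one,
    orderOf_zetaN] at h4
  have h5 : (N : ℤ) ∣ ((h * (embC ι Γ N).idx x : ℕ) : ℤ) := by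
    push_cast
    rw [← dvd_neg, ← neg_mul]
    exact h4
  exact_mod_cast h5

/-- The cusps. -/
theorem orbitHypC :
    haveI := MF.fin (ι := ι) (Γ := Γ) (N := N)
    (embC ι Γ N).OrbitHyp (Subgroup.zpowers ModularGroup.T) :=
  haveI := MF.fin (ι := ι) (Γ := Γ) (N := N)
  { card := by
      rw [embC_t, finrank_adjoin_inv, MF.deg]
    smul := by
      rintro ⟨g', k, rfl⟩ x
      exact cuspPlace_smul' ι Γ N k x
    le := by
      intro x
      have h0 : 0 < (embC ι Γ N).idx x := (embC ι Γ N).idx_pos x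
      have h1 : 0 < Nat.card (MulAction.orbit (Subgroup.zpowers ModularGroup.T) x) :=
        card_orbit_pos' x
      exact Nat.le_of_dvd (Nat.mul_pos h1 h0) (N_dvd_card_mul_idx' ι Γ N x) }

variable {Γ} in
omit hMF in
theorem neg_one_smul' (hneg : (-1 : SL(2, ℤ)) ∈ Γ) (x : XG Γ) : (-1 : SL(2, ℤ)) • x = x := by
  induction x using QuotientGroup.induction_on with
  | H g =>
    show (((-1 : SL(2, ℤ)) * g : SL(2, ℤ)) : XG Γ) = g
    rw [QuotientGroup.eq, neg_one_mul]
    have h : (-g)⁻¹ * g = -1 := by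
      rw [inv_mul_eq_iff_eq_mul]; simp
    rw [h]
    exact hneg

variable {Γ} in
omit hMF in
theorem fix_or_card' {g : SL(2, ℤ)} {p : ℕ} (hp : p.Prime) (x : XG Γ) (hg : g ^ p • x = x) :
    g • x = x ∨ p ≤ Nat.card (MulAction.orbit (Subgroup.zpowers g) x) := by
  rw [card_orbit_eq']
  have h1 : minimalPeriod (g • ·) x ∣ p := MulAction.pow_smul_eq_iff_minimalPeriod_dvd.1 hg
  rcases (Nat.dvd_prime hp).1 h1 with h | h
  · left
    have h2 : minimalPeriod (g • ·) x ∣ 1 := by rw [h]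
    have := MulAction.pow_smul_eq_iff_minimalPeriod_dvd.2 h2
    rwa [pow_one] at this
  · right
    rw [h]

variable {ι Γ N}

/-- the divisibility at a place over `τ` -/
theorem dvd_ord_T {τ : ℍ} {a : L} (ha : Fermat.Agent.JInv.jInv τ = ι a) {g : SL(2, ℤ)}
    (hg : g • τ = τ) (hord : orderOf (derivAt g τ) = ordJ τ)
    (hfix : ∀ x : XG Γ, g • x = x ∨
      ordJ τ ≤ Nat.card (MulAction.orbit (Subgroup.zpowers g) x))
    {n : ℕ} (hn : n ≠ 0) {x : FG ι Γ N} (hx : x ≠ 0) {G : Mer} (hG : G ^ n = toM ι Γ N x)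
    (hell : ∀ γ ∈ Γ, ∀ τ : ℍ, γ • τ = τ → compMer γ G = G) (v : Place L (FG ι Γ N))
    (hv : 0 < v.ord (jG ι Γ N - algebraMap L (FG ι Γ N) a)) : (n : ℤ) ∣ v.ord x := by
  haveI := MF.fin (ι := ι) (Γ := Γ) (N := N)
  have H := orbitHypT ι Γ N ha hg hord hfix
  obtain ⟨i, rfl⟩ := H.exists_place v hv
  have h1 := (embT ι Γ N τ a ha).w_eq i hx
  have h2 := H.card_mul_idx i
  have he : (embT ι Γ N τ a ha).e0 = ordJ τ := rfl
  rw [he] at h2
  have hG0 : G ≠ 0 := by
    rintro rfl
    rw [zero_pow hn] at hG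
    exact hx ((map_eq_zero _).1 hG.symm)
  obtain ⟨h, rfl⟩ := QuotientGroup.mk_surjective i
  set G' := compMer h⁻¹ G with hG'
  have hG'0 : G' ≠ 0 := by rwa [hG', map_ne_zero]
  have hk0 : valMer τ G' ≠ 0 := (Valuation.ne_zero_iff _).2 hG'0
  set k : ℤ := -(log (valMer τ G')) with hk
  have hk1 : valMer τ G' = exp (-k) := by rw [hk, neg_neg, exp_log hk0]
  have h3 : valMer τ (sig ι Γ N (h : XG Γ) x) = exp (-((n : ℤ) * k)) := by
    rw [sig_mk, ← hG, map_pow, map_pow, ← hG', hk1, ← exp_nsmul]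
    congr 1
    simp
  have h4 : (n : ℤ) * k = ((embT ι Γ N τ a ha).idx (h : XG Γ) : ℤ) *
      ((embT ι Γ N τ a ha).place (h : XG Γ)).ord x := by
    have h5 : valMer τ (sig ι Γ N (h : XG Γ) x) =
      exp (-(((embT ι Γ N τ a ha).idx (h : XG Γ) : ℤ) *
      ((embT ι Γ N τ a ha).place (h : XG Γ)).ord x)) := h1
    rw [h3, exp_inj, neg_inj] at h5
    exact h5
  have hidx : ((embT ι Γ N τ a ha).idx (h : XG Γ) : ℤ) ∣ k := by
    rcases hfix (h : XG Γ) with hf | hf
    · -- fixed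
      have h6 : h⁻¹ * g * h ∈ Γ := by
        have h7 : ((g * h : SL(2, ℤ)) : XG Γ) = (h : XG Γ) := hf
        have h8 := QuotientGroup.eq.1 h7.symm
        rwa [← mul_assoc] at h8
      have h7 : compMer g G' = G' := by
        rw [hG', compMer_mul]
        have h8 : h⁻¹ * g = (h⁻¹ * g * h) * h⁻¹ := by group
        rw [h8, ← compMer_mul]
        congr 1
        apply hell _ h6 (h⁻¹ • τ)
        rw [mul_smul, mul_smul, smul_inv_smul, hg]
      have h8 := orderOf_dvd_of_compMer_eq hg hG'0 h7 hk1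
      rw [hord] at h8
      refine dvd_trans ?_ h8
      rw [← h2]
      push_cast
      exact dvd_mul_left _ _
    · have h6 : (embT ι Γ N τ a ha).idx (h : XG Γ) = 1 := by
        have h0 : 0 < (embT ι Γ N τ a ha).idx (h : XG Γ) := (embT ι Γ N τ a ha).idx_pos _
        have h9 := ordJ_pos τ
        nlinarith
      rw [h6]
      simp
  obtain ⟨m, hm⟩ := hidx
  have hne : ((embT ι Γ N τ a ha).idx (h : XG Γ) : ℤ) ≠ 0 := by
    exact_mod_cast ((embT ι Γ N τ a ha).idx_pos _).ne'
  refine ⟨m, ?_⟩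
  apply mul_left_cancel₀ hne
  rw [← h4, hm]
  ring

theorem dvd_ord_C {n : ℕ} (hn : n ≠ 0) {x : FG ι Γ N} (hx : x ≠ 0)
    (hcusp : ∀ γ : SL(2, ℤ), ∃ y : LaurentSeries ℂ, y ^ n = cuspE ι Γ N γ x ∧
      ∀ m : ℤ, γ * ModularGroup.T ^ m * γ⁻¹ ∈ Γ →
        Fermat.Agent.ModPoly.twist (zetaN N ^ m) y = y) (v : Place L (FG ι Γ N))
    (hv : 0 < v.ord (jG ι Γ N)⁻¹) : (n : ℤ) ∣ v.ord x := by
  haveI := MF.fin (ι := ι) (Γ := Γ) (N := N)
  have H := orbitHypC ι Γ N
  obtain ⟨i, rfl⟩ := H.exists_place v hv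
  have h1 := (embC ι Γ N).w_eq i hx
  have h2 := H.card_mul_idx i
  have he : (embC ι Γ N).e0 = N := rfl
  rw [he, card_orbit_eq'] at h2
  set w := minimalPeriod (ModularGroup.T • ·) i with hw
  have hfix : ModularGroup.T ^ (w : ℤ) • i = i :=
    MulAction.zpow_smul_eq_iff_minimalPeriod_dvd.2 dvd_rfl
  obtain ⟨h, rfl⟩ := QuotientGroup.mk_surjective i
  obtain ⟨y, hy, hyt⟩ := hcusp h⁻¹
  have hne : csig ι Γ N (h : XG Γ) x ≠ 0 := (map_ne_zero _).2 hx
  have hy0 : y ≠ 0 := by
    rintro rfl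
    rw [zero_pow hn] at hy
    exact hne hy.symm
  have h3 : (n : ℤ) * y.order = ((embC ι Γ N).idx (h : XG Γ) : ℤ) *
      ((embC ι Γ N).place (h : XG Γ)).ord x := by
    have h5 : valLaur (csig ι Γ N (h : XG Γ) x) =
      exp (-(((embC ι Γ N).idx (h : XG Γ) : ℤ) * ((embC ι Γ N).place (h : XG Γ)).ord x)) := h1
    rw [valLaur_apply hne, exp_inj, neg_inj, csig_mk, ← hy, HahnSeries.order_pow,
      nsmul_eq_mul] at h5
    exact h5
  have h4 : h⁻¹ * ModularGroup.T ^ (w : ℤ) * (h⁻¹)⁻¹ ∈ Γ := by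
    rw [inv_inv]
    have h7 : ((ModularGroup.T ^ (w : ℤ) * h : SL(2, ℤ)) : XG Γ) = (h : XG Γ) := hfix
    have h8 := QuotientGroup.eq.1 h7.symm
    rwa [← mul_assoc] at h8
  have h5 := dvd_order_of_twist_eq hy0 (hyt (w : ℤ) h4)
  have h6 : ((embC ι Γ N).idx (h : XG Γ) : ℤ) ∣ y.order := by
    refine dvd_trans ?_ h5
    have h7 : orderOf (zetaN N ^ (w : ℤ)) = (embC ι Γ N).idx (h : XG Γ) := by
      have hN : 0 < N := Nat.pos_of_ne_zero (NeZero.ne N)
      have hw0 : 0 < w := by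
        rcases Nat.eq_zero_or_pos w with h0 | h0
        · rw [h0, zero_mul] at h2; omega
        · exact h0
      rw [zpow_natCast, orderOf_pow' _ hw0.ne', orderOf_zetaN]
      have h8 : Nat.gcd N w = w := by
        rw [← h2]
        exact Nat.gcd_eq_right (dvd_mul_right _ _)
      rw [h8]
      exact Nat.div_eq_of_eq_mul_right hw0 h2.symm
    rw [h7]
  obtain ⟨m, hm⟩ := h6
  have hne' : ((embC ι Γ N).idx (h : XG Γ) : ℤ) ≠ 0 := by
    exact_mod_cast ((embC ι Γ N).idx_pos _).ne'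
  refine ⟨m, ?_⟩
  apply mul_left_cancel₀ hne'
  rw [← h3, hm]
  ring

/-- **The divisor of an `n`-th power of a function with character is divisible by `n`.** -/
theorem dvd_ord_of_root {n : ℕ} (hn : n ≠ 0) {x : FG ι Γ N} (hx : x ≠ 0) {G : Mer}
    (hG : G ^ n = toM ι Γ N x)
    (hell : ∀ γ ∈ Γ, ∀ τ : ℍ, γ • τ = τ → compMer γ G = G)
    (hcusp : ∀ γ : SL(2, ℤ), ∃ y : LaurentSeries ℂ, y ^ n = cuspE ι Γ N γ x ∧
      ∀ m : ℤ, γ * ModularGroup.T ^ m * γ⁻¹ ∈ Γ →
        Fermat.Agent.ModPoly.twist (zetaN N ^ m) y = y) (v : Place L (FG ι Γ N)) :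
    (n : ℤ) ∣ v.ord x := by
  haveI := MF.fin (ι := ι) (Γ := Γ) (N := N)
  have hneg := MF.neg (ι := ι) (Γ := Γ) (N := N)
  by_cases hv : 0 < v.ord (jG ι Γ N)⁻¹
  · exact dvd_ord_C hn hx hcusp v hv
  · -- `j` is regular at `v`
    obtain ⟨a, ha⟩ : ∃ a : L, 0 < v.ord (jG ι Γ N - algebraMap L (FG ι Γ N) a) := by
      have htr : Transcendental L (jG ι Γ N) := by
        have h := (embC ι Γ N).transcendental_t
        rw [embC_t] at h
        intro h1
        exact h h1.inv
      by_cases h0 : (jG ι Γ N) = 0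
      · exfalso
        rw [h0] at htr
        exact htr isAlgebraic_zero
      have hj : 0 ≤ v.ord (jG ι Γ N) := by
        rw [v.ord_inv] at hv
        omega
      have hres := resL_of_isAlgClosed v
      rcases eq_or_lt_of_le hj with h1 | h1
      · obtain ⟨c, hc⟩ := hres _ h0 h1.symm
        refine ⟨c, ?_⟩
        have hne : jG ι Γ N - algebraMap L (FG ι Γ N) c ≠ 0 := by
          intro h
          rw [sub_eq_zero] at h
          rw [h] at htr
          exact htr (isAlgebraic_algebraMap c)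
        rw [v.adicValuation_eq_exp_neg_ord hne, exp_le_exp] at hc
        omega
      · exact ⟨0, by rwa [map_zero, sub_zero]⟩
    by_cases h0 : a = 0
    · have hτ : Fermat.Agent.JInv.jInv rho = ι a := by
        rw [h0, map_zero]; exact Fermat.Agent.JInv.jInv_rho
      refine dvd_ord_T hτ ST_smul_rho (by rw [orderOf_derivAt_ST, ordJ_rho]) (fun x => ?_) hn hx
        hG hell v ha
      rw [ordJ_rho]
      refine fix_or_card' Nat.prime_three x ?_
      have h : (ModularGroup.S * ModularGroup.T) ^ 3 = -1 := by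
        ext i j
        fin_cases i <;> fin_cases j <;> rfl
      rw [h, neg_one_smul' hneg]
    by_cases h1728 : a = 1728
    · have hτ : Fermat.Agent.JInv.jInv UpperHalfPlane.I = ι a := by
        rw [h1728, Fermat.Agent.JInv.jInv_I]; exact (map_ofNat ι 1728).symm
      refine dvd_ord_T hτ Fermat.Agent.JInv.S_smul_I (by rw [orderOf_derivAt_S, ordJ_I])
        (fun x => ?_) hn hx hG hell v ha
      rw [ordJ_I]
      refine fix_or_card' Nat.prime_two x ?_
      have h : ModularGroup.S ^ 2 = -1 := by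
        ext i j
        fin_cases i <;> fin_cases j <;> rfl
      rw [h, neg_one_smul' hneg]
    · obtain ⟨τ, hτ⟩ := Fermat.Agent.JInv.jInv_surjective (ι a)
      have hg := jInv_generic (τ := τ) (by rw [hτ]; simpa using h0) (by
        rw [hτ]
        intro h
        apply h1728
        apply ι.injective
        rw [h]; exact (map_ofNat ι 1728).symm)
      have hJ := ordJ_generic hg.1 hg.2
      exact dvd_ord_T hτ (g := 1) (one_smul _ _) (by rw [orderOf_derivAt_one, hJ])
        (fun x => Or.inl (one_smul _ _)) hn hx hG hell v ha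

end Points

end Fermat.Agent.LG
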