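import Fermat.Agent.LG.MFDesc
import Fermat.Agent.LG.Emb
import Fermat.Agent.X0Places.Degree

/-!
# The field of modular functions on `Γ₀(N)`
-/

set_option autoImplicit false
set_option linter.unusedSectionVars false
set_option linter.style.haveILetI false

noncomputable section

open UpperHalfPlane Function ModularCurve Filter ModularForm AlgebraicCurve WithZero
  CongruenceSubgroup IntermediateField
open scoped Manifold MatrixGroups Topology ModularForm

namespace Fermat.Agent.LG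

open Fermat.Agent.X0Places Fermat.Agent.TorsCmp Fermat.Agent.FunField

section Gen

variable {L : Type*} [Field L] (ι : L →+* ℂ) (Γ : Subgroup SL(2, ℤ)) (N : ℕ)

theorem coeffMap_mem_anR {a : LaurentSeries L} (ha : a ∈ AnR ι Γ N) :
    coeffMap ι a ∈ AnR (RingHom.id ℂ) Γ N := by
  obtain ⟨f, hf, hf'⟩ := ha
  refine ⟨f, hf, ?_⟩
  rwa [coeffMap_id]

theorem coeffMap_mem_FG {x : LaurentSeries L} (hx : x ∈ FG ι Γ N) :
    coeffMap ι x ∈ FG (RingHom.id ℂ) Γ N := by
  obtain ⟨a, ha, b, hb, hb0, h⟩ := hx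
  refine ⟨_, coeffMap_mem_anR ι Γ N ha, _, coeffMap_mem_anR ι Γ N hb, ?_, ?_⟩
  · exact (map_ne_zero_iff _ (Fermat.Agent.ModPoly.coeffMap_injective ι.injective)).2 hb0
  · rw [← map_mul, h]

theorem genF_FG_le : genF ι (FG ι Γ N) ≤ FG (RingHom.id ℂ) Γ N := by
  rw [genF, adjoin_le_iff]
  rintro _ ⟨x, hx, rfl⟩
  exact coeffMap_mem_FG ι Γ N hx

/-- if the complex field is generated by a field defined over `L`, this is the field of modular
functions over `L` -/
theorem FG_eq_of_gen {S : IntermediateField L (LaurentSeries L)} (hS : S ≤ FG ι Γ N)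
    (h : FG (RingHom.id ℂ) Γ N ≤ genF ι S) : FG ι Γ N = S := by
  apply le_antisymm _ hS
  intro x hx
  exact mem_of_coeffMap_mem_genF ι (h (coeffMap_mem_FG ι Γ N hx))

theorem genF_mono {S T : IntermediateField L (LaurentSeries L)} (h : S ≤ T) :
    genF ι S ≤ genF ι T := adjoin.mono _ _ _ (Set.image_mono h)

theorem FG_le_genF_of_gen {S : IntermediateField L (LaurentSeries L)} (hS : S ≤ FG ι Γ N)
    (h : FG (RingHom.id ℂ) Γ N ≤ genF ι S) :
    FG (RingHom.id ℂ) Γ N ≤ genF ι (FG ι Γ N) := h.trans (genF_mono ι hS)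

end Gen

section Zero

variable {L : Type*} [Field L] [Algebra ℚ L] (ι : L →+* ℂ) (N : ℕ) [NeZero N]

theorem FF_le_FG : FF L N ≤ FG ι (Gamma0 N) N := by
  intro x hx
  obtain ⟨a, ha, b, hb, -, -, rfl⟩ := exists_div ι hx
  have ha' : a ∈ AnR ι (Gamma0 N) N := by
    obtain ⟨f, hf, hf'⟩ := ha
    exact ⟨f, isAnG_gamma0.2 hf, hf'⟩
  have hb' : b ∈ AnR ι (Gamma0 N) N := by
    obtain ⟨f, hf, hf'⟩ := hb
    exact ⟨f, isAnG_gamma0.2 hf, hf'⟩
  exact div_mem (anR_le_FG ha') (anR_le_FG hb')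

theorem FG_id_le_FF : FG (RingHom.id ℂ) (Gamma0 N) N ≤ FF ℂ N := by
  rintro x ⟨a, ⟨f, hf, hf'⟩, b, ⟨g, hg, hg'⟩, hb0, h⟩
  rw [coeffMap_id] at hf' hg'
  have h1 : a ∈ FF ℂ N := IsAn.mem_FF N (isAnG_gamma0.1 hf) hf'
  have h2 : b ∈ FF ℂ N := IsAn.mem_FF N (isAnG_gamma0.1 hg) hg'
  rw [eq_div_of_mul_eq hb0 h]
  exact div_mem h1 h2

omit [NeZero N] in
theorem FF_le_genF : FF ℂ N ≤ genF ι (FF L N) := by
  rw [FF, laurentBaseChange, adjoin_le_iff]
  rintro _ ⟨x, hx, rfl⟩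
  rw [← coeffMap_coeffEmb' ι x]
  exact coeffMap_mem_genF ι (coeffEmb_mem_laurentBaseChange L hx)

/-- **The field of modular functions on `Γ₀(N)` is the function field of `X₀(N)`.** -/
theorem FG_gamma0 : FG ι (Gamma0 N) N = FF L N :=
  FG_eq_of_gen ι _ N (FF_le_FG ι N) ((FG_id_le_FF N).trans (FF_le_genF ι N))

theorem FG_gamma0_gen : FG (RingHom.id ℂ) (Gamma0 N) N ≤ genF ι (FG ι (Gamma0 N) N) :=
  FG_le_genF_of_gen ι _ N (FF_le_FG ι N) ((FG_id_le_FF N).trans (FF_le_genF ι N))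

/-- separation of points by `j(Nτ)` -/
theorem sep_gamma0 (g : SL(2, ℤ))
    (h : ∀ x : FG ι (Gamma0 N) N, compMer g (toM ι (Gamma0 N) N x) = toM ι (Gamma0 N) N x) :
    g ∈ Gamma0 N := by
  have hN : 0 < N := Nat.pos_of_ne_zero (NeZero.ne N)
  let x : FG ι (Gamma0 N) N := ⟨coeffEmb L (qExpand ℚ N jq), FF_le_FG ι N (jNF L N).2⟩
  have h1 : toM ι (Gamma0 N) N x = algebraMap Holo Mer ⟨jd N hN, mdiff_jd N _⟩ := by
    apply toM_of_mem
    · exact isAnG_gamma0.2 (isAn_jd N _ dvd_rfl)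
    · show HasLaurent 1 _ (coeffMap ι (coeffEmb L (qExpand ℚ N jq)))
      rw [coeffMap_coeffEmb_jd]
      exact hasLaurent_jd_one N _
  have h2 := h x
  rw [h1, compMer_algebraMap] at h2
  have h3 := congrArg Subtype.val (IsFractionRing.injective Holo Mer h2)
  have h4 : ((g⁻¹ : SL(2, ℤ)) : SL(2, ℤ) ⧸ CongruenceSubgroup.Gamma0 N) = (1 : SL(2, ℤ)) := by
    apply coset_eq_of_jd_eq N
    intro τ
    rw [inv_inv, inv_one, one_smul]
    exact congrFun h3 τ
  have h5 := QuotientGroup.eq.1 h4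
  rw [inv_inv, mul_one] at h5
  exact h5

omit [Algebra ℚ L] in
theorem isFF_congr {Ω : Type*} [Field Ω] [Algebra L Ω] {F F' : IntermediateField L Ω}
    (h : F = F') (h' : IsFF L F') : IsFF L F := by
  subst h
  exact h'

variable [IsAlgClosed L]

instance mf_gamma0 : MF ι (Gamma0 N) N where
  fin := finite_XN N
  gam := by
    intro g hg
    rw [Gamma_mem] at hg
    rw [Gamma0_mem]
    exact hg.2.2.1
  neg := by
    rw [Gamma0_mem]
    simp
  sep := sep_gamma0 ι N
  isFF := by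
    have h1 : FG ι (Gamma0 N) N = modularFunctionFieldFullC L N :=
      (FG_gamma0 ι N).trans (Fermat.Agent.HeckeRed.laurentBaseChange_full L N)
    have hchar : CharZero L := algebraRat.charZero L
    exact isFF_congr h1 inferInstance
  deg := by
    have h1 := finrank_adjoin_eq_relfinrank (FG ι (Gamma0 N) N) (jG ι (Gamma0 N) N)
    have h2 := finrank_adjoin_eq_relfinrank (FF L N) (jF L N)
    rw [finrank_jF] at h2
    have h3 : ((jG ι (Gamma0 N) N : FG ι (Gamma0 N) N) : LaurentSeries L) = (jF L N : FF L N) := rfl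
    rw [h3] at h1
    exact h1.trans ((congrArg (relfinrank _) (FG_gamma0 ι N)).trans h2.symm)

end Zero

end Fermat.Agent.LG
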