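import Fermat.Agent.LG.Frob

/-!
# Degeneracy maps between levels `N` and `N q`
-/

set_option autoImplicit false
set_option linter.unusedSectionVars false
set_option linter.style.haveILetI false
set_option linter.unusedSimpArgs false

noncomputable section

open UpperHalfPlane Function ModularCurve Filter ModularForm AlgebraicCurve WithZero
  CongruenceSubgroup
open scoped Manifold MatrixGroups Topology ModularForm

namespace Fermat.Agent.LG

open Fermat.Agent.X0Places Fermat.Agent.FunField Fermat.Agent.FunField.PlaceLemmas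
open Fermat.Agent.TorsCmp Fermat.Agent.Igusa Fermat.Agent.LGRes Fermat.Agent.LGR
open Fermat.Agent.HeckeHom (HData)
open Matrix.SpecialLinearGroup (mapGL)
open Function.Periodic (qParam)
open P2MW.S_ModularForm_heckeT_slash_eq_self_of_mem_Gamma0.ModularForm.HeckeSlashInvariance

/-! ### commutation of operators -/

/-- comparison of the two composites of a one-term operator with a Hecke operator -/
theorem hom_comm_of {Γ Γ' : Subgroup SL(2, ℤ)} (B : HData Γ Γ') [hB : Unique B.X]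
    (D : HData Γ Γ) (D' : HData Γ' Γ') (e : D'.X ≃ D.X)
    (h : ∀ x : D'.X, ∃ t : Γ, B.α default * D'.α x =
      mapGL ℝ (t : SL(2, ℤ)) * D.α (e x) * B.α default) {A : Type*} [AddCommGroup A]
    (φ : Additive Γ →+ A) : D'.hom A (B.hom A φ) = B.hom A (D.hom A φ) := by
  choose t ht using h
  refine AddMonoidHom.ext fun γ' => ?_
  obtain ⟨γ, rfl⟩ := Additive.ofMul.surjective γ'
  have hBs : ∀ δ : Γ', B.α default * mapGL ℝ (δ : SL(2, ℤ)) =
      mapGL ℝ (B.coc δ default : SL(2, ℤ)) * B.α default := by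
    intro δ
    have h1 := B.spec δ default
    rwa [Subsingleton.elim (B.actFun δ default) default] at h1
  have key : ∀ x : D'.X, e (D'.actFun γ x) = D.actFun (B.coc γ default) (e x) ∧
      (t x)⁻¹ * B.coc (D'.coc γ x) default * t (D'.actFun γ x) =
        D.coc (B.coc γ default) (e x) := by
    intro x
    apply D.eq_of_spec
    have h1 := congrArg (fun z => B.α default * z) (D'.spec γ x)
    rw [← mul_assoc, ← mul_assoc, hBs, ht x, mul_assoc (mapGL ℝ (B.coc (D'.coc γ x) default : SL(2, ℤ))),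
      ht, mul_assoc _ (B.α default) (mapGL ℝ (γ : SL(2, ℤ))), hBs, ← mul_assoc, ← mul_assoc] at h1
    have h2 := mul_right_cancel h1
    simp only [Subgroup.coe_mul, Subgroup.coe_inv, map_mul, map_inv]
    rw [mul_assoc] at h2
    rw [mul_assoc, mul_assoc, eq_inv_mul_iff_mul_eq, h2]
  have h1 : ∀ x : D'.X, φ (Additive.ofMul (B.coc (D'.coc γ x) default)) =
      φ (Additive.ofMul (D.coc (B.coc γ default) (e x))) +
        (φ (Additive.ofMul (t x)) - φ (Additive.ofMul (t (D'.actFun γ x)))) := by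
    intro x
    rw [← (key x).2, ofMul_mul, ofMul_mul, ofMul_inv, map_add, map_add, map_neg]
    abel
  rw [HData.hom_apply]
  have h2 : ∀ (δ : Γ') (ψ : Additive Γ →+ A), B.hom A ψ (Additive.ofMul δ) =
      ψ (Additive.ofMul (B.coc δ default)) := by
    intro δ ψ
    rw [HData.hom_apply]
    exact Fintype.sum_unique _
  rw [Finset.sum_congr rfl fun x _ => (h2 (D'.coc γ x) φ).trans (h1 x), h2, HData.hom_apply,
    Finset.sum_add_distrib, Finset.sum_sub_distrib]
  have h3 : ∑ x : D'.X, φ (Additive.ofMul (t (D'.actFun γ x))) =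
      ∑ x : D'.X, φ (Additive.ofMul (t x)) :=
    Equiv.sum_comp (D'.perm γ) (fun x => φ (Additive.ofMul (t x)))
  rw [h3, sub_self, add_zero]
  exact Equiv.sum_comp e (fun x => φ (Additive.ofMul (D.coc (B.coc γ default) x)))

/-! ### the maps on functions -/

section Fun

variable (N q : ℕ) [NeZero N] [NeZero q]

theorem IsAnG.widen {Γ Γ' : Subgroup SL(2, ℤ)} (hΓ : Γ' ≤ Γ) {f : ℍ → ℂ} (hf : IsAnG Γ N f) :
    IsAnG Γ' (N * q) f := by
  refine ⟨hf.hol, fun γ => ?_, fun γ hγ => hf.inv γ (hΓ hγ)⟩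
  obtain ⟨y, hy⟩ := hf.exp γ
  have h2 := hy.subst (h' := ((N * q : ℕ) : ℝ)) id 1 q (by
    intro τ
    rw [Units.val_one, one_mul, id]
    have := qParam_mul_width (h := (N : ℝ)) (by exact_mod_cast NeZero.ne N) q (τ : ℂ)
    rw [← this]
    congr 1
    push_cast
    ring_nf)
  exact ⟨_, h2⟩

theorem IsAnG.scale {f : ℍ → ℂ} (hf : IsAnG (Gamma0 N) N f) :
    IsAnG (Gamma0 (N * q)) (N * q)
      (fun τ => f (scaleH q (Nat.pos_of_ne_zero (NeZero.ne q)) τ)) := by
  have hq := Nat.pos_of_ne_zero (NeZero.ne q)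
  have hNq : NeZero (N * q) := ⟨mul_ne_zero (NeZero.ne N) (NeZero.ne q)⟩
  have h1 := IsAnG.hecke (N' := N * q) (betaPull N q) (fun _ => det_heckeDiagMatrix_pos q) hq
    (fun x => ⟨1, 1, fun τ => by
      rw [one_smul, one_smul]
      exact heckeDiag_smul q hq τ⟩) (fun γ hγ => by
        rw [mem_Gamma0_iff]
        have h2 := (Gamma_mem.1 hγ).2.2.1
        rwa [ZMod.intCast_zmod_eq_zero_iff_dvd] at h2) (F := ⟨f, hf.hol⟩) hf
  have h3 : ((∏ x : (betaPull N q).X, glHolo ((betaPull N q).α x) (det_heckeDiagMatrix_pos q)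
      (⟨f, hf.hol⟩ : Holo) : Holo) : ℍ → ℂ) =
      fun τ => f (scaleH q (Nat.pos_of_ne_zero (NeZero.ne q)) τ) := by
    rw [Fintype.prod_unique]
    funext τ
    show f (heckeDiagMatrix q • τ) = _
    rw [heckeDiag_smul q hq]
  rw [h3] at h1
  exact h1

variable {L : Type*} [Field L] (ι : L →+* ℂ)

theorem mem_alpha {Γ Γ' : Subgroup SL(2, ℤ)} (hΓ : Γ' ≤ Γ) {x : LaurentSeries L}
    (hx : x ∈ FG ι Γ N) : x ∈ FG ι Γ' (N * q) := by
  obtain ⟨a, ⟨f, hf, ha⟩, b, ⟨g, hg, hb⟩, hb0, h⟩ := hx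
  exact ⟨a, ⟨f, hf.widen N q hΓ, ha⟩, b, ⟨g, hg.widen N q hΓ, hb⟩, hb0, h⟩

variable {ι} in
theorem hasLaurent_scale {f : ℍ → ℂ} {a : LaurentSeries L}
    (ha : HasLaurent 1 f (coeffMap ι a)) :
    HasLaurent 1 (fun τ => f (scaleH q (Nat.pos_of_ne_zero (NeZero.ne q)) τ))
      (coeffMap ι (qExpand L q a)) := by
  have h1 := ha.subst (h' := 1) (scaleH q (Nat.pos_of_ne_zero (NeZero.ne q))) 1 q (by
    intro τ
    simp only [qParam, coe_scaleH, Units.val_one, one_mul]
    rw [← Complex.exp_nat_mul]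
    congr 1
    push_cast
    ring)
  rw [Fermat.Agent.ModPoly.twist_one, ← coeffMap_qExpand] at h1
  exact h1

theorem mem_beta {x : LaurentSeries L} (hx : x ∈ FG ι (Gamma0 N) N) :
    qExpand L q x ∈ FG ι (Gamma0 (N * q)) (N * q) := by
  obtain ⟨a, ⟨f, hf, ha⟩, b, ⟨g, hg, hb⟩, hb0, h⟩ := hx
  refine ⟨qExpand L q a, ⟨_, hf.scale N q, hasLaurent_scale q ha⟩, qExpand L q b,
    ⟨_, hg.scale N q, hasLaurent_scale q hb⟩, ?_, by rw [← map_mul, h]⟩
  intro h0
  exact hb0 (qExpand_injective q (h0.trans (map_zero _).symm))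

/-- inclusion -/
def alphaF : FG ι (Gamma0 N) N →+* FG ι (Gamma0 (N * q)) (N * q) where
  toFun x := ⟨x, mem_alpha N q ι (Gamma0_mul_le N q) x.2⟩
  map_one' := rfl
  map_mul' _ _ := rfl
  map_zero' := rfl
  map_add' _ _ := rfl

/-- `f(τ) ↦ f(qτ)` -/
def betaF : FG ι (Gamma0 N) N →+* FG ι (Gamma0 (N * q)) (N * q) where
  toFun x := ⟨qExpand L q x, mem_beta N q ι x.2⟩
  map_one' := Subtype.ext (map_one (qExpand L q))
  map_mul' _ _ := Subtype.ext (map_mul (qExpand L q) _ _)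
  map_zero' := Subtype.ext (map_zero (qExpand L q))
  map_add' _ _ := Subtype.ext (map_add (qExpand L q) _ _)

theorem coe_alphaF (x : FG ι (Gamma0 N) N) : ((alphaF N q ι x : FG ι _ _) : LaurentSeries L) = x :=
  rfl

theorem coe_betaF (x : FG ι (Gamma0 N) N) : ((betaF N q ι x : FG ι _ _) : LaurentSeries L) =
    qExpand L q x := rfl

theorem toM_alphaF (x : FG ι (Gamma0 N) N) :
    toM ι (Gamma0 (N * q)) (N * q) (alphaF N q ι x) = toM ι (Gamma0 N) N x := by
  have h1 : (toM ι (Gamma0 (N * q)) (N * q)).comp (alphaF N q ι) = toM ι (Gamma0 N) N := by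
    apply fg_ringHom_ext
    intro a
    rw [RingHom.comp_apply, toM_coe]
    apply toM_of_mem
    · exact (isAnG_anFn a).widen N q (Gamma0_mul_le N q)
    · exact hasLaurent_anFn a
  exact RingHom.congr_fun h1 x

theorem toM_betaF (x : FG ι (Gamma0 N) N) :
    toM ι (Gamma0 (N * q)) (N * q) (betaF N q ι x) =
      compG (heckeDiagMatrix q) (toM ι (Gamma0 N) N x) := by
  have hq := Nat.pos_of_ne_zero (NeZero.ne q)
  have h1 : (toM ι (Gamma0 (N * q)) (N * q)).comp (betaF N q ι) =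
      (compG (heckeDiagMatrix q)).comp (toM ι (Gamma0 N) N) := by
    apply fg_ringHom_ext
    intro a
    rw [RingHom.comp_apply, RingHom.comp_apply, toM_coe,
      compG_algebraMap _ (det_heckeDiagMatrix_pos q)]
    have h2 : ((glHolo (heckeDiagMatrix q) (det_heckeDiagMatrix_pos q) (anHom ι (Gamma0 N) N a) :
        Holo) : ℍ → ℂ) = fun τ => anFn a (scaleH q hq τ) := by
      funext τ
      rw [glHolo_apply, heckeDiag_smul q hq]
      rfl
    apply toM_of_mem
    · rw [h2]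
      exact (isAnG_anFn a).scale N q
    · rw [h2]
      exact hasLaurent_scale q (hasLaurent_anFn a)
  exact RingHom.congr_fun h1 x

/-! ### classes -/

theorem rep_alpha {n : ℕ} {x : Additive (Gamma0 N) →+ ZMod n} {f : FG ι (Gamma0 N) N}
    (h : Rep ι (Gamma0 N) N n x f) :
    Rep ι (Gamma0 (N * q)) (N * q) n ((alphaPull N q).hom (ZMod n) x) (alphaF N q ι f) := by
  refine h.hdata (alphaPull N q) (alphaPull_pos N q) ?_
  rw [toM_alphaF]
  symm
  refine (Fintype.prod_unique _).trans ?_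
  show compG 1 (toM ι (Gamma0 N) N f) = toM ι (Gamma0 N) N f
  have h1 : (1 : GL (Fin 2) ℝ) = mapGL ℝ (1 : SL(2, ℤ)) := by rw [map_one]
  rw [h1, compG_mapGL, compMer_one]

theorem rep_beta {n : ℕ} {x : Additive (Gamma0 N) →+ ZMod n} {f : FG ι (Gamma0 N) N}
    (h : Rep ι (Gamma0 N) N n x f) :
    Rep ι (Gamma0 (N * q)) (N * q) n ((betaPull N q).hom (ZMod n) x) (betaF N q ι f) := by
  refine h.hdata (betaPull N q) (fun _ => det_heckeDiagMatrix_pos q) ?_
  rw [toM_betaF]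
  symm
  exact Fintype.prod_unique _

end Fun

/-! ### compatibility with `T_l` -/

section Hecke

variable (N q : ℕ) [NeZero N] [NeZero q] {l : ℕ} [hl : Fact l.Prime]

theorem alpha_T (hlM : ¬ l ∣ N * q) (hlN : ¬ l ∣ N) {σ : SL(2, ℤ)} (hσ : σ ∈ Gamma0 (N * q))
    {σ' : SL(2, ℤ)} (hσ' : σ' ∈ Gamma0 N) {A : Type*} [AddCommGroup A]
    (x : Additive (Gamma0 N) →+ A) :
    (tdata0 (N * q) hlM σ hσ).H.hom A ((alphaPull N q).hom A x) =
      (alphaPull N q).hom A ((tdata0 N hlN σ' hσ').H.hom A x) := by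
  have h1 := tdata0_hom hlN σ' hσ' hl.out (A := A)
  have h2 := tdata0_hom hlN σ (Gamma0_mul_le N q hσ) hl.out (A := A)
  rw [h1, ← h2]
  refine hom_comm_of (alphaPull N q) (tdata0 N hlN σ (Gamma0_mul_le N q hσ)).H
    (tdata0 (N * q) hlM σ hσ).H (Equiv.refl _) (fun y => ⟨1, ?_⟩) x
  show (1 : GL (Fin 2) ℝ) * repS σ y = mapGL ℝ ((1 : Gamma0 N) : SL(2, ℤ)) * repS σ y * 1
  rw [Subgroup.coe_one, map_one, mul_one]

/-- multiplication by `q` on `P¹(ℤ/l)` -/
def mulInf (q : ℕ) (hq : (q : ZMod l) ≠ 0) : OnePoint (ZMod l) ≃ OnePoint (ZMod l) :=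
  Equiv.optionCongr (Equiv.mulLeft₀ (q : ZMod l) hq)

theorem beta_T (hlM : ¬ l ∣ N * q) (hlN : ¬ l ∣ N) {σ : SL(2, ℤ)} (hσ : σ ∈ Gamma0 (N * q))
    {σ' : SL(2, ℤ)} (hσ' : σ' ∈ Gamma0 N) {A : Type*} [AddCommGroup A]
    (x : Additive (Gamma0 N) →+ A) :
    (tdata0 (N * q) hlM σ hσ).H.hom A ((betaPull N q).hom A x) =
      (betaPull N q).hom A ((tdata0 N hlN σ' hσ').H.hom A x) := by
  have hq0 : q ≠ 0 := NeZero.ne q
  have hl0 : l ≠ 0 := hl.out.ne_zero
  have hq : (q : ZMod l) ≠ 0 := by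
    rw [Ne, ZMod.natCast_eq_zero_iff]
    intro h
    exact hlM (h.mul_left N)
  obtain ⟨σ'', hσ'', h''⟩ := exists_diag N q hσ
  have h1 := tdata0_hom hlN σ' hσ' hl.out (A := A)
  have h2 := tdata0_hom hlN σ'' hσ'' hl.out (A := A)
  rw [h1, ← h2]
  refine hom_comm_of (betaPull N q) (tdata0 N hlN σ'' hσ'').H
    (tdata0 (N * q) hlM σ hσ).H (mulInf q hq) (fun y => ?_) x
  show ∃ t : Gamma0 N, heckeDiagMatrix q * repS σ y =
    mapGL ℝ (t : SL(2, ℤ)) * repS σ'' (mulInf q hq y) * heckeDiagMatrix q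
  have hcomm : heckeDiagMatrix q * heckeDiagMatrix l = heckeDiagMatrix l * heckeDiagMatrix q := by
    ext i j
    fin_cases i <;> fin_cases j <;>
      simp [Matrix.mul_apply, Fin.sum_univ_two, hq0, hl0, mul_comm]
  induction y using OnePoint.rec with
  | infty =>
    refine ⟨1, ?_⟩
    show heckeDiagMatrix q * (mapGL ℝ σ * heckeDiagMatrix l) =
      mapGL ℝ ((1 : Gamma0 N) : SL(2, ℤ)) * (mapGL ℝ σ'' * heckeDiagMatrix l) * heckeDiagMatrix q
    rw [Subgroup.coe_one, map_one, one_mul, ← mul_assoc, h'', mul_assoc, mul_assoc, hcomm]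
  | coe j =>
    obtain ⟨k, hk⟩ : (l : ℤ) ∣ (q * j.val : ℤ) - ((q * j : ZMod l).val : ℤ) := by
      rw [← ZMod.intCast_zmod_eq_zero_iff_dvd]
      push_cast
      rw [ZMod.natCast_val, ZMod.natCast_val, ZMod.cast_id, ZMod.cast_id, sub_self]
    obtain ⟨t, h00, h01, h10, h11⟩ : ∃ t : SL(2, ℤ), t 0 0 = 1 ∧ t 0 1 = k ∧ t 1 0 = 0 ∧
        t 1 1 = 1 := ⟨mkSL 1 k 0 1 (by ring), rfl, rfl, rfl, rfl⟩
    refine ⟨⟨t, ?_⟩, ?_⟩
    · rw [mem_Gamma0_iff, h10]
      exact dvd_zero _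
    · have e1 : repS σ'' (mulInf q hq (j : OnePoint (ZMod l))) =
          heckeMatrix l (q * j : ZMod l).val := by
        show mapGL ℝ 1 * heckeRep l ((q * j : ZMod l) : OnePoint (ZMod l)) = _
        rw [map_one, one_mul, heckeRep_coe]
      have e2 : repS σ (j : OnePoint (ZMod l)) = heckeMatrix l j.val := by
        rw [repS, sx_coe, map_one, one_mul, heckeRep_coe]
      have hk' : (q : ℝ) * (j.val : ℝ) = ((q * j : ZMod l).val : ℝ) + l * k := by
        have h5 : (q * j.val : ℤ) = ((q * j : ZMod l).val : ℤ) + l * k := by linarith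
        exact_mod_cast h5
      rw [e1, e2]
      ext a b
      fin_cases a <;> fin_cases b
      · simp [-ZMod.natCast_val, Matrix.mul_apply, Fin.sum_univ_two, hq0, hl0, h00, h01, h10, h11]
      · simp [-ZMod.natCast_val, Matrix.mul_apply, Fin.sum_univ_two, hq0, hl0, h00, h01, h10, h11,
          hk']
        ring
      · simp [-ZMod.natCast_val, Matrix.mul_apply, Fin.sum_univ_two, hq0, hl0, h00, h01, h10, h11]
      · simp [-ZMod.natCast_val, Matrix.mul_apply, Fin.sum_univ_two, hq0, hl0, h00, h01, h10, h11]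

end Hecke

end Fermat.Agent.LG
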