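import Fermat.Agent.TW.HMod
import Fermat.Agent.TW.Free

/-!
# The Galois side of the auxiliary prime and of the Taylor–Wiles primes
-/

set_option autoImplicit false
set_option linter.unusedSectionVars false

noncomputable section

namespace Fermat.Agent.LG

open IsLocalRing Matrix Fermat.Agent.DefRing Fermat.Agent.TW

section L0

variable {m M : ℕ} {O : Type} [CommRing O] [IsLocalRing O] {rbar : GQ →* M2 (ResidueField O)}
  {𝔪 : Ideal (TPoly m O)}

/-- **the auxiliary prime** -/
theorem exists_l0 (h𝔪 : ResId rbar 𝔪) (hE : NonEis M 𝔪) :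
    ∃ l₀ : Pr m, ((l₀ : ℕ) : ZMod M) = 1 ∧
      ∀ B : ValuationSubring (AlgebraicClosure ℚ), B.LiesOverPrime l₀ →
        ∀ Φ : GQ, B.IsFrobeniusAt Φ l₀ → (rbar Φ).trace ≠ ((l₀ : ℕ) : ResidueField O) + 1 := by
  obtain ⟨l₀, hl₀, hl⟩ := hE
  refine ⟨l₀, hl₀, fun B hB Φ hΦ h => hl ?_⟩
  refine h𝔪.tmem l₀ B hB Φ hΦ (((l₀ : ℕ) : O) + 1) ?_
  rw [h, map_add, map_one, map_natCast]

theorem exists_l0_prime (h𝔪 : ResId rbar 𝔪) (hE : NonEis M 𝔪) :
    ∃ l₀ : ℕ, l₀.Prime ∧ ¬ l₀ ∣ m ∧ ((l₀ : ℕ) : ZMod M) = 1 ∧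
      ∀ B : ValuationSubring (AlgebraicClosure ℚ), B.LiesOverPrime l₀ →
        ∀ Φ : GQ, B.IsFrobeniusAt Φ l₀ → (rbar Φ).trace ≠ (l₀ : ResidueField O) + 1 := by
  obtain ⟨l₀, h1, h2⟩ := exists_l0 h𝔪 hE
  exact ⟨l₀, l₀.2.1, l₀.2.2, h1, h2⟩

end L0

section Res

variable {O : Type} [CommRing O] [IsLocalRing O] {rbar : GQ →* M2 (ResidueField O)}
  {O' : Type} [CommRing O'] [IsLocalRing O'] [Algebra O O'] [IsLocalHom (algebraMap O O')]
  {r : GQ →* M2 O'}

/-- the residue of a matrix entry -/
theorem residue_entry (hr : Red rbar r) (σ : GQ) (i j : Fin 2) :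
    residue O' (r σ i j) = ResidueField.map (algebraMap O O') (rbar σ i j) := by
  obtain ⟨o, ho⟩ := residue_surjective (rbar σ i j)
  have h := hr σ i j o ho
  rw [← residue_eq_zero_iff, map_sub, sub_eq_zero] at h
  rw [h, ← ho, ResidueField.map_residue]

/-- the residue of the trace -/
theorem residue_trace (hr : Red rbar r) (σ : GQ) :
    residue O' (r σ).trace = ResidueField.map (algebraMap O O') (rbar σ).trace := by
  rw [trace_fin_two, trace_fin_two, map_add, map_add, residue_entry hr, residue_entry hr]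

/-- the residue of the determinant -/
theorem residue_det (hr : Red rbar r) (σ : GQ) :
    residue O' (r σ).det = ResidueField.map (algebraMap O O') (rbar σ).det := by
  rw [det_fin_two, det_fin_two]
  simp only [map_sub, map_mul, residue_entry hr]

theorem isUnit_iff_residue {x : O'} : IsUnit x ↔ residue O' x ≠ 0 :=
  (residue_ne_zero_iff_isUnit x).symm

/-- a polynomial condition on the residual trace -/
theorem isUnit_of_residue {f : ResidueField O} {x : O'}
    (h : residue O' x = ResidueField.map (algebraMap O O') f) (hf : f ≠ 0) : IsUnit x := by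
  rw [isUnit_iff_residue, h]
  intro h0
  apply hf
  exact (ResidueField.map (algebraMap O O')).injective (h0.trans (map_zero _).symm)

/-- **the auxiliary prime**: `trace - (l + 1)` is a unit -/
theorem isUnit_trace_sub (hr : Red rbar r) {Φ : GQ} {l : ℕ}
    (h : (rbar Φ).trace ≠ (l : ResidueField O) + 1) : IsUnit ((r Φ).trace - ((l : O') + 1)) := by
  refine isUnit_of_residue (f := (rbar Φ).trace - ((l : ResidueField O) + 1)) ?_
    (sub_ne_zero.mpr h)
  rw [map_sub, map_sub, residue_trace hr, map_add, map_add, map_natCast, map_natCast, map_one,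
    map_one]

/-- **the auxiliary prime**, twisted form -/
theorem isUnit_mul_trace_sub (hr : Red rbar r) {Φ : GQ} {l : ℕ}
    (h : (rbar Φ).trace ≠ (l : ResidueField O) + 1) {u : O'} (hu : u - 1 ∈ maximalIdeal O') :
    IsUnit (u * (r Φ).trace - ((l : O') + 1)) := by
  rw [isUnit_iff_residue]
  have h1 := isUnit_iff_residue.mp (isUnit_trace_sub hr h)
  have h2 : residue O' u = 1 := by
    rw [← sub_eq_zero, ← map_one (residue O'), ← map_sub, residue_eq_zero_iff]
    exact hu
  have h3 : residue O' (u * (r Φ).trace - ((l : O') + 1)) =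
      residue O' ((r Φ).trace - ((l : O') + 1)) := by
    rw [map_sub, map_sub, map_mul, h2, one_mul]
  rw [h3]
  exact h1

/-- the image of the residual trace in an extension of the residue field -/
theorem map_trace_sub_ne {k : Type*} [CommRing k] [Nontrivial k] (f : ResidueField O →+* k)
    {Φ : GQ} {l : ℕ} (h : (rbar Φ).trace ≠ (l : ResidueField O) + 1) :
    IsUnit (f (rbar Φ).trace - ((l : k) + 1)) := by
  have h1 : f (rbar Φ).trace - ((l : k) + 1) = f ((rbar Φ).trace - ((l : ResidueField O) + 1)) := by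
    rw [map_sub, map_add, map_natCast, map_one]
  rw [h1]
  exact (isUnit_iff_ne_zero.mpr (sub_ne_zero.mpr h)).map f

/-- **Taylor–Wiles primes**: the discriminant of the characteristic polynomial is a unit -/
theorem isUnit_trace_sq (hr : Red rbar r) {Φ : GQ} {q : ℕ} (hq1 : (q : ResidueField O) = 1)
    (h : (rbar Φ).trace ^ 2 ≠ ((q : ResidueField O) + 1) ^ 2) : IsUnit ((r Φ).trace ^ 2 - 4) := by
  refine isUnit_of_residue (f := (rbar Φ).trace ^ 2 - 4) ?_ ?_
  · rw [map_sub, map_sub, map_pow, map_pow, residue_trace hr]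
    congr 1
    rw [map_ofNat, map_ofNat]
  · rw [hq1] at h
    intro h0
    apply h
    rw [sub_eq_zero.mp h0]
    norm_num

theorem map_trace_sq {k : Type*} [CommRing k] [Nontrivial k] (f : ResidueField O →+* k)
    {Φ : GQ} {q : ℕ} (hq1 : (q : ResidueField O) = 1)
    (h : (rbar Φ).trace ^ 2 ≠ ((q : ResidueField O) + 1) ^ 2) :
    IsUnit (f (rbar Φ).trace ^ 2 - 4) := by
  have h1 : f (rbar Φ).trace ^ 2 - 4 = f ((rbar Φ).trace ^ 2 - 4) := by
    rw [map_sub, map_pow, map_ofNat]
  rw [h1]
  refine (isUnit_iff_ne_zero.mpr ?_).map f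
  rw [hq1] at h
  intro h0
  apply h
  rw [sub_eq_zero.mp h0]
  norm_num

/-- `q ≡ 1 mod p` in the residue field -/
theorem natCast_eq_one {R : Type*} [CommRing R] {p q r : ℕ} (hp : (p : R) = 0)
    (hq : q = 1 + p * r) : (q : R) = 1 := by
  rw [hq, Nat.cast_add, Nat.cast_mul, hp, zero_mul, Nat.cast_one, add_zero]

theorem natCast_residue_eq_zero {p : ℕ} (hpO : (p : O) ∈ maximalIdeal O) :
    (p : ResidueField O) = 0 := by
  rw [← map_natCast (residue O), residue_eq_zero_iff]
  exact hpO

end Res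

end Fermat.Agent.LG

end
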