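import Fermat.Agent.LG.Final
import Fermat.Agent.LG.AsmD

/-!
# Extension of invariant eigenvectors from `GH M ω` to `Gamma0 M`
-/

set_option autoImplicit false
set_option linter.unusedSectionVars false
set_option linter.style.haveILetI false

noncomputable section

open UpperHalfPlane Function ModularCurve Filter ModularForm AlgebraicCurve WithZero
  CongruenceSubgroup
open scoped Manifold MatrixGroups Topology ModularForm

namespace Fermat.Agent.LG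

open Fermat.Agent.HeckeHom (HData)
open Matrix.SpecialLinearGroup (mapGL)

section Ker

variable {N l : ℕ} [NeZero N] [hl : Fact l.Prime] {q : ℕ} [NeZero q]
  {Γ : Subgroup SL(2, ℤ)} (hΓ : IsCong Γ N q) (hlN : ¬ l ∣ N)
  {σ : SL(2, ℤ)} (hσ : σ ∈ Gamma0 N) (hql : IsCoprime (q : ℤ) (l : ℤ))
  (hσl : (q : ℤ) ∣ σ 1 1 - l)

include hΓ hql hσl in
theorem coc_mul_inv_mem (g : Gamma0 N) (c : (tdata0 N hlN σ hσ).H.X) :
    (((tdata0 N hlN σ hσ).H.coc g c : Gamma0 N) : SL(2, ℤ)) * (g : SL(2, ℤ))⁻¹ ∈ Γ := by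
  have h1 := (tdata0 N hlN σ hσ).H.spec g c
  have h2 : (q : ℤ) ∣ ((tdata0 N hlN σ hσ).H.coc g c : SL(2, ℤ)) 1 1 - (g : SL(2, ℤ)) 1 1 :=
    lower_right hql (dvd_of_mem_Gamma0 hΓ.dvd hσ) hσl
      (dvd_of_mem_Gamma0 hΓ.dvd ((tdata0 N hlN σ hσ).H.coc g c).2) h1
  refine hΓ.mem 1 (one_mem _) _ (mul_mem ((tdata0 N hlN σ hσ).H.coc g c).2 (inv_mem g.2)) ?_
  set δ : SL(2, ℤ) := (((tdata0 N hlN σ hσ).H.coc g c : Gamma0 N) : SL(2, ℤ))
  have hg := Fermat.Agent.JInv.det_eq (g : SL(2, ℤ))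
  have hg0 := dvd_of_mem_Gamma0 hΓ.dvd g.2
  have hδ0 := dvd_of_mem_Gamma0 hΓ.dvd ((tdata0 N hlN σ hσ).H.coc g c).2
  have e : (δ * (g : SL(2, ℤ))⁻¹) 1 1 = -(δ 1 0 * (g : SL(2, ℤ)) 0 1) +
      δ 1 1 * (g : SL(2, ℤ)) 0 0 := by
    rw [Matrix.SpecialLinearGroup.coe_mul, Matrix.SpecialLinearGroup.coe_inv,
      Matrix.adjugate_fin_two, Matrix.mul_apply]
    simp [Fin.sum_univ_two]
  have e1 : ((1 : SL(2, ℤ)) 1 1 : ℤ) = 1 := by simp
  rw [e, e1]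
  have e2 : -(δ 1 0 * (g : SL(2, ℤ)) 0 1) + δ 1 1 * (g : SL(2, ℤ)) 0 0 - 1 =
      -(δ 1 0 * (g : SL(2, ℤ)) 0 1) + (δ 1 1 - (g : SL(2, ℤ)) 1 1) * (g : SL(2, ℤ)) 0 0 +
      (g : SL(2, ℤ)) 0 1 * (g : SL(2, ℤ)) 1 0 := by linear_combination hg
  rw [e2]
  exact dvd_add (dvd_add ((Dvd.dvd.mul_right hδ0 _).neg_right) (Dvd.dvd.mul_right h2 _))
    (Dvd.dvd.mul_left hg0 _)

include hΓ hql hσl in
/-- `T_l = l + 1` on homomorphisms vanishing on `Γ` -/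
theorem T_of_res_eq_zero {A : Type*} [AddCommGroup A] (y : Additive (Gamma0 N) →+ A)
    (hy : y.comp (MonoidHom.toAdditive (Subgroup.inclusion hΓ.le)) = 0) :
    (tdata0 N hlN σ hσ).H.hom A y = (l + 1) • y := by
  refine AddMonoidHom.ext fun γ' => ?_
  obtain ⟨g, rfl⟩ := Additive.ofMul.surjective γ'
  rw [HData.hom_apply]
  have h1 : ∀ c : (tdata0 N hlN σ hσ).H.X,
      y (Additive.ofMul ((tdata0 N hlN σ hσ).H.coc g c)) = y (Additive.ofMul g) := by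
    intro c
    have h2 := coc_mul_inv_mem hΓ hlN hσ hql hσl g c
    have h3 := DFunLike.congr_fun hy (Additive.ofMul (⟨_, h2⟩ : Γ))
    have h4 : (tdata0 N hlN σ hσ).H.coc g c =
        Subgroup.inclusion hΓ.le (⟨_, h2⟩ : Γ) * g := Subtype.ext (by
      rw [Subgroup.coe_mul]
      show _ = _ * (g : SL(2, ℤ))⁻¹ * (g : SL(2, ℤ))
      rw [inv_mul_cancel_right])
    rw [h4, ofMul_mul, map_add]
    have h5 : y (Additive.ofMul (Subgroup.inclusion hΓ.le (⟨_, h2⟩ : Γ))) = 0 := h3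
    rw [h5, zero_add]
  have h2 : Fintype.card (tdata0 N hlN σ hσ).H.X = l + 1 := by
    exact Fermat.Agent.TorsCmp.card_onePoint l
  calc ∑ c : (tdata0 N hlN σ hσ).H.X, y (Additive.ofMul ((tdata0 N hlN σ hσ).H.coc g c))
      = ∑ _c : (tdata0 N hlN σ hσ).H.X, y (Additive.ofMul g) :=
        Finset.sum_congr rfl fun c _ => h1 c
    _ = (l + 1) • y (Additive.ofMul g) := by
        rw [Finset.sum_const, Finset.card_univ, h2]

end Ker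

section Ext

variable {M : ℕ} [NeZero M] {q : ℕ} [hq : Fact q.Prime] (hqM : q ∣ M)
  {ω : DirichletCharacter (AlgebraicClosure ℚ) q}

theorem isCoprime_of_not_dvd {M q l : ℕ} (hq : q.Prime) (hqM : q ∣ M) (hl : l.Prime)
    (hlM : ¬ l ∣ M) : IsCoprime (q : ℤ) (l : ℤ) := by
  rw [Nat.isCoprime_iff_coprime, Nat.coprime_primes hq hl]
  rintro rfl
  exact hlM hqM

theorem exists_gamma0_sub {M q l : ℕ} (hl : l.Prime) (hlM : ¬ l ∣ M) :
    ∃ σ : SL(2, ℤ), σ ∈ Gamma0 M ∧ (q : ℤ) ∣ σ 1 1 - l := by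
  obtain ⟨σ, h1, h2⟩ := exists_gamma0_apply ((Nat.Prime.coprime_iff_not_dvd hl).2 hlM)
  exact ⟨σ, h1, by rw [h2, sub_self]; exact dvd_zero _⟩

/-- **Extension of eigenvectors** from `GH M ω` to `Gamma0 M`. -/
theorem exists_extend (hω : ω (-1) = 1) {k : Type*} [CommRing k] {x : Additive (GH M ω) →+ k}
    (hx : Period.IsParabolicHom (GH M ω) x)
    (hconj : ∀ g (hg : g ∈ Gamma0 M), conjH g (conj_mem_GH hqM ω g hg) x = x)
    {P : ℕ → Prop} {t : ℕ → k}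
    (hT : ∀ (l : ℕ) (_ : Fact l.Prime), P l → ∀ (hlM : ¬ l ∣ M) (σ : SL(2, ℤ))
      (hσ : σ ∈ Gamma0 M) (hql : IsCoprime (q : ℤ) (l : ℤ)) (hσl : (q : ℤ) ∣ σ 1 1 - l),
      (tdataG (isCong_GH hqM ω) hlM σ hσ hql hσl).H.hom k x =
        (AddMonoidHom.mulLeft (t l)).comp x)
    {l₀ : ℕ} (hl₀ : l₀.Prime) (hP₀ : P l₀) (hl₀M : ¬ l₀ ∣ M) (hu : IsUnit (t l₀ - (l₀ + 1))) :
    ∃ E : Additive (Gamma0 M) →+ k,
      E.comp (MonoidHom.toAdditive (Subgroup.inclusion (GH_le_gamma0 ω))) = x ∧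
      Period.IsParabolicHom (Gamma0 M) E ∧
      ∀ (l : ℕ) (hl : l.Prime) (hlM : ¬ l ∣ M), P l →
        HeckeHom.heckeHom hl hlM k E = (AddMonoidHom.mulLeft (t l)).comp E := by
  haveI : Fact l₀.Prime := ⟨hl₀⟩
  haveI : NeZero q := ⟨hq.out.ne_zero⟩
  obtain ⟨σ₀, hσ₀, hσl₀⟩ := exists_gamma0_sub (q := q) hl₀ hl₀M
  have hql₀ := isCoprime_of_not_dvd hq.out hqM hl₀ hl₀M
  set res : (Additive (Gamma0 M) →+ k) →+ (Additive (GH M ω) →+ k) :=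
    AddMonoidHom.mk' (fun E => E.comp (MonoidHom.toAdditive
      (Subgroup.inclusion (GH_le_gamma0 ω)))) (fun _ _ => rfl) with hres
  obtain ⟨v, hv⟩ := hu
  have hz : ∀ g ∈ Gamma0 M, ∀ h ∈ GH M ω, zz x (g * h * g⁻¹) = zz x h :=
    zz_conj_of (conj_mem_GH hqM ω) hconj
  obtain ⟨E₀, hE₀⟩ := exists_ext_T (isCong_GH hqM ω) hl₀M σ₀ hσ₀ hql₀ hσl₀ x hz
    (conj_mem_GH hqM ω)
  -- the first extension
  obtain ⟨E₁, hE₁r⟩ : ∃ E₁, res E₁ = x := by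
    refine ⟨(AddMonoidHom.mulLeft ((v⁻¹ : kˣ) : k)).comp E₀, ?_⟩
    have h1 : res ((AddMonoidHom.mulLeft ((v⁻¹ : kˣ) : k)).comp E₀) =
      (AddMonoidHom.mulLeft ((v⁻¹ : kˣ) : k)).comp (res E₀) := rfl
    have h2 : res E₀ = (AddMonoidHom.mulLeft (t l₀)).comp x - (l₀ + 1) • x := by
      rw [← hT l₀ ⟨hl₀⟩ hP₀ hl₀M σ₀ hσ₀ hql₀ hσl₀]
      exact hE₀
    rw [h1, h2]
    refine AddMonoidHom.ext fun γ => ?_
    show ((v⁻¹ : kˣ) : k) * (t l₀ * x γ - (l₀ + 1) • x γ) = x γ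
    have h3 : ((v⁻¹ : kˣ) : k) * (t l₀ * x γ - (l₀ + 1) • x γ) =
        ((v⁻¹ : kˣ) : k) * (t l₀ - (l₀ + 1)) * x γ := by
      rw [nsmul_eq_mul]; push_cast; ring
    rw [h3, ← hv, Units.inv_mul, one_mul]
  -- Hecke operators on `Gamma0 M`
  have hTres : ∀ (l : ℕ) (hl : l.Prime), P l → ∀ (hlM : ¬ l ∣ M) (E : Additive (Gamma0 M) →+ k),
      res E = x → res (HeckeHom.heckeHom hl hlM k E - (AddMonoidHom.mulLeft (t l)).comp E) = 0 := by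
    intro l hl hPl hlM E hE
    haveI : Fact l.Prime := ⟨hl⟩
    obtain ⟨σ, hσ, hσl⟩ := exists_gamma0_sub (q := q) hl hlM
    have hql := isCoprime_of_not_dvd hq.out hqM hl hlM
    have h1 := hom_res (isCong_GH hqM ω) hlM σ hσ hql hσl E
    rw [tdata0_hom hlM σ hσ hl] at h1
    have h2 : res (HeckeHom.heckeHom hl hlM k E) = (AddMonoidHom.mulLeft (t l)).comp x := by
      rw [← hT l ⟨hl⟩ hPl hlM σ hσ hql hσl]
      refine h1.symm.trans ?_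
      congr 1
    have h3 : res ((AddMonoidHom.mulLeft (t l)).comp E) =
        (AddMonoidHom.mulLeft (t l)).comp x := by
      rw [← hE]; rfl
    rw [map_sub, h2, h3, sub_self]
  have hker : ∀ y : Additive (Gamma0 M) →+ k, res y = 0 →
      HeckeHom.heckeHom hl₀ hl₀M k y = (l₀ + 1) • y := by
    intro y hy
    rw [← tdata0_hom hl₀M σ₀ hσ₀ hl₀]
    exact T_of_res_eq_zero (isCong_GH hqM ω) hl₀M hσ₀ hql₀ hσl₀ y hy
  have hTmul : ∀ (l : ℕ) (hl : l.Prime) (hlM : ¬ l ∣ M) (a : k) (E : Additive (Gamma0 M) →+ k),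
      HeckeHom.heckeHom hl hlM k ((AddMonoidHom.mulLeft a).comp E) =
        (AddMonoidHom.mulLeft a).comp (HeckeHom.heckeHom hl hlM k E) := by
    intro l hl hlM a E
    haveI : Fact l.Prime := ⟨hl⟩
    rw [← tdata0_hom hlM 1 (one_mem _) hl, HData.hom_comp]
  set T₀ := HeckeHom.heckeHom hl₀ hl₀M k with hT₀
  set E₂ : Additive (Gamma0 M) →+ k :=
    (AddMonoidHom.mulLeft ((v⁻¹ : kˣ) : k)).comp (T₀ E₁ - (l₀ + 1) • E₁) with hE₂
  have hE₂r : res E₂ = x := by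
    have h1 : res E₂ = (AddMonoidHom.mulLeft ((v⁻¹ : kˣ) : k)).comp
        (res (T₀ E₁) - (l₀ + 1) • res E₁) := rfl
    have h2 : res (T₀ E₁) = (AddMonoidHom.mulLeft (t l₀)).comp x := by
      have h3 := hTres l₀ hl₀ hP₀ hl₀M E₁ hE₁r
      rw [map_sub, sub_eq_zero] at h3
      rw [h3, ← hE₁r]; rfl
    rw [h1, h2, hE₁r]
    refine AddMonoidHom.ext fun γ => ?_
    show ((v⁻¹ : kˣ) : k) * (t l₀ * x γ - (l₀ + 1) • x γ) = x γ
    have h3 : ((v⁻¹ : kˣ) : k) * (t l₀ * x γ - (l₀ + 1) • x γ) =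
        ((v⁻¹ : kˣ) : k) * (t l₀ - (l₀ + 1)) * x γ := by
      rw [nsmul_eq_mul]; push_cast; ring
    rw [h3, ← hv, Units.inv_mul, one_mul]
  refine ⟨E₂, hE₂r, fun γ hγ => ?_, fun l hl hlM hPl => ?_⟩
  · have hmem := par_mem_GH hqM ω hω (γ : SL(2, ℤ)) γ.2 hγ
    have h1 := DFunLike.congr_fun hE₂r (Additive.ofMul (⟨_, hmem⟩ : GH M ω))
    have h2 := hx ⟨_, hmem⟩ hγ
    rw [← h2, ← h1]
    rfl
  · by_cases hll : l = l₀
    · subst hll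
      set y := T₀ E₁ - (AddMonoidHom.mulLeft (t l)).comp E₁ with hy
      have h1 : T₀ y = (l + 1) • y := hker y (hTres l hl hPl hlM E₁ hE₁r)
      have h2 : T₀ E₂ = (AddMonoidHom.mulLeft ((v⁻¹ : kˣ) : k)).comp
          (T₀ (T₀ E₁) - (l + 1) • T₀ E₁) := by
        rw [hE₂, hTmul, map_sub, map_nsmul]
      have h3 : T₀ (T₀ E₁) = (AddMonoidHom.mulLeft (t l)).comp (T₀ E₁) + (l + 1) • y := by
        rw [← h1, hy, map_sub, hTmul]
        abel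
      show T₀ E₂ = _
      rw [h2, h3, hE₂, hy]
      refine AddMonoidHom.ext fun γ => ?_
      show ((v⁻¹ : kˣ) : k) * (t l * T₀ E₁ γ + (l + 1) • (T₀ E₁ γ - t l * E₁ γ) -
        (l + 1) • T₀ E₁ γ) = t l * (((v⁻¹ : kˣ) : k) * (T₀ E₁ γ - (l + 1) • E₁ γ))
      simp only [nsmul_eq_mul]
      ring
    · set T := HeckeHom.heckeHom hl hlM k with hTdef
      set y := T E₁ - (AddMonoidHom.mulLeft (t l)).comp E₁ with hy
      have h1 : T₀ y = (l₀ + 1) • y := hker y (hTres l hl hPl hlM E₁ hE₁r)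
      have h2 : T E₂ = (AddMonoidHom.mulLeft ((v⁻¹ : kˣ) : k)).comp
          (T₀ (T E₁) - (l₀ + 1) • T E₁) := by
        rw [hE₂, hTmul, map_sub, map_nsmul, hTdef, hT₀,
          heckeHom_comm hl hlM hl₀ hl₀M hll]
      have h3 : T₀ (T E₁) = (AddMonoidHom.mulLeft (t l)).comp (T₀ E₁) + (l₀ + 1) • y := by
        rw [← h1, hy, map_sub, hTmul]
        abel
      rw [h2, h3, hE₂, hy]
      refine AddMonoidHom.ext fun γ => ?_
      show ((v⁻¹ : kˣ) : k) * (t l * T₀ E₁ γ + (l₀ + 1) • (T E₁ γ - t l * E₁ γ) -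
        (l₀ + 1) • T E₁ γ) = t l * (((v⁻¹ : kˣ) : k) * (T₀ E₁ γ - (l₀ + 1) • E₁ γ))
      simp only [nsmul_eq_mul]
      ring

end Ext

end Fermat.Agent.LG
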