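import Fermat.Agent.TWDeg.BaseTW
import Fermat.Agent.TWDeg.Raise

/-!
# Taylor-Wiles modules without Taylor-Wiles primes
-/

set_option autoImplicit false
set_option linter.unusedSectionVars false
set_option linter.style.haveILetI false

noncomputable section

namespace Fermat.Agent.LG.BaseW0

open Fermat.Agent.TW Fermat.Agent.TWDeg
open Matrix.SpecialLinearGroup CongruenceSubgroup
open scoped MatrixGroups

section PullEq

variable {D : Type} [CommGroup D] (W : TWD D) (hQ : W.Q = ∅)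

include hQ in
theorem K_le (t t' : ℕ → LT) : W.K t ≤ W.K t' :=
  lvl_mono fun q hq => by rw [hQ] at hq; exact absurd hq (Finset.notMem_empty q)

variable {m : ℕ} (hM : W.M ∣ m) (R A : Type) [CommRing R] [AddCommGroup A] [Module R A]

/-- change of the local types when there are no Taylor-Wiles primes -/
def chgT (t t' : ℕ → LT) : (XF hM).H (funRep (M := W.M) R A (W.Yt t)) ≃ₗ[TPoly m R]
    (XF hM).H (funRep (M := W.M) R A (W.Yt t')) :=
  LinearEquiv.ofLinearMap
    ((XF hM).map (pull R A (NormD.pr (K_le W hQ t' t)) (NormD.pr_smul (K_le W hQ t' t))))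
    ((XF hM).map (pull R A (NormD.pr (K_le W hQ t t')) (NormD.pr_smul (K_le W hQ t t'))))
    (by
      refine LinearMap.ext fun x => ?_
      rw [LinearMap.comp_apply, LinearMap.id_apply]
      let χ : CHom (funRep (M := W.M) R A (W.Yt t')) (funRep (M := W.M) R A (W.Yt t')) :=
        { (LinearMap.id : (W.Yt t' → A) →ₗ[R] (W.Yt t' → A)) with comm' := fun _ _ => rfl }
      rw [(XF hM).map_comp' _ _ χ (fun v => ?_)]
      · exact (XF hM).map_id' χ (fun _ => rfl) x
      · funext y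
        rw [pull_apply, pull_apply]
        change v _ = v y
        congr 1
        induction y using QuotientGroup.induction_on with
        | H g => rfl)
    (by
      refine LinearMap.ext fun x => ?_
      rw [LinearMap.comp_apply, LinearMap.id_apply]
      let χ : CHom (funRep (M := W.M) R A (W.Yt t)) (funRep (M := W.M) R A (W.Yt t)) :=
        { (LinearMap.id : (W.Yt t → A) →ₗ[R] (W.Yt t → A)) with comm' := fun _ _ => rfl }
      rw [(XF hM).map_comp' _ _ χ (fun v => ?_)]
      · exact (XF hM).map_id' χ (fun _ => rfl) x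
      · funext y
        rw [pull_apply, pull_apply]
        change v _ = v y
        congr 1
        induction y using QuotientGroup.induction_on with
        | H g => rfl)

theorem chgT_apply (t t' : ℕ → LT) (x : (XF hM).H (funRep (M := W.M) R A (W.Yt t))) :
    chgT W hQ hM R A t t' x =
      (XF hM).map (pull R A (NormD.pr (K_le W hQ t' t)) (NormD.pr_smul (K_le W hQ t' t))) x := rfl

end PullEq

section Trans

variable {B N₁ N₂ N₁' N₂' N₁'' N₂'' : Type} [CommRing B] [AddCommGroup N₁] [Module B N₁]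
  [AddCommGroup N₂] [Module B N₂] [AddCommGroup N₁'] [Module B N₁'] [AddCommGroup N₂']
  [Module B N₂'] [AddCommGroup N₁''] [Module B N₁''] [AddCommGroup N₂''] [Module B N₂'']

/-- composition of morphisms of degeneracy data -/
theorem degHom_trans {D : DegData B N₁ N₂} {D' : DegData B N₁' N₂'} {D'' : DegData B N₁'' N₂''}
    {f₁ : N₁ →ₗ[B] N₁'} {f₂ : N₂ →ₗ[B] N₂'} {g₁ : N₁' →ₗ[B] N₁''} {g₂ : N₂' →ₗ[B] N₂''}
    (h : DegHom D D' f₁ f₂) (h' : DegHom D' D'' g₁ g₂) :
    DegHom D D'' (g₁ ∘ₗ f₁) (g₂ ∘ₗ f₂) where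
  q := h.q.trans h'.q
  I x := (h'.I _).trans (congrArg g₂ (h.I x))
  W x := (h'.W _).trans (congrArg g₂ (h.W x))
  J x := (h'.J _).trans (congrArg g₁ (h.J x))

end Trans

section Main

variable {D : Type} [CommGroup D] (W : TWD D) (hQ : W.Q = ∅) {l : ℕ} (hl : l.Prime)
  (hlQ : l ∉ W.Q) {m : ℕ} (hM : W.M ∣ m) (hM' : (raise W hl hlQ).M ∣ m) (hlN : ¬ l ∣ W.N)
  (R A : Type) [CommRing R] [AddCommGroup A] [Module R A]

include hQ in
theorem one_M_eq : (one W).M = 1 := by
  change 1 * ∏ q ∈ W.Q, q = 1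
  rw [hQ, Finset.prod_empty, one_mul]

variable {n : ℕ} (hn : n = W.N * W.dd) (hnm : n ∣ m)

/-- comparison with level `Γ₀(n)`, modulus `M₁` -/
def cmpA {M₁ : ℕ} (hM₁ : (one W).M = M₁) (h1 : M₁ ∣ m) :
    (XF hM).H (funRep (M := W.M) R A W.YQ) ≃ₗ[TPoly m R]
    (Stg.gamma0 n hnm h1).H (triv M₁ R A) := by
  subst hn hM₁
  exact (chgT W hQ hM R A (fun _ => .chi) (fun _ => .bor)).trans (cmp₁ W hM R A)

/-- comparison of the degeneracy data -/
theorem exists_cmp' (hnlm : n * l ∣ m) {M₁ : ℕ} (hM₁ : (one W).M = M₁) (h1 : M₁ ∣ m) (hlM₁ : l.Coprime M₁)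
    (hln : l.Coprime n) :
    ∃ f₂ : (XF hM').H (funRep (M := (raise W hl hlQ).M) R A (raise W hl hlQ).YQ) ≃ₗ[TPoly m R]
      (Stg.gamma0 (n * l) hnlm h1).H (triv M₁ R A),
      DegHom (degTW W hl hlQ R A (fun _ => .chi) hM hM' hlN)
        (degData (triv M₁ R A) hl hln hlM₁ hnm hnlm h1 rfl)
        (cmpA W hQ hM R A hn hnm hM₁ h1).toLinearMap f₂.toLinearMap := by
  subst hn hM₁
  have hQ' : (raise W hl hlQ).Q = ∅ := hQ
  have hP := degTW_pull (R := R) (A := A) W hl hlQ hM hM' hlN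
    (K_le W hQ (fun _ => .bor) (fun _ => .chi))
    (K_le (one W) hQ (fun _ => .bor) (fun _ => .chi)) (K_le (raise W hl hlQ) hQ' (fun _ => .bor)
      (fun _ => .chi))
  refine ⟨(chgT (raise W hl hlQ) hQ' hM' R A (fun _ => .chi) (fun _ => .bor)).trans
    (cmp₂ W hl hlQ hM hM' R A), ?_⟩
  exact degHom_trans hP (degHom_cmp W hl hlQ hM hM' hlN R A)

end Main

end Fermat.Agent.LG.BaseW0
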