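import Fermat.Agent.LG.Frob
import Fermat.Agent.Cheb.Exist

/-!
# The quadratic relation for all elements of the Galois group
-/

set_option autoImplicit false
set_option linter.unusedSectionVars false
set_option linter.style.haveILetI false

noncomputable section

open UpperHalfPlane Function ModularCurve Filter ModularForm AlgebraicCurve WithZero
  CongruenceSubgroup
open scoped Manifold MatrixGroups Topology ModularForm

namespace Fermat.Agent.LG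

open Fermat.Agent.X0Places Fermat.Agent.FunField Fermat.Agent.FunField.PlaceLemmas
open Fermat.Agent.TorsCmp

theorem Yh_natCast_mul {Γ : Subgroup SL(2, ℤ)} {R : Type*} [CommRing R] {F : Additive Γ →+ R}
    (hF : F ∈ PE Γ R) {n : ℕ} (φ : R →+ ZMod n) (c : R) : Yh hF φ ((n : R) * c) = 0 := by
  rw [← nsmul_eq_mul, map_nsmul]
  refine Subtype.ext (AddMonoidHom.ext fun γ => ?_)
  show n • (Yh hF φ c : Additive Γ →+ ZMod n) γ = 0
  rw [nsmul_eq_mul, ZMod.natCast_self, zero_mul]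

theorem Yh_congr {Γ : Subgroup SL(2, ℤ)} {R : Type*} [CommRing R] {F : Additive Γ →+ R}
    (hF : F ∈ PE Γ R) {n : ℕ} (φ : R →+ ZMod n) {a b e : R} (h : a - b = n * e) (c : R) :
    Yh hF φ (c * a) = Yh hF φ (c * b) := by
  have h1 : c * a = c * b + (n : R) * (c * e) := by
    linear_combination c * h
  rw [h1, map_add, Yh_natCast_mul, add_zero]

/-- **The quadratic relation** for all elements of the Galois group. -/
theorem RF_all {ι : AlgebraicClosure ℚ →+* ℂ} {M : ℕ} [NeZero M] {Γ : Subgroup SL(2, ℤ)}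
    [MF ι Γ M] [GalSt ι Γ M] [RepEx ι Γ M] {R : Type*} [CommRing R] {F : Additive Γ →+ R}
    (hF : F ∈ PE Γ R) {n : ℕ} [NeZero n]
    {t d : (AlgebraicClosure ℚ ≃ₐ[ℚ] AlgebraicClosure ℚ) → R}
    (hcont : ∀ s, ∃ E : IntermediateField ℚ (AlgebraicClosure ℚ), FiniteDimensional ℚ E ∧
      ∀ s', (∀ z ∈ E, s' z = s z) → (∃ c, t s' - t s = n * c) ∧ ∃ c, d s' - d s = n * c)
    (S : ℕ) (hS : S ≠ 0)
    (hfrob : ∀ l : ℕ, l.Prime → ¬ l ∣ S → ∀ A : ValuationSubring (AlgebraicClosure ℚ),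
      A.LiesOverPrime l → ∀ Φ : AlgebraicClosure ℚ ≃ₐ[ℚ] AlgebraicClosure ℚ,
      A.IsFrobeniusAt Φ l → ∀ φ : R →+ ZMod n, RF ι M hF Φ (t Φ) (d Φ) φ = 0) :
    ∀ s (φ : R →+ ZMod n), RF ι M hF s (t s) (d s) φ = 0 := by
  intro s φ
  refine AddMonoidHom.ext fun c => ?_
  obtain ⟨E₀, hE₀, h₀⟩ := hcont s
  obtain ⟨E₁, hE₁, h₁⟩ := exists_level' (ι := ι) (N := M) (Yh hF φ c)
  obtain ⟨E₂, hE₂, h₂⟩ := exists_level' (ι := ι) (N := M) (galH ι M n s (Yh hF φ c))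
  obtain ⟨E₃, hE₃, h₃⟩ := exists_level' (ι := ι) (N := M) (Yh hF φ (c * t s))
  obtain ⟨l, hl, hlS, -, A, hA, Φ, hΦ, hΦs⟩ := Fermat.Agent.Cheb.exists_frobenius_eq
    ((E₀ ⊔ E₁) ⊔ (E₂ ⊔ E₃)) inferInstance s S.primeFactors
  have hlS' : ¬ l ∣ S := fun h => hlS (Nat.mem_primeFactors.2 ⟨hl, h, hS⟩)
  have a₀ : ∀ z ∈ E₀, Φ z = s z := fun z hz =>
    hΦs z ((le_sup_left : E₀ ⊔ E₁ ≤ _) ((le_sup_left : E₀ ≤ _) hz))
  have a₁ : ∀ z ∈ E₁, Φ z = s z := fun z hz =>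
    hΦs z ((le_sup_left : E₀ ⊔ E₁ ≤ _) ((le_sup_right : E₁ ≤ _) hz))
  have a₂ : ∀ z ∈ E₂, Φ z = s z := fun z hz =>
    hΦs z ((le_sup_right : E₂ ⊔ E₃ ≤ _) ((le_sup_left : E₂ ≤ _) hz))
  have a₃ : ∀ z ∈ E₃, Φ z = s z := fun z hz =>
    hΦs z ((le_sup_right : E₂ ⊔ E₃ ≤ _) ((le_sup_right : E₃ ≤ _) hz))
  obtain ⟨⟨e₁, he₁⟩, e₂, he₂⟩ := h₀ Φ a₀
  have key := DFunLike.congr_fun (hfrob l hl hlS' A hA Φ hΦ φ) c
  rw [RF_apply, h₁ Φ s a₁, h₂ Φ s a₂, Yh_congr hF φ he₁, Yh_congr hF φ he₂, h₃ Φ s a₃] at key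
  rw [RF_apply]
  exact key

end Fermat.Agent.LG
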