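import Fermat.Agent.LG.Geo
import Fermat.Agent.TW.OPt
import Fermat.Agent.HeckeHom.Theta

/-!
Descent of homomorphisms to discrete valuation rings; primitive homomorphisms.
-/

set_option autoImplicit false
set_option linter.unusedSectionVars false

namespace Fermat.Agent.LG

open IsLocalRing

/-! ### Extension of the coefficient ring -/

section Ext

variable {O' : Type} [CommRing O'] [IsDomain O'] [IsDiscreteValuationRing O']
  [IsAdicComplete (maximalIdeal O') O'] [Finite (ResidueField O')] [CharZero O']

/-- Extension of the coefficient ring containing a finite set of roots of unity. -/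
theorem exists_ext_ring {E : Type} [Field E] (ι : O' →+* E)
    (hι : Function.Injective ι) (S : Set E) (hS : S.Finite)
    (hr : ∀ x ∈ S, ∃ n, 0 < n ∧ x ^ n = 1) :
    ∃ (pt : TW.OPt O' O') (ι₁ : pt.A →+* E), Function.Injective ι₁ ∧
      ι₁.comp (algebraMap O' pt.A) = ι ∧ ∀ x ∈ S, ∃ y, ι₁ y = x := by
  classical
  let _ : Algebra O' E := ι.toAlgebra
  let _ : Algebra (FractionRing O') E := (IsFractionRing.lift (K := FractionRing O') hι).toAlgebra
  have htow : IsScalarTower O' (FractionRing O') E := IsScalarTower.of_algebraMap_eq (fun x => by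
    have h1 : algebraMap (FractionRing O') E (algebraMap O' (FractionRing O') x) =
      IsFractionRing.lift (K := FractionRing O') hι (algebraMap O' (FractionRing O') x) := rfl
    rw [h1, IsFractionRing.lift_algebraMap]
    rfl)
  have hintK : ∀ x ∈ S, IsIntegral (FractionRing O') x := by
    intro x hx
    obtain ⟨n, hn, h⟩ := hr x hx
    exact IsIntegral.of_pow hn (by rw [h]; exact isIntegral_one)
  have := hS.to_subtype
  let L : IntermediateField (FractionRing O') E := IntermediateField.adjoin (FractionRing O') S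
  have hfd : FiniteDimensional (FractionRing O') L :=
    IntermediateField.finiteDimensional_adjoin hintK
  let _ : Algebra O' L := ((algebraMap (FractionRing O') L).comp
    (algebraMap O' (FractionRing O'))).toAlgebra
  have htowL : IsScalarTower O' (FractionRing O') L := IsScalarTower.of_algebraMap_eq (fun x => rfl)
  have hloc := QuadRep.isLocalRing_integralClosure O' (FractionRing O') L
  have hdvr := QuadRep.isDiscreteValuationRing_integralClosure O' (FractionRing O') L
  have hcomp := QuadRep.isAdicComplete_integralClosure O' (FractionRing O') L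
  have hfin := QuadRep.finite_residueField_integralClosure O' (FractionRing O') L
  have hfin' := QuadRep.finite_integralClosure O' (FractionRing O') L
  have hch := QuadRep.charZero_integralClosure O' (FractionRing O') L
  have hlochom := QuadRep.isLocalHom_integralClosure O' (FractionRing O') L
  let pt : TW.OPt O' O' :=
    { A := integralClosure O' L
      isDVR := hdvr
      isAdicComplete := hcomp
      finiteResidueField := hfin
      charZero := hch
      finite := hfin'
      isLocalHom := hlochom
      χ := Algebra.ofId O' (integralClosure O' L) }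
  let ι₁ : integralClosure O' L →+* E :=
    (algebraMap L E).comp (algebraMap (integralClosure O' L) L)
  refine ⟨pt, ι₁, ?_, ?_, ?_⟩
  · intro x y hxy
    exact Subtype.ext ((algebraMap L E).injective hxy)
  · ext x
    have h1 : algebraMap (FractionRing O') E (algebraMap O' (FractionRing O') x) =
      IsFractionRing.lift (K := FractionRing O') hι (algebraMap O' (FractionRing O') x) := rfl
    rw [IsFractionRing.lift_algebraMap] at h1
    exact h1
  · intro x hx
    obtain ⟨n, hn, h⟩ := hr x hx
    have hxL : x ∈ L := IntermediateField.subset_adjoin _ S hx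
    have hint : IsIntegral O' (⟨x, hxL⟩ : L) :=
      IsIntegral.of_pow hn (by
        have : (⟨x, hxL⟩ : L) ^ n = 1 := Subtype.ext h
        rw [this]
        exact isIntegral_one)
    exact ⟨⟨⟨x, hxL⟩, hint⟩, rfl⟩

end Ext

/-! ### Primitive homomorphisms -/

section Prim

variable {O : Type} [CommRing O] [IsDomain O] [IsDiscreteValuationRing O]

/-- A finite set of elements of the fraction field has an element of maximal valuation. -/
theorem exists_max_elt (T : Finset (FractionRing O)) (hT : ∃ t ∈ T, t ≠ 0) :
    ∃ b ∈ T, b ≠ 0 ∧ ∀ t ∈ T, ∃ a : O, t = algebraMap O (FractionRing O) a * b := by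
  classical
  set v := ValuationRing.valuation O (FractionRing O) with hv
  obtain ⟨t₀, ht₀, ht₀0⟩ := hT
  obtain ⟨b, hb, hmax⟩ := Finset.exists_max_image T (fun t => v t) ⟨t₀, ht₀⟩
  have hb0 : b ≠ 0 := by
    rintro rfl
    have h1 := hmax t₀ ht₀
    rw [map_zero, le_zero_iff, map_eq_zero] at h1
    exact ht₀0 h1
  refine ⟨b, hb, hb0, fun t ht => ?_⟩
  have h1 : v (t / b) ≤ 1 := by
    rw [map_div₀]
    exact div_le_one_of_le₀ (hmax t ht) zero_le
  obtain ⟨a, ha⟩ := (ValuationRing.mem_integer_iff O (FractionRing O) (t / b)).mp h1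
  exact ⟨a, by rw [ha, div_mul_cancel₀ _ hb0]⟩

variable {E : Type} [Field E] {G : Type*} [Group G]

/-- `F'` is an integral form of a projection of `F`. -/
def Desc (ι : O →+* E) (F : Additive G →+ E) (F' : Additive G →+ O) : Prop :=
  ∃ μ : E →+ FractionRing O, (∀ a x, μ (ι a * x) = algebraMap O (FractionRing O) a * μ x) ∧
    ∀ g, algebraMap O (FractionRing O) (F' g) = μ (F g)

/-- **Primitive homomorphisms.** -/
theorem exists_primitive [Group.FG G] (ι : O →+* E) (hι : Function.Injective ι)
    (F : Additive G →+ E) (hF : F ≠ 0) :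
    ∃ F' : Additive G →+ O, Desc ι F F' ∧ ∃ g, F' g ∉ maximalIdeal O := by
  classical
  let _ : Algebra (FractionRing O) E := (IsFractionRing.lift (K := FractionRing O) hι).toAlgebra
  have halg : ∀ a : O, algebraMap (FractionRing O) E (algebraMap O (FractionRing O) a) = ι a := by
    intro a
    have h1 : algebraMap (FractionRing O) E (algebraMap O (FractionRing O) a) =
      IsFractionRing.lift (K := FractionRing O) hι (algebraMap O (FractionRing O) a) := rfl
    rw [h1, IsFractionRing.lift_algebraMap]
  obtain ⟨g₀, hg₀⟩ : ∃ g, F g ≠ 0 := by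
    by_contra h
    push Not at h
    exact hF (AddMonoidHom.ext h)
  obtain ⟨lam, hlam⟩ : ∃ lam : Module.Dual (FractionRing O) E, lam (F g₀) ≠ 0 := by
    by_contra h
    push Not at h
    exact hg₀ ((Module.forall_dual_apply_eq_zero_iff (FractionRing O) (F g₀)).mp h)
  set α : O →+ FractionRing O := (algebraMap O (FractionRing O)).toAddMonoidHom with hα
  have hαinj : Function.Injective α := IsFractionRing.injective O (FractionRing O)
  set φ : Additive G →+ FractionRing O := lam.toAddMonoidHom.comp F with hφ
  obtain ⟨S, hS⟩ := (inferInstance : Group.FG G).out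
  have hφgen : ∀ (B : AddSubgroup (FractionRing O)), (∀ s ∈ S, φ (Additive.ofMul s) ∈ B) →
      ∀ g, φ g ∈ B := by
    intro B hB
    have h1 : Subgroup.closure (S : Set G) ≤
        (AddSubgroup.toSubgroup' (B.comap φ)) := by
      rw [Subgroup.closure_le]
      intro s hs
      exact hB s hs
    intro g
    have h2 : Additive.toMul g ∈ Subgroup.closure (S : Set G) := by rw [hS]; trivial
    exact h1 h2
  have hT : ∃ t ∈ S.image (fun s => φ (Additive.ofMul s)), t ≠ 0 := by
    by_contra h
    push Not at h
    have h1 := hφgen ⊥ (fun s hs => by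
      rw [AddSubgroup.mem_bot]
      exact h _ (Finset.mem_image_of_mem _ hs)) g₀
    rw [AddSubgroup.mem_bot] at h1
    exact hlam h1
  obtain ⟨b, hb, hb0, hmax⟩ := exists_max_elt _ hT
  -- `μ = b⁻¹ lam`
  set μ : E →+ FractionRing O := (AddMonoidHom.mulLeft b⁻¹).comp lam.toAddMonoidHom with hμ
  have hμF : ∀ g, ∃ a : O, α a = μ (F g) := by
    intro g
    have h1 := hφgen (α.range.comap (AddMonoidHom.mulLeft b⁻¹)) (fun s hs => by
      obtain ⟨a, ha⟩ := hmax _ (Finset.mem_image_of_mem _ hs)
      rw [AddSubgroup.mem_comap]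
      refine ⟨a, ?_⟩
      show algebraMap O (FractionRing O) a = b⁻¹ * φ (Additive.ofMul s)
      rw [ha, mul_comm, mul_assoc, mul_inv_cancel₀ hb0, mul_one]) g
    exact h1
  choose F' hF' using hμF
  have hadd : ∀ x y, F' (x + y) = F' x + F' y := by
    intro x y
    apply hαinj
    rw [map_add, hF', hF', hF', map_add, map_add]
  let F'' : Additive G →+ O := AddMonoidHom.mk' F' hadd
  refine ⟨F'', ⟨μ, ?_, fun g => hF' g⟩, ?_⟩
  · intro a x
    show b⁻¹ * lam (ι a * x) = algebraMap O (FractionRing O) a * (b⁻¹ * lam x)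
    have h1 : ι a * x = algebraMap O (FractionRing O) a • x := by
      rw [Algebra.smul_def, halg]
    rw [h1, map_smul, smul_eq_mul]
    ring
  · obtain ⟨s, hs, hsb⟩ := Finset.mem_image.mp hb
    refine ⟨Additive.ofMul s, fun hmem => ?_⟩
    have h1 : F' (Additive.ofMul s) = 1 := by
      apply hαinj
      rw [hF']
      show b⁻¹ * lam (F (Additive.ofMul s)) = α 1
      have h2 : lam (F (Additive.ofMul s)) = b := hsb
      rw [h2, inv_mul_cancel₀ hb0]
      exact (map_one (algebraMap O (FractionRing O))).symm
    have h2 : F'' (Additive.ofMul s) = 1 := h1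
    rw [h2] at hmem
    exact (Ideal.ne_top_iff_one _).mp (maximalIdeal.isMaximal O).ne_top hmem

variable {ι : O →+* E} {F : Additive G →+ E} {F' : Additive G →+ O}

/-- **Naturality**: relations pass to integral forms. -/
theorem Desc.natural (h : Desc ι F F') {G' : Type*} [Group G']
    (UE : (Additive G →+ E) → (Additive G' →+ E))
    (UK : (Additive G →+ FractionRing O) → (Additive G' →+ FractionRing O))
    (UO : (Additive G →+ O) → (Additive G' →+ O))
    (h1 : ∀ (f : E →+ FractionRing O) φ, UK (f.comp φ) = f.comp (UE φ))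
    (h2 : ∀ (f : O →+ FractionRing O) φ, UK (f.comp φ) = f.comp (UO φ)) :
    Desc ι (UE F) (UO F') := by
  obtain ⟨μ, hμ, hF⟩ := h
  refine ⟨μ, hμ, fun g => ?_⟩
  set α : O →+ FractionRing O := (algebraMap O (FractionRing O)).toAddMonoidHom with hα
  have e : α.comp F' = μ.comp F := AddMonoidHom.ext hF
  have e2 : α.comp (UO F') = μ.comp (UE F) := by rw [← h2, e, h1]
  exact DFunLike.congr_fun e2 g

theorem Desc.smul (h : Desc ι F F') (a : O) : Desc ι (ι a • F) (a • F') := by
  obtain ⟨μ, hμ, hF⟩ := h
  refine ⟨μ, hμ, fun g => ?_⟩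
  show algebraMap O (FractionRing O) (a * F' g) = μ (ι a * F g)
  rw [hμ, map_mul, hF]

theorem Desc.sub {F₁ : Additive G →+ E} {F₁' : Additive G →+ O}
    (h : ∃ μ : E →+ FractionRing O,
      (∀ g, algebraMap O (FractionRing O) (F' g) = μ (F g)) ∧
      (∀ g, algebraMap O (FractionRing O) (F₁' g) = μ (F₁ g))) (he : F = F₁) : F' = F₁' := by
  obtain ⟨μ, h1, h2⟩ := h
  refine AddMonoidHom.ext fun g => ?_
  apply IsFractionRing.injective O (FractionRing O)
  rw [h1, h2, he]

/-- general form of the transfer of an eigenvector equation -/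
theorem Desc.eigen (h : Desc ι F F')
    (UE : (Additive G →+ E) → (Additive G →+ E))
    (UK : (Additive G →+ FractionRing O) → (Additive G →+ FractionRing O))
    (UO : (Additive G →+ O) → (Additive G →+ O))
    (h1 : ∀ (f : E →+ FractionRing O) φ, UK (f.comp φ) = f.comp (UE φ))
    (h2 : ∀ (f : O →+ FractionRing O) φ, UK (f.comp φ) = f.comp (UO φ)) {a : O}
    (ha : UE F = ι a • F) : UO F' = a • F' := by
  obtain ⟨μ, hμ, hF⟩ := h
  refine Desc.sub (F := UE F) (F₁ := ι a • F) ⟨μ, fun g => ?_, fun g => ?_⟩ ha
  · set α : O →+ FractionRing O := (algebraMap O (FractionRing O)).toAddMonoidHom with hα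
    have e : α.comp F' = μ.comp F := AddMonoidHom.ext hF
    have e2 : α.comp (UO F') = μ.comp (UE F) := by rw [← h2, e, h1]
    exact DFunLike.congr_fun e2 g
  · show algebraMap O (FractionRing O) (a * F' g) = μ (ι a * F g)
    rw [hμ, map_mul, hF]

end Prim

section SL2

open scoped MatrixGroups
open UpperHalfPlane Fermat.Agent.HeckeHom ModularCurve

variable {O : Type} [CommRing O] [IsDomain O] [IsDiscreteValuationRing O] {E : Type} [Field E]
  {ι : O →+* E} {Γ : Subgroup SL(2, ℤ)} {F : Additive Γ →+ E} {F' : Additive Γ →+ O}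

/-- transfer of Hecke eigenvalues -/
theorem Desc.hom (h : Desc ι F F') (D : HData Γ Γ) {a : O}
    (ha : D.hom E F = ι a • F) : D.hom O F' = a • F' :=
  h.eigen (fun φ => D.hom E φ) (fun φ => D.hom (FractionRing O) φ) (fun φ => D.hom O φ)
    (fun f φ => D.hom_comp f φ) (fun f φ => D.hom_comp f φ) ha

/-- transfer of the conjugation eigenvalues -/
theorem Desc.conjH (h : Desc ι F F') (σ : SL(2, ℤ)) (hσ : ∀ γ ∈ Γ, σ * γ * σ⁻¹ ∈ Γ) {a : O}
    (ha : conjH σ hσ F = ι a • F) : conjH σ hσ F' = a • F' :=
  h.eigen (fun φ => LG.conjH σ hσ φ) (fun φ => LG.conjH σ hσ φ) (fun φ => LG.conjH σ hσ φ)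
    (fun _ _ => rfl) (fun _ _ => rfl) ha

/-- transfer of the boundary conditions -/
theorem Desc.mem_PE (h : Desc ι F F') (hF : F ∈ PE Γ E) : F' ∈ PE Γ O := by
  obtain ⟨μ, hμ, hFF⟩ := h
  refine ⟨fun γ hγ => ?_, fun γ τ hγ => ?_⟩
  · apply IsFractionRing.injective O (FractionRing O)
    rw [hFF, hF.1 γ hγ, map_zero, map_zero]
  · apply IsFractionRing.injective O (FractionRing O)
    rw [hFF, hF.2 γ τ hγ, map_zero, map_zero]

theorem Desc.parabolic (h : Desc ι F F') (hF : Period.IsParabolicHom Γ F) :
    Period.IsParabolicHom Γ F' := by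
  obtain ⟨μ, hμ, hFF⟩ := h
  intro γ hγ
  apply IsFractionRing.injective O (FractionRing O)
  rw [hFF, hF γ hγ, map_zero, map_zero]

/-- vanishing at an element passes to integral forms -/
theorem Desc.zero (h : Desc ι F F') {γ : Additive Γ} (hF : F γ = 0) : F' γ = 0 := by
  obtain ⟨μ, hμ, hFF⟩ := h
  apply IsFractionRing.injective O (FractionRing O)
  rw [hFF, hF, map_zero, map_zero]

end SL2

end Fermat.Agent.LG
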