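import Mathlib

/-!
Lifting additive homomorphisms to `ℤ/n`, and detection of the maximal ideal.
-/

set_option autoImplicit false

namespace Fermat.Agent.LG

open IsLocalRing

section Circle

/-- the embedding of `ℤ/n` in `ℚ/ℤ` -/
noncomputable def zq (n : ℕ) [NeZero n] : ZMod n →+ AddCircle (1 : ℚ) :=
  ZMod.lift n ⟨zmultiplesHom (AddCircle (1 : ℚ)) (((1 / n : ℚ)) : AddCircle (1 : ℚ)), by
    rw [zmultiplesHom_apply, ← AddCircle.coe_zsmul, AddCircle.coe_eq_zero_iff]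
    refine ⟨1, ?_⟩
    have hn : (n : ℚ) ≠ 0 := by exact_mod_cast NeZero.ne n
    simp⟩

theorem zq_intCast (n : ℕ) [NeZero n] (k : ℤ) :
    zq n (k : ZMod n) = ((k / n : ℚ) : AddCircle (1 : ℚ)) := by
  rw [zq, ZMod.lift_coe]
  show (zmultiplesHom (AddCircle (1 : ℚ)) (((1 / n : ℚ)) : AddCircle (1 : ℚ))) k = _
  rw [zmultiplesHom_apply, ← AddCircle.coe_zsmul]
  congr 1
  rw [zsmul_eq_mul]
  ring

theorem zq_injective (n : ℕ) [NeZero n] : Function.Injective (zq n) := by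
  rw [injective_iff_map_eq_zero]
  intro a ha
  obtain ⟨k, rfl⟩ := ZMod.intCast_surjective a
  rw [zq_intCast, AddCircle.coe_eq_zero_iff] at ha
  obtain ⟨m, hm⟩ := ha
  have hn : (n : ℚ) ≠ 0 := by exact_mod_cast NeZero.ne n
  rw [zsmul_eq_mul, mul_one, eq_div_iff hn] at hm
  have h1 : m * n = k := by exact_mod_cast hm
  rw [← h1]
  push_cast
  rw [ZMod.natCast_self, mul_zero]

theorem exists_zq (n : ℕ) [NeZero n] {x : AddCircle (1 : ℚ)} (h : n • x = 0) :
    ∃ a, zq n a = x := by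
  obtain ⟨q, rfl⟩ := QuotientAddGroup.mk_surjective x
  have h1 : ((n • q : ℚ) : AddCircle (1 : ℚ)) = 0 := h
  rw [AddCircle.coe_eq_zero_iff] at h1
  obtain ⟨m, hm⟩ := h1
  have hn : (n : ℚ) ≠ 0 := by exact_mod_cast NeZero.ne n
  rw [zsmul_eq_mul, mul_one, nsmul_eq_mul] at hm
  refine ⟨(m : ZMod n), ?_⟩
  rw [zq_intCast]
  have h2 : (m / n : ℚ) = q := by rw [hm]; field_simp
  rw [h2]

end Circle

/-- **Lifting** of additive maps to `ℤ/p` along `ℤ/pm → ℤ/p`. -/
theorem exists_lift_add {O : Type*} [AddCommGroup O] (p m : ℕ) [NeZero p] [NeZero m]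
    (htf : ∀ x : O, m • x = 0 → x = 0) (φ : O →+ ZMod p) :
    ∃ Φ : O →+ ZMod (p * m), ∀ x,
      ZMod.castHom (dvd_mul_right p m) (ZMod p) (Φ x) = φ x := by
  have : NeZero (p * m) := ⟨mul_ne_zero (NeZero.ne p) (NeZero.ne m)⟩
  let f : O →ₗ[ℤ] O := (m : ℤ) • LinearMap.id
  have hf : Function.Injective f := by
    rw [injective_iff_map_eq_zero]
    intro x hx
    apply htf
    have : f x = (m : ℤ) • x := rfl
    rw [this, natCast_zsmul] at hx
    exact hx
  obtain ⟨Ψ, hΨ⟩ := CharacterModule.dual_surjective_of_injective f hf ((zq p).comp φ)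
  have h1 : ∀ x, m • Ψ x = zq p (φ x) := by
    intro x
    have h2 : Ψ (f x) = zq p (φ x) := DFunLike.congr_fun hΨ x
    have h3 : f x = m • x := by
      show (m : ℤ) • x = m • x
      rw [natCast_zsmul]
    rw [h3, map_nsmul] at h2
    exact h2
  have h2 : ∀ x, ∃ a, zq (p * m) a = Ψ x := by
    intro x
    apply exists_zq
    rw [mul_smul, h1, ← map_nsmul, nsmul_eq_mul, ZMod.natCast_self, zero_mul, map_zero]
  choose Φ hΦ using h2
  have hadd : ∀ x y, Φ (x + y) = Φ x + Φ y := by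
    intro x y
    apply zq_injective
    rw [map_add, hΦ, hΦ, hΦ, map_add]
  refine ⟨AddMonoidHom.mk' Φ hadd, fun x => ?_⟩
  apply zq_injective
  show zq p (ZMod.castHom (dvd_mul_right p m) (ZMod p) (Φ x)) = _
  rw [← h1, ← hΦ]
  obtain ⟨k, hk⟩ := ZMod.intCast_surjective (Φ x)
  rw [← hk, map_intCast, zq_intCast, zq_intCast, ← AddCircle.coe_nsmul]
  congr 1
  have hp : (p : ℚ) ≠ 0 := by exact_mod_cast NeZero.ne p
  have hm : (m : ℚ) ≠ 0 := by exact_mod_cast NeZero.ne m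
  rw [nsmul_eq_mul]
  push_cast
  field_simp

section DVR

variable {O : Type*} [CommRing O] [IsDomain O] [IsDiscreteValuationRing O]

theorem exists_pow_le_span {c : O} (hc : c ≠ 0) :
    ∃ n : ℕ, maximalIdeal O ^ n ≤ Ideal.span {c} := by
  obtain ⟨ϖ, hϖ⟩ := IsDiscreteValuationRing.exists_irreducible O
  obtain ⟨n, u, hu⟩ := IsDiscreteValuationRing.eq_unit_mul_pow_irreducible hc hϖ
  refine ⟨n, ?_⟩
  rw [hϖ.maximalIdeal_eq, Ideal.span_singleton_pow, Ideal.span_singleton_le_span_singleton]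
  refine ⟨(↑u⁻¹ : O), ?_⟩
  rw [hu, mul_comm (u : O), mul_assoc, Units.mul_inv, mul_one]

theorem exists_dvd_pow {p : ℕ} (hpO : (p : O) ∈ maximalIdeal O) {c : O} (hc : c ≠ 0) :
    ∃ (e : ℕ) (c' : O), (p : O) ^ e = c * c' := by
  obtain ⟨n, hn⟩ := exists_pow_le_span hc
  have h1 := hn (Ideal.pow_mem_pow hpO n)
  rw [Ideal.mem_span_singleton] at h1
  obtain ⟨c', hc'⟩ := h1
  exact ⟨n, c', hc'⟩

end DVR

/-- detection of the maximal ideal by additive maps to `ℤ/p` -/
theorem mem_maximalIdeal_of_forall {O : Type*} [CommRing O] [IsLocalRing O] {p : ℕ}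
    [hp : Fact p.Prime] (hpO : (p : O) ∈ maximalIdeal O) {x : O}
    (h : ∀ φ : O →+ ZMod p, (∀ y ∈ maximalIdeal O, φ y = 0) → φ x = 0) :
    x ∈ maximalIdeal O := by
  have hch : CharP (ResidueField O) p := by
    refine (CharP.charP_iff_prime_eq_zero hp.out).mpr ?_
    rw [← map_natCast (residue O), residue_eq_zero_iff]
    exact hpO
  let _ : Algebra (ZMod p) (ResidueField O) := ZMod.algebra _ p
  rw [← residue_eq_zero_iff]
  rw [← Module.forall_dual_apply_eq_zero_iff (ZMod p)]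
  intro f
  exact h (f.toAddMonoidHom.comp (residue O).toAddMonoidHom) (fun y hy => by
    show f (residue O y) = 0
    rw [(residue_eq_zero_iff y).mpr hy, map_zero])

end Fermat.Agent.LG
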