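import Fermat.Agent.LG.AsmS4
import Fermat.Agent.LG.Prim
import Fermat.Agent.LG.PrimC
import Fermat.Agent.LG.AL
import Fermat.Agent.DefRing.Mat

/-!
# The core of the local-global theorem at Taylor-Wiles primes
-/

set_option autoImplicit false
set_option linter.unusedSectionVars false
set_option linter.style.haveILetI false

noncomputable section

open UpperHalfPlane Function ModularCurve Filter ModularForm AlgebraicCurve WithZero
  CongruenceSubgroup IsLocalRing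
open scoped Manifold MatrixGroups Topology ModularForm

namespace Fermat.Agent.LG

open Fermat.Agent.HeckeHom (HData)
open Fermat.Agent.DefRing (GQ M2)
open Matrix.SpecialLinearGroup (mapGL)

section Form

variable {N q : ℕ} [NeZero N] [hq : Fact q.Prime] {ω : DirichletCharacter (AlgebraicClosure ℚ) q}
  {O : Type} [CommRing O] {𝔪 : Ideal O} (R : MulChar (ZMod q) O)
  (r : GQ →* M2 O) (cyc : GQ → (ZMod q)ˣ) {m : ℕ}

/-- eigenvectors with character -/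
structure EigD {A : Type} [CommRing A] (R : MulChar (ZMod q) A) (tr : GQ → A) (m : ℕ)
    (F : Additive (GH (N * q) ω) →+ A) : Prop where
  pe : F ∈ PE (GH (N * q) ω) A
  conj : ∀ g (hg : g ∈ Gamma0 (N * q)), conjH g (conj_mem_GH (dvd_mul_left q N) ω g hg) F =
    (AddMonoidHom.mulLeft (R ((g 1 1 : ℤ) : ZMod q) ^ 2)).comp F
  hecke : ∀ (l : ℕ) (_ : Fact l.Prime), ¬ l ∣ m → ∀ (hlM : ¬ l ∣ N * q) (σ : SL(2, ℤ))
    (hσ : σ ∈ Gamma0 (N * q)) (hql : IsCoprime (q : ℤ) (l : ℤ)) (hσl : (q : ℤ) ∣ σ 1 1 - l)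
    (A : ValuationSubring (AlgebraicClosure ℚ)), A.LiesOverPrime l →
    ∀ Φ, A.IsFrobeniusAt Φ l →
    (tdataG (isCong_GH (dvd_mul_left q N) ω) hlM σ hσ hql hσl).H.hom _ F =
      (AddMonoidHom.mulLeft (R ((l : ℕ) : ZMod q) * tr Φ)).comp F

theorem isUnit_11 {M : ℕ} (hqM : q ∣ M) {g : SL(2, ℤ)} (hg : g ∈ Gamma0 M) :
    ((g 0 0 : ℤ) : ZMod q) * ((g 1 1 : ℤ) : ZMod q) = 1 := by
  have hdet := Fermat.Agent.JInv.det_eq g
  have hc : (q : ℤ) ∣ g 1 0 := dvd_of_mem_Gamma0 hqM hg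
  have hc' : ((g 1 0 : ℤ) : ZMod q) = 0 := by
    rwa [ZMod.intCast_zmod_eq_zero_iff_dvd]
  have := congrArg (Int.cast : ℤ → ZMod q) hdet
  push_cast at this
  rw [hc', mul_zero, sub_zero] at this
  exact this

variable {R r cyc}

theorem EigD.isForm {F : Additive (GH (N * q) ω) →+ O} (h : EigD R (fun s => (r s).trace) m F)
    (hR : ∀ u : (ZMod q)ˣ, R u - 1 ∈ 𝔪)
    (hcyc : ∀ (l : ℕ), l.Prime → l ≠ q → ∀ (A : ValuationSubring (AlgebraicClosure ℚ)),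
      A.LiesOverPrime l → ∀ Φ, A.IsFrobeniusAt Φ l → (cyc Φ : ZMod q) = l)
    (hdet : ∀ (l : ℕ), l.Prime → ¬ l ∣ m → ∀ (A : ValuationSubring (AlgebraicClosure ℚ)),
      A.LiesOverPrime l → ∀ Φ, A.IsFrobeniusAt Φ l → (r Φ).det = l) :
    IsForm (dvd_mul_left q N) ω 𝔪 F (fun g => R ((g 1 1 : ℤ) : ZMod q) ^ 2)
      (fun s => R (cyc s) * (r s).trace) (fun s => R (cyc s) ^ 2 * (r s).det) m where
  pe := h.pe
  conj := h.conj
  cong g hg := by
    have h1 : IsUnit ((g 1 1 : ℤ) : ZMod q) :=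
      IsUnit.of_mul_eq_one_right _ (isUnit_11 (dvd_mul_left q N) hg)
    obtain ⟨u, hu⟩ := h1
    rw [← hu]
    have h2 : R u ^ 2 - 1 = (R u + 1) * (R u - 1) := by ring
    rw [h2]
    exact 𝔪.mul_mem_left _ (hR u)
  hecke l hl hlm hlM σ hσ hql hσl A hA Φ hΦ := by
    have hlq : l ≠ q := by
      rintro rfl
      exact hlM (dvd_mul_left _ _)
    have h1 := hcyc l hl.out hlq A hA Φ hΦ
    have h2 : ((σ 1 1 : ℤ) : ZMod q) = l := by
      rw [← sub_eq_zero, ← Int.cast_natCast, ← Int.cast_sub, ZMod.intCast_zmod_eq_zero_iff_dvd]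
      exact hσl
    refine ⟨?_, ?_⟩
    · rw [h.hecke l hl hlm hlM σ hσ hql hσl A hA Φ hΦ]
      show _ = (AddMonoidHom.mulLeft (R (cyc Φ) * (r Φ).trace)).comp F
      rw [h1]
    · show (l : O) * R ((σ 1 1 : ℤ) : ZMod q) ^ 2 = R (cyc Φ) ^ 2 * (r Φ).det
      rw [h1, h2, hdet l hl.out hlm A hA Φ hΦ, mul_comm]

theorem mulLeft_comp {A : Type} [CommRing A] {G : Type} [AddGroup G] (a : A) (F : G →+ A) :
    (AddMonoidHom.mulLeft a).comp F = a • F := rfl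

/-- transfer to an integral form -/
theorem EigD.desc {E : Type} [Field E] [IsDomain O] [IsDiscreteValuationRing O] {ι : O →+* E}
    {F : Additive (GH (N * q) ω) →+ E} {F' : Additive (GH (N * q) ω) →+ O} {tr : GQ → O}
    (h : EigD (R.ringHomComp ι) (fun s => ι (tr s)) m F) (hD : Desc ι F F') :
    EigD R tr m F' where
  pe := hD.mem_PE h.pe
  conj g hg := by
    rw [mulLeft_comp]
    refine hD.conjH g _ ?_
    rw [h.conj g hg, mulLeft_comp, MulChar.ringHomComp_apply, map_pow]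
  hecke l hl hlm hlM σ hσ hql hσl A hA Φ hΦ := by
    rw [mulLeft_comp]
    refine hD.hom _ ?_
    rw [h.hecke l hl hlm hlM σ hσ hql hσl A hA Φ hΦ, mulLeft_comp, MulChar.ringHomComp_apply,
      map_mul]

/-- reduction -/
theorem EigD.red {k : Type} [CommRing k] (f : O →+* k)
    {F : Additive (GH (N * q) ω) →+ O} {tr : GQ → O} (h : EigD R tr m F) :
    EigD (R.ringHomComp f) (fun s => f (tr s)) m ((f : O →+ k).comp F) where
  pe := comp_mem_PE _ h.pe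
  conj g hg := by
    rw [conjH_comp, h.conj g hg]
    refine AddMonoidHom.ext fun γ => ?_
    show f (_ * F γ) = _ * f (F γ)
    rw [map_mul, MulChar.ringHomComp_apply, map_pow]
  hecke l hl hlm hlM σ hσ hql hσl A hA Φ hΦ := by
    rw [HData.hom_comp, h.hecke l hl hlm hlM σ hσ hql hσl A hA Φ hΦ]
    refine AddMonoidHom.ext fun γ => ?_
    show f (_ * F γ) = _ * f (F γ)
    rw [map_mul, MulChar.ringHomComp_apply, map_mul]

theorem int_mod_inv {M : ℕ} (hqM : q ∣ M) {g : SL(2, ℤ)} (hg : g ∈ Gamma0 M) :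
    ((g 0 0 : ℤ) : ZMod q) = (((g 1 1 : ℤ) : ZMod q))⁻¹ :=
  eq_inv_of_mul_eq_one_left (isUnit_11 hqM hg)

/-- the Atkin–Lehner transform -/
theorem EigD.al [IsDomain O] {F : Additive (GH (N * q) ω) →+ O} {tr : GQ → O}
    (h : EigD R tr m F) (w : ALM N q) :
    haveI : NeZero q := ⟨hq.out.ne_zero⟩
    EigD R⁻¹ tr m (w.alH (isCong_GH (dvd_mul_left q N) ω) F) := by
  haveI : NeZero q := ⟨hq.out.ne_zero⟩
  refine ⟨w.alH_mem _ h.pe, fun g hg => ?_, fun l hl hlm hlM σ hσ hql hσl A hA Φ hΦ => ?_⟩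
  · rw [w.conjH_alH_eig (isCong_GH (dvd_mul_left q N) ω) (conj_mem_GH (dvd_mul_left q N) ω)
      (fun g hg => h.conj g hg) (fun g hg h' hh' hd => ?_) g hg]
    · congr 3
      rw [ALM.inv_11, int_mod_inv (dvd_mul_left q N) hg, MulChar.inv_apply']
    · congr 2
      rw [← sub_eq_zero, ← Int.cast_sub, ZMod.intCast_zmod_eq_zero_iff_dvd]
      exact hd
  · have h1 := w.T_alH_eig (isCong_GH (dvd_mul_left q N) ω) hlM σ hσ hql hσl
      (conj_mem_GH (dvd_mul_left q N) ω) (h.conj σ⁻¹ (inv_mem hσ))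
      (h.hecke l hl hlm hlM σ hσ hql hσl A hA Φ hΦ)
    rw [h1]
    congr 2
    have h2 : ((σ 1 1 : ℤ) : ZMod q) = l := by
      rw [← sub_eq_zero, ← Int.cast_natCast, ← Int.cast_sub, ZMod.intCast_zmod_eq_zero_iff_dvd]
      exact hσl
    have h3 : ((l : ℕ) : ZMod q) ≠ 0 := by
      rw [← h2]
      exact right_ne_zero_of_mul_eq_one (isUnit_11 (dvd_mul_left q N) hσ)
    rw [ALM.inv_11, int_mod_inv (dvd_mul_left q N) hσ, h2, MulChar.inv_apply', pow_two,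
      mul_assoc, ← mul_assoc (R (l : ZMod q)⁻¹) (R (l : ZMod q)), ← map_mul, inv_mul_cancel₀ h3,
      map_one, one_mul]

end Form

section Res

variable {O : Type} [CommRing O] [IsLocalRing O] {p : ℕ} [hp : Fact p.Prime]

theorem charP_res (hpO : (p : O) ∈ maximalIdeal O) : CharP (ResidueField O) p := by
  refine (CharP.charP_iff_prime_eq_zero hp.out).mpr ?_
  rw [← map_natCast (residue O), residue_eq_zero_iff]
  exact hpO

theorem four_res (hpO : (p : O) ∈ maximalIdeal O) (hp2 : p ≠ 2) (a : ResidueField O)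
    (h : (4 : ℕ) • a = 0) : a = 0 := by
  haveI := charP_res hpO
  rw [nsmul_eq_mul] at h
  rcases mul_eq_zero.1 h with h1 | h1
  · exfalso
    rw [CharP.cast_eq_zero_iff (ResidueField O) p] at h1
    have h2 : p ∣ 2 := hp.out.dvd_of_dvd_pow (show p ∣ 2 ^ 2 by exact h1)
    exact hp2 ((Nat.prime_dvd_prime_iff_eq hp.out Nat.prime_two).1 h2)
  · exact h1

theorem sep_res (hpO : (p : O) ∈ maximalIdeal O) (x : ResidueField O)
    (h : ∀ φ : ResidueField O →+ ZMod p, φ x = 0) : x = 0 := by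
  haveI := charP_res hpO
  let _ : Algebra (ZMod p) (ResidueField O) := ZMod.algebra _ p
  rw [← Module.forall_dual_apply_eq_zero_iff (ZMod p)]
  intro f
  exact h f.toAddMonoidHom

end Res

instance finiteIndex_GH {M q : ℕ} [NeZero M] [hq : Fact q.Prime]
    (ω : DirichletCharacter (AlgebraicClosure ℚ) q) [hqM : Fact (q ∣ M)] :
    (GH M ω).FiniteIndex :=
  Subgroup.finiteIndex_of_le (gamma_le_GH hqM.out ω)

section Core

variable {N q p m : ℕ} [NeZero N] [hq : Fact q.Prime] [hp : Fact p.Prime]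
  {ω : DirichletCharacter (AlgebraicClosure ℚ) q}
  {O : Type} [CommRing O] [IsDomain O] [IsDiscreteValuationRing O] [CharZero O]
  {R : MulChar (ZMod q) O} {r : GQ →* M2 O} {cyc : GQ → (ZMod q)ˣ}

/-- the lowering statement at `q` -/
def LowQ (N q m : ℕ) [NeZero N] [hq : Fact q.Prime] (hqN : ¬ q ∣ N) {O : Type} [CommRing O]
    [IsLocalRing O] (r : GQ →* M2 O) : Prop :=
  haveI : NeZero q := ⟨hq.out.ne_zero⟩
  ∀ Eb : Additive (Gamma0 (N * q)) →+ ResidueField O, Period.IsParabolicHom (Gamma0 (N * q)) Eb →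
    (∀ (l : ℕ) (hl : l.Prime) (hlN : ¬ l ∣ N * q), ¬ l ∣ m →
      ∀ A : ValuationSubring (AlgebraicClosure ℚ), A.LiesOverPrime l →
      ∀ Φ : GQ, A.IsFrobeniusAt Φ l →
      HeckeHom.heckeHom hl hlN (ResidueField O) Eb =
        (AddMonoidHom.mulLeft (residue O (r Φ).trace)).comp Eb) →
    ∃ a b : Additive (Gamma0 N) →+ ResidueField O, Period.IsParabolicHom (Gamma0 N) a ∧
      Period.IsParabolicHom (Gamma0 N) b ∧
      Eb = (TorsCmp.alphaPull N q).hom _ a + (TorsCmp.betaPull N q).hom _ b ∧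
      (∀ (l : ℕ) (hl : l.Prime) (hlN : ¬ l ∣ N), ¬ l ∣ m →
        ∀ A : ValuationSubring (AlgebraicClosure ℚ), A.LiesOverPrime l →
        ∀ Φ : GQ, A.IsFrobeniusAt Φ l →
        HeckeHom.heckeHom hl hlN (ResidueField O) a =
          (AddMonoidHom.mulLeft (residue O (r Φ).trace)).comp a ∧
        HeckeHom.heckeHom hl hlN (ResidueField O) b =
          (AddMonoidHom.mulLeft (residue O (r Φ).trace)).comp b) ∧
      ∃ τ : ResidueField O, τ ^ 2 ≠ 4 ∧
        HeckeHom.heckeHom hq.out hqN (ResidueField O) a = (AddMonoidHom.mulLeft τ).comp a ∧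
        HeckeHom.heckeHom hq.out hqN (ResidueField O) b = (AddMonoidHom.mulLeft τ).comp b

theorem MulChar_inv_unit (u : (ZMod q)ˣ) : R⁻¹ (u : ZMod q) = R ((u⁻¹ : (ZMod q)ˣ) : ZMod q) := by
  rw [MulChar.inv_apply', Units.val_inv_eq_inv_val]

theorem MulChar_mul_inv (u : (ZMod q)ˣ) : R (u : ZMod q) * R⁻¹ (u : ZMod q) = 1 := by
  rw [MulChar_inv_unit, ← map_mul, Units.mul_inv, map_one]

/-- **The core.** -/
theorem core (h2 : 2 ∣ N) (hqN : ¬ q ∣ N) (hp2 : p ≠ 2) {r₀ : ℕ} (hq1 : q = 1 + p * r₀)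
    (hm : m ≠ 0) (hNm : ∀ l : ℕ, l.Prime → l ∣ N * q → l ∣ m) (hω : ω (-1) = 1) {s₀ : ℕ}
    (hs : ∀ c : (ZMod q)ˣ, ω c ^ p ^ s₀ = 1) (hpO : (p : O) ∈ maximalIdeal O)
    {E : Type} [Field E] {ι : O →+* E} (hι : Injective ι)
    (hR : ∀ u : (ZMod q)ˣ, R u - 1 ∈ maximalIdeal O)
    (hcyc : ∀ (l : ℕ), l.Prime → l ≠ q → ∀ (A : ValuationSubring (AlgebraicClosure ℚ)),
      A.LiesOverPrime l → ∀ Φ, A.IsFrobeniusAt Φ l → (cyc Φ : ZMod q) = l)
    (hdet : ∀ (l : ℕ), l.Prime → ¬ l ∣ m → ∀ (A : ValuationSubring (AlgebraicClosure ℚ)),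
      A.LiesOverPrime l → ∀ Φ, A.IsFrobeniusAt Φ l → (r Φ).det = l)
    (hcont : ∀ (η₁ η₂ : (ZMod q)ˣ → O) (e : ℕ) (s : GQ),
      ∃ K : IntermediateField ℚ (AlgebraicClosure ℚ), FiniteDimensional ℚ K ∧
      ∀ s' : GQ, (∀ z ∈ K, s' z = s z) →
        (∃ c, η₁ (cyc s') * (r s').trace - η₁ (cyc s) * (r s).trace = (p : O) ^ e * c) ∧
        ∃ c, η₂ (cyc s') * (r s').det - η₂ (cyc s) * (r s).det = (p : O) ^ e * c)
    {FE : Additive (GH (N * q) ω) →+ E} (hFE0 : FE ≠ 0)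
    (hFE : EigD (R.ringHomComp ι) (fun s => ι (r s).trace) m FE)
    {l₀ : ℕ} (hl₀ : l₀.Prime) (hl₀m : ¬ l₀ ∣ m)
    (hl₀t : ∀ A : ValuationSubring (AlgebraicClosure ℚ), A.LiesOverPrime l₀ →
      ∀ Φ : GQ, A.IsFrobeniusAt Φ l₀ → residue O (r Φ).trace ≠ l₀ + 1)
    (hlow : LowQ N q m hqN r)
    {A : ValuationSubring (AlgebraicClosure ℚ)} (hA : A.LiesOverPrime q) {s : GQ}
    (hsA : s ∈ A.inertiaSubgroupIn ℚ) (hdet1 : (r s).det = 1) :
    (r s).trace = R (cyc s) + R⁻¹ (cyc s) := by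
  haveI : NeZero q := ⟨hq.out.ne_zero⟩
  haveI : Fact l₀.Prime := ⟨hl₀⟩
  haveI : Fact (q ∣ N * q) := ⟨dvd_mul_left q N⟩
  haveI : Group.FG (GH (N * q) ω) := inferInstance
  have hqM : q ∣ N * q := dvd_mul_left q N
  have hpne : (p : O) ≠ 0 := by exact_mod_cast hp.out.ne_zero
  obtain ⟨F, hD, g₀, hg₀⟩ := exists_primitive ι hι FE hFE0
  have hF : EigD R (fun s => (r s).trace) m F := hFE.desc hD
  have hRb : ∀ u : (ZMod q)ˣ, residue O (R u) = 1 := by
    intro u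
    rw [← sub_eq_zero, ← map_one (residue O), ← map_sub, residue_eq_zero_iff]
    exact hR u
  have hRi : ∀ u : (ZMod q)ˣ, R⁻¹ u - 1 ∈ maximalIdeal O := by
    intro u
    rw [MulChar_inv_unit]
    exact hR _
  obtain ⟨w, -, -⟩ := exists_ALM ((Nat.Prime.coprime_iff_not_dvd hq.out).2 hqN)
  have hF' := hF.al w
  -- the reduction
  have hFb := hF.red (residue O)
  set Fb : Additive (GH (N * q) ω) →+ ResidueField O := (residue O : O →+ ResidueField O).comp F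
    with hFbdef
  have hFb0 : Fb ≠ 0 := by
    intro h0
    apply hg₀
    rw [← residue_eq_zero_iff]
    exact DFunLike.congr_fun h0 g₀
  choose! Al hAl Φl hΦl using fun (l : ℕ) (hl : l.Prime) =>
    Fermat.Agent.Frob.exists_liesOverPrime_isFrobeniusAt (L := AlgebraicClosure ℚ) hl
  have hu11 : ∀ g ∈ Gamma0 (N * q), ∃ u : (ZMod q)ˣ, (u : ZMod q) = ((g 1 1 : ℤ) : ZMod q) :=
    fun g hg => IsUnit.of_mul_eq_one_right _ (isUnit_11 hqM hg)
  have hconj : ∀ g (hg : g ∈ Gamma0 (N * q)), conjH g (conj_mem_GH hqM ω g hg) Fb = Fb := by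
    intro g hg
    obtain ⟨u, hu⟩ := hu11 g hg
    rw [hFb.conj g hg, ← hu, MulChar.ringHomComp_apply, hRb, one_pow]
    refine AddMonoidHom.ext fun γ => ?_
    show 1 * Fb γ = Fb γ
    rw [one_mul]
  have hlu : ∀ l : ℕ, l.Prime → ¬ l ∣ N * q → ∃ u : (ZMod q)ˣ, (u : ZMod q) = l := by
    intro l hl hlM
    have h1 : l.Coprime q := (Nat.coprime_primes hl hq.out).2 (by
      rintro rfl
      exact hlM hqM)
    exact ⟨ZMod.unitOfCoprime l h1, ZMod.coe_unitOfCoprime l h1⟩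
  have hT : ∀ (l : ℕ) (_ : Fact l.Prime), ¬ l ∣ m → ∀ (hlM : ¬ l ∣ N * q) (σ : SL(2, ℤ))
      (hσ : σ ∈ Gamma0 (N * q)) (hql : IsCoprime (q : ℤ) (l : ℤ)) (hσl : (q : ℤ) ∣ σ 1 1 - l)
      (A : ValuationSubring (AlgebraicClosure ℚ)), A.LiesOverPrime l →
      ∀ Φ : GQ, A.IsFrobeniusAt Φ l →
      (tdataG (isCong_GH hqM ω) hlM σ hσ hql hσl).H.hom _ Fb =
        (AddMonoidHom.mulLeft (residue O (r Φ).trace)).comp Fb := by
    intro l hl hlm hlM σ hσ hql hσl A hA Φ hΦ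
    obtain ⟨u, hu⟩ := hlu l hl.out hlM
    rw [hFb.hecke l hl hlm hlM σ hσ hql hσl A hA Φ hΦ, ← hu, MulChar.ringHomComp_apply, hRb,
      one_mul]
  have htu : ∀ l : ℕ, l.Prime → ¬ l ∣ m → ∀ (A : ValuationSubring (AlgebraicClosure ℚ)),
      A.LiesOverPrime l → ∀ Φ : GQ, A.IsFrobeniusAt Φ l →
      residue O (r Φ).trace = residue O (r (Φl l)).trace := by
    intro l hl hlm A hA Φ hΦ
    have hlM : ¬ l ∣ N * q := fun h => hlm (hNm l hl h)
    haveI : Fact l.Prime := ⟨hl⟩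
    obtain ⟨σ, hσ, hσl⟩ := exists_gamma0_sub (q := q) hl hlM
    have hql := isCoprime_of_not_dvd hq.out hqM hl hlM
    have h1 := hT l ⟨hl⟩ hlm hlM σ hσ hql hσl A hA Φ hΦ
    rw [hT l ⟨hl⟩ hlm hlM σ hσ hql hσl (Al l) (hAl l hl) (Φl l) (hΦl l hl)] at h1
    obtain ⟨γ, hγ⟩ : ∃ γ, Fb γ ≠ 0 := by
      by_contra hcon
      push Not at hcon
      exact hFb0 (AddMonoidHom.ext hcon)
    have h3 := DFunLike.congr_fun h1 γ
    exact (mul_right_cancel₀ hγ h3).symm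
  have hl₀M : ¬ l₀ ∣ N * q := fun h => hl₀m (hNm l₀ hl₀ h)
  have hl₀N : ¬ l₀ ∣ N := fun h => hl₀M (h.mul_right q)
  obtain ⟨Eb, hEb, hEbp, hEbT⟩ := exists_extend hqM hω (x := Fb) hFb.pe.1 hconj
    (P := fun l => ¬ l ∣ m) (t := fun l => residue O (r (Φl l)).trace)
    (fun l hl hlm hlM σ hσ hql hσl => hT l hl hlm hlM σ hσ hql hσl (Al l) (hAl l hl.out) (Φl l)
      (hΦl l hl.out)) hl₀ hl₀m hl₀M
    (isUnit_iff_ne_zero.2 (sub_ne_zero.2 (hl₀t (Al l₀) (hAl l₀ hl₀) (Φl l₀) (hΦl l₀ hl₀))))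
  obtain ⟨a, b, ha, hb, hab, habT, τ, hτ, hτa, hτb⟩ := hlow Eb hEbp
    (fun l hl hlN hlm A hA Φ hΦ => by
      rw [htu l hl hlm A hA Φ hΦ]
      exact hEbT l hl hlN hlm)
  have h4 := four_res (O := O) hpO hp2
  have haPE : a ∈ PE (Gamma0 N) (ResidueField O) := mem_PE_of_parabolic h2 le_rfl h4 ha
  have hbPE : b ∈ PE (Gamma0 N) (ResidueField O) := mem_PE_of_parabolic h2 le_rfl h4 hb
  have hFab : Fb = ALM.degH (isCong_GH hqM ω) a b := by
    rw [← hEb, hab]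
    rfl
  have hFab' : (residue O : O →+ ResidueField O).comp (w.alH (isCong_GH hqM ω) F) =
      ALM.degH (isCong_GH hqM ω) b a := by
    rw [← w.alH_comp, ← w.alH_degH, ← hFab]
  have hlg := IsForm.lg (N := N) (q := q) (p := p) h2 hqN hp2 hq1 hω hs hpO
    (fun c hc => by
      obtain ⟨e, c', h⟩ := exists_dvd_pow hpO hc
      exact ⟨e, c', h.symm⟩)
    (fun e => by
      obtain ⟨n, hn⟩ := exists_pow_le_span (pow_ne_zero e hpne)
      exact ⟨n, fun c hc => Ideal.mem_span_singleton.1 (hn hc)⟩)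
    (fun e φ => by
      haveI : NeZero p := ⟨hp.out.ne_zero⟩
      haveI : NeZero (p ^ e) := ⟨pow_ne_zero _ hp.out.ne_zero⟩
      refine exists_lift_add p (p ^ e) (fun x hx => ?_) φ
      rw [nsmul_eq_mul] at hx
      rcases mul_eq_zero.1 hx with h | h
      · exfalso
        apply pow_ne_zero e hpne
        exact_mod_cast h
      · exact h)
    (residue O) (sep_res hpO) hm
    (hF.isForm (𝔪 := maximalIdeal O) (cyc := cyc) hR hcyc hdet)
    (hF'.isForm (𝔪 := maximalIdeal O) (cyc := cyc) hRi hcyc hdet)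
    (fun e s => hcont (fun u => R u) (fun u => R u ^ 2) e s)
    (fun e s => hcont (fun u => R⁻¹ u) (fun u => R⁻¹ u ^ 2) e s) hl₀M hl₀N hl₀m
    (hAl l₀ hl₀) (hΦl l₀ hl₀) (by
      rw [← residue_ne_zero_iff_isUnit, map_sub, map_mul, hRb, one_mul, map_add, map_one,
        map_natCast]
      exact sub_ne_zero.2 (hl₀t (Al l₀) (hAl l₀ hl₀) (Φl l₀) (hΦl l₀ hl₀)))
    (by
      rw [← residue_ne_zero_iff_isUnit, map_sub, map_mul, MulChar_inv_unit, hRb, one_mul, map_add,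
        map_one, map_natCast]
      exact sub_ne_zero.2 (hl₀t (Al l₀) (hAl l₀ hl₀) (Φl l₀) (hΦl l₀ hl₀)))
    haPE hbPE (x₀ := residue O (r (Φl l₀)).trace)
    (isUnit_iff_ne_zero.2 (sub_ne_zero.2 (hl₀t (Al l₀) (hAl l₀ hl₀) (Φl l₀) (hΦl l₀ hl₀))))
    (by
      rw [tdata0_hom hl₀N 1 (one_mem _) hl₀]
      exact (habT l₀ hl₀ hl₀N hl₀m (Al l₀) (hAl l₀ hl₀) (Φl l₀) (hΦl l₀ hl₀)).1)
    (by
      rw [tdata0_hom hl₀N 1 (one_mem _) hl₀]
      exact (habT l₀ hl₀ hl₀N hl₀m (Al l₀) (hAl l₀ hl₀) (Φl l₀) (hΦl l₀ hl₀)).2)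
    (τ := τ)
    (by
      rw [tdata0_hom hqN 1 (one_mem _) hq.out]
      exact hτa)
    (by
      rw [tdata0_hom hqN 1 (one_mem _) hq.out]
      exact hτb)
    (isUnit_iff_ne_zero.2 (sub_ne_zero.2 hτ)) hFab hFab' hFb0 hA hsA hsA
  have hRR := MulChar_mul_inv (R := R) (cyc s)
  rcases hlg with h | h
  · rw [hdet1, mul_one] at h
    linear_combination (- R⁻¹ (cyc s)) * h - ((r s).trace - R (cyc s)) * hRR
  · rw [hdet1, mul_one] at h
    linear_combination (- R (cyc s)) * h - ((r s).trace - R⁻¹ (cyc s)) * hRR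

end Core

end Fermat.Agent.LG
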