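import Fermat.Agent.LG.Gal
import Fermat.Agent.TorsCmp.Hecke

/-!
# Elliptic elements of `Γ₀(N)`, `N` even
-/

set_option autoImplicit false
set_option linter.unusedSectionVars false

noncomputable section

open UpperHalfPlane Function ModularCurve CongruenceSubgroup
open scoped MatrixGroups

namespace Fermat.Agent.LG

open Fermat.Agent.X0Places Fermat.Agent.TorsCmp

theorem fix_cases {γ : SL(2, ℤ)} {τ : ℍ} (h : γ • τ = τ) :
    (γ = 1 ∨ γ = -1) ∨ (γ 0 0 + γ 1 1) ^ 2 < 4 := by
  have h1 := congrArg (fun z : ℍ => (z : ℂ)) h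
  simp only [coe_SL_smul] at h1
  have hden := denom_SL_ne_zero γ τ
  rw [div_eq_iff hden] at h1
  have hdet := Fermat.Agent.JInv.det_eq γ
  set a := γ 0 0 with ha
  set b := γ 0 1 with hb
  set c := γ 1 0 with hc
  set d := γ 1 1 with hd
  have hy := τ.im_pos
  have hre := congrArg Complex.re h1
  have him := congrArg Complex.im h1
  simp at hre him
  set x := τ.re
  set y := τ.im
  -- imaginary part
  have e1 : 2 * (c : ℝ) * x = a - d := by
    have : y * (2 * (c : ℝ) * x - (a - d)) = 0 := by linear_combination -him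
    rcases mul_eq_zero.1 this with h0 | h0
    · exact absurd h0 hy.ne'
    · linarith
  have e2 : (b : ℝ) = -(c * (x ^ 2 + y ^ 2)) := by
    have e3 : (a : ℝ) = 2 * c * x + d := by linarith
    rw [e3] at hre
    linear_combination hre
  by_cases hc0 : c = 0
  · left
    have hcr : (c : ℝ) = 0 := by exact_mod_cast hc0
    rw [hcr] at e1 e2
    have had : a = d := by
      have : (a : ℝ) = d := by linarith
      exact_mod_cast this
    have hb0 : b = 0 := by
      have : (b : ℝ) = 0 := by rw [e2]; ring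
      exact_mod_cast this
    rw [had, hb0, hc0] at hdet
    have hd2 : d * d = 1 := by linarith
    rcases Int.eq_one_or_neg_one_of_mul_eq_one hd2 with h0 | h0
    · left
      ext i j
      fin_cases i <;> fin_cases j
      · show a = 1
        rw [had, h0]
      · exact hb0
      · exact hc0
      · exact h0
    · right
      ext i j
      fin_cases i <;> fin_cases j
      · show a = -1
        rw [had, h0]
      · show b = _
        rw [hb0]; simp
      · show c = _
        rw [hc0]; simp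
      · show d = -1
        exact h0
  · right
    have hcr : (c : ℝ) ≠ 0 := by exact_mod_cast hc0
    have hdet' : (a : ℝ) * d - b * c = 1 := by exact_mod_cast hdet
    have h2 : ((a : ℝ) + d) ^ 2 = 4 - 4 * (c * y) ^ 2 := by
      have : ((a : ℝ) + d) ^ 2 = (a - d) ^ 2 + 4 * (a * d - b * c) + 4 * b * c := by ring
      rw [this, hdet', ← e1, e2]
      ring
    have h3 : 0 < (c * y) ^ 2 := by positivity
    have h4 : ((a : ℝ) + d) ^ 2 < 4 := by rw [h2]; linarith
    exact_mod_cast h4

/-- Elliptic elements of `Γ₀(N)`, `N` even, have order dividing `4`. -/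
theorem ell_pow_four {N : ℕ} (hN : 2 ∣ N) {γ : SL(2, ℤ)} (hγ : γ ∈ Gamma0 N) {τ : ℍ}
    (h : γ • τ = τ) : γ ^ 4 = 1 := by
  rcases fix_cases h with (h1 | h1) | h1
  · rw [h1, one_pow]
  · rw [h1, show (4 : ℕ) = 2 * 2 from rfl, pow_mul, neg_one_sq, one_pow]
  · have hdet := Fermat.Agent.JInv.det_eq γ
    have hc : (2 : ℤ) ∣ γ 1 0 := by
      rw [mem_Gamma0_iff] at hγ
      exact (by exact_mod_cast hN : (2 : ℤ) ∣ (N : ℤ)).trans hγ
    obtain ⟨k, hk⟩ := hc
    have h0 : γ 0 0 + γ 1 1 = 0 := by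
      have h2 : (γ 0 0 + γ 1 1) < 2 := by nlinarith
      have h3 : -2 < (γ 0 0 + γ 1 1) := by nlinarith
      have h4 : (γ 0 0 + γ 1 1) % 2 = 0 := by
        have h5 : (γ 0 0 * γ 1 1) % 2 = 1 := by
          have : γ 0 0 * γ 1 1 = 1 + 2 * (γ 0 1 * k) := by rw [hk] at hdet; linarith
          rw [this]; omega
        rcases Int.emod_two_eq_zero_or_one (γ 0 0) with h6 | h6 <;>
        rcases Int.emod_two_eq_zero_or_one (γ 1 1) with h7 | h7 <;>
        simp [Int.mul_emod, h6, h7] at h5 ⊢ <;> omega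
      omega
    have h2 : γ ^ 2 = -1 := by
      rw [sq]
      ext i j
      have e0 : γ 1 1 = -γ 0 0 := by linarith
      fin_cases i <;> fin_cases j
      · show (γ * γ) 0 0 = (-1 : SL(2, ℤ)) 0 0
        rw [Matrix.SpecialLinearGroup.coe_mul, Matrix.mul_apply, Fin.sum_univ_two]
        simp
        rw [e0] at hdet
        linarith
      · show (γ * γ) 0 1 = (-1 : SL(2, ℤ)) 0 1
        rw [Matrix.SpecialLinearGroup.coe_mul, Matrix.mul_apply, Fin.sum_univ_two, e0]
        simp
        ring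
      · show (γ * γ) 1 0 = (-1 : SL(2, ℤ)) 1 0
        rw [Matrix.SpecialLinearGroup.coe_mul, Matrix.mul_apply, Fin.sum_univ_two, e0]
        simp
        ring
      · show (γ * γ) 1 1 = (-1 : SL(2, ℤ)) 1 1
        rw [Matrix.SpecialLinearGroup.coe_mul, Matrix.mul_apply, Fin.sum_univ_two, e0]
        simp
        rw [e0] at hdet
        linarith
    rw [show (4 : ℕ) = 2 * 2 from rfl, pow_mul, h2, neg_one_sq]

/-- parabolic homomorphisms with values in a group without `2`-torsion -/
theorem mem_PE_of_parabolic {N : ℕ} (hN : 2 ∣ N) {Γ : Subgroup SL(2, ℤ)} (hΓ : Γ ≤ Gamma0 N)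
    {A : Type*} [AddCommGroup A] (hA : ∀ a : A, (4 : ℕ) • a = 0 → a = 0) {x : Additive Γ →+ A}
    (hx : Period.IsParabolicHom Γ x) : x ∈ PE Γ A := by
  refine ⟨hx, fun γ τ hγ => hA _ ?_⟩
  have h1 := ell_pow_four hN (hΓ γ.2) hγ
  rw [← map_nsmul, ← ofMul_pow]
  have h2 : γ ^ 4 = 1 := Subtype.ext (by rw [Subgroup.coe_pow, h1]; rfl)
  rw [h2, ofMul_one, map_zero]

theorem zmod_four_torsionFree {p : ℕ} (hp : p.Prime) (hp2 : p ≠ 2) (k : ℕ) (a : ZMod (p ^ k))
    (h : (4 : ℕ) • a = 0) : a = 0 := by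
  have h1 : IsUnit ((4 : ℕ) : ZMod (p ^ k)) := by
    rw [ZMod.isUnit_iff_coprime]
    apply Nat.Coprime.pow_right
    rw [Nat.coprime_comm, Nat.Prime.coprime_iff_not_dvd hp]
    intro h2
    have h3 : p ∣ 2 * 2 := h2
    rcases (Nat.Prime.dvd_mul hp).1 h3 with h4 | h4 <;>
    exact hp2 ((Nat.prime_dvd_prime_iff_eq hp Nat.prime_two).1 h4)
  rw [nsmul_eq_mul] at h
  exact (h1.mul_right_eq_zero).1 h

end Fermat.Agent.LG
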