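import Fermat.Agent.LG.Roots
import Fermat.Agent.TorsSurj.Eis
import Fermat.Agent.MzCusp.DeltaQuot

/-!
# Existence of functions with given character
-/

set_option autoImplicit false
set_option linter.unusedSectionVars false
set_option linter.style.haveILetI false

noncomputable section

open UpperHalfPlane Function ModularCurve Filter ModularForm AlgebraicCurve WithZero
  CongruenceSubgroup
open scoped Manifold MatrixGroups Topology ModularForm

namespace Fermat.Agent.LG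

open Fermat.Agent.X0Places Fermat.Agent.FunField Fermat.Agent.FunField.PlaceLemmas
open Fermat.Agent.TorsCmp Fermat.Agent.TorsSurj Fermat.Agent.MzCusp
open Function.Periodic (qParam)

variable {Γ : Subgroup SL(2, ℤ)} {N : ℕ} [NeZero N]

/-- expansions in `q` are expansions in `q_N` -/
theorem HasLaurent.widen {f : ℍ → ℂ} {y : LaurentSeries ℂ} (hf : HasLaurent 1 f y) (N : ℕ)
    [NeZero N] : HasLaurent N f (qExpand ℂ N y) := by
  have h2 := hf.subst (h' := (N : ℝ)) id 1 N (by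
    intro τ
    rw [Units.val_one, one_mul, id]
    have := qParam_mul_width (h := 1) one_ne_zero N (τ : ℂ)
    rw [mul_one] at this
    exact this.symm)
  rwa [Fermat.Agent.ModPoly.twist_one] at h2

/-- a holomorphic function on `ℍ`, such that for each `δ` the function `f (δ τ)` is `N`-periodic
and of the form (bounded at infinity) / Δ, has expansions at all cusps -/
theorem exp_of_slash {k : ℤ} {E : ℍ → ℂ} (δ : SL(2, ℤ))
    (hper : ∀ τ, (E ∣[k] δ) (ModularGroup.T ^ N • τ) = (E ∣[k] δ) τ)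
    (hb : IsBoundedAtImInfty (E ∣[k] δ)) (hmd : MDiff (E ∣[k] δ)) :
    ∃ y, HasLaurent N (E ∣[k] δ) y := by
  have hN : (0 : ℝ) < N := natCast_pos N
  refine hasLaurent_of_growth hN hmd (m := 0) (fun τ => ?_) ?_
  · rw [← hper τ]
    have h1 := UpperHalfPlane.modular_T_zpow_smul τ (N : ℤ)
    rw [zpow_natCast] at h1
    rw [h1]
    simp
  · simpa using hb

theorem eisChar_denom {χ : Γ →* ℂˣ} (hχ : IsParChar χ) (γ : Γ) (z : ℍ) :
    eisChar χ 12 ((γ : SL(2, ℤ)) • z) =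
      χ γ * ((((γ : SL(2, ℤ)) 1 0 : ℤ) : ℂ) * z + ((γ : SL(2, ℤ)) 1 1 : ℤ)) ^ 12 * eisChar χ 12 z := by
  rw [eisChar_smul hχ 12 γ z]
  congr 2

/-- the function `E_χ/Δ` -/
def hChar (χ : Γ →* ℂˣ) : ℍ → ℂ :=
  fun τ => eisChar χ 12 τ * (ModularForm.discriminant τ)⁻¹

theorem mdiff_hChar {χ : Γ →* ℂˣ} (hχ : IsParChar χ) : MDiff (hChar χ) :=
  (mdiff_eisChar hχ 12 (by norm_num)).mul
    (mdiff_inv mdiff_disc (fun τ => ModularForm.discriminant_ne_zero τ))

theorem hChar_smul {χ : Γ →* ℂˣ} (hχ : IsParChar χ) (γ : Γ) (τ : ℍ) :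
    hChar χ ((γ : SL(2, ℤ)) • τ) = χ γ * hChar χ τ := by
  rw [hChar, eisChar_denom hχ, disc_smul, hChar]
  have h1 := denom_SL_ne_zero (γ : SL(2, ℤ)) τ
  have h2 := ModularForm.discriminant_ne_zero τ
  field_simp

theorem hChar_ne_zero {χ : Γ →* ℂˣ} (hχ : IsParChar χ) : ∃ τ, hChar χ τ ≠ 0 := by
  by_contra hcon
  push Not at hcon
  apply eisChar_ne_zero hχ 12 (by norm_num) (by decide)
  funext τ
  have h1 := hcon τ
  rw [hChar, mul_eq_zero] at h1
  rcases h1 with h | h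
  · exact h
  · exact absurd h (inv_ne_zero (ModularForm.discriminant_ne_zero τ))

theorem hChar_exp {χ : Γ →* ℂˣ} (hχ : IsParChar χ) (hgam : Gamma N ≤ Γ) (δ : SL(2, ℤ)) :
    ∃ y, HasLaurent N (fun τ => hChar χ (δ • τ)) y := by
  have hmd : MDiff (fun τ => hChar χ (δ • τ)) := mdiff_comp_smul (mdiff_hChar hχ) δ
  have key : ∀ τ, hChar χ (δ • τ) =
      (eisChar χ 12 ∣[(12 : ℤ)] δ) τ * (ModularForm.discriminant τ)⁻¹ := by
    intro τ
    have h1 := denom_SL_ne_zero δ τ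
    have h2 := ModularForm.discriminant_ne_zero τ
    rw [hChar, disc_smul, SL_slash_apply]
    have h3 : UpperHalfPlane.denom (δ : GL (Fin 2) ℝ) τ =
      (((δ 1 0 : ℤ) : ℂ) * τ + (δ 1 1 : ℤ)) := rfl
    rw [h3, mul_inv, mul_assoc]
    congr 1
  have hE : (eisChar χ 12 ∣[(12 : ℤ)] δ) =
      (fun τ => hChar χ (δ • τ)) * ModularForm.discriminant := by
    funext τ
    rw [Pi.mul_apply, key, mul_assoc, inv_mul_cancel₀ (ModularForm.discriminant_ne_zero τ), mul_one]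
  have hmd2 : MDiff (eisChar χ 12 ∣[(12 : ℤ)] δ) := by
    rw [hE]
    exact hmd.mul mdiff_disc
  have hper0 : ∀ τ, hChar χ (δ • (ModularGroup.T ^ N • τ)) = hChar χ (δ • τ) := by
    intro τ
    have h1 := hgam (conj_T_pow_mem_gamma N δ)
    have h2 := hChar_smul hχ ⟨_, h1⟩ (δ • τ)
    have h3 : χ ⟨_, h1⟩ = 1 := by
      apply hχ.par
      have := trace_conj_T_zpow δ (N : ℤ)
      rw [zpow_natCast] at this
      exact this
    rw [h3, Units.val_one, one_mul] at h2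
    rw [← h2, mul_smul, mul_smul, inv_smul_smul]
  have hper : ∀ τ, (eisChar χ 12 ∣[(12 : ℤ)] δ) (ModularGroup.T ^ N • τ) =
      (eisChar χ 12 ∣[(12 : ℤ)] δ) τ := by
    intro τ
    rw [hE, Pi.mul_apply, Pi.mul_apply, hper0, disc_smul]
    have h1 : ((ModularGroup.T ^ N : SL(2, ℤ)) 1 0 : ℤ) = 0 := by
      have := ModularGroup.coe_T_zpow (N : ℤ)
      rw [zpow_natCast] at this
      rw [this]; rfl
    have h2 : ((ModularGroup.T ^ N : SL(2, ℤ)) 1 1 : ℤ) = 1 := by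
      have := ModularGroup.coe_T_zpow (N : ℤ)
      rw [zpow_natCast] at this
      rw [this]; rfl
    rw [h1, h2]
    simp
  obtain ⟨y, hy⟩ := exp_of_slash δ hper
    (isBoundedAtImInfty_eisChar hχ 12 (by norm_num) δ) hmd2
  have h5 := hy.mul (HasLaurent.widen hasLaurent_discInv N)
  have h6 : (eisChar χ 12 ∣[(12 : ℤ)] δ) * (fun τ => (ModularForm.discriminant τ)⁻¹) =
      fun τ => hChar χ (δ • τ) := by
    funext τ
    rw [key]; rfl
  rw [h6] at h5
  exact ⟨_, h5⟩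

theorem isParChar_of_isPar {χ : Γ →* ℂˣ} {n : ℕ} (hn : n ≠ 0) (hχn : ∀ γ, χ γ ^ n = 1)
    (hpar : IsPar χ) : IsParChar χ where
  norm_eq γ := by
    have h1 := hχn γ
    exact Complex.norm_eq_one_of_pow_eq_one (by rw [← Units.val_pow_eq_pow_val, h1, Units.val_one]) hn
  par := hpar

theorem algebraMap_holo_pow (H : Holo) (n : ℕ) :
    (algebraMap Holo Mer H) ^ n = algebraMap Holo Mer (H ^ n) := (map_pow _ _ _).symm

theorem exists_FG_of_isAnG (f : Holo) (hT : ModularGroup.T ∈ Γ) (hAn : IsAnG Γ N (f : ℍ → ℂ)) :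
    ∃ x : FG (RingHom.id ℂ) Γ N, toM (RingHom.id ℂ) Γ N x = algebraMap Holo Mer f := by
  obtain ⟨y, hy⟩ : ∃ y, HasLaurent 1 (f : ℍ → ℂ) y := by
    obtain ⟨y, hy⟩ := hAn.exp 1
    have h1 : (fun τ => (f : ℍ → ℂ) ((1 : SL(2, ℤ)) • τ)) = (f : ℍ → ℂ) := by
      funext τ; rw [one_smul]
    rw [h1] at hy
    exact hasLaurent_one_of_T hy fun τ => hAn.inv _ hT τ
  have hyA : y ∈ AnR (RingHom.id ℂ) Γ N := ⟨_, hAn, by rw [coeffMap_id']; exact hy⟩
  refine ⟨⟨y, anR_le_FG hyA⟩, toM_of_mem f hAn ?_⟩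
  show HasLaurent 1 _ (coeffMap (RingHom.id ℂ) y)
  rw [coeffMap_id']
  exact hy

/-- **Existence of functions with a given parabolic character of finite order** (over `ℂ`). -/
theorem exists_of_char (hgam : Gamma N ≤ Γ) (hT : ModularGroup.T ∈ Γ) {n : ℕ} (hn : n ≠ 0)
    {χ : Γ →* ℂˣ} (hχn : ∀ γ, χ γ ^ n = 1) (hpar : IsPar χ) :
    ∃ (x : FG (RingHom.id ℂ) Γ N) (G : Mer), x ≠ 0 ∧ G ^ n = toM (RingHom.id ℂ) Γ N x ∧
      ∀ γ : Γ, compMer (γ : SL(2, ℤ)) G = cM (χ γ) * G := by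
  have hχ := isParChar_of_isPar hn hχn hpar
  set H : Holo := ⟨hChar χ, mdiff_hChar hχ⟩ with hH
  have hAn : IsAnG Γ N ((H ^ n : Holo) : ℍ → ℂ) := by
    show IsAnG Γ N (hChar χ ^ n)
    refine ⟨(Holo.pow_mem (mdiff_hChar hχ) n : _), fun δ => ?_, fun γ hγ τ => ?_⟩
    · obtain ⟨y, hy⟩ := hChar_exp hχ hgam δ
      exact ⟨_, hasLaurent_pow hy n⟩
    · rw [Pi.pow_apply, Pi.pow_apply, hChar_smul hχ ⟨γ, hγ⟩, mul_pow, ← Units.val_pow_eq_pow_val,
        hχn, Units.val_one, one_mul]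
  obtain ⟨x, htoM⟩ := exists_FG_of_isAnG (H ^ n) hT hAn
  refine ⟨x, algebraMap Holo Mer H, ?_, ?_, fun γ => ?_⟩
  · intro h0
    rw [h0, map_zero] at htoM
    obtain ⟨τ, hτ⟩ := hChar_ne_zero hχ
    have h1 := (map_eq_zero_iff _ (IsFractionRing.injective Holo Mer)).1 htoM.symm
    have h2 : hChar χ τ ^ n = 0 := congrFun (congrArg Subtype.val h1) τ
    exact hτ (pow_eq_zero_iff hn |>.1 h2)
  · exact (algebraMap_holo_pow H n).trans htoM.symm
  · rw [compMer_algebraMap, cM_apply, ← map_mul]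
    have h1 : compHolo (γ : SL(2, ℤ)) H = constHolo (χ γ) * H :=
      Subtype.ext (funext fun τ => hChar_smul hχ γ τ)
    rw [h1]

end Fermat.Agent.LG
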