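import Fermat.Agent.LG.HOp

/-!
# Classes on `Γ₀(M)` whose restriction to `Γ` has trivial reduction
-/

set_option autoImplicit false
set_option linter.unusedSectionVars false
set_option linter.style.haveILetI false

noncomputable section

open UpperHalfPlane Function ModularCurve Filter ModularForm AlgebraicCurve WithZero
  CongruenceSubgroup
open scoped Manifold MatrixGroups Topology ModularForm

namespace Fermat.Agent.LG

open Fermat.Agent.X0Places Fermat.Agent.FunField Fermat.Agent.FunField.PlaceLemmas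
open Fermat.Agent.TorsCmp Fermat.Agent.Igusa Fermat.Agent.LGRes Fermat.Agent.LGR
open Fermat.Agent.HeckeHom (HData)
open Matrix.SpecialLinearGroup (mapGL)

variable {L : Type*} [Field L] {ι : L →+* ℂ}

section Basic

variable {M : ℕ} [NeZero M] [Algebra ℚ L]

theorem conj_mem_gamma0 {σ : SL(2, ℤ)} (hσ : σ ∈ Gamma0 M) :
    ∀ γ ∈ Gamma0 M, σ * γ * σ⁻¹ ∈ Gamma0 M := fun _ hγ =>
  mul_mem (mul_mem hσ hγ) (inv_mem hσ)

/-- `T_l` on `Γ₀(M)` -/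
def hop0 {l : ℕ} [hl : Fact l.Prime] (hlM : ¬ l ∣ M) {σ : SL(2, ℤ)} (hσ : σ ∈ Gamma0 M) {ζ : Lˣ}
    (hζ : Units.map (ι : L →* ℂ) ζ = zetaN l) : HOp ι (Gamma0 M) M l where
  D := tdata0 M hlM σ hσ
  ζ := ζ
  hζ := hζ
  dia := RingHom.id _
  hdia f := (compMer_toM hσ f).symm
  hσ := conj_mem_gamma0 hσ

variable {Γ : Subgroup SL(2, ℤ)} {q : ℕ} (hΓ : IsCong Γ M q)

/-- `T_l` on `Γ` -/
def hopG {l : ℕ} [hl : Fact l.Prime] (hlM : ¬ l ∣ M) {σ : SL(2, ℤ)} (hσ : σ ∈ Gamma0 M)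
    (hql : IsCoprime (q : ℤ) (l : ℤ)) (hσl : (q : ℤ) ∣ σ 1 1 - l) {ζ : Lˣ}
    (hζ : Units.map (ι : L →* ℂ) ζ = zetaN l) (dia : FG ι Γ M →+* FG ι Γ M)
    (hdia : ∀ f, toM ι Γ M (dia f) = compMer σ (toM ι Γ M f))
    (hn : ∀ γ ∈ Γ, σ * γ * σ⁻¹ ∈ Γ) : HOp ι Γ M l where
  D := tdataG hΓ hlM σ hσ hql hσl
  ζ := ζ
  hζ := hζ
  dia := dia
  hdia := hdia
  hσ := hn

variable [MF ι Γ M] [MF ι (Gamma0 M) M]

section
variable {l : ℕ} [hl : Fact l.Prime] [NeZero l] (hlM : ¬ l ∣ M) {σ : SL(2, ℤ)} (hσ : σ ∈ Gamma0 M)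
    (hql : IsCoprime (q : ℤ) (l : ℤ)) (hσl : (q : ℤ) ∣ σ 1 1 - l) {ζ : Lˣ}
    (hζ : Units.map (ι : L →* ℂ) ζ = zetaN l) (dia : FG ι Γ M →+* FG ι Γ M)
    (hdia : ∀ f, toM ι Γ M (dia f) = compMer σ (toM ι Γ M f))
    (hn : ∀ γ ∈ Γ, σ * γ * σ⁻¹ ∈ Γ)

theorem t_incl (f : FG ι (Gamma0 M) M) :
    (hopG hΓ hlM hσ hql hσl hζ dia hdia hn).t (inclFG hΓ.le f) =
      inclFG hΓ.le ((hop0 hlM hσ hζ).t f) := by
  apply toM_injective
  rw [HOp.toM_t, toM_inclFG, toM_inclFG, HOp.toM_t]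
  rfl

theorem dia_incl (hdia : ∀ f, toM ι Γ M (dia f) = compMer σ (toM ι Γ M f)) (hσ : σ ∈ Gamma0 M)
    (f : FG ι (Gamma0 M) M) : dia (inclFG hΓ.le f) = inclFG hΓ.le f := by
  apply toM_injective
  rw [hdia, toM_inclFG, compMer_toM hσ]

omit [MF ι Γ M] [MF ι (Gamma0 M) M] in
theorem dia_u (hdia : ∀ f, toM ι Γ M (dia f) = compMer σ (toM ι Γ M f)) {u : FG ι Γ M} {c : L}
    (hu : compMer σ (toM ι Γ M u) = cM (ι c) * toM ι Γ M u) :
    dia u = algebraMap L (FG ι Γ M) c * u := by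
  apply toM_injective
  rw [hdia, hu, map_mul, toM_algebraMap]
  rfl

/-- the function `T_l u / u^(l+1)` is a function on `Γ₀(M)` -/
theorem exists_ratio [IsAlgClosed L] {u : FG ι Γ M} (hu0 : u ≠ 0) {χ : SL(2, ℤ) → Lˣ}
    (hχ : ∀ γ ∈ Gamma0 M, compMer γ (toM ι Γ M u) = cM (ι (χ γ)) * toM ι Γ M u)
    (hχc : ∀ γ ∈ Gamma0 M, ∀ δ ∈ Gamma0 M, (q : ℤ) ∣ δ 1 1 - γ 1 1 → χ δ = χ γ)
    {m : ℕ} (hm : m ≠ 0) (hum : (u : LaurentSeries L) ^ m ∈ FG ι (Gamma0 M) M) :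
    ∃ r : FG ι (Gamma0 M) M, inclFG hΓ.le r =
      (hopG hΓ hlM hσ hql hσl hζ dia hdia hn).t u / u ^ (l + 1) := by
  set O := hopG hΓ hlM hσ hql hσl hζ dia hdia hn with hO
  set um : FG ι (Gamma0 M) M := ⟨_, hum⟩ with hum'
  have e1 : inclFG hΓ.le um = u ^ m := Subtype.ext rfl
  have hum0 : um ≠ 0 := by
    intro h
    rw [h, map_zero] at e1
    exact pow_ne_zero m hu0 e1.symm
  set R := O.t u / u ^ (l + 1) with hR
  set R' : FG ι (Gamma0 M) M := (hop0 hlM hσ hζ).t um / um ^ (l + 1) with hR'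
  have e2 : inclFG hΓ.le R' = R ^ m := by
    rw [hR', hR, map_div₀, ← t_incl hΓ hlM hσ hql hσl hζ dia hdia hn, map_pow, e1, map_pow,
      div_pow, ← pow_mul, ← pow_mul, mul_comm m]
  have hR'0 : R' ≠ 0 := div_ne_zero ((hop0 hlM hσ hζ).t_ne_zero hum0) (pow_ne_zero _ hum0)
  have hG : (toM ι Γ M R) ^ m = toM ι (Gamma0 M) M R' := by
    rw [← map_pow, ← e2, toM_inclFG]
  -- invariance
  have hinv : ∀ γ ∈ Gamma0 M, compMer γ (toM ι Γ M R) = toM ι Γ M R := by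
    intro γ hγ
    set H := (tdata0 M hlM σ hσ).H with hH
    have h1 : ∀ c : H.X, compMer γ (compG (H.α c) (toM ι Γ M u)) =
        cM (ι (χ γ)) * compG (H.α (H.actFun ⟨γ, hγ⟩ c)) (toM ι Γ M u) := by
      intro c
      have hs := H.spec ⟨γ, hγ⟩ c
      have hpos := (tdata0 M hlM σ hσ).pos
      have hq : (q : ℤ) ∣ (H.coc ⟨γ, hγ⟩ c : SL(2, ℤ)) 1 1 - γ 1 1 :=
        lower_right hql (dvd_of_mem_Gamma0 hΓ.dvd hσ) hσl
          (dvd_of_mem_Gamma0 hΓ.dvd (H.coc ⟨γ, hγ⟩ c).2) hs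
      rw [← compG_mapGL, ← compG_mul _ _ (hpos c) (det_mapGL_pos _), hs,
        compG_mul _ _ (det_mapGL_pos _) (hpos _), compG_mapGL, hχ _ (H.coc ⟨γ, hγ⟩ c).2,
        map_mul, compG_cM, hχc γ hγ _ (H.coc ⟨γ, hγ⟩ c).2 hq]
    have h2 : toM ι Γ M (O.t u) = ∏ c : H.X, compG (H.α c) (toM ι Γ M u) := O.toM_t u
    have hcard : Fintype.card H.X = l + 1 := card_onePoint l
    have h3 : compMer γ (toM ι Γ M (O.t u)) = cM (ι (χ γ)) ^ (l + 1) * toM ι Γ M (O.t u) := by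
      rw [h2, map_prod, Finset.prod_congr rfl fun c _ => h1 c, Finset.prod_mul_distrib,
        Finset.prod_const, Finset.card_univ, hcard]
      congr 1
      exact Equiv.prod_comp (H.perm ⟨γ, hγ⟩) (fun c => compG (H.α c) (toM ι Γ M u))
    have hc0 : cM (ι (χ γ)) ≠ 0 := by
      rw [map_ne_zero, map_ne_zero]
      exact (χ γ).ne_zero
    rw [hR, map_div₀, map_div₀, h3, map_pow, map_pow, hχ γ hγ, mul_pow,
      mul_div_mul_left _ _ (pow_ne_zero _ hc0)]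
  obtain ⟨r, -, hr⟩ := exists_of_invariant' hm hR'0 hG hinv
  refine ⟨r, ?_⟩
  apply toM_injective
  rw [toM_inclFG, hr]

end

end Basic

section Main

variable {M : ℕ} [NeZero M] [Algebra ℚ L] [IsAlgClosed L]
variable {A : ValuationSubring L} {κ : Type*} [Field κ] [IsAlgClosed κ] {π : A →+* κ}
  [hloc : IsLocalHom π]
variable {Γ : Subgroup SL(2, ℤ)} {q : ℕ} (hΓ : IsCong Γ M q) [MF ι Γ M] [MF ι (Gamma0 M) M]
variable {l : ℕ} [hl : Fact l.Prime] [NeZero l] (hlM : ¬ l ∣ M) {σ : SL(2, ℤ)} (hσ : σ ∈ Gamma0 M)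
    (hql : IsCoprime (q : ℤ) (l : ℤ)) (hσl : (q : ℤ) ∣ σ 1 1 - l) {ζ : Lˣ}
    (hζ : Units.map (ι : L →* ℂ) ζ = zetaN l) (dia : FG ι Γ M →+* FG ι Γ M)
    (hdia : ∀ f, toM ι Γ M (dia f) = compMer σ (toM ι Γ M f))
    (hn : ∀ γ ∈ Γ, σ * γ * σ⁻¹ ∈ Γ)

omit [IsAlgClosed L] [Algebra ℚ L] [IsAlgClosed κ] in
theorem red_const_of_pow {c : L} {m : ℕ} (hm : m ≠ 0) (hc : c ^ m = 1) :
    ∃ cb : κ, cb ≠ 0 ∧ Red A π (algebraMap L (LaurentSeries L) c)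
      (algebraMap κ (LaurentSeries κ) cb) := by
  have h1 : c ∈ A := mem_of_pow_mem hm (by rw [hc]; exact one_mem A)
  refine ⟨π ⟨c, h1⟩, ?_, red_algebraMap (π := π) ⟨c, h1⟩⟩
  intro h0
  have h2 : (⟨c, h1⟩ : A) ^ m = 1 := Subtype.ext hc
  have h3 := congrArg π h2
  rw [map_pow, h0, zero_pow hm, map_one] at h3
  exact zero_ne_one h3

omit [IsAlgClosed L] [Algebra ℚ L] [IsAlgClosed κ] in
theorem pow_aux {F : Type*} [Field F] (t1 tb f1 b0 : F) (p m : ℕ) :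
    t1 * tb ^ p / (f1 * b0 ^ p) ^ m = t1 / f1 ^ m * (tb / b0 ^ m) ^ p := by
  rw [mul_pow, div_pow, ← pow_mul, ← pow_mul, mul_comm p, mul_div_mul_comm]

include hql hσl hζ hdia hn in
/-- **Classes on `Γ₀(M)` whose restriction to `Γ` has trivial reduction.** -/
theorem exists_ext_red (hπ : Function.Surjective π)
    (harch : ∀ a : A, π a = 0 → ∀ b : L, ∃ B : ℕ, (a : L) ^ B * b ∈ A)
    (hK0 : IsTameField (FG ι (Gamma0 M) M)) {p : ℕ} [hp : Fact p.Prime] (hp2 : p ≠ 2)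
    (hpκ : (p : κ) ≠ 0) {u : FG ι Γ M}
    (hgen : FG ι Γ M = IntermediateField.adjoin L
      ((FG ι (Gamma0 M) M : Set (LaurentSeries L)) ∪ {(u : LaurentSeries L)}))
    (hu : (u : LaurentSeries L) ∈ tameQ L) {ub : LaurentSeries κ} (hur : Red A π u ub)
    (hub : ub ≠ 0) {s : ℕ} (hus : (u : LaurentSeries L) ^ p ^ s ∈ FG ι (Gamma0 M) M)
    {χ : SL(2, ℤ) → Lˣ}
    (hχ : ∀ γ ∈ Gamma0 M, compMer γ (toM ι Γ M u) = cM (ι (χ γ)) * toM ι Γ M u)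
    (hχc : ∀ γ ∈ Gamma0 M, ∀ δ ∈ Gamma0 M, (q : ℤ) ∣ δ 1 1 - γ 1 1 → χ δ = χ γ)
    (hχm : ∀ γ, χ γ ^ p ^ s = 1)
    {E : Additive (Gamma0 M) →+ ZMod p} {f₀ : FG ι (Gamma0 M) M}
    (hf₀ : Rep ι (Gamma0 M) M p E f₀)
    (hTR : TR A π ι M p (E.comp (MonoidHom.toAdditive (Subgroup.inclusion hΓ.le)))) :
    ∃ (f : FG ι (Gamma0 M) M) (y : LaurentSeries κ), y ∈ gaussImage A π hK0 hπ ∧ y ≠ 0 ∧
      Rep ι (Gamma0 M) M p ((tdata0 M hlM σ hσ).H.hom (ZMod p) E - (l + 1) • E) f ∧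
        Red A π (f : LaurentSeries L) (y ^ p) := by
  have hp0 : NeZero p := ⟨hp.out.ne_zero⟩
  have htG : IsTameField (FG ι Γ M) := by
    rw [hgen]
    exact isTameField_adjoin_union hK0 hu
  have hu0 : u ≠ 0 := by
    rintro rfl
    exact hur.ne_zero hub rfl
  set O := hopG hΓ hlM hσ hql hσl hζ dia hdia hn with hO
  set O0 : HOp ι (Gamma0 M) M l := hop0 hlM hσ hζ with hO0
  -- (a)
  obtain ⟨g, hg, y0, hy0, hgy⟩ := exists_rep_red (A := A) (π := π) hK0 hf₀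
  -- (b)
  have hginc : Red A π ((inclFG hΓ.le g : FG ι Γ M) : LaurentSeries L) y0 := hgy
  obtain ⟨v, w, hw, hvw, hyw⟩ := hTR.exists_root htG (hg.res hΓ.le) hy0 hginc
  -- (c)
  have hv : (v : LaurentSeries L) ∈ IntermediateField.adjoin L
      ((FG ι (Gamma0 M) M : Set (LaurentSeries L)) ∪ {(u : LaurentSeries L)}) := by
    rw [← hgen]; exact v.2
  obtain ⟨i, y1, hy1, hwy⟩ := kummer_residue hπ hloc harch hK0 hp.out hp2 hpκ hu hur hub hus hv hvw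
    (by
      rw [← hyw, mem_gaussImage_iff_red hπ hK0]
      exact ⟨_, g.2, hgy⟩)
  have hy1' := hy1
  rw [mem_gaussImage_iff_red hπ hK0] at hy1'
  obtain ⟨x1, hx1, hxy⟩ := hy1'
  have hy10 : y1 ≠ 0 := by
    rintro rfl
    rw [mul_zero] at hwy
    exact hw hwy
  set yt : FG ι (Gamma0 M) M := ⟨x1, hx1⟩ with hyt
  have hyt0 : yt ≠ 0 := fun h => hxy.ne_zero hy10 (congrArg Subtype.val h)
  have hytr : Red A π ((inclFG hΓ.le yt : FG ι Γ M) : LaurentSeries L) y1 := hxy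
  have hiyt0 : inclFG (ι := ι) (N := M) hΓ.le yt ≠ 0 := by rwa [map_ne_zero]
  have hg0 : inclFG (ι := ι) (N := M) hΓ.le g ≠ 0 := by
    rw [map_ne_zero]; exact hg.ne_zero
  -- (e)
  set b0 : FG ι Γ M := u ^ i * inclFG hΓ.le yt with hb0
  have hb00 : b0 ≠ 0 := mul_ne_zero (pow_ne_zero _ hu0) hiyt0
  have hb0r : Red A π (b0 : LaurentSeries L) (ub ^ i * y1) := (hur.pow i).mul hytr
  have hby0 : ub ^ i * y1 ≠ 0 := mul_ne_zero (pow_ne_zero _ hub) hy10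
  set f1 : FG ι Γ M := inclFG hΓ.le g / b0 ^ p with hf1
  have hf10 : f1 ≠ 0 := div_ne_zero hg0 (pow_ne_zero _ hb00)
  have hf1r : Red A π (f1 : LaurentSeries L) 1 := by
    have h1 := Red.div hginc (hb0r.pow p) (pow_ne_zero _ hby0)
    have h2 : y0 / (ub ^ i * y1) ^ p = 1 := by
      rw [hyw, hwy, div_self (pow_ne_zero _ hby0)]
    rw [h2] at h1
    exact h1
  -- (f)
  have hdiau : dia u = algebraMap L (FG ι Γ M) (χ σ : L) * u := dia_u dia hdia (hχ σ hσ)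
  have hdiab : dia b0 = algebraMap L (FG ι Γ M) (χ σ : L) ^ i * b0 := by
    rw [hb0, map_mul, map_pow, hdiau, dia_incl hΓ dia hdia hσ]
    ring
  have hdiaf : dia f1 = f1 * algebraMap L (FG ι Γ M) (((χ σ)⁻¹ ^ (i * p) : Lˣ) : L) := by
    rw [hf1, map_div₀, dia_incl hΓ dia hdia hσ, map_pow, hdiab, mul_pow, ← pow_mul,
      Units.val_pow_eq_pow_val, map_pow, Units.val_inv_eq_inv_val, map_inv₀, inv_pow]
    have hne : algebraMap L (FG ι Γ M) (χ σ : L) ≠ 0 := by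
      rw [Ne, map_eq_zero]; exact (χ σ).ne_zero
    field_simp
  obtain ⟨cb, hcb, hcbr⟩ := red_const_of_pow (A := A) (π := π)
    (c := (((χ σ)⁻¹ ^ (i * p) : Lˣ) : L)) (m := p ^ s) (pow_ne_zero _ hp.out.ne_zero) (by
      rw [← Units.val_pow_eq_pow_val, ← pow_mul, mul_comm, pow_mul, inv_pow, hχm, inv_one,
        one_pow, Units.val_one])
  have hdiar : Red A π (dia f1 : LaurentSeries L) (algebraMap κ (LaurentSeries κ) cb) := by
    have h1 := hf1r.mul hcbr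
    rw [one_mul] at h1
    have h2 : ((dia f1 : FG ι Γ M) : LaurentSeries L) = (f1 : LaurentSeries L) *
        algebraMap L (LaurentSeries L) (((χ σ)⁻¹ ^ (i * p) : Lˣ) : L) :=
      congrArg (fun z : FG ι Γ M => (z : LaurentSeries L)) hdiaf
    rw [h2]
    exact h1
  -- (g)
  have hcb0 : algebraMap κ (LaurentSeries κ) cb ≠ 0 := by rwa [Ne, map_eq_zero]
  obtain ⟨z, hz, htz, ubar, -, hIs⟩ := red_isT O.ζ_pow (O.isT_t f1) hf1r hdiar one_ne_zero hcb0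
    (le_tameQ htG (O.t f1).2)
  have hzc : z = algebraMap κ (LaurentSeries κ) cb := by
    apply qExpand_injective l
    have hq : ∀ a : κ, ModularCurve.qExpand κ l (algebraMap κ (LaurentSeries κ) a) =
        algebraMap κ (LaurentSeries κ) a := fun a => by
      rw [Fermat.Agent.ModPoly.algebraMap_eq_single, qExpand_single, mul_zero]
    rw [hIs, hq, hq]
    simp only [map_one, Finset.prod_const_one, one_mul]
  rw [hzc] at htz
  -- (h)
  obtain ⟨r, hr⟩ := exists_ratio hΓ hlM hσ hql hσl hζ dia hdia hn hu0 hχ hχc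
    (pow_ne_zero s hp.out.ne_zero) hus
  rw [← hO] at hr
  -- (i)
  set b : FG ι (Gamma0 M) M := r ^ i * (O0.t yt / yt ^ (l + 1)) with hb
  set f : FG ι (Gamma0 M) M := O0.t g / g ^ (l + 1) with hf
  have hfR : Rep ι (Gamma0 M) M p ((tdata0 M hlM σ hσ).H.hom (ZMod p) E - (l + 1) • E) f :=
    (O0.rep_t hg).div (hg.pow (l + 1))
  have hgf1 : inclFG hΓ.le g = f1 * b0 ^ p := by
    rw [hf1, div_mul_cancel₀ _ (pow_ne_zero _ hb00)]
  have hbinc : inclFG hΓ.le b = O.t b0 / b0 ^ (l + 1) := by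
    rw [hb, map_mul, map_pow, hr, map_div₀, ← t_incl hΓ hlM hσ hql hσl hζ dia hdia hn, map_pow,
      hb0, map_mul, map_pow, mul_pow, div_pow, ← hO, ← pow_mul, ← pow_mul, mul_comm i,
      div_mul_div_comm]
  have hfinc : inclFG hΓ.le f = (O.t f1 / f1 ^ (l + 1)) * (inclFG hΓ.le b) ^ p := by
    rw [hf, map_div₀, ← t_incl hΓ hlM hσ hql hσl hζ dia hdia hn, ← hO, map_pow, hbinc]
    have h1 : O.t (inclFG hΓ.le g) = O.t f1 * O.t b0 ^ p := by
      rw [hgf1, map_mul, map_pow]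
    have h2 : (inclFG hΓ.le g : FG ι Γ M) ^ (l + 1) = (f1 * b0 ^ p) ^ (l + 1) :=
      congrArg (fun z : FG ι Γ M => z ^ (l + 1)) hgf1
    rw [h1, h2]
    exact pow_aux _ _ _ _ _ _
  -- (j)
  have hr0 : r ≠ 0 := by
    rintro rfl
    rw [map_zero] at hr
    exact div_ne_zero (O.t_ne_zero hu0) (pow_ne_zero _ hu0) hr.symm
  have hb0' : b ≠ 0 := mul_ne_zero (pow_ne_zero _ hr0)
    (div_ne_zero (O0.t_ne_zero hyt0) (pow_ne_zero _ hyt0))
  obtain ⟨d, hd, β, hβ, hbr⟩ := exists_red (A := A) (π := π) hK0 hb0' one_ne_zero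
  rw [pow_one] at hbr
  set b' : FG ι (Gamma0 M) M := b * algebraMap L _ d with hb'
  have hdF : algebraMap L (FG ι (Gamma0 M) M) d ≠ 0 := by rwa [Ne, map_eq_zero]
  have hβmem : β ∈ gaussImage A π hK0 hπ := by
    rw [mem_gaussImage_iff_red hπ hK0]
    exact ⟨_, b'.2, hbr⟩
  obtain ⟨ξ, hξ⟩ := IsAlgClosed.exists_pow_nat_eq cb hp.out.pos
  refine ⟨f * algebraMap L _ d ^ p, algebraMap κ (LaurentSeries κ) ξ * β,
    mul_mem ((gaussImage A π hK0 hπ).algebraMap_mem ξ) hβmem, ?_, hfR.mul_pow hdF, ?_⟩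
  · refine mul_ne_zero ?_ hβ
    rw [Ne, map_eq_zero]
    rintro rfl
    rw [zero_pow hp.out.ne_zero] at hξ
    exact hcb hξ.symm
  · have h1 : ((f * algebraMap L (FG ι (Gamma0 M) M) d ^ p : FG ι (Gamma0 M) M) :
        LaurentSeries L) = ((O.t f1 / f1 ^ (l + 1) : FG ι Γ M) : LaurentSeries L) *
          (b' : LaurentSeries L) ^ p := by
      have h2 : (f : LaurentSeries L) = ((O.t f1 / f1 ^ (l + 1) : FG ι Γ M) : LaurentSeries L) *
          (b : LaurentSeries L) ^ p :=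
        congrArg (fun z : FG ι Γ M => (z : LaurentSeries L)) hfinc
      have h3 : ((f * algebraMap L (FG ι (Gamma0 M) M) d ^ p : FG ι (Gamma0 M) M) :
        LaurentSeries L) = (f : LaurentSeries L) * algebraMap L (LaurentSeries L) d ^ p := rfl
      have h4 : (b' : LaurentSeries L) = (b : LaurentSeries L) *
        algebraMap L (LaurentSeries L) d := rfl
      rw [h3, h2, h4]
      ring
    rw [h1, mul_pow, ← map_pow, hξ]
    have h5 := Red.div htz (hf1r.pow (l + 1)) (pow_ne_zero _ one_ne_zero)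
    rw [one_pow, div_one] at h5
    exact Red.mul h5 (hbr.pow p)

end Main

end Fermat.Agent.LG
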