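import Fermat.Agent.X0Places.ModFun
import Fermat.Agent.TorsCmp.Growth

/-!
# The field of modular functions on a subgroup `Γ` with coefficients in a field `L`
-/

set_option autoImplicit false
set_option linter.unusedSectionVars false

noncomputable section

open UpperHalfPlane Function ModularCurve Filter ModularForm AlgebraicCurve WithZero
  CongruenceSubgroup
open scoped Manifold MatrixGroups Topology ModularForm

namespace Fermat.Agent.LG

open Fermat.Agent.X0Places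

/-- holomorphic functions invariant under `Γ` with Laurent expansions at all cusps -/
structure IsAnG (Γ : Subgroup SL(2, ℤ)) (N : ℕ) (f : ℍ → ℂ) : Prop where
  hol : MDiff f
  exp : ∀ γ : SL(2, ℤ), ∃ y, HasLaurent N (fun τ => f (γ • τ)) y
  inv : ∀ γ ∈ Γ, ∀ τ, f (γ • τ) = f τ

theorem IsAnG.mono {Γ Γ' : Subgroup SL(2, ℤ)} (h : Γ' ≤ Γ) {N : ℕ} {f : ℍ → ℂ}
    (hf : IsAnG Γ N f) : IsAnG Γ' N f := ⟨hf.hol, hf.exp, fun γ hγ => hf.inv γ (h hγ)⟩

theorem isAnG_gamma0 {N : ℕ} {f : ℍ → ℂ} : IsAnG (Gamma0 N) N f ↔ IsAn N f :=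
  ⟨fun h => ⟨h.hol, h.exp, h.inv⟩, fun h => ⟨h.hol, h.exp, h.inv⟩⟩

/-- the ring of analytic functions -/
def AnFunG (Γ : Subgroup SL(2, ℤ)) (N : ℕ) : Subring (ℍ → ℂ) where
  carrier := {f | IsAnG Γ N f}
  mul_mem' {f g} hf hg := by
    refine ⟨hf.hol.mul hg.hol, fun γ => ?_, fun γ hγ τ => ?_⟩
    · obtain ⟨y, hy⟩ := hf.exp γ
      obtain ⟨z, hz⟩ := hg.exp γ
      exact ⟨_, hy.mul hz⟩
    · rw [Pi.mul_apply, Pi.mul_apply, hf.inv γ hγ, hg.inv γ hγ]
  one_mem' := by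
    refine ⟨mdifferentiable_const, fun γ => ?_, fun γ hγ τ => rfl⟩
    exact ⟨_, HasLaurent.const 1⟩
  add_mem' {f g} hf hg := by
    refine ⟨hf.hol.add hg.hol, fun γ => ?_, fun γ hγ τ => ?_⟩
    · obtain ⟨y, hy⟩ := hf.exp γ
      obtain ⟨z, hz⟩ := hg.exp γ
      exact ⟨_, hy.add hz⟩
    · rw [Pi.add_apply, Pi.add_apply, hf.inv γ hγ, hg.inv γ hγ]
  zero_mem' := by
    refine ⟨mdifferentiable_const, fun γ => ?_, fun γ hγ τ => rfl⟩
    exact ⟨_, HasLaurent.const 0⟩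
  neg_mem' {f} hf := by
    refine ⟨hf.hol.neg, fun γ => ?_, fun γ hγ τ => ?_⟩
    · obtain ⟨y, hy⟩ := hf.exp γ
      exact ⟨_, hy.neg⟩
    · rw [Pi.neg_apply, Pi.neg_apply, hf.inv γ hγ]

theorem mem_anFunG {Γ : Subgroup SL(2, ℤ)} {N : ℕ} {f : ℍ → ℂ} : f ∈ AnFunG Γ N ↔ IsAnG Γ N f :=
  Iff.rfl

theorem isAnG_const (Γ : Subgroup SL(2, ℤ)) (N : ℕ) (c : ℂ) : IsAnG Γ N (fun _ => c) :=
  ⟨mdifferentiable_const, fun _ => ⟨_, HasLaurent.const c⟩, fun _ _ _ => rfl⟩

theorem IsAnG.pow {Γ : Subgroup SL(2, ℤ)} {N : ℕ} {f : ℍ → ℂ} (hf : IsAnG Γ N f) (k : ℕ) :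
    IsAnG Γ N (f ^ k) := (AnFunG Γ N).pow_mem hf k

theorem IsAnG.mul {Γ : Subgroup SL(2, ℤ)} {N : ℕ} {f g : ℍ → ℂ} (hf : IsAnG Γ N f)
    (hg : IsAnG Γ N g) : IsAnG Γ N (f * g) := (AnFunG Γ N).mul_mem hf hg

theorem IsAnG.add {Γ : Subgroup SL(2, ℤ)} {N : ℕ} {f g : ℍ → ℂ} (hf : IsAnG Γ N f)
    (hg : IsAnG Γ N g) : IsAnG Γ N (f + g) := (AnFunG Γ N).add_mem hf hg

variable {L : Type*} [Field L] (ι : L →+* ℂ) (Γ : Subgroup SL(2, ℤ)) (N : ℕ)

/-- Laurent series over `L` whose image under `ι` is the expansion of an analytic function -/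
def AnR : Subring (LaurentSeries L) where
  carrier := {a | ∃ f, IsAnG Γ N f ∧ HasLaurent 1 f (coeffMap ι a)}
  mul_mem' := by
    rintro a b ⟨f, hf, hf'⟩ ⟨g, hg, hg'⟩
    exact ⟨f * g, (AnFunG Γ N).mul_mem hf hg, by rw [map_mul]; exact hf'.mul hg'⟩
  one_mem' := ⟨fun _ => 1, (AnFunG Γ N).one_mem, by rw [map_one]; exact HasLaurent.const 1⟩
  add_mem' := by
    rintro a b ⟨f, hf, hf'⟩ ⟨g, hg, hg'⟩
    exact ⟨f + g, (AnFunG Γ N).add_mem hf hg, by rw [map_add]; exact hf'.add hg'⟩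
  zero_mem' := ⟨fun _ => 0, (AnFunG Γ N).zero_mem, by rw [map_zero]; exact HasLaurent.zero 1⟩
  neg_mem' := by
    rintro a ⟨f, hf, hf'⟩
    exact ⟨-f, (AnFunG Γ N).neg_mem hf, by rw [map_neg]; exact hf'.neg⟩

variable {ι Γ N}

theorem mem_anR {a : LaurentSeries L} :
    a ∈ AnR ι Γ N ↔ ∃ f, IsAnG Γ N f ∧ HasLaurent 1 f (coeffMap ι a) := Iff.rfl

theorem anR_mono {Γ' : Subgroup SL(2, ℤ)} (h : Γ' ≤ Γ) : AnR ι Γ N ≤ AnR ι Γ' N := by
  rintro a ⟨f, hf, hf'⟩
  exact ⟨f, hf.mono h, hf'⟩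

/-- the analytic function attached to an element of `AnR` -/
def anFn (a : AnR ι Γ N) : ℍ → ℂ := a.2.choose

theorem isAnG_anFn (a : AnR ι Γ N) : IsAnG Γ N (anFn a) := a.2.choose_spec.1

theorem hasLaurent_anFn (a : AnR ι Γ N) :
    HasLaurent 1 (anFn a) (coeffMap ι (a : LaurentSeries L)) := a.2.choose_spec.2

theorem anFn_eq {a : AnR ι Γ N} {f : ℍ → ℂ}
    (h : HasLaurent 1 f (coeffMap ι (a : LaurentSeries L))) : anFn a = f :=
  (hasLaurent_anFn a).unique_fun h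

variable (ι Γ N) in
/-- ring homomorphism to holomorphic functions -/
def anHom : AnR ι Γ N →+* Holo where
  toFun a := ⟨anFn a, (isAnG_anFn a).hol⟩
  map_one' := Subtype.ext (anFn_eq (f := fun _ => 1) (by
    show HasLaurent 1 _ (coeffMap ι (1 : LaurentSeries L))
    rw [map_one]; exact HasLaurent.const 1))
  map_mul' a b := Subtype.ext (anFn_eq (f := anFn a * anFn b) (by
    show HasLaurent 1 _ (coeffMap ι ((a : LaurentSeries L) * b))
    rw [map_mul]; exact (hasLaurent_anFn a).mul (hasLaurent_anFn b)))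
  map_zero' := Subtype.ext (anFn_eq (f := fun _ => 0) (by
    show HasLaurent 1 _ (coeffMap ι (0 : LaurentSeries L))
    rw [map_zero]; exact HasLaurent.zero 1))
  map_add' a b := Subtype.ext (anFn_eq (f := anFn a + anFn b) (by
    show HasLaurent 1 _ (coeffMap ι ((a : LaurentSeries L) + b))
    rw [map_add]; exact (hasLaurent_anFn a).add (hasLaurent_anFn b)))

@[simp]
theorem coe_anHom (a : AnR ι Γ N) : (anHom ι Γ N a : ℍ → ℂ) = anFn a := rfl

theorem anHom_injective : Injective (anHom ι Γ N) := by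
  intro a b h
  have h1 : anFn a = anFn b := congrArg Subtype.val h
  have h2 := hasLaurent_anFn a
  rw [h1] at h2
  have h3 := h2.unique one_pos (hasLaurent_anFn b)
  exact Subtype.ext (Fermat.Agent.ModPoly.coeffMap_injective ι.injective h3)

theorem algebraMap_mem_anR (c : L) : algebraMap L (LaurentSeries L) c ∈ AnR ι Γ N := by
  refine ⟨fun _ => ι c, isAnG_const Γ N _, ?_⟩
  rw [algebraMap_laurentSeries_eq_single, coeffMap_single]
  exact HasLaurent.const _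

variable (ι Γ N) in
/-- The field of modular functions on `Γ` with coefficients in `L`. -/
def FG : IntermediateField L (LaurentSeries L) where
  carrier := {x | ∃ a ∈ AnR ι Γ N, ∃ b ∈ AnR ι Γ N, b ≠ 0 ∧ x * b = a}
  mul_mem' := by
    rintro x y ⟨a, ha, b, hb, hb0, h⟩ ⟨a', ha', b', hb', hb0', h'⟩
    refine ⟨a * a', mul_mem ha ha', b * b', mul_mem hb hb', mul_ne_zero hb0 hb0', ?_⟩
    rw [← h, ← h']; ring
  one_mem' := ⟨1, one_mem _, 1, one_mem _, one_ne_zero, mul_one _⟩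
  add_mem' := by
    rintro x y ⟨a, ha, b, hb, hb0, h⟩ ⟨a', ha', b', hb', hb0', h'⟩
    refine ⟨a * b' + a' * b, add_mem (mul_mem ha hb') (mul_mem ha' hb), b * b', mul_mem hb hb',
      mul_ne_zero hb0 hb0', ?_⟩
    rw [← h, ← h']; ring
  zero_mem' := ⟨0, zero_mem _, 1, one_mem _, one_ne_zero, mul_one _⟩
  algebraMap_mem' c := ⟨_, algebraMap_mem_anR c, 1, one_mem _, one_ne_zero, mul_one _⟩
  inv_mem' := by
    rintro x ⟨a, ha, b, hb, hb0, h⟩
    rcases eq_or_ne x 0 with rfl | hx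
    · rw [inv_zero]
      exact ⟨0, zero_mem _, 1, one_mem _, one_ne_zero, mul_one _⟩
    · refine ⟨b, hb, a, ha, ?_, ?_⟩
      · rw [← h]; exact mul_ne_zero hx hb0
      · rw [← h, inv_mul_cancel_left₀ hx]

theorem mem_FG {x : LaurentSeries L} : x ∈ FG ι Γ N ↔
    ∃ a ∈ AnR ι Γ N, ∃ b ∈ AnR ι Γ N, b ≠ 0 ∧ x * b = a := Iff.rfl

theorem anR_le_FG {a : LaurentSeries L} (ha : a ∈ AnR ι Γ N) : a ∈ FG ι Γ N :=
  ⟨a, ha, 1, one_mem _, one_ne_zero, mul_one _⟩

theorem FG_mono {Γ' : Subgroup SL(2, ℤ)} (h : Γ' ≤ Γ) : FG ι Γ N ≤ FG ι Γ' N := by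
  rintro x ⟨a, ha, b, hb, hb0, hx⟩
  exact ⟨a, anR_mono h ha, b, anR_mono h hb, hb0, hx⟩

instance fgField : Field (FG ι Γ N) := IntermediateField.toField _

/-- shortcut instance -/
instance fgAlgebra : Algebra L (FG ι Γ N) := inferInstance

variable (ι Γ N) in
/-- the inclusion of the ring of analytic elements -/
def anIncl : AnR ι Γ N →+* FG ι Γ N :=
  RingHom.codRestrict (AnR ι Γ N).subtype (FG ι Γ N) fun a => anR_le_FG a.2

instance anAlgebra : Algebra (AnR ι Γ N) (FG ι Γ N) := (anIncl ι Γ N).toAlgebra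

theorem algebraMap_an (a : AnR ι Γ N) :
    ((algebraMap (AnR ι Γ N) (FG ι Γ N) a : FG ι Γ N) : LaurentSeries L) = a := rfl

instance anFaithful : FaithfulSMul (AnR ι Γ N) (FG ι Γ N) := by
  rw [faithfulSMul_iff_algebraMap_injective]
  intro a b h
  exact Subtype.ext (congrArg (fun z : FG ι Γ N => (z : LaurentSeries L)) h)

instance anFrac : IsFractionRing (AnR ι Γ N) (FG ι Γ N) := by
  apply IsFractionRing.of_field
  intro z
  obtain ⟨a, ha, b, hb, hb0, h⟩ := z.2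
  refine ⟨⟨a, ha⟩, ⟨b, hb⟩, ?_⟩
  apply Subtype.ext
  show (z : LaurentSeries L) = a / b
  rw [eq_div_iff hb0, h]

variable (ι Γ N) in
/-- The field of modular functions embedded into meromorphic functions. -/
def toM : FG ι Γ N →+* Mer :=
  IsFractionRing.lift (A := AnR ι Γ N) (K := FG ι Γ N)
    (g := (algebraMap Holo Mer).comp (anHom ι Γ N))
    ((IsFractionRing.injective Holo Mer).comp anHom_injective)

theorem toM_coe (a : AnR ι Γ N) : toM ι Γ N (algebraMap (AnR ι Γ N) (FG ι Γ N) a) =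
    algebraMap Holo Mer (anHom ι Γ N a) :=
  IsFractionRing.lift_algebraMap (A := AnR ι Γ N) (K := FG ι Γ N) _ a

theorem toM_of_mem {x : FG ι Γ N} (f : Holo) (hf : IsAnG Γ N (f : ℍ → ℂ))
    (h : HasLaurent 1 (f : ℍ → ℂ) (coeffMap ι (x : LaurentSeries L))) :
    toM ι Γ N x = algebraMap Holo Mer f := by
  have hx : (x : LaurentSeries L) ∈ AnR ι Γ N := ⟨f, hf, h⟩
  have h1 := toM_coe (ι := ι) (Γ := Γ) (N := N) ⟨x, hx⟩
  have h2 : anHom ι Γ N ⟨x, hx⟩ = f := by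
    apply Subtype.ext
    exact anFn_eq h
  rw [h2] at h1
  have h3 : algebraMap (AnR ι Γ N) (FG ι Γ N) ⟨x, hx⟩ = x := Subtype.ext rfl
  rwa [h3] at h1

/-- two ring homomorphisms out of `FG` agreeing on analytic elements are equal -/
theorem fg_ringHom_ext {R : Type*} [Field R] {φ ψ : FG ι Γ N →+* R}
    (h : ∀ a : AnR ι Γ N, φ (algebraMap (AnR ι Γ N) (FG ι Γ N) a) =
      ψ (algebraMap (AnR ι Γ N) (FG ι Γ N) a)) : φ = ψ := by
  ext x
  obtain ⟨a, b, hb, rfl⟩ := IsFractionRing.div_surjective (A := AnR ι Γ N) x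
  rw [map_div₀, map_div₀, h a, h b]

theorem compMer_toM {γ : SL(2, ℤ)} (hγ : γ ∈ Γ) (x : FG ι Γ N) :
    compMer γ (toM ι Γ N x) = toM ι Γ N x := by
  have h : (compMer γ).comp (toM ι Γ N) = toM ι Γ N := by
    apply fg_ringHom_ext
    intro a
    rw [RingHom.comp_apply, toM_coe, compMer_algebraMap]
    congr 1
    apply Subtype.ext
    funext τ
    exact (isAnG_anFn a).inv γ hγ τ
  exact RingHom.congr_fun h x

theorem toM_algebraMap (c : L) :
    toM ι Γ N (algebraMap L (FG ι Γ N) c) = algebraMap Holo Mer (constHolo (ι c)) := by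
  apply toM_of_mem
  · exact isAnG_const Γ N _
  · show HasLaurent 1 _ (coeffMap ι (algebraMap L (LaurentSeries L) c))
    rw [algebraMap_laurentSeries_eq_single, coeffMap_single]
    exact HasLaurent.const _

/-- inclusion of fields for a subgroup -/
def inclFG {Γ' : Subgroup SL(2, ℤ)} (h : Γ' ≤ Γ) : FG ι Γ N →ₐ[L] FG ι Γ' N :=
  IntermediateField.inclusion (FG_mono h)

@[simp] theorem coe_inclFG {Γ' : Subgroup SL(2, ℤ)} (h : Γ' ≤ Γ) (x : FG ι Γ N) :
    ((inclFG h x : FG ι Γ' N) : LaurentSeries L) = x := rfl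

theorem toM_inclFG {Γ' : Subgroup SL(2, ℤ)} (h : Γ' ≤ Γ) (x : FG ι Γ N) :
    toM ι Γ' N (inclFG h x) = toM ι Γ N x := by
  have h1 : (toM ι Γ' N).comp ((inclFG h : FG ι Γ N →ₐ[L] FG ι Γ' N) : FG ι Γ N →+* FG ι Γ' N) =
      toM ι Γ N := by
    apply fg_ringHom_ext
    intro a
    rw [RingHom.comp_apply, toM_coe]
    apply toM_of_mem
    · exact (isAnG_anFn a).mono h
    · exact hasLaurent_anFn a
  exact RingHom.congr_fun h1 x

/-! ### the function `j` -/

variable [NeZero N] [Algebra ℚ L]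

theorem isAnG_jInv : IsAnG Γ N Fermat.Agent.JInv.jInv :=
  ⟨(isAn_jInv N).hol, (isAn_jInv N).exp, fun γ _ τ => Fermat.Agent.JInv.jInv_smul γ τ⟩

theorem jq_mem_anR : coeffEmb L jq ∈ AnR ι Γ N :=
  ⟨_, isAnG_jInv, hasLaurent_jF ι N⟩

variable (ι Γ N) in
/-- the element `j` -/
def jG : FG ι Γ N := ⟨coeffEmb L jq, anR_le_FG jq_mem_anR⟩

theorem hasLaurent_jG : HasLaurent 1 Fermat.Agent.JInv.jInv
    (coeffMap ι (jG ι Γ N : LaurentSeries L)) := hasLaurent_jF ι N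

theorem toM_jG : toM ι Γ N (jG ι Γ N) = algebraMap Holo Mer jHolo :=
  toM_of_mem jHolo isAnG_jInv hasLaurent_jG

/-! ### expansions at the cusps -/

omit [Algebra ℚ L] in
/-- the Laurent expansion at the cusp `γ∞` -/
def anExp (γ : SL(2, ℤ)) (a : AnR ι Γ N) : LaurentSeries ℂ := ((isAnG_anFn a).exp γ).choose

omit [NeZero N] [Algebra ℚ L] in
theorem hasLaurent_anExp (γ : SL(2, ℤ)) (a : AnR ι Γ N) :
    HasLaurent N (fun τ => anFn a (γ • τ)) (anExp γ a) := ((isAnG_anFn a).exp γ).choose_spec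

omit [Algebra ℚ L] in
theorem anExp_eq {γ : SL(2, ℤ)} {a : AnR ι Γ N} {y : LaurentSeries ℂ}
    (h : HasLaurent N (fun τ => anFn a (γ • τ)) y) : anExp γ a = y :=
  (hasLaurent_anExp γ a).unique (natCast_pos N) h

omit [NeZero N] [Algebra ℚ L] in
theorem anFn_add (a b : AnR ι Γ N) : anFn (a + b) = anFn a + anFn b :=
  congrArg Subtype.val (map_add (anHom ι Γ N) a b)

omit [NeZero N] [Algebra ℚ L] in
theorem anFn_mul (a b : AnR ι Γ N) : anFn (a * b) = anFn a * anFn b :=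
  congrArg Subtype.val (map_mul (anHom ι Γ N) a b)

omit [NeZero N] [Algebra ℚ L] in
theorem anFn_one : anFn (1 : AnR ι Γ N) = 1 :=
  congrArg Subtype.val (map_one (anHom ι Γ N))

omit [NeZero N] [Algebra ℚ L] in
theorem anFn_zero : anFn (0 : AnR ι Γ N) = 0 :=
  congrArg Subtype.val (map_zero (anHom ι Γ N))

omit [Algebra ℚ L] in
variable (ι Γ N) in
/-- expansions at the cusp `γ∞` as a ring homomorphism -/
def anExpHom (γ : SL(2, ℤ)) : AnR ι Γ N →+* LaurentSeries ℂ where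
  toFun a := anExp γ a
  map_one' := anExp_eq (by rw [anFn_one]; exact HasLaurent.const 1)
  map_mul' a b := anExp_eq (by
    rw [anFn_mul]; exact (hasLaurent_anExp γ a).mul (hasLaurent_anExp γ b))
  map_zero' := anExp_eq (by rw [anFn_zero]; exact HasLaurent.zero N)
  map_add' a b := anExp_eq (by
    rw [anFn_add]; exact (hasLaurent_anExp γ a).add (hasLaurent_anExp γ b))

omit [Algebra ℚ L] in
theorem anExpHom_injective (γ : SL(2, ℤ)) : Injective (anExpHom ι Γ N γ) := by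
  intro a b h
  have h2 := hasLaurent_anExp γ a
  have h3 : anExp γ a = anExp γ b := h
  rw [h3] at h2
  have h4 := h2.unique_fun (hasLaurent_anExp γ b)
  have h5 : anFn a = anFn b := by
    funext τ
    have := congrFun h4 (γ⁻¹ • τ)
    simpa using this
  exact anHom_injective (Subtype.ext h5)

omit [Algebra ℚ L] in
variable (ι Γ N) in
/-- The expansion at the cusp `γ∞` in `q_N`. -/
def cuspE (γ : SL(2, ℤ)) : FG ι Γ N →+* LaurentSeries ℂ :=
  IsFractionRing.lift (A := AnR ι Γ N) (K := FG ι Γ N)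
    (g := anExpHom ι Γ N γ) (anExpHom_injective γ)

omit [Algebra ℚ L] in
theorem cuspE_coe (γ : SL(2, ℤ)) (a : AnR ι Γ N) :
    cuspE ι Γ N γ (algebraMap (AnR ι Γ N) (FG ι Γ N) a) = anExp γ a :=
  IsFractionRing.lift_algebraMap (A := AnR ι Γ N) (K := FG ι Γ N) _ a

omit [Algebra ℚ L] in
theorem cuspE_of_mem (γ : SL(2, ℤ)) {x : FG ι Γ N} {f : ℍ → ℂ} (hf : IsAnG Γ N f)
    (h : HasLaurent 1 f (coeffMap ι (x : LaurentSeries L))) {y : LaurentSeries ℂ}
    (hy : HasLaurent N (fun τ => f (γ • τ)) y) :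
    cuspE ι Γ N γ x = y := by
  have hx : (x : LaurentSeries L) ∈ AnR ι Γ N := ⟨f, hf, h⟩
  have h1 := cuspE_coe (ι := ι) (Γ := Γ) (N := N) γ ⟨x, hx⟩
  have h3 : anFn (⟨x, hx⟩ : AnR ι Γ N) = f := anFn_eq h
  have h2 : anExp γ (⟨x, hx⟩ : AnR ι Γ N) = y := by
    apply anExp_eq
    rw [h3]
    exact hy
  rw [h2] at h1
  have h4 : algebraMap (AnR ι Γ N) (FG ι Γ N) ⟨x, hx⟩ = x := Subtype.ext rfl
  rwa [h4] at h1

omit [Algebra ℚ L] in
theorem cuspE_mul {γ : SL(2, ℤ)} (hγ : γ ∈ Γ) (δ : SL(2, ℤ)) :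
    cuspE ι Γ N (γ * δ) = cuspE ι Γ N δ := by
  apply fg_ringHom_ext
  intro a
  rw [cuspE_coe, cuspE_coe]
  apply anExp_eq
  have h := hasLaurent_anExp δ a
  have h1 : (fun τ => anFn a ((γ * δ) • τ)) = fun τ => anFn a (δ • τ) := by
    funext τ
    rw [mul_smul]
    exact (isAnG_anFn a).inv γ hγ _
  rw [h1]
  exact h

theorem cuspE_jG (γ : SL(2, ℤ)) : cuspE ι Γ N γ (jG ι Γ N) = qExpand ℂ N (jqModC ℂ) := by
  apply cuspE_of_mem γ isAnG_jInv hasLaurent_jG
  have h1 : (fun τ : ℍ => Fermat.Agent.JInv.jInv (γ • τ)) = Fermat.Agent.JInv.jInv := by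
    funext τ
    exact Fermat.Agent.JInv.jInv_smul γ τ
  rw [h1]
  exact hasLaurent_N_jInv N

omit [Algebra ℚ L] in
theorem cuspE_algebraMap (γ : SL(2, ℤ)) (a : L) :
    cuspE ι Γ N γ (algebraMap L (FG ι Γ N) a) = HahnSeries.C (ι a) := by
  apply cuspE_of_mem γ (f := fun _ => ι a)
  · exact isAnG_const Γ N _
  · show HasLaurent 1 _ (coeffMap ι (algebraMap L (LaurentSeries L) a))
    rw [algebraMap_laurentSeries_eq_single, coeffMap_single]
    exact HasLaurent.const _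
  · exact HasLaurent.const _

omit [Algebra ℚ L] in
theorem cuspE_mul_T_zpow (γ : SL(2, ℤ)) (k : ℤ) (x : FG ι Γ N) :
    cuspE ι Γ N (γ * ModularGroup.T ^ k) x =
      Fermat.Agent.ModPoly.twist (zetaN N ^ k) (cuspE ι Γ N γ x) := by
  have h : cuspE ι Γ N (γ * ModularGroup.T ^ k) =
      (Fermat.Agent.ModPoly.twist (zetaN N ^ k)).comp (cuspE ι Γ N γ) := by
    apply fg_ringHom_ext
    intro a
    rw [RingHom.comp_apply, cuspE_coe, cuspE_coe]
    apply anExp_eq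
    have h1 := (hasLaurent_anExp γ a).subst (h' := N)
      (fun τ => ModularGroup.T ^ k • τ) (zetaN N ^ k) 1 (by
        intro τ
        rw [pow_one]
        exact qParam_T_zpow N k τ)
    rw [qExpand_one_apply] at h1
    have h2 : (fun τ => anFn a ((γ * ModularGroup.T ^ k) • τ)) =
        (fun τ => anFn a (γ • τ)) ∘ fun τ => ModularGroup.T ^ k • τ := by
      funext τ
      rw [comp_apply, mul_smul]
    rw [h2]
    exact h1
  rw [h]
  rfl

/-! ### cosets -/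

variable (Γ) in
/-- the cosets -/
abbrev XG : Type := SL(2, ℤ) ⧸ Γ

variable (ι Γ N) in
omit [NeZero N] [Algebra ℚ L] in
/-- The embedding attached to a coset `gΓ`: `f ↦ f ∘ g⁻¹`. -/
def sig (c : XG Γ) : FG ι Γ N →+* Mer :=
  Quotient.liftOn' c (fun g => (compMer g⁻¹).comp (toM ι Γ N)) (by
    intro g h hgh
    have h1 : g⁻¹ * h ∈ Γ := QuotientGroup.leftRel_apply.1 hgh
    have h2 : h⁻¹ = (g⁻¹ * h)⁻¹ * g⁻¹ := by group
    ext x
    show compMer g⁻¹ (toM ι Γ N x) = compMer h⁻¹ (toM ι Γ N x)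
    rw [h2, ← compMer_mul]
    congr 1
    exact (compMer_toM (inv_mem h1) x).symm)

omit [NeZero N] [Algebra ℚ L] in
theorem sig_mk (g : SL(2, ℤ)) (x : FG ι Γ N) :
    sig ι Γ N (g : XG Γ) x = compMer g⁻¹ (toM ι Γ N x) := rfl

omit [NeZero N] [Algebra ℚ L] in
theorem sig_smul (g : SL(2, ℤ)) (c : XG Γ) (x : FG ι Γ N) :
    sig ι Γ N (g • c) x = compMer g⁻¹ (sig ι Γ N c x) := by
  induction c using QuotientGroup.induction_on with
  | H h =>
    show sig ι Γ N ((g * h : SL(2, ℤ)) : XG Γ) x = _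
    rw [sig_mk, sig_mk, compMer_mul, mul_inv_rev]

omit [NeZero N] [Algebra ℚ L] in
theorem sig_algebraMap (c : XG Γ) (a : L) :
    sig ι Γ N c (algebraMap L (FG ι Γ N) a) = algebraMap Holo Mer (constHolo (ι a)) := by
  induction c using QuotientGroup.induction_on with
  | H h => rw [sig_mk, toM_algebraMap, compMer_algebraMap, compHolo_const]

theorem sig_jG (c : XG Γ) : sig ι Γ N c (jG ι Γ N) = algebraMap Holo Mer jHolo := by
  induction c using QuotientGroup.induction_on with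
  | H h => rw [sig_mk, toM_jG, compMer_algebraMap, compHolo_j]

omit [Algebra ℚ L] in
variable (ι Γ N) in
/-- The expansion at the cusp attached to a coset `gΓ`. -/
def csig (c : XG Γ) : FG ι Γ N →+* LaurentSeries ℂ :=
  Quotient.liftOn' c (fun g => cuspE ι Γ N g⁻¹) (by
    intro g h hgh
    have h1 : g⁻¹ * h ∈ Γ := QuotientGroup.leftRel_apply.1 hgh
    have h2 : h⁻¹ = (g⁻¹ * h)⁻¹ * g⁻¹ := by group
    show cuspE ι Γ N g⁻¹ = cuspE ι Γ N h⁻¹
    rw [h2, cuspE_mul (inv_mem h1)])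

omit [Algebra ℚ L] in
theorem csig_mk (g : SL(2, ℤ)) : csig ι Γ N (g : XG Γ) = cuspE ι Γ N g⁻¹ := rfl

theorem csig_jG (c : XG Γ) : csig ι Γ N c (jG ι Γ N) = qExpand ℂ N (jqModC ℂ) := by
  induction c using QuotientGroup.induction_on with
  | H g => rw [csig_mk, cuspE_jG]

omit [Algebra ℚ L] in
theorem csig_algebraMap (c : XG Γ) (a : L) :
    csig ι Γ N c (algebraMap L (FG ι Γ N) a) = HahnSeries.C (ι a) := by
  induction c using QuotientGroup.induction_on with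
  | H g => rw [csig_mk, cuspE_algebraMap]

omit [Algebra ℚ L] in
/-- If two functions of the field have the same expansions at the cusps `γ∞`, `δ∞`, they have
the same composites with `γ`, `δ`. -/
theorem compMer_eq_of_cuspE_eq {γ δ : SL(2, ℤ)} (h : cuspE ι Γ N γ = cuspE ι Γ N δ)
    (x : FG ι Γ N) : compMer γ (toM ι Γ N x) = compMer δ (toM ι Γ N x) := by
  have h0 : (compMer γ).comp (toM ι Γ N) = (compMer δ).comp (toM ι Γ N) := by
    apply fg_ringHom_ext
    intro a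
    have h1 := hasLaurent_anExp γ a
    have h2 := hasLaurent_anExp δ a
    have h3 : anExp γ a = anExp δ a := by rw [← cuspE_coe, ← cuspE_coe, h]
    rw [h3] at h1
    have h4 := h1.unique_fun h2
    rw [RingHom.comp_apply, RingHom.comp_apply, toM_coe, compMer_algebraMap, compMer_algebraMap]
    congr 1
    exact Subtype.ext h4
  exact RingHom.congr_fun h0 x

omit [Algebra ℚ L] in
theorem csig_T_zpow_smul (c : XG Γ) (k : ℤ) (x : FG ι Γ N) :
    csig ι Γ N (ModularGroup.T ^ k • c) x =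
      Fermat.Agent.ModPoly.twist (zetaN N ^ (-k)) (csig ι Γ N c x) := by
  induction c using QuotientGroup.induction_on with
  | H g =>
    show csig ι Γ N ((ModularGroup.T ^ k * g : SL(2, ℤ)) : XG Γ) x = _
    rw [csig_mk, csig_mk, mul_inv_rev, ← zpow_neg, cuspE_mul_T_zpow]

theorem valLaur_csig_jG (c : XG Γ) : valLaur (csig ι Γ N c (jG ι Γ N)) = exp (N : ℤ) := by
  rw [csig_jG]
  have h := valLaur_cuspSigma_jF ι N ((1 : SL(2, ℤ)) : SL(2, ℤ) ⧸ CongruenceSubgroup.Gamma0 N)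
  rwa [cuspSigma_jF] at h

end Fermat.Agent.LG
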