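import Fermat.Agent.LG.GeoH
import Fermat.Agent.HeckeRed.Residue
import Fermat.Agent.BadRed.Arch
import Fermat.Agent.Frob.Exists

/-!
# Local-global compatibility at `q` for forms on `GH (N q) ω`
-/

set_option autoImplicit false
set_option linter.unusedSectionVars false
set_option linter.style.haveILetI false

noncomputable section

open UpperHalfPlane Function ModularCurve Filter ModularForm AlgebraicCurve WithZero
  CongruenceSubgroup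
open scoped Manifold MatrixGroups Topology ModularForm

namespace Fermat.Agent.LG

open Fermat.Agent.X0Places Fermat.Agent.FunField Fermat.Agent.FunField.PlaceLemmas
open Fermat.Agent.TorsCmp Fermat.Agent.Igusa Fermat.Agent.LGRes Fermat.Agent.LGR
open Fermat.Agent.LGU
open Fermat.Agent.HeckeHom (HData)
open Matrix.SpecialLinearGroup (mapGL)

theorem isArch_residue {Ω : Type*} [Field Ω] [Algebra ℚ Ω] [IsGalois ℚ Ω]
    {A : ValuationSubring Ω} {p : ℕ} (hp : p.Prime) (hA : A.LiesOverPrime p) :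
    IsArch (IsLocalRing.residue A) := by
  intro a ha b
  by_cases h0 : (a : Ω) = 0
  · exact ⟨1, by rw [pow_one, h0, zero_mul]; exact A.zero_mem⟩
  by_cases hb : b = 0
  · exact ⟨0, by rw [hb, mul_zero]; exact A.zero_mem⟩
  obtain ⟨m, hm⟩ := Fermat.Agent.BadRed.archA hp hA a h0 ha b⁻¹ (inv_ne_zero hb)
  refine ⟨m, ?_⟩
  have := (A.mem_or_inv_mem (b⁻¹ * ((a : Ω) ^ m)⁻¹)).resolve_left hm
  rwa [mul_inv, inv_inv, inv_inv, mul_comm] at this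

theorem exists_gamma0_apply {M l : ℕ} (h : Nat.Coprime l M) :
    ∃ σ : SL(2, ℤ), σ ∈ Gamma0 M ∧ σ 1 1 = l := by
  obtain ⟨a, b, hab⟩ := Nat.isCoprime_iff_coprime.2 h
  let σ : SL(2, ℤ) := ⟨!![a, -b; M, l], by rw [Matrix.det_fin_two_of]; linear_combination hab⟩
  have h1 : σ 1 0 = M := rfl
  refine ⟨σ, Gamma0_mem.2 ?_, rfl⟩
  rw [h1, Int.cast_natCast, ZMod.natCast_self]

/-- the absolute Galois group of `ℚ` -/
local notation "GQb" => AlgebraicClosure ℚ ≃ₐ[ℚ] AlgebraicClosure ℚ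

/-- Hecke eigenforms on `GH M ω` with a character for `Gamma0 M`. -/
structure IsForm {M : ℕ} [NeZero M] {q : ℕ} [hq : Fact q.Prime] (hqM : q ∣ M)
    (ω : DirichletCharacter (AlgebraicClosure ℚ) q) {O : Type*} [CommRing O] (𝔪 : Ideal O)
    (F : Additive (GH M ω) →+ O) (ψ : SL(2, ℤ) → O) (t d : GQb → O) (S : ℕ) : Prop where
  pe : F ∈ PE (GH M ω) O
  conj : ∀ g (hg : g ∈ Gamma0 M),
    conjH g (conj_mem_GH hqM ω g hg) F = (AddMonoidHom.mulLeft (ψ g)).comp F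
  cong : ∀ g ∈ Gamma0 M, ψ g - 1 ∈ 𝔪
  hecke : ∀ (l : ℕ) (_ : Fact l.Prime), ¬ l ∣ S → ∀ (hlM : ¬ l ∣ M) (σ : SL(2, ℤ))
    (hσ : σ ∈ Gamma0 M) (hql : IsCoprime (q : ℤ) (l : ℤ)) (hσl : (q : ℤ) ∣ σ 1 1 - l)
    (A : ValuationSubring (AlgebraicClosure ℚ)), A.LiesOverPrime l →
    ∀ Φ, A.IsFrobeniusAt Φ l →
    (tdataG (isCong_GH hqM ω) hlM σ hσ hql hσl).H.hom O F = (AddMonoidHom.mulLeft (t Φ)).comp F ∧
      (l : O) * ψ σ = d Φ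

section Quad

variable (ι : AlgebraicClosure ℚ →+* ℂ) {M : ℕ} [NeZero M] {q : ℕ} [hq : Fact q.Prime]
  (hqM : q ∣ M) {ω : DirichletCharacter (AlgebraicClosure ℚ) q} (hω : ω (-1) = 1)

include hω in
/-- **The quadratic relation.** -/
theorem IsForm.quad {p : ℕ} [hp : Fact p.Prime] (h2 : 2 ∣ M) (hp2 : p ≠ 2)
    {s₀ : ℕ} (hs : ∀ c : (ZMod q)ˣ, ω c ^ p ^ s₀ = 1)
    {O : Type*} [CommRing O] {𝔪 : Ideal O} (hp𝔪 : (p : O) ∈ 𝔪)
    (hpow : ∀ e : ℕ, ∃ n : ℕ, ∀ c ∈ 𝔪 ^ n, ∃ c', c = (p : O) ^ e * c')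
    {F : Additive (GH M ω) →+ O} {ψ : SL(2, ℤ) → O} {t d : GQb → O} {S : ℕ}
    (hF : IsForm hqM ω 𝔪 F ψ t d S) (hS : S ≠ 0)
    (hcont : ∀ (e : ℕ) (s : GQb), ∃ E : IntermediateField ℚ (AlgebraicClosure ℚ),
      FiniteDimensional ℚ E ∧
      ∀ s', (∀ z ∈ E, s' z = s z) → (∃ c, t s' - t s = (p : O) ^ e * c) ∧
        ∃ c, d s' - d s = (p : O) ^ e * c)
    {l₀ : ℕ} [hl₀ : Fact l₀.Prime] (hl₀M : ¬ l₀ ∣ M) (hl₀S : ¬ l₀ ∣ S)
    {A₀ : ValuationSubring (AlgebraicClosure ℚ)} (hA₀ : A₀.LiesOverPrime l₀) {Φ₀ : GQb}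
    (hΦ₀ : A₀.IsFrobeniusAt Φ₀ l₀) (hu : IsUnit (t Φ₀ - (l₀ + 1)))
    [MF ι (GH M ω) M] [GalSt ι (GH M ω) M] [RepEx ι (GH M ω) M] {m e : ℕ} [NeZero m]
    (hm : m = p ^ e) (s : GQb) (φ : O →+ ZMod (p * m)) :
    have : NeZero (p * m) := ⟨mul_ne_zero hp.out.ne_zero (NeZero.ne m)⟩
    RF ι M hF.pe s (t s) (d s) φ = 0 := by
  intro _
  have hpm : Nat.Coprime 4 (p * m) := by
    have h3 : Nat.Coprime 4 p := by
      have h4 : Nat.Coprime 2 p := (Nat.coprime_primes Nat.prime_two hp.out).2 hp2.symm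
      exact h4.pow_left 2
    rw [hm, ← pow_succ']
    exact h3.pow_right _
  have hpm' : ((p * m : ℕ) : O) = (p : O) ^ (e + 1) := by
    rw [hm, ← pow_succ']
    push_cast
    rfl
  obtain ⟨n, hn⟩ := hpow (e + 1)
  have hcop : ∀ {l : ℕ}, l.Prime → ¬ l ∣ M → IsCoprime (q : ℤ) (l : ℤ) := by
    intro l hl hlM
    rw [Nat.isCoprime_iff_coprime, Nat.coprime_primes hq.out hl]
    rintro rfl
    exact hlM hqM
  have hσex : ∀ {l : ℕ}, l.Prime → ¬ l ∣ M →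
      ∃ σ : SL(2, ℤ), σ ∈ Gamma0 M ∧ (q : ℤ) ∣ σ 1 1 - l := by
    intro l hl hlM
    obtain ⟨σ, h1, h2⟩ := exists_gamma0_apply ((Nat.Prime.coprime_iff_not_dvd hl).2 hlM)
    exact ⟨σ, h1, by rw [h2, sub_self]; exact dvd_zero _⟩
  obtain ⟨σ₀, hσ₀, hσl₀⟩ := hσex hl₀.out hl₀M
  have hT₀ := (hF.hecke l₀ hl₀ hl₀S hl₀M σ₀ hσ₀ (hcop hl₀.out hl₀M) hσl₀ A₀ hA₀ Φ₀ hΦ₀).1
  refine RF_all hF.pe (fun s => ?_) (S * (p * M))
    (mul_ne_zero hS (mul_ne_zero hp.out.ne_zero (NeZero.ne M))) ?_ s φ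
  · obtain ⟨E, hE, h⟩ := hcont (e + 1) s
    refine ⟨E, hE, fun s' hs' => ?_⟩
    rw [hpm']
    exact h s' hs'
  intro l hl hlS A hA Φ hΦ φ
  haveI : Fact l.Prime := ⟨hl⟩
  have hlS' : ¬ l ∣ S := fun h => hlS (h.mul_right _)
  have hlp : ¬ l ∣ p := fun h => hlS ((h.mul_right M).mul_left S)
  have hlM : ¬ l ∣ M := fun h => hlS ((h.mul_left p).mul_left S)
  obtain ⟨σ, hσ, hσl⟩ := hσex hl hlM
  obtain ⟨hT, hdet⟩ := hF.hecke l ⟨hl⟩ hlS' hlM σ hσ (hcop hl hlM) hσl A hA Φ hΦ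
  haveI i1 : IsAlgClosed (IsLocalRing.ResidueField A) :=
    Fermat.Agent.HeckeRed.isAlgClosed_residueField A
  haveI i2 : CharP (IsLocalRing.ResidueField A) l :=
    Fermat.Agent.HeckeRed.charP_residueField hl hA
  haveI i5 : IsLocalHom (IsLocalRing.residue A) := inferInstance
  have hπ : Function.Surjective (IsLocalRing.residue A) := IsLocalRing.residue_surjective
  have hpκ : ((p : ℕ) : IsLocalRing.ResidueField A) ≠ 0 := by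
    rw [Ne, CharP.cast_eq_zero_iff _ l]
    exact hlp
  have hMκ : ((M : ℕ) : IsLocalRing.ResidueField A) ≠ 0 := by
    rw [Ne, CharP.cast_eq_zero_iff _ l]
    exact hlM
  have hK0 : IsTameField (FG ι (Gamma0 M) M) := isTameField_gamma0 ι
  have hFG : FG ι (Gamma0 M) M = modularFunctionFieldFullC (AlgebraicClosure ℚ) M :=
    (FG_gamma0 ι M).trans (Fermat.Agent.HeckeRed.laurentBaseChange_full (AlgebraicClosure ℚ) M)
  obtain ⟨ub, hub, hur⟩ := exists_red_u ω A (IsLocalRing.residue A)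
  have key := frob_rel (π := IsLocalRing.residue A) (ι := ι) (geoH ι hqM ω hω hs) h2 hπ
    (isArch_residue hl hA) hp2 hpκ hK0 hur hub
    (fun x hx f hf y hy hy0 hr => eq_zero_of_red hπ hFG hMκ hpκ hx hf
      (gaussImage_FG_good A _ hπ M hFG hK0 hMκ hy) hy0 hr) hpm hp𝔪 (N := n)
    (by rw [hpm']; exact hn) hF.pe hF.conj hF.cong hl₀M hσ₀ (hcop hl₀.out hl₀M) hσl₀ hT₀ hu
    hlM hσ (hcop hl hlM) hσl hT hΦ φ
  rw [hdet] at key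
  exact key

include hω in
/-- **Trivial reduction.** -/
theorem IsForm.tr {p : ℕ} [hp : Fact p.Prime] (h2 : 2 ∣ M) (hp2 : p ≠ 2)
    {s₀ : ℕ} (hs : ∀ c : (ZMod q)ˣ, ω c ^ p ^ s₀ = 1)
    {O : Type*} [CommRing O] {𝔪 : Ideal O} (hp𝔪 : (p : O) ∈ 𝔪)
    (hdiv : ∀ c : O, c ≠ 0 → ∃ (e : ℕ) (c' : O), c * c' = (p : O) ^ e)
    (hpow : ∀ e : ℕ, ∃ n : ℕ, ∀ c ∈ 𝔪 ^ n, ∃ c', c = (p : O) ^ e * c')
    (hlift : ∀ (e : ℕ) (φ : O →+ ZMod p), ∃ Φ : O →+ ZMod (p * p ^ e),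
      ∀ x, ZMod.castHom (dvd_mul_right p (p ^ e)) (ZMod p) (Φ x) = φ x)
    {F : Additive (GH M ω) →+ O} {ψ : SL(2, ℤ) → O} {t d : GQb → O} {S : ℕ}
    (hF : IsForm hqM ω 𝔪 F ψ t d S) (hS : S ≠ 0)
    (hcont : ∀ (e : ℕ) (s : GQb), ∃ E : IntermediateField ℚ (AlgebraicClosure ℚ),
      FiniteDimensional ℚ E ∧
      ∀ s', (∀ z ∈ E, s' z = s z) → (∃ c, t s' - t s = (p : O) ^ e * c) ∧
        ∃ c, d s' - d s = (p : O) ^ e * c)
    {l₀ : ℕ} [hl₀ : Fact l₀.Prime] (hl₀M : ¬ l₀ ∣ M) (hl₀S : ¬ l₀ ∣ S)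
    {A₀ : ValuationSubring (AlgebraicClosure ℚ)} (hA₀ : A₀.LiesOverPrime l₀) {Φ₀ : GQb}
    (hΦ₀ : A₀.IsFrobeniusAt Φ₀ l₀) (hu : IsUnit (t Φ₀ - (l₀ + 1)))
    [MF ι (GH M ω) M] [GalSt ι (GH M ω) M] [RepEx ι (GH M ω) M]
    {A : ValuationSubring (AlgebraicClosure ℚ)} {κ : Type*} [Field κ] [IsAlgClosed κ]
    {π : A →+* κ} [IsLocalHom π] (hπ : Function.Surjective π) {s : GQb}
    (hsA : s ∈ A.inertiaSubgroupIn ℚ) (hc : 1 - t s + d s ≠ 0) (φ : O →+ ZMod p) :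
    TR A π ι M p (φ.comp F) := by
  obtain ⟨e, c', hc'⟩ := hdiv _ hc
  haveI : NeZero p := ⟨hp.out.ne_zero⟩
  haveI : NeZero (p ^ e) := ⟨pow_ne_zero _ hp.out.ne_zero⟩
  obtain ⟨Ψ, hΨ⟩ := hlift e φ
  have hG := geoH ι hqM ω hω hs
  have htG : IsTameField (FG ι (GH M ω) M) := by
    rw [hG.gen]
    exact isTameField_adjoin_union (isTameField_gamma0 ι) hG.tame
  have hcm : (1 - t s + d s) * c' = ((p ^ e : ℕ) : O) := by
    rw [hc']; push_cast; rfl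
  have hRF := fun φ' => hF.quad ι hqM hω h2 hp2 hs hp𝔪 hpow hS hcont hl₀M hl₀S hA₀ hΦ₀ hu
    (m := p ^ e) rfl s φ'
  exact TR_of_inertia hF.pe hπ htG hsA hRF hcm hΨ

end Quad

section Main

variable {N q : ℕ} [NeZero N] [hq : Fact q.Prime]
  {ω : DirichletCharacter (AlgebraicClosure ℚ) q} {p : ℕ} [hp : Fact p.Prime]

/-- **Local-global compatibility.** -/
theorem IsForm.lg (h2 : 2 ∣ N) (hqN : ¬ q ∣ N) (hp2 : p ≠ 2) {r : ℕ} (hq1 : q = 1 + p * r)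
    (hω : ω (-1) = 1) {s₀ : ℕ} (hs : ∀ c : (ZMod q)ˣ, ω c ^ p ^ s₀ = 1)
    {O : Type*} [CommRing O] {𝔪 : Ideal O} (hp𝔪 : (p : O) ∈ 𝔪)
    (hdiv : ∀ c : O, c ≠ 0 → ∃ (e : ℕ) (c' : O), c * c' = (p : O) ^ e)
    (hpow : ∀ e : ℕ, ∃ n : ℕ, ∀ c ∈ 𝔪 ^ n, ∃ c', c = (p : O) ^ e * c')
    (hlift : ∀ (e : ℕ) (φ : O →+ ZMod p), ∃ Φ : O →+ ZMod (p * p ^ e),
      ∀ x, ZMod.castHom (dvd_mul_right p (p ^ e)) (ZMod p) (Φ x) = φ x)
    {k : Type*} [CommRing k] (red : O →+* k)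
    (hk : ∀ x : k, (∀ φ : k →+ ZMod p, φ x = 0) → x = 0)
    {F F' : Additive (GH (N * q) ω) →+ O} {ψ ψ' : SL(2, ℤ) → O} {t d t' d' : GQb → O} {S : ℕ}
    (hS : S ≠ 0) (hF : IsForm (dvd_mul_left q N) ω 𝔪 F ψ t d S)
    (hF' : IsForm (dvd_mul_left q N) ω 𝔪 F' ψ' t' d' S)
    (hcont : ∀ (e : ℕ) (s : GQb), ∃ E : IntermediateField ℚ (AlgebraicClosure ℚ),
      FiniteDimensional ℚ E ∧
      ∀ s', (∀ z ∈ E, s' z = s z) → (∃ c, t s' - t s = (p : O) ^ e * c) ∧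
        ∃ c, d s' - d s = (p : O) ^ e * c)
    (hcont' : ∀ (e : ℕ) (s : GQb), ∃ E : IntermediateField ℚ (AlgebraicClosure ℚ),
      FiniteDimensional ℚ E ∧
      ∀ s', (∀ z ∈ E, s' z = s z) → (∃ c, t' s' - t' s = (p : O) ^ e * c) ∧
        ∃ c, d' s' - d' s = (p : O) ^ e * c)
    {l₀ : ℕ} [hl₀ : Fact l₀.Prime] (hl₀M : ¬ l₀ ∣ N * q) (hl₀N : ¬ l₀ ∣ N) (hl₀S : ¬ l₀ ∣ S)
    {A₀ : ValuationSubring (AlgebraicClosure ℚ)} (hA₀ : A₀.LiesOverPrime l₀) {Φ₀ : GQb}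
    (hΦ₀ : A₀.IsFrobeniusAt Φ₀ l₀) (hu : IsUnit (t Φ₀ - (l₀ + 1)))
    (hu' : IsUnit (t' Φ₀ - (l₀ + 1)))
    {a b : Additive (Gamma0 N) →+ k} (ha : a ∈ PE (Gamma0 N) k) (hb : b ∈ PE (Gamma0 N) k)
    {x₀ : k} (hx₀ : IsUnit (x₀ - (l₀ + 1)))
    (hta : (tdata0 N hl₀N 1 (one_mem _)).H.hom k a = (AddMonoidHom.mulLeft x₀).comp a)
    (htb : (tdata0 N hl₀N 1 (one_mem _)).H.hom k b = (AddMonoidHom.mulLeft x₀).comp b)
    {τ : k} (hτa : (tdata0 N hqN 1 (one_mem _)).H.hom k a = (AddMonoidHom.mulLeft τ).comp a)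
    (hτb : (tdata0 N hqN 1 (one_mem _)).H.hom k b = (AddMonoidHom.mulLeft τ).comp b)
    (hτ : IsUnit (τ ^ 2 - 4))
    (hFab : (red : O →+ k).comp F = ((alphaPull N q).hom k a + (betaPull N q).hom k b).comp
      (MonoidHom.toAdditive (Subgroup.inclusion (GH_le_gamma0 ω))))
    (hFab' : (red : O →+ k).comp F' = ((alphaPull N q).hom k b + (betaPull N q).hom k a).comp
      (MonoidHom.toAdditive (Subgroup.inclusion (GH_le_gamma0 ω))))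
    (hF0 : (red : O →+ k).comp F ≠ 0)
    {A : ValuationSubring (AlgebraicClosure ℚ)} (hA : A.LiesOverPrime q) {s s' : GQb}
    (hsA : s ∈ A.inertiaSubgroupIn ℚ) (hsA' : s' ∈ A.inertiaSubgroupIn ℚ) :
    1 - t s + d s = 0 ∨ 1 - t' s' + d' s' = 0 := by
  by_contra hcon
  rw [not_or] at hcon
  obtain ⟨hc, hc'⟩ := hcon
  obtain ⟨ι⟩ : Nonempty (AlgebraicClosure ℚ →+* ℂ) :=
    ⟨(IsAlgClosed.lift : AlgebraicClosure ℚ →ₐ[ℚ] ℂ)⟩
  have hqM : q ∣ N * q := dvd_mul_left q N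
  have h2M : 2 ∣ N * q := h2.mul_right q
  haveI : NeZero q := ⟨hq.out.ne_zero⟩
  haveI : NeZero (N * q) := ⟨mul_ne_zero (NeZero.ne N) hq.out.ne_zero⟩
  haveI : NeZero p := ⟨hp.out.ne_zero⟩
  haveI i1 : MF ι (GH (N * q) ω) (N * q) := mf_GH ι hqM ω hω
  haveI i2 : GalSt ι (GH (N * q) ω) (N * q) := galSt_GH ι hqM ω hω
  haveI i3 : RepEx ι (GH (N * q) ω) (N * q) := repEx_GH ι hqM ω hω
  have hqp : q ≠ p := by
    intro hqp
    rcases Nat.eq_zero_or_pos r with hr | hr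
    · rw [hr, mul_zero, add_zero] at hq1
      exact hq.out.one_lt.ne' hq1
    · have h3 := Nat.le_mul_of_pos_right p hr
      omega
  haveI j1 : IsAlgClosed (IsLocalRing.ResidueField A) :=
    Fermat.Agent.HeckeRed.isAlgClosed_residueField A
  haveI j2 : CharP (IsLocalRing.ResidueField A) q :=
    Fermat.Agent.HeckeRed.charP_residueField hq.out hA
  haveI j5 : IsLocalHom (IsLocalRing.residue A) := inferInstance
  have hπ : Function.Surjective (IsLocalRing.residue A) := IsLocalRing.residue_surjective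
  have hpκ : ((p : ℕ) : IsLocalRing.ResidueField A) ≠ 0 := by
    rw [Ne, CharP.cast_eq_zero_iff _ q, Nat.prime_dvd_prime_iff_eq hq.out hp.out]
    exact hqp
  obtain ⟨Φ, hΦ⟩ := Fermat.Agent.Frob.exists_isFrobeniusAt (L := AlgebraicClosure ℚ) hq.out hA
  have hFG : FG ι (Gamma0 N) N = modularFunctionFieldFullC (AlgebraicClosure ℚ) N :=
    (FG_gamma0 ι N).trans (Fermat.Agent.HeckeRed.laurentBaseChange_full (AlgebraicClosure ℚ) N)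
  have hFG' : FG ι (Gamma0 (N * q)) (N * q) =
      modularFunctionFieldFullC (AlgebraicClosure ℚ) (N * q) :=
    (FG_gamma0 ι (N * q)).trans
      (Fermat.Agent.HeckeRed.laurentBaseChange_full (AlgebraicClosure ℚ) (N * q))
  obtain ⟨ub, hub, hur⟩ := exists_red_u ω A (IsLocalRing.residue A)
  obtain ⟨σ₀, hσ₀, hσl₀'⟩ := exists_gamma0_apply ((Nat.Prime.coprime_iff_not_dvd hl₀.out).2 hl₀M)
  have hσl₀ : (q : ℤ) ∣ σ₀ 1 1 - l₀ := by rw [hσl₀', sub_self]; exact dvd_zero _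
  have hql₀ : IsCoprime (q : ℤ) (l₀ : ℤ) := by
    rw [Nat.isCoprime_iff_coprime, Nat.coprime_primes hq.out hl₀.out]
    rintro rfl
    exact hl₀M hqM
  have hTR1 : ∀ φ : k →+ ZMod p,
      TR A (IsLocalRing.residue A) ι (N * q) p (φ.comp ((red : O →+ k).comp F)) := fun φ =>
    hF.tr ι hqM hω h2M hp2 hs hp𝔪 hdiv hpow hlift hS hcont hl₀M hl₀S hA₀ hΦ₀ hu hπ hsA hc
      (φ.comp (red : O →+ k))
  have hTR2 : ∀ φ : k →+ ZMod p,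
      TR A (IsLocalRing.residue A) ι (N * q) p (φ.comp ((red : O →+ k).comp F')) := fun φ =>
    hF'.tr ι hqM hω h2M hp2 hs hp𝔪 hdiv hpow hlift hS hcont' hl₀M hl₀S hA₀ hΦ₀ hu' hπ hsA' hc'
      (φ.comp (red : O →+ k))
  have e1 := step2a (ι := ι) hπ (isArch_residue hq.out hA) hqN hFG hFG' (isTameField_gamma0 ι)
    (isTameField_gamma0 ι) hpκ (geoH ι hqM ω hω hs) h2 hp2 hq1 hur hub hΦ ha hb hFab
    hTR1 hl₀M hl₀N hσ₀ hql₀ hσl₀ hta htb hx₀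
  have e2 := step2a (ι := ι) hπ (isArch_residue hq.out hA) hqN hFG hFG' (isTameField_gamma0 ι)
    (isTameField_gamma0 ι) hpκ (geoH ι hqM ω hω hs) h2 hp2 hq1 hur hub hΦ hb ha hFab'
    hTR2 hl₀M hl₀N hσ₀ hql₀ hσl₀ htb hta hx₀
  obtain ⟨ha0, hb0⟩ := step2 (ι := ι) hπ hqN hFG (isTameField_gamma0 ι) hpκ hq1 hΦ hk ha hb hτa hτb
    hτ e1 e2
  apply hF0
  rw [hFab, ha0, hb0, map_zero, map_zero, add_zero]
  rfl

end Main

end Fermat.Agent.LG
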