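import Fermat.Agent.LG.Geo

/-!
# The Frobenius relation for eigenclasses
-/

set_option autoImplicit false
set_option linter.unusedSectionVars false
set_option linter.style.haveILetI false

noncomputable section

open UpperHalfPlane Function ModularCurve Filter ModularForm AlgebraicCurve WithZero
  CongruenceSubgroup
open scoped Manifold MatrixGroups Topology ModularForm

namespace Fermat.Agent.LG

open Fermat.Agent.X0Places Fermat.Agent.FunField Fermat.Agent.FunField.PlaceLemmas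
open Fermat.Agent.TorsCmp Fermat.Agent.Igusa Fermat.Agent.LGRes Fermat.Agent.LGR
open Fermat.Agent.HeckeHom (HData)
open Matrix.SpecialLinearGroup (mapGL)

section Y

variable {Γ : Subgroup SL(2, ℤ)} {R : Type*} [CommRing R] {F : Additive Γ →+ R}
    (hF : F ∈ PE Γ R) {n : ℕ}

/-- `c ↦ (γ ↦ φ (c F(γ)))` -/
def Yh (φ : R →+ ZMod n) : R →+ PE Γ (ZMod n) :=
  AddMonoidHom.mk' (fun c => ⟨(φ.comp (AddMonoidHom.mulLeft c)).comp F, comp_mem_PE _ hF⟩) (by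
    intro a b
    refine Subtype.ext (AddMonoidHom.ext fun γ => ?_)
    show φ ((a + b) * F γ) = φ (a * F γ) + φ (b * F γ)
    rw [add_mul, map_add])

theorem Yh_coe (φ : R →+ ZMod n) (c : R) :
    (Yh hF φ c : Additive Γ →+ ZMod n) = (φ.comp (AddMonoidHom.mulLeft c)).comp F := rfl

theorem Yh_mulLeft (φ : R →+ ZMod n) (c c' : R) :
    Yh hF (φ.comp (AddMonoidHom.mulLeft c)) c' = Yh hF φ (c * c') := by
  refine Subtype.ext (AddMonoidHom.ext fun γ => ?_)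
  show φ (c * (c' * F γ)) = φ (c * c' * F γ)
  rw [mul_assoc]

theorem Yh_hom (H : HData Γ Γ) {t : R} (ht : H.hom R F = (AddMonoidHom.mulLeft t).comp F)
    (φ : R →+ ZMod n) (c : R) :
    H.hom (ZMod n) (Yh hF φ c : Additive Γ →+ ZMod n) = Yh hF φ (c * t) := by
  rw [Yh_coe, HData.hom_comp, ht]
  refine AddMonoidHom.ext fun γ => ?_
  show φ (c * (t * F γ)) = φ (c * t * F γ)
  rw [mul_assoc]

theorem Yh_conj {σ : SL(2, ℤ)} (hσ : ∀ γ ∈ Γ, σ * γ * σ⁻¹ ∈ Γ) {t : R}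
    (ht : conjH σ hσ F = (AddMonoidHom.mulLeft t).comp F) (φ : R →+ ZMod n) (c : R) :
    conjH σ hσ (Yh hF φ c : Additive Γ →+ ZMod n) = Yh hF φ (c * t) := by
  rw [Yh_coe, conjH_comp, ht]
  refine AddMonoidHom.ext fun γ => ?_
  show φ (c * (t * F γ)) = φ (c * t * F γ)
  rw [mul_assoc]

end Y

section Rel

variable {L : Type*} [Field L] [Algebra ℚ L] [CharZero L] [IsAlgClosed L] {ι : L →+* ℂ}
variable {M : ℕ} [NeZero M] {Γ : Subgroup SL(2, ℤ)} [MF ι Γ M] [GalSt ι Γ M] [RepEx ι Γ M]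
variable {R : Type*} [CommRing R] {F : Additive Γ →+ R} (hF : F ∈ PE Γ R) {n : ℕ} [NeZero n]

variable (ι M) in
/-- `c ↦ Φ² Y(c) - Φ Y(c a) + Y(c b)` -/
def RF (Φ : L ≃ₐ[ℚ] L) (a b : R) (φ : R →+ ZMod n) : R →+ PE Γ (ZMod n) :=
  (galH ι M n Φ).comp ((galH ι M n Φ).comp (Yh hF φ)) -
    (galH ι M n Φ).comp ((Yh hF φ).comp (AddMonoidHom.mulRight a)) +
      (Yh hF φ).comp (AddMonoidHom.mulRight b)

theorem RF_apply (Φ : L ≃ₐ[ℚ] L) (a b : R) (φ : R →+ ZMod n) (c : R) :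
    RF ι M hF Φ a b φ c = galH ι M n Φ (galH ι M n Φ (Yh hF φ c)) -
      galH ι M n Φ (Yh hF φ (c * a)) + Yh hF φ (c * b) := rfl

theorem RF_mulLeft (Φ : L ≃ₐ[ℚ] L) (a b : R) (φ : R →+ ZMod n) (c c' : R) :
    RF ι M hF Φ a b (φ.comp (AddMonoidHom.mulLeft c)) c' = RF ι M hF Φ a b φ (c * c') := by
  rw [RF_apply, RF_apply, Yh_mulLeft, Yh_mulLeft, Yh_mulLeft, mul_assoc, mul_assoc]

/-- operators commuting with Galois -/
theorem RF_op (Φ : L ≃ₐ[ℚ] L) (a b : R) (φ : R →+ ZMod n) {t : R}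
    (T : PE Γ (ZMod n) →+ PE Γ (ZMod n)) (hT : ∀ x, galH ι M n Φ (T x) = T (galH ι M n Φ x))
    (ht : ∀ c, T (Yh hF φ c) = Yh hF φ (c * t)) (c : R) :
    T (RF ι M hF Φ a b φ c) = RF ι M hF Φ a b φ (c * t) := by
  have e1 : T (galH ι M n Φ (galH ι M n Φ (Yh hF φ c))) =
      galH ι M n Φ (galH ι M n Φ (Yh hF φ (c * t))) := by
    rw [← hT, ← hT, ht]
  have e2 : T (galH ι M n Φ (Yh hF φ (c * a))) = galH ι M n Φ (Yh hF φ (c * t * a)) := by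
    rw [← hT, ht, mul_right_comm c t a]
  have e3 : T (Yh hF φ (c * b)) = Yh hF φ (c * t * b) := by
    rw [ht, mul_right_comm c t b]
  rw [RF_apply, RF_apply, T.map_add, T.map_sub, e1, e2, e3]

end Rel

section Ops

variable {Γ : Subgroup SL(2, ℤ)} {A : Type*} [AddCommGroup A]

/-- Hecke operator on `PE` -/
def TP {N : ℕ} (h2 : 2 ∣ N) (hΓ : Γ ≤ Gamma0 N)
    (hA : ∀ a : A, (4 : ℕ) • a = 0 → a = 0) (H : HData Γ Γ) : PE Γ A →+ PE Γ A :=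
  AddMonoidHom.mk' (fun x => ⟨H.hom A x, hom_mem_PE h2 hΓ hA H x.2⟩) (by
    intro x y
    exact Subtype.ext (map_add (H.hom A) _ _))

/-- conjugation on `PE` -/
def CP (σ : SL(2, ℤ)) (hσ : ∀ γ ∈ Γ, σ * γ * σ⁻¹ ∈ Γ) : PE Γ A →+ PE Γ A :=
  AddMonoidHom.mk' (fun x => ⟨conjH σ hσ x, conjH_mem σ hσ x.2⟩) (by
    intro x y
    exact Subtype.ext rfl)

end Ops

theorem zmod_four_torsionFree' {n : ℕ} (hn : Nat.Coprime 4 n) (a : ZMod n)
    (h : (4 : ℕ) • a = 0) : a = 0 := by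
  have h1 : IsUnit ((4 : ℕ) : ZMod n) := by
    rw [ZMod.isUnit_iff_coprime]
    exact hn
  rw [nsmul_eq_mul] at h
  exact (h1.mul_right_eq_zero).1 h

section Main

variable {L : Type*} [Field L] [Algebra ℚ L] [CharZero L] [IsAlgClosed L] {ι : L →+* ℂ}
variable {M : ℕ} [NeZero M]
variable {A : ValuationSubring L} {κ : Type*} [Field κ] [IsAlgClosed κ] {π : A →+* κ}
  [hloc : IsLocalHom π]
variable {Γ : Subgroup SL(2, ℤ)} {q : ℕ} [MF ι Γ M] [MF ι (Gamma0 M) M] [GalSt ι Γ M]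
  [RepEx ι Γ M] [RepEx ι (Gamma0 M) M]

/-- **The Frobenius relation.** -/
theorem frob_rel {p : ℕ} [hp : Fact p.Prime] (G : Geo ι Γ M q p) (h2 : 2 ∣ M)
    (hπ : Function.Surjective π)
    (harch : ∀ a : A, π a = 0 → ∀ b : L, ∃ B : ℕ, (a : L) ^ B * b ∈ A)
    (hp2 : p ≠ 2) (hpκ : (p : κ) ≠ 0) (hK0 : IsTameField (FG ι (Gamma0 M) M))
    {ub : LaurentSeries κ} (hur : Red A π (G.u : LaurentSeries L) ub) (hub : ub ≠ 0)
    (hinj : ∀ x ∈ PE (Gamma0 M) (ZMod p), ∀ f, Rep ι (Gamma0 M) M p x f →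
      ∀ y ∈ gaussImage A π hK0 hπ, y ≠ 0 → Red A π (f : LaurentSeries L) (y ^ p) → x = 0)
    {m : ℕ} [NeZero m] (hpm : Nat.Coprime 4 (p * m)) {R : Type*} [CommRing R] {𝔪 : Ideal R}
    (hp𝔪 : (p : R) ∈ 𝔪)
    {N : ℕ} (hN : ∀ c ∈ 𝔪 ^ N, ∃ c', c = (p * m : ℕ) * c')
    {F : Additive Γ →+ R} (hF : F ∈ PE Γ R)
    {ψ : SL(2, ℤ) → R}
    (hψ : ∀ g (hg : g ∈ Gamma0 M), conjH g (G.hn g hg) F = (AddMonoidHom.mulLeft (ψ g)).comp F)
    (hψ𝔪 : ∀ g ∈ Gamma0 M, ψ g - 1 ∈ 𝔪)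
    {l₀ : ℕ} [hl₀ : Fact l₀.Prime] (hl₀M : ¬ l₀ ∣ M) {σ₀ : SL(2, ℤ)} (hσ₀ : σ₀ ∈ Gamma0 M)
    (hql₀ : IsCoprime (q : ℤ) (l₀ : ℤ)) (hσl₀ : (q : ℤ) ∣ σ₀ 1 1 - l₀) {a₀ : R}
    (hT₀ : (tdataG G.cong hl₀M σ₀ hσ₀ hql₀ hσl₀).H.hom R F = (AddMonoidHom.mulLeft a₀).comp F)
    (hu : IsUnit (a₀ - (l₀ + 1)))
    {l : ℕ} [hl : Fact l.Prime] (hlM : ¬ l ∣ M) {σ : SL(2, ℤ)} (hσ : σ ∈ Gamma0 M)
    (hql : IsCoprime (q : ℤ) (l : ℤ)) (hσl : (q : ℤ) ∣ σ 1 1 - l) {a : R}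
    (hT : (tdataG G.cong hlM σ hσ hql hσl).H.hom R F = (AddMonoidHom.mulLeft a).comp F)
    [CharP κ l] {Φ : L ≃ₐ[ℚ] L} (hΦ : A.IsFrobeniusAt Φ l) (φ : R →+ ZMod (p * m)) :
    have : NeZero (p * m) := ⟨mul_ne_zero hp.out.ne_zero (NeZero.ne m)⟩
    RF ι M hF Φ a (l * ψ σ) φ = 0 := by
  intro _
  have hp0 : NeZero p := ⟨hp.out.ne_zero⟩
  have hl0 : NeZero l := ⟨hl.out.ne_zero⟩
  have hl00 : NeZero l₀ := ⟨hl₀.out.ne_zero⟩
  have : PerfectRing κ l := PerfectRing.ofSurjective κ l (fun x => by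
    obtain ⟨y, hy⟩ := IsAlgClosed.exists_pow_nat_eq x hl.out.pos
    exact ⟨y, hy⟩)
  obtain ⟨ζ, hζ⟩ := exists_zeta ι l
  obtain ⟨ζ₀, hζ₀⟩ := exists_zeta ι l₀
  have htG : IsTameField (FG ι Γ M) := by
    rw [G.gen]
    exact isTameField_adjoin_union hK0 G.tame
  have h4 : ∀ b : ZMod (p * m), (4 : ℕ) • b = 0 → b = 0 := zmod_four_torsionFree' hpm
  set D₀ := tdataG G.cong hl₀M σ₀ hσ₀ hql₀ hσl₀ with hD₀
  let O₀ : HOp ι Γ M l₀ := hopG G.cong hl₀M hσ₀ hql₀ hσl₀ hζ₀ (G.dia σ₀) (G.hdia σ₀ hσ₀)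
    (G.hn σ₀ hσ₀)
  -- trivial reduction
  have hTR : ∀ (φ : R →+ ZMod (p * m)) (c : R),
      TR A π ι M (p * m) (RF ι M hF Φ a (l * ψ σ) φ c : Additive Γ →+ ZMod (p * m)) := by
    intro φ c
    have h1 := TR_frob (κ := κ) (π := π) htG (tdataG G.cong hlM σ hσ hql hσl) (dia := G.dia σ) (G.hdia σ hσ)
      (G.hn σ hσ) hζ (n := p * m) (x := Yh hF φ c) (Tx := Yh hF φ (c * a))
      (dx := Yh hF φ (c * ψ σ)) (Yh_hom hF _ hT φ c).symm (Yh_conj hF _ (hψ σ hσ) φ c).symm hΦ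
    have h2 : RF ι M hF Φ a (l * ψ σ) φ c = galH ι M (p * m) Φ (galH ι M (p * m) Φ (Yh hF φ c)) -
        galH ι M (p * m) Φ (Yh hF φ (c * a)) + l • Yh hF φ (c * ψ σ) := by
      rw [RF_apply, ← map_nsmul, nsmul_eq_mul, mul_left_comm]
    rw [h2]
    exact h1
  -- Hecke operator at `l₀`
  have hT₀' : ∀ (φ : R →+ ZMod (p * m)) (c : R), D₀.H.hom (ZMod (p * m))
      (RF ι M hF Φ a (l * ψ σ) φ c : Additive Γ →+ ZMod (p * m)) =
        RF ι M hF Φ a (l * ψ σ) φ (c * a₀) := by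
    intro φ c
    have h1 := RF_op (ι := ι) (M := M) hF Φ a (l * ψ σ) φ (t := a₀)
      (TP h2 G.cong.le h4 D₀.H) (fun x => O₀.galH_T (G.hgal σ₀ hσ₀ Φ)
        (TP h2 G.cong.le h4 D₀.H) (fun x => rfl) x)
      (fun c => Subtype.ext (Yh_hom hF _ hT₀ φ c)) c
    exact congrArg Subtype.val h1
  -- conjugation
  have hconj' : ∀ (φ : R →+ ZMod (p * m)) (c : R) (g : SL(2, ℤ)) (hg : g ∈ Gamma0 M),
      conjH g (G.hn g hg) (RF ι M hF Φ a (l * ψ σ) φ c : Additive Γ →+ ZMod (p * m)) =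
        RF ι M hF Φ a (l * ψ σ) φ (c * ψ g) := by
    intro φ c g hg
    have h1 := RF_op (ι := ι) (M := M) hF Φ a (l * ψ σ) φ (t := ψ g)
      (CP g (G.hn g hg)) (fun x => galH_comm (N := M) (CP g (G.hn g hg)) (G.dia g)
        (fun x f hf => rep_dia g (G.hn g hg) (G.hdia g hg) hf) (G.hgal g hg Φ) x)
      (fun c => Subtype.ext (Yh_conj hF _ (hψ g hg) φ c)) c
    exact congrArg Subtype.val h1
  -- the minimal case
  have claimA : ∀ φ : R →+ ZMod (p * m), (∀ c ∈ 𝔪, RF ι M hF Φ a (l * ψ σ) φ c = 0) →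
      RF ι M hF Φ a (l * ψ σ) φ = 0 := by
    intro φ hφ
    refine eq_zero_of_TR G h2 hπ harch hp2 hpκ hK0 hur hub hinj (fun c => ?_) (hTR φ)
      (fun c g hg => ?_) hl₀M hσ₀ hql₀ hσl₀ (hT₀' φ) hu
    · rw [← map_nsmul]
      apply hφ
      rw [nsmul_eq_mul]
      exact 𝔪.mul_mem_right c hp𝔪
    · rw [hconj']
      have h1 : c * ψ g = c + c * (ψ g - 1) := by ring
      rw [h1, map_add, hφ _ (𝔪.mul_mem_left c (hψ𝔪 g hg)), add_zero]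
      exact hg
  -- induction
  have ind : ∀ k : ℕ, ∀ φ : R →+ ZMod (p * m), (∀ c ∈ 𝔪 ^ k, RF ι M hF Φ a (l * ψ σ) φ c = 0) →
      RF ι M hF Φ a (l * ψ σ) φ = 0 := by
    intro k
    induction k with
    | zero =>
      intro φ h
      refine AddMonoidHom.ext fun c => h c ?_
      rw [pow_zero, Ideal.one_eq_top]
      trivial
    | succ k ih =>
      intro φ h
      refine ih φ fun c hc => ?_
      have h1 := claimA (φ.comp (AddMonoidHom.mulLeft c)) (fun c' hc' => by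
        rw [RF_mulLeft]
        apply h
        rw [pow_succ]
        exact Ideal.mul_mem_mul hc hc')
      have h3 := DFunLike.congr_fun h1 1
      rw [RF_mulLeft, mul_one] at h3
      exact h3
  refine ind N φ fun c hc => ?_
  obtain ⟨c', rfl⟩ := hN c hc
  rw [← nsmul_eq_mul (p * m) c', map_nsmul]
  refine Subtype.ext (AddMonoidHom.ext fun γ => ?_)
  show (p * m) • (RF ι M hF Φ a (l * ψ σ) φ c' : Additive Γ →+ ZMod (p * m)) γ = 0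
  rw [nsmul_eq_mul, ZMod.natCast_self, zero_mul]

end Main

end Fermat.Agent.LG
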