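import Fermat.Agent.TW.Alg
import Fermat.Agent.TW.TWD

/-!
# Twisting eigenvectors of Taylor-Wiles level at all primes but one, keeping the diamond
-/

set_option autoImplicit false
set_option linter.unusedSectionVars false

noncomputable section

namespace Fermat.Agent.LG

open Fermat.Agent.TW
open scoped MatrixGroups

section Rt

variable {M : ℕ} (R A : Type) [CommRing R] [AddCommGroup A] [Module R A]
  (K : Subgroup (GL (Fin 2) (ZMod M))) (x : GL (Fin 2) (ZMod M))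
  (hx : ∀ k ∈ K, x⁻¹ * k * x ∈ K)

/-- right translation on the coset space -/
def rtS : GL (Fin 2) (ZMod M) ⧸ K → GL (Fin 2) (ZMod M) ⧸ K :=
  Quotient.map' (fun g => g * x) fun a b hab => by
    rw [QuotientGroup.leftRel_apply] at hab ⊢
    have h1 : (a * x)⁻¹ * (b * x) = x⁻¹ * (a⁻¹ * b) * x := by group
    rw [h1]
    exact hx _ hab

theorem rtS_mk (g : GL (Fin 2) (ZMod M)) : rtS K x hx (g : GL (Fin 2) (ZMod M) ⧸ K) =
    ((g * x : GL (Fin 2) (ZMod M)) : GL (Fin 2) (ZMod M) ⧸ K) := rfl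

theorem rtS_smul (h : GL (Fin 2) (ZMod M)) (y : GL (Fin 2) (ZMod M) ⧸ K) :
    h • rtS K x hx y = rtS K x hx (h • y) := by
  induction y using QuotientGroup.induction_on with
  | H g =>
    change ((h * (g * x) : GL (Fin 2) (ZMod M)) : GL (Fin 2) (ZMod M) ⧸ K) =
      ((h * g * x : GL (Fin 2) (ZMod M)) : GL (Fin 2) (ZMod M) ⧸ K)
    rw [mul_assoc]

/-- right translation of functions -/
def rtC : CHom (funRep (M := M) R A (GL (Fin 2) (ZMod M) ⧸ K))
    (funRep (M := M) R A (GL (Fin 2) (ZMod M) ⧸ K)) where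
  toFun F := fun y => F (rtS K x hx y)
  map_add' _ _ := rfl
  map_smul' _ _ := rfl
  comm' g F := by
    funext y
    change F (g.2⁻¹ • rtS K x hx y) = F (rtS K x hx (g.2⁻¹ • y))
    rw [rtS_smul]

theorem rtC_mk (F : GL (Fin 2) (ZMod M) ⧸ K → A) (g : GL (Fin 2) (ZMod M)) :
    (rtC R A K x hx).toLinearMap F (g : GL (Fin 2) (ZMod M) ⧸ K) =
      F ((g * x : GL (Fin 2) (ZMod M)) : GL (Fin 2) (ZMod M) ⧸ K) := rfl

end Rt

section Swap

variable {m M : ℕ} {Γ : Type} [Group Γ] (X : Stg m M Γ) {R : Type} [CommRing R]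
  {V V₁ V₂ V₃ : Type} [AddCommGroup V] [Module R V] [AddCommGroup V₁] [Module R V₁]
  [AddCommGroup V₂] [Module R V₂] [AddCommGroup V₃] [Module R V₃]
  {ρ : Representation R (Gp M) V} {ρ₁ : Representation R (Gp M) V₁}
  {ρ₂ : Representation R (Gp M) V₂} {ρ₃ : Representation R (Gp M) V₃}

theorem map_swap (φ : CHom ρ₁ ρ₃) (ψ : CHom ρ ρ₁) (φ' : CHom ρ₂ ρ₃) (ψ' : CHom ρ ρ₂)
    (h : ∀ v, φ.toLinearMap (ψ.toLinearMap v) = φ'.toLinearMap (ψ'.toLinearMap v)) (x : X.H ρ) :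
    X.map φ (X.map ψ x) = X.map φ' (X.map ψ' x) := by
  obtain ⟨f, rfl⟩ := X.mk_surj x
  rw [X.map_mk, X.map_mk, X.map_mk, X.map_mk]
  congr 1
  ext g
  exact h _

theorem map_congr' (φ φ' : CHom ρ ρ₁) (h : ∀ v, φ.toLinearMap v = φ'.toLinearMap v)
    (x : X.H ρ) : X.map φ x = X.map φ' x := by
  obtain ⟨f, rfl⟩ := X.mk_surj x
  rw [X.map_mk, X.map_mk]
  congr 1
  ext g
  exact h _

end Swap

section Tw

variable {m M : ℕ} {Γ : Type} [Group Γ] (X : Stg m M Γ) (hT : ∃ t, X.L.j t = ModularGroup.T)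
  {E : Type} [Field E] [CharZero E] [IsAlgClosed E]
  {D : Type} [CommGroup D] [Fintype D] {q : ℕ} [Fact q.Prime]
  {K0 Kχ KT : Subgroup (GL (Fin 2) (ZMod M))}
  (TD : TwistData (GL (Fin 2) (ZMod M)) K0 Kχ KT D q)

include hT in
theorem exists_tw_ne (hodd : Odd (Nat.card D)) (hχ : Function.Surjective TD.χ)
    {v : X.H (funRep (M := M) E E (GL (Fin 2) (ZMod M) ⧸ Kχ))} (hv : v ≠ 0) (l : Pr m)
    (hl : ((l : ℕ) : ZMod M) = 1) (τ : E) (hτ : X.T _ l v = τ • v) (hτ' : τ ≠ ((l : ℕ) : E) + 1) :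
    ∃ ψ : D →* Eˣ, X.map (TD.twistC E ψ) v ≠ 0 := by
  by_contra hcon
  push Not at hcon
  have h1 : X.map (TD.allC E (E := E)) v = 0 := by
    refine X.pi_ext _ fun ψ => ?_
    rw [← hcon ψ]
    exact X.map_comp' _ _ _ (fun _ => rfl) v
  have h2 := X.eisenstein (infl_piRep infl_funRep) (TD.allC E (E := E))
    (TD.allC_injective E hodd hχ) hT l hl v h1
  rw [hτ] at h2
  have h3 : (τ - (((l : ℕ) : E) + 1)) • v = 0 := by
    rw [sub_smul, h2, ← Nat.cast_succ, Nat.cast_smul_eq_nsmul, sub_self]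
  rcases smul_eq_zero.mp h3 with h4 | h4
  · exact hτ' (sub_eq_zero.mp h4)
  · exact hv h4

theorem twistC_rtC (ψ : D →* Eˣ) (x : GL (Fin 2) (ZMod M)) (hx : ∀ k ∈ Kχ, x⁻¹ * k * x ∈ Kχ)
    (hx' : ∀ k ∈ KT, x⁻¹ * k * x ∈ KT) (hn : ∀ i, TD.n i * x = x * TD.n i)
    (hk : ∀ δ, (TD.kk δ : GL (Fin 2) (ZMod M)) * x = x * TD.kk δ)
    (F : GL (Fin 2) (ZMod M) ⧸ Kχ → E) :
    (TD.twistC E ψ).toLinearMap ((rtC E E Kχ x hx).toLinearMap F) =
      (rtC E E KT x hx').toLinearMap ((TD.twistC E ψ).toLinearMap F) := by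
  funext y
  induction y using QuotientGroup.induction_on with
  | H g =>
    rw [rtC_mk, TD.twistC_mk E, TD.twistC_mk E]
    refine Finset.sum_congr rfl fun i _ => Finset.sum_congr rfl fun δ _ => ?_
    change TD.f ψ i * (_ * F ((g * TD.n i * TD.kk δ * x : GL (Fin 2) (ZMod M)) : _ ⧸ Kχ)) =
      TD.f ψ i * (_ * F ((g * x * TD.n i * TD.kk δ : GL (Fin 2) (ZMod M)) : _ ⧸ Kχ))
    have h1 : g * TD.n i * TD.kk δ * x = g * x * TD.n i * TD.kk δ := by
      rw [mul_assoc (g * TD.n i), hk δ, ← mul_assoc, mul_assoc g (TD.n i) x, hn i, ← mul_assoc g]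
    rw [h1]

end Tw

section Dia

variable {D : Type} [CommGroup D] (W : TWD D)

theorem conj_mem {q : ℕ} (hq : q ∈ W.Q) (a d : (ZMod q)ˣ) (t : ℕ → LT) :
    ∀ k ∈ W.K t, (emb W.tws hq (diagG a d))⁻¹ * k * emb W.tws hq (diagG a d) ∈ W.K t := by
  intro k hk
  refine ⟨?_, fun q' hq' => ?_⟩
  · rw [map_mul, map_mul, map_inv, red_emb_N, inv_one, one_mul, mul_one]
    exact hk.1
  · by_cases h : q' = q
    · subst h
      rw [map_mul, map_mul, map_inv, red_emb]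
      have hk' := hk.2 q' hq'
      have hd : ∀ t : LT, ∀ x ∈ Kloc (W.χ q') t, (diagG a d)⁻¹ * x * diagG a d ∈
          Kloc (W.χ q') t := by
        intro t x hx
        cases t with
        | bor => exact mul_mem (mul_mem (inv_mem (diagG_mem a d)) hx) (diagG_mem a d)
        | chi =>
          rw [mem_Kloc_chi] at hx ⊢
          obtain ⟨hx1, hx2⟩ := hx
          refine ⟨mul_mem (mul_mem (inv_mem (diagG_mem a d)) hx1) (diagG_mem a d), ?_⟩
          have h1 : (⟨(diagG a d)⁻¹ * x * diagG a d, mul_mem (mul_mem (inv_mem (diagG_mem a d)) hx1)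
              (diagG_mem a d)⟩ : lowB (ZMod q')) = (⟨diagG a d, diagG_mem a d⟩)⁻¹ * ⟨x, hx1⟩ *
                ⟨diagG a d, diagG_mem a d⟩ := rfl
          rw [h1, map_mul, map_mul, map_mul, map_mul, hx2, mul_one, map_inv, map_inv,
            inv_mul_cancel]
        | tor =>
          have h1 : (diagG a d)⁻¹ * x * diagG a d ∈ lowB (ZMod q') :=
            mul_mem (mul_mem (inv_mem (diagG_mem a d)) hx.1) (diagG_mem a d)
          have h2 : (diagG a d)⁻¹ * x * diagG a d ∈ upB (ZMod q') :=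
            mul_mem (mul_mem (inv_mem (diagG_mem' a d)) hx.2) (diagG_mem' a d)
          exact ⟨h1, h2⟩
      exact hd _ _ hk'
    · rw [map_mul, map_mul, map_inv, red_emb_ne W.tws hq hq' h, inv_one, one_mul, mul_one]
      exact hk.2 q' hq'

theorem emb_comm {q q' : ℕ} (hq : q ∈ W.Q) (hq' : q' ∈ W.Q) (h : q' ≠ q)
    (x : GL (Fin 2) (ZMod q)) (x' : GL (Fin 2) (ZMod q')) :
    emb W.tws hq' x' * emb W.tws hq x = emb W.tws hq x * emb W.tws hq' x' := by
  refine conj_emb W.tws hq _ _ _ ?_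
  rw [red_emb_ne W.tws hq' hq (Ne.symm h), one_mul, mul_one]

variable (E : Type) [Field E]

/-- the level types: `χ` at `q`, torus elsewhere. -/
def tq (q : ℕ) : ℕ → LT := fun q' => if q' = q then .chi else .tor

theorem tq_eq (q : ℕ) : tq q = mixT {q} := by
  funext q'
  by_cases h : q' = q
  · rw [tq, mixT, if_pos h, if_pos (Finset.mem_singleton.mpr h)]
  · rw [tq, mixT, if_neg h, if_neg (fun h' => h (Finset.mem_singleton.mp h'))]

/-- the diamond at `q` -/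
def diaC {q : ℕ} (hq : q ∈ W.Q) (c : (ZMod q)ˣ) :
    CHom (funRep (M := W.M) E E (W.Yt (tq q))) (funRep (M := W.M) E E (W.Yt (tq q))) :=
  rtC E E (W.K (tq q)) (emb W.tws hq (diagG c⁻¹ 1)) (conj_mem W hq _ _ _)

theorem diaC_mk {q : ℕ} (hq : q ∈ W.Q) (c : (ZMod q)ˣ) (F : W.Yt (tq q) → E)
    (g : GL (Fin 2) (ZMod W.M)) : (diaC W E hq c).toLinearMap F (g : W.Yt (tq q)) =
      F ((g * emb W.tws hq (diagG c⁻¹ 1) : GL (Fin 2) (ZMod W.M)) : W.Yt (tq q)) := rfl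

variable {E} {m : ℕ} (hM : W.M ∣ m)

/-- eigenvectors with a diamond -/
def DV {q : ℕ} (hq : q ∈ W.Q) (τ : Pr m → E) (η : (ZMod q)ˣ → E)
    (K : Subgroup (GL (Fin 2) (ZMod W.M))) : Prop :=
  ∃ (hx : ∀ c : (ZMod q)ˣ, ∀ k ∈ K, (emb W.tws hq (diagG c⁻¹ 1))⁻¹ * k *
      emb W.tws hq (diagG c⁻¹ 1) ∈ K)
    (v : (XF hM).H (funRep (M := W.M) E E (GL (Fin 2) (ZMod W.M) ⧸ K))), v ≠ 0 ∧
    (∀ l, (XF hM).T _ l v = τ l • v) ∧
      ∀ c, (XF hM).map (rtC E E K (emb W.tws hq (diagG c⁻¹ 1)) (hx c)) v = η c • v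

variable [Fintype D] [CharZero E] [IsAlgClosed E]
  (l₀ : Pr m) (hl₀ : ((l₀ : ℕ) : ZMod W.M) = 1) {q : ℕ} (hq : q ∈ W.Q) {τ : Pr m → E}
  {η : (ZMod q)ˣ → E} (hτ₀ : τ l₀ ≠ ((l₀ : ℕ) : E) + 1)

theorem map_smulE {M : ℕ} {hM : M ∣ m} {Y Y' : Type} [MulAction (GL (Fin 2) (ZMod M)) Y]
    [MulAction (GL (Fin 2) (ZMod M)) Y']
    (φ : CHom (funRep (M := M) E E Y) (funRep (M := M) E E Y')) (a : E)
    (v : (XF hM).H (funRep (M := M) E E Y)) :
    (XF hM).map φ (a • v) = a • (XF hM).map φ v := by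
  rw [← Stg.C_smul, map_smul, Stg.C_smul]

include hl₀ hτ₀ in
theorem DV.step {t : ℕ → LT} {q' : ℕ} (hq' : q' ∈ W.Q) (hne : q' ≠ q)
    (h : DV W hM hq τ η (W.K (Function.update t q' .chi))) :
    DV W hM hq τ η (W.K (Function.update t q' .tor)) := by
  obtain ⟨hx, v, hv, hτ, hη⟩ := h
  have : Fact q'.Prime := ⟨W.tws.prime q' hq'⟩
  let TD := mkTwist (t := t) (χ := W.χ) W.tws hq' (W.surj q' hq')
  have hT : ∃ t, (XF hM).L.j t = ModularGroup.T := ⟨ModularGroup.T, rfl⟩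
  obtain ⟨ψ, hψ⟩ := exists_tw_ne (XF hM) hT TD W.odd (W.surj q' hq') hv l₀ hl₀ _ (hτ l₀) hτ₀
  refine ⟨fun c => conj_mem W hq _ _ _, (XF hM).map (TD.twistC E ψ) v, hψ, fun l => ?_,
    fun c => ?_⟩
  · rw [← Stg.X_smul, ← map_smul, Stg.X_smul, hτ, map_smulE]
  · rw [← map_smulE, ← hη c]
    refine map_swap (XF hM) _ _ _ _ (fun F => ?_) v
    refine (twistC_rtC TD ψ _ (hx c) _ (fun i => ?_) (fun δ => ?_) F).symm
    · exact emb_comm W hq hq' hne _ _
    · exact emb_comm W hq hq' hne _ _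

include hl₀ hτ₀ in
theorem DV.iter (C : Finset ℕ) (hC : C ⊆ W.Q) (hqC : q ∉ C)
    (h : DV W hM hq τ η (W.K (mixT (insert q C)))) :
    DV W hM hq τ η (W.K (mixT {q})) := by
  classical
  induction C using Finset.induction_on with
  | empty => exact h
  | insert q' C hq' ih =>
    have hqQ : q' ∈ W.Q := hC (Finset.mem_insert_self _ _)
    have hne : q' ≠ q := fun h => hqC (h ▸ Finset.mem_insert_self _ _)
    have hq'' : q' ∉ insert q C := by
      rw [Finset.mem_insert]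
      exact fun h => h.elim hne hq'
    apply ih (fun x hx => hC (Finset.mem_insert_of_mem hx))
      fun h => hqC (Finset.mem_insert_of_mem h)
    rw [Finset.insert_comm, mixT_insert] at h
    have h1 := DV.step W hM l₀ hl₀ hq hτ₀ hqQ hne h
    rwa [mixT_update (insert q C) hq''] at h1

theorem actC_eq {q : ℕ} (hq : q ∈ W.Q) (c : (ZMod q)ˣ) (F : W.YQ → E) :
    (actC W.M E E W.YQ (Pi.mulSingle ⟨q, hq⟩ (W.χ q c) : W.Q → D)).toLinearMap F =
      (rtC E E (W.K fun _ => .chi) (emb W.tws hq (diagG c⁻¹ 1))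
        (conj_mem W hq _ _ _)).toLinearMap F := by
  funext y
  induction y using QuotientGroup.induction_on with
  | H g =>
    have hmem : emb W.tws hq (diagG c⁻¹ 1) ∈ W.K fun _ => .bor := by
      rw [emb_mem]
      exact diagG_mem _ _
    have hκ : W.norm.κ ⟨emb W.tws hq (diagG c⁻¹ 1), hmem⟩ =
        (Pi.mulSingle ⟨q, hq⟩ (W.χ q c) : W.Q → D)⁻¹ := by
      funext q'
      change nebq q'.2 _ = _
      by_cases h : q' = ⟨q, hq⟩
      · subst h
        rw [Pi.inv_apply, Pi.mulSingle_eq_same, nebq, MonoidHom.comp_apply, MonoidHom.comp_apply]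
        have h1 : toLow hq (⟨_, hmem⟩ : W.K fun _ => .bor) = ⟨diagG c⁻¹ 1, diagG_mem _ _⟩ :=
          Subtype.ext (by rw [toLow_coe, red_emb])
        rw [h1, rat_diagG, div_one, map_inv]
      · rw [Pi.inv_apply, Pi.mulSingle_eq_of_ne h, nebq, MonoidHom.comp_apply,
          MonoidHom.comp_apply, inv_one]
        have h1 : toLow q'.2 (⟨_, hmem⟩ : W.K fun _ => .bor) = 1 :=
          Subtype.ext (by
            rw [toLow_coe]
            exact red_emb_ne W.tws hq q'.2 (fun h' => h (Subtype.ext h')) _)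
        rw [h1, map_one, map_one]
    rw [actC_apply, rtC_mk]
    change F (W.norm.sm _ _) = _
    rw [W.norm.sm_mk _ g ⟨_, hmem⟩ hκ]

/-- **Twisting an eigenvector of Taylor-Wiles level to torus level at all primes but `q`, keeping
the diamond at `q`.** -/
theorem exists_diaTW (v : (XF hM).H (funRep (M := W.M) E E W.YQ)) (hv : v ≠ 0) (τ : Pr m → E)
    (hτ : ∀ l, (XF hM).T _ l v = τ l • v) (ψ : (W.Q → D) → E)
    (hψ : ∀ δ, (XF hM).map (actC W.M E E W.YQ δ) v = ψ δ • v) {q : ℕ} (hq : q ∈ W.Q)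
    (l₀ : Pr m) (hl₀ : ((l₀ : ℕ) : ZMod W.M) = 1) (hτ₀ : τ l₀ ≠ ((l₀ : ℕ) : E) + 1) :
    ∃ v' : (XF hM).H (funRep (M := W.M) E E (W.Yt (tq q))), v' ≠ 0 ∧
      (∀ l, (XF hM).T _ l v' = τ l • v') ∧
      ∀ c : (ZMod q)ˣ, (XF hM).map (diaC W E hq c) v' =
        ψ (Pi.mulSingle ⟨q, hq⟩ (W.χ q c)) • v' := by
  classical
  have h0 : DV W hM hq τ (fun c => ψ (Pi.mulSingle ⟨q, hq⟩ (W.χ q c)))
      (W.K fun _ => .chi) := by
    refine ⟨fun c => conj_mem W hq _ _ _, v, hv, hτ, fun c => ?_⟩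
    rw [← hψ]
    exact (map_congr' (XF hM) _ _ (fun F => actC_eq W hq c F) v).symm
  have hK : W.K (mixT (insert q (W.Q.erase q))) = W.K fun _ => .chi := Yt_congr W fun q' hq' => by
    rw [mixT, Finset.insert_erase hq, if_pos hq']
  rw [← hK] at h0
  have h1 := DV.iter W hM l₀ hl₀ hq hτ₀ (W.Q.erase q) (Finset.erase_subset _ _)
    (Finset.notMem_erase _ _) h0
  rw [← tq_eq] at h1
  obtain ⟨_, v', hv', hτ', hη'⟩ := h1
  exact ⟨v', hv', hτ', hη'⟩

end Dia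

end Fermat.Agent.LG

end
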