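import Fermat.Agent.LG.InjG

/-!
# The geometric data, and vanishing of equivariant families with trivial reduction
-/

set_option autoImplicit false
set_option linter.unusedSectionVars false
set_option linter.style.haveILetI false

noncomputable section

open UpperHalfPlane Function ModularCurve Filter ModularForm AlgebraicCurve WithZero
  CongruenceSubgroup
open scoped Manifold MatrixGroups Topology ModularForm

namespace Fermat.Agent.LG

open Fermat.Agent.X0Places Fermat.Agent.FunField Fermat.Agent.FunField.PlaceLemmas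
open Fermat.Agent.TorsCmp Fermat.Agent.Igusa Fermat.Agent.LGRes Fermat.Agent.LGR
open Fermat.Agent.HeckeHom (HData)
open Matrix.SpecialLinearGroup (mapGL)

/-- The geometric data for `Γ ⊆ Γ₀(M)`. -/
structure Geo {L : Type*} [Field L] [Algebra ℚ L] (ι : L →+* ℂ) (Γ : Subgroup SL(2, ℤ))
    (M q p : ℕ) [GalSt ι Γ M] where
  cong : IsCong Γ M q
  hn : ∀ g ∈ Gamma0 M, ∀ γ ∈ Γ, g * γ * g⁻¹ ∈ Γ
  par : ∀ γ ∈ Gamma0 M, (γ : Matrix (Fin 2) (Fin 2) ℤ).trace ^ 2 = 4 → γ ∈ Γ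
  /-- diamond operators -/
  dia : SL(2, ℤ) → (FG ι Γ M →+* FG ι Γ M)
  hdia : ∀ g ∈ Gamma0 M, ∀ f, toM ι Γ M (dia g f) = compMer g (toM ι Γ M f)
  hgal : ∀ g ∈ Gamma0 M, ∀ (σ : L ≃ₐ[ℚ] L) (f : FG ι Γ M),
    dia g (galF ι Γ M σ f) = galF ι Γ M σ (dia g f)
  /-- the Kummer generator -/
  u : FG ι Γ M
  gen : FG ι Γ M = IntermediateField.adjoin L
      ((FG ι (Gamma0 M) M : Set (LaurentSeries L)) ∪ {(u : LaurentSeries L)})
  tame : (u : LaurentSeries L) ∈ tameQ L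
  /-- exponent -/
  s : ℕ
  pow_mem : (u : LaurentSeries L) ^ p ^ s ∈ FG ι (Gamma0 M) M
  /-- the character of `u` -/
  χ : SL(2, ℤ) → Lˣ
  hχ : ∀ γ ∈ Gamma0 M, compMer γ (toM ι Γ M u) = cM (ι (χ γ)) * toM ι Γ M u
  hχc : ∀ γ ∈ Gamma0 M, ∀ δ ∈ Gamma0 M, (q : ℤ) ∣ δ 1 1 - γ 1 1 → χ δ = χ γ
  hχm : ∀ γ, χ γ ^ p ^ s = 1

/-! ### roots of unity, `mulK` -/

theorem exists_zeta {L : Type*} [Field L] [CharZero L] [IsAlgClosed L] (ι : L →+* ℂ) (n : ℕ)
    [NeZero n] : ∃ ζ : Lˣ, Units.map (ι : L →* ℂ) ζ = zetaN n := by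
  have : NeZero (n : L) := ⟨Nat.cast_ne_zero.mpr (NeZero.ne n)⟩
  obtain ⟨z, hz⟩ := HasEnoughRootsOfUnity.exists_primitiveRoot L n
  have h1 : IsPrimitiveRoot (ι z) n := hz.map_of_injective ι.injective
  have h2 : (zetaN n : ℂ) ^ n = 1 := by
    rw [← Units.val_pow_eq_pow_val]
    have := pow_orderOf_eq_one (zetaN n)
    rw [orderOf_zetaN] at this
    rw [this, Units.val_one]
  obtain ⟨i, -, hi⟩ := h1.eq_pow_of_pow_eq_one h2
  have hz0 : z ≠ 0 := hz.ne_zero (NeZero.ne n)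
  refine ⟨Units.mk0 (z ^ i) (pow_ne_zero i hz0), Units.ext ?_⟩
  rw [← hi]
  show ι (z ^ i) = ι z ^ i
  rw [map_pow]

theorem mulK_injective (n k : ℕ) [NeZero n] [NeZero k] : Injective (mulK n k) := by
  intro a b hab
  apply mu_injective n
  rw [← mu_mulK n k, ← mu_mulK n k, hab]

theorem exists_mulK_eq {n k : ℕ} [NeZero n] {x : ZMod (n * k)} (hx : n • x = 0) :
    ∃ y, mulK n k y = x := by
  obtain ⟨a, rfl⟩ := ZMod.intCast_surjective x
  have h1 : ((n * k : ℕ) : ℤ) ∣ n * a := by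
    rw [← ZMod.intCast_zmod_eq_zero_iff_dvd]
    rw [nsmul_eq_mul] at hx
    push_cast
    exact hx
  rw [Nat.cast_mul] at h1
  have h2 : (k : ℤ) ∣ a := Int.dvd_of_mul_dvd_mul_left (by exact_mod_cast NeZero.ne n) h1
  obtain ⟨b, rfl⟩ := h2
  exact ⟨(b : ZMod n), by rw [mulK_intCast, mul_comm b]⟩

theorem mulK_comp_injective {G : Type*} [AddZeroClass G] (n k : ℕ) [NeZero n] [NeZero k]
    {x y : G →+ ZMod n} (h : (mulK n k).comp x = (mulK n k).comp y) : x = y :=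
  AddMonoidHom.ext fun g => mulK_injective n k (DFunLike.congr_fun h g)

theorem exists_comp_mulK {G : Type*} [AddGroup G] {n k : ℕ} [NeZero n] [NeZero k]
    {x : G →+ ZMod (n * k)} (hx : n • x = 0) : ∃ y : G →+ ZMod n, (mulK n k).comp y = x := by
  have h1 : ∀ g, ∃ a, mulK n k a = x g := fun g => exists_mulK_eq (by
    have := DFunLike.congr_fun hx g
    exact this)
  choose y hy using h1
  refine ⟨AddMonoidHom.mk' y fun a b => mulK_injective n k ?_, AddMonoidHom.ext fun g => hy g⟩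
  rw [hy, map_add, map_add, hy, hy]

/-! ### the main vanishing result -/

theorem hom_mem_PE {Γ : Subgroup SL(2, ℤ)} {N : ℕ} (h2 : 2 ∣ N) (hΓ : Γ ≤ Gamma0 N) {A : Type*}
    [AddCommGroup A] (hA : ∀ a : A, (4 : ℕ) • a = 0 → a = 0) (H : HData Γ Γ)
    {x : Additive Γ →+ A} (hx : x ∈ PE Γ A) : H.hom A x ∈ PE Γ A :=
  mem_PE_of_parabolic h2 hΓ hA (H.isParabolicHom_hom hx.1)

theorem conjH_comp {Γ : Subgroup SL(2, ℤ)} {A B : Type*} [AddCommGroup A] [AddCommGroup B]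
    (f : A →+ B) (σ : SL(2, ℤ)) (hσ : ∀ γ ∈ Γ, σ * γ * σ⁻¹ ∈ Γ) (x : Additive Γ →+ A) :
    conjH σ hσ (f.comp x) = f.comp (conjH σ hσ x) := rfl

theorem zz_conj_of {Γ : Subgroup SL(2, ℤ)} {M : ℕ} {A : Type*} [AddCommGroup A]
    (hn : ∀ g ∈ Gamma0 M, ∀ γ ∈ Γ, g * γ * g⁻¹ ∈ Γ) {x : Additive Γ →+ A}
    (hx : ∀ g (hg : g ∈ Gamma0 M), conjH g (hn g hg) x = x) :
    ∀ g ∈ Gamma0 M, ∀ h ∈ Γ, zz x (g * h * g⁻¹) = zz x h := by
  intro g hg h hh
  rw [zz_of_mem x (hn g hg h hh), zz_of_mem x hh]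
  have h1 := conjH_apply g (hn g hg) x ⟨h, hh⟩
  rw [hx g hg] at h1
  exact h1.symm

variable {L : Type*} [Field L] [Algebra ℚ L] [CharZero L] [IsAlgClosed L] {ι : L →+* ℂ}
variable {M : ℕ} [NeZero M]
variable {A : ValuationSubring L} {κ : Type*} [Field κ] [IsAlgClosed κ] {π : A →+* κ}
  [hloc : IsLocalHom π]
variable {Γ : Subgroup SL(2, ℤ)} {q : ℕ} [MF ι Γ M] [MF ι (Gamma0 M) M] [GalSt ι Γ M]
  [RepEx ι Γ M] [RepEx ι (Gamma0 M) M]

/-- **Vanishing.** -/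
theorem eq_zero_of_TR {p : ℕ} [hp : Fact p.Prime] (G : Geo ι Γ M q p) (h2 : 2 ∣ M)
    (hπ : Function.Surjective π)
    (harch : ∀ a : A, π a = 0 → ∀ b : L, ∃ B : ℕ, (a : L) ^ B * b ∈ A)
    (hp2 : p ≠ 2) (hpκ : (p : κ) ≠ 0) (hK0 : IsTameField (FG ι (Gamma0 M) M))
    {ub : LaurentSeries κ} (hur : Red A π (G.u : LaurentSeries L) ub) (hub : ub ≠ 0)
    (hinj : ∀ x ∈ PE (Gamma0 M) (ZMod p), ∀ f, Rep ι (Gamma0 M) M p x f →
      ∀ y ∈ gaussImage A π hK0 hπ, y ≠ 0 → Red A π (f : LaurentSeries L) (y ^ p) → x = 0)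
    {m : ℕ} [NeZero m] {R : Type*} [CommRing R] {X : R →+ PE Γ (ZMod (p * m))}
    (hX : ∀ c, p • X c = 0) (hTR : ∀ c, TR A π ι M (p * m) (X c : Additive Γ →+ ZMod (p * m)))
    (hconj : ∀ c, ∀ g (hg : g ∈ Gamma0 M),
      conjH g (G.hn g hg) (X c : Additive Γ →+ ZMod (p * m)) = X c)
    {l : ℕ} [hl : Fact l.Prime] (hlM : ¬ l ∣ M) {σ : SL(2, ℤ)} (hσ : σ ∈ Gamma0 M)
    (hql : IsCoprime (q : ℤ) (l : ℤ)) (hσl : (q : ℤ) ∣ σ 1 1 - l) {a : R}
    (hT : ∀ c, (tdataG G.cong hlM σ hσ hql hσl).H.hom (ZMod (p * m)) (X c) = X (c * a))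
    (hu : IsUnit (a - (l + 1))) : X = 0 := by
  have hp0 : NeZero p := ⟨hp.out.ne_zero⟩
  have hl0 : NeZero l := ⟨hl.out.ne_zero⟩
  have hpm : NeZero (p * m) := ⟨mul_ne_zero hp.out.ne_zero (NeZero.ne m)⟩
  obtain ⟨ζ, hζ⟩ := exists_zeta ι l
  have htG : IsTameField (FG ι Γ M) := by
    rw [G.gen]
    exact isTameField_adjoin_union hK0 G.tame
  set D := tdataG G.cong hlM σ hσ hql hσl with hD
  -- descend to `ℤ/p`
  have h1 : ∀ c, ∃ x : Additive Γ →+ ZMod p, (mulK p m).comp x = X c := fun c =>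
    exists_comp_mulK (congrArg Subtype.val (hX c))
  choose x hx using h1
  have hxPE : ∀ c, x c ∈ PE Γ (ZMod p) := fun c =>
    mem_PE_of_comp (mulK p m) (mulK_injective p m) (by rw [hx]; exact (X c).2)
  have hxTR : ∀ c, TR A π ι M p (x c) := by
    intro c
    obtain ⟨f, hf⟩ := RepEx.ex (ι := ι) (N := M) p (x c) (hxPE c)
    refine TR.of_mulK (m := m) hπ htG hf ?_
    rw [hx]
    exact hTR c
  have hxconj : ∀ c, ∀ g (hg : g ∈ Gamma0 M), conjH g (G.hn g hg) (x c) = x c := by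
    intro c g hg
    apply mulK_comp_injective p m
    rw [← conjH_comp, hx]
    exact hconj c g hg
  have hxT : ∀ c, D.H.hom (ZMod p) (x c) - (l + 1) • x c = x (c * (a - (l + 1))) := by
    intro c
    apply mulK_comp_injective p m
    have e1 : (mulK p m).comp (D.H.hom (ZMod p) (x c) - (l + 1) • x c) =
        D.H.hom (ZMod (p * m)) ((mulK p m).comp (x c)) - (l + 1) • (mulK p m).comp (x c) := by
      rw [HData.hom_comp]
      refine AddMonoidHom.ext fun g => ?_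
      simp only [AddMonoidHom.comp_apply, AddMonoidHom.sub_apply, AddMonoidHom.nsmul_apply,
        map_sub, map_nsmul]
    rw [e1, hx, hx, hT, mul_sub, map_sub]
    have e2 : X (c * ((l : R) + 1)) = (l + 1) • X c := by
      rw [← map_nsmul]
      congr 1
      rw [nsmul_eq_mul]
      push_cast
      ring
    rw [e2]
    rfl
  obtain ⟨v, hv⟩ := hu
  -- the vanishing
  have key : ∀ c, x (c * (a - (l + 1))) = 0 := by
    intro c
    have hc : x c = D.H.hom (ZMod p) (x (c * (v⁻¹ : Rˣ))) - (l + 1) • x (c * (v⁻¹ : Rˣ)) := by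
      rw [hxT, ← hv, mul_assoc, Units.inv_mul, mul_one]
    obtain ⟨E, hE⟩ := exists_ext_T G.cong hlM σ hσ hql hσl (x (c * (v⁻¹ : Rˣ)))
      (zz_conj_of G.hn (hxconj (c * (v⁻¹ : Rˣ)))) G.hn
    rw [← hD, ← hc] at hE
    have hEPE : E ∈ PE (Gamma0 M) (ZMod p) := by
      refine mem_PE_of_parabolic h2 le_rfl ?_ ?_
      · have := zmod_four_torsionFree hp.out hp2 1
        rwa [pow_one] at this
      · intro γ hγ
        have h3 := DFunLike.congr_fun hE (Additive.ofMul ⟨γ, G.par γ γ.2 hγ⟩)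
        have h4 := (hxPE c).1 ⟨γ, G.par γ γ.2 hγ⟩ hγ
        rw [← h3] at h4
        exact h4
    obtain ⟨f₀, hf₀⟩ := RepEx.ex (ι := ι) (N := M) p E hEPE
    obtain ⟨f, y, hy, hy0, hf, hr⟩ := exists_ext_red G.cong hlM hσ hql hσl hζ (G.dia σ)
      (G.hdia σ hσ) (G.hn σ hσ) hπ harch hK0 hp2 hpκ G.gen G.tame hur hub G.pow_mem G.hχ G.hχc
      G.hχm hf₀ (by rw [hE]; exact hxTR c)
    have h4 : ∀ b : ZMod p, (4 : ℕ) • b = 0 → b = 0 := by
      have := zmod_four_torsionFree hp.out hp2 1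
      rwa [pow_one] at this
    have h5 := hinj _ (sub_mem (hom_mem_PE h2 le_rfl h4 _ hEPE)
      (AddSubgroup.nsmul_mem _ hEPE _)) f hf y hy hy0 hr
    have h6 := congrArg (fun z : Additive (Gamma0 M) →+ ZMod p =>
      z.comp (MonoidHom.toAdditive (Subgroup.inclusion G.cong.le))) h5
    have h7 := hom_res G.cong hlM σ hσ hql hσl E
    rw [← hxT, ← hE, hD, h7]
    exact h6
  refine AddMonoidHom.ext fun c => Subtype.ext ?_
  have h8 : x c = 0 := by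
    have := key (c * (v⁻¹ : Rˣ))
    rwa [← hv, mul_assoc, Units.inv_mul, mul_one] at this
  rw [← hx, h8, AddMonoidHom.comp_zero]
  rfl

end Fermat.Agent.LG
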