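import Fermat.Agent.LG.Step2
import Fermat.Agent.LG.MFGal
import Fermat.Agent.LG.BC
import Fermat.Agent.LG.ChebRel

/-!
# The geometric data for `GH M ω`
-/

set_option autoImplicit false
set_option linter.unusedSectionVars false
set_option linter.style.haveILetI false

noncomputable section

open UpperHalfPlane Function ModularCurve Filter ModularForm AlgebraicCurve WithZero
  CongruenceSubgroup
open scoped Manifold MatrixGroups Topology ModularForm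

namespace Fermat.Agent.LG

open Fermat.Agent.X0Places Fermat.Agent.FunField Fermat.Agent.FunField.PlaceLemmas
open Fermat.Agent.TorsCmp Fermat.Agent.Igusa Fermat.Agent.LGRes Fermat.Agent.LGR
open Fermat.Agent.LGU
open Fermat.Agent.HeckeHom (HData)
open Matrix.SpecialLinearGroup (mapGL)

variable {L : Type*} [Field L] [Algebra ℚ L] [IsAlgClosed L] [CharZero L]
  [Algebra.IsAlgebraic ℚ L] (ι : L →+* ℂ) {M : ℕ} [NeZero M] {q : ℕ} [hq : Fact q.Prime]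
  (hqM : q ∣ M) (ω : DirichletCharacter L q) (hω : ω (-1) = 1)

instance repEx_gamma0 : RepEx ι (Gamma0 M) M :=
  repEx_of_gen ι (Gamma0 M) M (FG_gamma0_gen ι M)

include ι hqM hω in
theorem mf_GH_id : MF (RingHom.id ℂ) (GH M ω) M := by
  have h1 := mf_GH (RingHom.id ℂ) hqM (ω.ringHomComp ι) (by
    rw [MulChar.ringHomComp_apply, hω, map_one])
  rwa [GH_comp] at h1

include hqM hω in
theorem repEx_GH [MF ι (GH M ω) M] : RepEx ι (GH M ω) M := by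
  haveI := mf_GH_id ι hqM ω hω
  exact repEx_of_gen ι (GH M ω) M (FG_GH_gen ι hqM ω hω)

include hqM in
theorem conj_mem_GH (g : SL(2, ℤ)) (hg : g ∈ Gamma0 M) (γ : SL(2, ℤ)) (hγ : γ ∈ GH M ω) :
    g * γ * g⁻¹ ∈ GH M ω := by
  have hγ0 : γ ∈ Gamma0 M := GH_le_gamma0 ω hγ
  have h1 : chiM hqM ω (⟨g, hg⟩ * ⟨γ, hγ0⟩ * (⟨g, hg⟩)⁻¹) = 1 := by
    rw [map_mul, map_mul, map_inv, (chiM_eq_one_iff hqM ω ⟨γ, hγ0⟩).2 hγ, mul_one,
      mul_inv_cancel]
  rw [chiM_eq_one_iff] at h1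
  exact h1

include hqM in
theorem par_mem_GH (hω : ω (-1) = 1) (γ : SL(2, ℤ)) (hγ : γ ∈ Gamma0 M)
    (h : (γ : Matrix (Fin 2) (Fin 2) ℤ).trace ^ 2 = 4) : γ ∈ GH M ω := by
  rw [mem_GH hqM]
  refine ⟨hγ, ?_⟩
  have hdet := Fermat.Agent.JInv.det_eq γ
  have hc : (q : ℤ) ∣ γ 1 0 := dvd_of_mem_Gamma0 hqM hγ
  rw [Matrix.trace_fin_two] at h
  have h2 : (γ 0 0 + γ 1 1) = 2 ∨ (γ 0 0 + γ 1 1) = -2 := by
    have h3 : (γ 0 0 + γ 1 1 - 2) * (γ 0 0 + γ 1 1 + 2) = 0 := by linear_combination h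
    rcases mul_eq_zero.1 h3 with h4 | h4
    · left; linarith
    · right; linarith
  have hc' : ((γ 1 0 : ℤ) : ZMod q) = 0 := by
    rwa [ZMod.intCast_zmod_eq_zero_iff_dvd]
  have hdet' : ((γ 0 0 : ℤ) : ZMod q) * ((γ 1 1 : ℤ) : ZMod q) = 1 := by
    have := congrArg (Int.cast : ℤ → ZMod q) hdet
    push_cast at this
    rw [hc', mul_zero, sub_zero] at this
    exact this
  rcases h2 with h2 | h2
  · have h5 : ((γ 0 0 : ℤ) : ZMod q) + ((γ 1 1 : ℤ) : ZMod q) = 2 := by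
      have := congrArg (Int.cast : ℤ → ZMod q) h2
      push_cast at this
      exact this
    have h6 : (((γ 1 1 : ℤ) : ZMod q) - 1) ^ 2 = 0 := by
      linear_combination ((γ 1 1 : ℤ) : ZMod q) * h5 - hdet'
    have h7 : ((γ 1 1 : ℤ) : ZMod q) = 1 := sub_eq_zero.1 (pow_eq_zero_iff two_ne_zero |>.1 h6)
    rw [h7, map_one]
  · have h5 : ((γ 0 0 : ℤ) : ZMod q) + ((γ 1 1 : ℤ) : ZMod q) = -2 := by
      have := congrArg (Int.cast : ℤ → ZMod q) h2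
      push_cast at this
      exact this
    have h6 : (((γ 1 1 : ℤ) : ZMod q) + 1) ^ 2 = 0 := by
      linear_combination ((γ 1 1 : ℤ) : ZMod q) * h5 - hdet'
    have h7 : ((γ 1 1 : ℤ) : ZMod q) = -1 :=
      eq_neg_of_add_eq_zero_left (pow_eq_zero_iff two_ne_zero |>.1 h6)
    rw [h7, hω]

open Classical in
/-- the character as a function on `SL₂(ℤ)` -/
def chiF (γ : SL(2, ℤ)) : Lˣ := if h : γ ∈ Gamma0 M then chiM hqM ω ⟨γ, h⟩ else 1

theorem chiF_of_mem {γ : SL(2, ℤ)} (h : γ ∈ Gamma0 M) : chiF hqM ω γ = chiM hqM ω ⟨γ, h⟩ :=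
  dif_pos h

theorem chiM_pow {n : ℕ} (hn : ∀ c : (ZMod q)ˣ, ω c ^ n = 1) (g : Gamma0 M) :
    chiM hqM ω g ^ n = 1 := by
  apply Units.ext
  rw [Units.val_pow_eq_pow_val, coe_chiM, Units.val_one]
  have h1 : IsUnit (((g : SL(2, ℤ)) 1 1 : ℤ) : ZMod q) := by
    have hdet := Fermat.Agent.JInv.det_eq (g : SL(2, ℤ))
    have hc : (q : ℤ) ∣ (g : SL(2, ℤ)) 1 0 := dvd_of_mem_Gamma0 hqM g.2
    have hc' : (((g : SL(2, ℤ)) 1 0 : ℤ) : ZMod q) = 0 := by
      rwa [ZMod.intCast_zmod_eq_zero_iff_dvd]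
    have hdet' : (((g : SL(2, ℤ)) 0 0 : ℤ) : ZMod q) * (((g : SL(2, ℤ)) 1 1 : ℤ) : ZMod q) = 1 := by
      have := congrArg (Int.cast : ℤ → ZMod q) hdet
      push_cast at this
      rw [hc', mul_zero, sub_zero] at this
      exact this
    exact IsUnit.of_mul_eq_one_right _ hdet'
  obtain ⟨c, hc⟩ := h1
  rw [← hc]
  exact hn c

include hqM hω in
theorem uL_pow_mem' {n : ℕ} (hn : ∀ c : (ZMod q)ˣ, ω c ^ n = 1) :
    (uL ω) ^ n ∈ FG ι (Gamma0 M) M := by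
  obtain ⟨U, hU1, hU2, hU3, hU4, hU5⟩ := exists_UH ι hqM ω hω
  refine anR_le_FG ⟨U ^ n, ⟨(hU2.pow _).hol, (hU2.pow _).exp,
    fun γ hγ τ => ?_⟩, ?_⟩
  · rw [Pi.pow_apply, Pi.pow_apply, hU4 ⟨γ, hγ⟩ τ, mul_pow, ← map_pow, ← Units.val_pow_eq_pow_val,
      chiM_pow hqM ω hn, Units.val_one, map_one, one_mul]
  · rw [map_pow]
    exact hasLaurent_pow hU3 n

open Classical in
/-- The geometric data for `GH M ω`. -/
def geoH {p : ℕ} [GalSt ι (GH M ω) M] {s : ℕ} (hs : ∀ c : (ZMod q)ˣ, ω c ^ p ^ s = 1) :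
    Geo ι (GH M ω) M q p where
  cong := isCong_GH hqM ω
  hn := conj_mem_GH hqM ω
  par γ hγ h := par_mem_GH hqM ω hω γ hγ h
  dia σ := if h : σ ∈ Gamma0 M then (exists_dia ι hqM ω hω h).choose else RingHom.id _
  hdia σ h f := by
    rw [dif_pos h]
    exact (exists_dia ι hqM ω hω h).choose_spec.1 f
  hgal σ h s f := by
    rw [dif_pos h]
    exact (exists_dia ι hqM ω hω h).choose_spec.2 s f
  u := ⟨uL ω, anR_le_FG (uL_mem_anR ι hqM ω hω)⟩
  gen := by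
    have h1 := FG_GH ι hqM ω hω
    rw [SH] at h1
    rw [FG_gamma0]
    exact h1
  tame := mem_tameQ_of_tame (uL_mem_tame ω)
  s := s
  pow_mem := uL_pow_mem' ι hqM ω hω hs
  χ := chiF hqM ω
  hχ γ hγ := by
    rw [compMer_uL ι hqM ω hγ ω rfl hω rfl, map_mul, toM_algebraMap, chiF_of_mem hqM ω hγ,
      coe_chiM]
    rfl
  hχc γ hγ δ hδ h := by
    rw [chiF_of_mem hqM ω hγ, chiF_of_mem hqM ω hδ]
    apply Units.ext
    rw [coe_chiM, coe_chiM]
    congr 1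
    rw [← sub_eq_zero, ← Int.cast_sub, ZMod.intCast_zmod_eq_zero_iff_dvd]
    exact h
  hχm γ := by
    rw [chiF]
    split_ifs with h
    · exact chiM_pow hqM ω hs _
    · exact one_pow _

theorem exists_red_u (A : ValuationSubring L) {κ : Type*} [Field κ] (π : A →+* κ) :
    ∃ ub : LaurentSeries κ, ub ≠ 0 ∧ Red A π (uL ω) ub :=
  ⟨_, gaussRes_uL_ne_zero A π ω, red_of_mem (uL_mem_gaussRing A π ω)⟩

end Fermat.Agent.LG
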