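import Fermat.Agent.LG.TR

/-!
# Hecke operators as multiplicative maps on the field of modular functions
-/

set_option autoImplicit false
set_option linter.unusedSectionVars false
set_option linter.style.haveILetI false

noncomputable section

open UpperHalfPlane Function ModularCurve Filter ModularForm AlgebraicCurve WithZero
  CongruenceSubgroup
open scoped Manifold MatrixGroups Topology ModularForm

namespace Fermat.Agent.LG

open Fermat.Agent.X0Places Fermat.Agent.FunField Fermat.Agent.FunField.PlaceLemmas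
open Fermat.Agent.TorsCmp Fermat.Agent.Igusa Fermat.Agent.LGRes Fermat.Agent.LGR
open Fermat.Agent.HeckeHom (HData)
open Matrix.SpecialLinearGroup (mapGL)

/-- `T_l` on modular functions for `Γ` -/
structure HOp {L : Type*} [Field L] (ι : L →+* ℂ) (Γ : Subgroup SL(2, ℤ)) (N l : ℕ)
    [Fact l.Prime] where
  /-- the matrices -/
  D : TData Γ l
  /-- the root of unity -/
  ζ : Lˣ
  hζ : Units.map (ι : L →* ℂ) ζ = zetaN l
  /-- the diamond operator -/
  dia : FG ι Γ N →+* FG ι Γ N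
  hdia : ∀ f, toM ι Γ N (dia f) = compMer D.σ (toM ι Γ N f)
  hσ : ∀ γ ∈ Γ, D.σ * γ * D.σ⁻¹ ∈ Γ

namespace HOp

variable {L : Type*} [Field L] {ι : L →+* ℂ} {Γ : Subgroup SL(2, ℤ)} {N l : ℕ}
    [hl : Fact l.Prime] [NeZero l] [NeZero N] [Algebra ℚ L] [hMF : MF ι Γ N] (O : HOp ι Γ N l)

theorem exists_t (f : FG ι Γ N) : ∃ h : FG ι Γ N,
    toM ι Γ N h = ∏ x : O.D.H.X, compG (O.D.H.α x) (toM ι Γ N f) ∧
      IsT l O.ζ (f : LaurentSeries L) (O.dia f : FG ι Γ N) (h : LaurentSeries L) :=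
  O.D.exists_T (T_mem ι Γ N) (MF.gam ι) O.hζ O.dia O.hdia f

/-- the multiplicative operator -/
def t : FG ι Γ N →* FG ι Γ N where
  toFun f := (O.exists_t f).choose
  map_one' := by
    apply toM_injective
    rw [(O.exists_t 1).choose_spec.1, map_one]
    simp only [map_one, Finset.prod_const_one]
  map_mul' f g := by
    apply toM_injective
    rw [(O.exists_t (f * g)).choose_spec.1, map_mul (toM ι Γ N) (O.exists_t f).choose,
      (O.exists_t f).choose_spec.1, (O.exists_t g).choose_spec.1, map_mul,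
      ← Finset.prod_mul_distrib]
    exact Finset.prod_congr rfl fun c _ => map_mul _ _ _

theorem toM_t (f : FG ι Γ N) :
    toM ι Γ N (O.t f) = ∏ x : O.D.H.X, compG (O.D.H.α x) (toM ι Γ N f) :=
  (O.exists_t f).choose_spec.1

theorem isT_t (f : FG ι Γ N) :
    IsT l O.ζ (f : LaurentSeries L) (O.dia f : FG ι Γ N) (O.t f : FG ι Γ N) :=
  (O.exists_t f).choose_spec.2

theorem t_ne_zero {f : FG ι Γ N} (hf : f ≠ 0) : O.t f ≠ 0 := by
  intro h
  have h1 := O.toM_t f
  rw [h, map_zero, eq_comm, Finset.prod_eq_zero_iff] at h1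
  obtain ⟨c, -, hc⟩ := h1
  rw [map_eq_zero, map_eq_zero] at hc
  exact hf hc

theorem t_inv {f : FG ι Γ N} (hf : f ≠ 0) : O.t f⁻¹ = (O.t f)⁻¹ := by
  apply eq_inv_of_mul_eq_one_left
  rw [← map_mul, inv_mul_cancel₀ hf, map_one]

theorem t_div {f g : FG ι Γ N} (hg : g ≠ 0) : O.t (f / g) = O.t f / O.t g := by
  rw [div_eq_mul_inv, map_mul, O.t_inv hg, ← div_eq_mul_inv]

theorem rep_t {n : ℕ} {x : Additive Γ →+ ZMod n} {f : FG ι Γ N} (h : Rep ι Γ N n x f) :
    Rep ι Γ N n (O.D.H.hom (ZMod n) x) (O.t f) := h.hdata O.D.H O.D.pos (O.toM_t f)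

omit [Algebra ℚ L] [NeZero N] hMF in
include hl in
theorem ζ_pow : O.ζ ^ l = 1 := by
  have h1 : (Units.map (ι : L →* ℂ) (O.ζ ^ l)) = 1 := by
    rw [map_pow, O.hζ]
    have := pow_orderOf_eq_one (zetaN l)
    rwa [orderOf_zetaN] at this
  have h2 : Injective (Units.map (ι : L →* ℂ)) := Units.map_injective ι.injective
  exact h2 (h1.trans (map_one _).symm)

omit [Algebra ℚ L] [NeZero N] hMF in
theorem isPrimitiveRoot_ζ : IsPrimitiveRoot O.ζ l := by
  have h2 : Injective (Units.map (ι : L →* ℂ)) := Units.map_injective ι.injective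
  have h1 : IsPrimitiveRoot (Units.map (ι : L →* ℂ) O.ζ) l := by
    rw [O.hζ]
    have := IsPrimitiveRoot.orderOf (zetaN l)
    rwa [orderOf_zetaN] at this
  exact h1.of_map_of_injective h2

/-- compatibility with the Galois action -/
theorem t_galF [GalSt ι Γ N] {σ : L ≃ₐ[ℚ] L}
    (hd : ∀ f, O.dia (galF ι Γ N σ f) = galF ι Γ N σ (O.dia f)) (f : FG ι Γ N) :
    O.t (galF ι Γ N σ f) = galF ι Γ N σ (O.t f) := by
  apply Subtype.ext
  have h1 := (O.isT_t f).coeffMap (σ : L →+* L)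
  have h2 := O.isT_t (galF ι Γ N σ f)
  rw [hd] at h2
  have h3 : IsPrimitiveRoot (Units.map ((σ : L →+* L) : L →* L) O.ζ) l :=
    O.isPrimitiveRoot_ζ.map_of_injective (Units.map_injective (σ : L →+* L).injective)
  have h4 := h1.of_primitive h3 O.isPrimitiveRoot_ζ
  exact h2.unique h4

theorem galH_T [GalSt ι Γ N] [IsAlgClosed L] [RepEx ι Γ N] {σ : L ≃ₐ[ℚ] L}
    (hd : ∀ f, O.dia (galF ι Γ N σ f) = galF ι Γ N σ (O.dia f)) {n : ℕ} [NeZero n]
    (T : PE Γ (ZMod n) → PE Γ (ZMod n))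
    (hT : ∀ x : PE Γ (ZMod n), (T x : Additive Γ →+ ZMod n) = O.D.H.hom (ZMod n) x)
    (x : PE Γ (ZMod n)) : galH ι N n σ (T x) = T (galH ι N n σ x) := by
  refine galH_comm (N := N) T O.t (fun x f hf => ?_) (fun f => O.t_galF hd f) x
  rw [hT]
  exact O.rep_t hf

theorem galH_dia [GalSt ι Γ N] [IsAlgClosed L] [RepEx ι Γ N] {σ : L ≃ₐ[ℚ] L}
    (hd : ∀ f, O.dia (galF ι Γ N σ f) = galF ι Γ N σ (O.dia f)) {n : ℕ} [NeZero n]
    (T : PE Γ (ZMod n) → PE Γ (ZMod n))
    (hT : ∀ x : PE Γ (ZMod n), (T x : Additive Γ →+ ZMod n) =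
      conjH O.D.σ O.hσ (x : Additive Γ →+ ZMod n))
    (x : PE Γ (ZMod n)) : galH ι N n σ (T x) = T (galH ι N n σ x) := by
  refine galH_comm (N := N) T O.dia (fun x f hf => ?_) hd x
  rw [hT]
  exact rep_dia O.D.σ O.hσ O.hdia hf

end HOp

end Fermat.Agent.LG
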