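import Fermat.Agent.LG.Rep
import Fermat.Agent.MzCusp.DeltaQuot
import Fermat.Agent.LGR.Es

/-!
# Products of translates of modular functions
-/

set_option autoImplicit false
set_option linter.unusedSectionVars false
set_option linter.style.haveILetI false

noncomputable section

open UpperHalfPlane Function ModularCurve Filter ModularForm AlgebraicCurve WithZero
  CongruenceSubgroup
open scoped Manifold MatrixGroups Topology ModularForm

namespace Fermat.Agent.LG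

open Fermat.Agent.X0Places Fermat.Agent.FunField Fermat.Agent.FunField.PlaceLemmas
open Fermat.Agent.TorsCmp
open Matrix.SpecialLinearGroup (mapGL)
open Function.Periodic (qParam)

theorem norm_qParam_eq {h : ℝ} (τ : ℍ) : ‖qParam h τ‖ = Real.exp (-2 * Real.pi * τ.im / h) := by
  rw [Function.Periodic.norm_qParam]; rfl

/-- changing the width -/
theorem hasLaurent_narrow {h h' : ℝ} (hh : 0 < h) (hh' : 0 < h') {F : ℍ → ℂ} (hF : MDiff F)
    {y : LaurentSeries ℂ} (hy : HasLaurent h F y) (hper : ∀ τ : ℍ, F (h' +ᵥ τ) = F τ) :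
    ∃ z, HasLaurent h' F z := by
  obtain ⟨m, P, h1, h2⟩ := hy
  have hb := h2.bounded hh
  obtain ⟨m', hm'⟩ := exists_nat_ge (m * h' / h : ℝ)
  refine hasLaurent_of_growth hh' hF hper (m := m') ?_
  rw [isBoundedAtImInfty_iff] at hb ⊢
  obtain ⟨M, A, hb⟩ := hb
  refine ⟨M, A, fun z hz => ?_⟩
  refine le_trans ?_ (hb z hz)
  rw [norm_mul, norm_mul]
  refine mul_le_mul_of_nonneg_right ?_ (norm_nonneg _)
  rw [norm_pow, norm_pow, norm_qParam_eq, norm_qParam_eq, ← Real.exp_nat_mul, ← Real.exp_nat_mul,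
    Real.exp_le_exp]
  have hz0 := z.im_pos
  have hpi := Real.pi_pos
  rw [div_le_iff₀ hh] at hm'
  have h3 : (m : ℝ) * (-2 * Real.pi * z.im / h) = -((2 * Real.pi * z.im) * (m / h)) := by ring
  have h4 : (m' : ℝ) * (-2 * Real.pi * z.im / h') = -((2 * Real.pi * z.im) * (m' / h')) := by ring
  rw [h3, h4, neg_le_neg_iff]
  refine mul_le_mul_of_nonneg_left ?_ (by positivity)
  rw [div_le_div_iff₀ hh hh']
  linarith

theorem qParam_affH_N (N A D : ℕ) (B : ℤ) [NeZero N] (hA : 0 < A) (hD : 0 < D) (τ : ℍ) :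
    qParam N (affH A D B hA hD τ) =
      Complex.exp (2 * Real.pi * Complex.I * B / (D * N)) *
        qParam (N * (A * D) : ℕ) τ ^ (A * A) := by
  simp only [qParam, coe_affH]
  rw [← Complex.exp_nat_mul, ← Complex.exp_add]
  congr 1
  have hDc : (D : ℂ) ≠ 0 := by exact_mod_cast hD.ne'
  have hAc : (A : ℂ) ≠ 0 := by exact_mod_cast hA.ne'
  have hNc : (N : ℂ) ≠ 0 := by exact_mod_cast NeZero.ne N
  push_cast
  field_simp
  ring

/-- expansions of `F(γ₁ (d (γ₂ τ)))` -/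
theorem exp_scale {N : ℕ} [NeZero N] {F : ℍ → ℂ}
    (hF : ∀ γ : SL(2, ℤ), ∃ y, HasLaurent N (fun τ => F (γ • τ)) y) (d : ℕ) (hd : 0 < d)
    (γ₁ γ₂ : SL(2, ℤ)) :
    ∃ y, HasLaurent (N * d : ℕ) (fun τ => F (γ₁ • scaleH d hd (γ₂ • τ))) y := by
  obtain ⟨γ', A, D, B, hA, hD, hAD, h⟩ := Fermat.Agent.MzCusp.exists_decomp' d hd γ₂
  obtain ⟨y, hy⟩ := hF (γ₁ * γ')
  have : NeZero (A * A) := ⟨(Nat.mul_pos hA hA).ne'⟩
  have h1 := hy.subst (h' := ((N * d : ℕ) : ℝ)) (affH A D B hA hD)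
    (Units.mk0 (Complex.exp (2 * Real.pi * Complex.I * B / (D * N))) (Complex.exp_ne_zero _))
    (A * A) (by
      intro τ
      rw [Units.val_mk0, ← hAD]
      exact qParam_affH_N N A D B hA hD τ)
  have h2 : (fun τ => F ((γ₁ * γ') • τ)) ∘ (affH A D B hA hD) =
      (fun τ => F (γ₁ • scaleH d hd (γ₂ • τ))) := by
    funext τ
    rw [comp_apply, (h τ).1, mul_smul]
  rw [h2] at h1
  exact ⟨_, h1⟩

theorem hasLaurent_prod {X : Type*} (s : Finset X) {h : ℝ} {f : X → ℍ → ℂ}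
    (hf : ∀ x ∈ s, ∃ y, HasLaurent h (f x) y) : ∃ y, HasLaurent h (∏ x ∈ s, f x) y := by
  classical
  induction s using Finset.induction_on with
  | empty => exact ⟨_, HasLaurent.const 1⟩
  | insert a s ha ih =>
    obtain ⟨y, hy⟩ := hf a (Finset.mem_insert_self a s)
    obtain ⟨z, hz⟩ := ih fun x hx => hf x (Finset.mem_insert_of_mem hx)
    rw [Finset.prod_insert ha]
    exact ⟨_, hy.mul hz⟩

/-- Products of translates are modular functions. -/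
theorem IsAnG.hecke {Γ Γ' : Subgroup SL(2, ℤ)} {N N' : ℕ} [NeZero N] [NeZero N']
    (H : HeckeHom.HData Γ Γ') (hpos : ∀ x, 0 < ((H.α x).det : ℝ)) {d : ℕ} (hd : 0 < d)
    (hdec : ∀ x, ∃ γ₁ γ₂ : SL(2, ℤ), ∀ τ : ℍ, H.α x • τ = γ₁ • scaleH d hd (γ₂ • τ))
    (hgam : Gamma N' ≤ Γ') {F : Holo} (hF : IsAnG Γ N (F : ℍ → ℂ)) :
    IsAnG Γ' N' ((∏ x : H.X, glHolo (H.α x) (hpos x) F : Holo) : ℍ → ℂ) := by
  set P : Holo := ∏ x : H.X, glHolo (H.α x) (hpos x) F with hP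
  have hPτ : ∀ τ, (P : ℍ → ℂ) τ = ∏ x : H.X, (F : ℍ → ℂ) (H.α x • τ) := by
    intro τ
    have h1 : (P : ℍ → ℂ) = ∏ x : H.X, ((glHolo (H.α x) (hpos x) F : Holo) : ℍ → ℂ) := by
      rw [hP]
      exact map_prod (Holo.subtype) _ _
    rw [h1, Finset.prod_apply]
    rfl
  have hinv : ∀ γ ∈ Γ', ∀ τ, (P : ℍ → ℂ) (γ • τ) = (P : ℍ → ℂ) τ := by
    intro γ hγ τ
    rw [hPτ, hPτ]
    have h1 := H.prodFun_smul (G := (F : ℍ → ℂ)) (χ := fun _ => 1) (fun γ τ => by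
      rw [one_mul]; exact hF.inv γ γ.2 τ) ⟨γ, hγ⟩ τ
    rw [Finset.prod_const_one, one_mul] at h1
    exact h1
  refine ⟨P.2, fun δ => ?_, hinv⟩
  obtain ⟨y, hy⟩ : ∃ y, HasLaurent (N * d : ℕ) (fun τ => (P : ℍ → ℂ) (δ • τ)) y := by
    have h1 : (fun τ => (P : ℍ → ℂ) (δ • τ)) =
        ∏ x : H.X, fun τ : ℍ => (F : ℍ → ℂ) (H.α x • (δ • τ)) := by
      funext τ
      rw [hPτ, Finset.prod_apply]
    rw [h1]
    refine hasLaurent_prod _ fun x _ => ?_
    obtain ⟨γ₁, γ₂, h2⟩ := hdec x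
    obtain ⟨y, hy⟩ := exp_scale hF.exp d hd γ₁ (γ₂ * δ)
    refine ⟨y, ?_⟩
    have h3 : (fun τ : ℍ => (F : ℍ → ℂ) (H.α x • (δ • τ))) =
        (fun τ => (F : ℍ → ℂ) (γ₁ • scaleH d hd ((γ₂ * δ) • τ))) := by
      funext τ
      rw [h2, mul_smul γ₂ δ τ]
    rw [h3]
    exact hy
  have hNd : (0 : ℝ) < ((N * d : ℕ) : ℝ) := by
    exact_mod_cast Nat.mul_pos (Nat.pos_of_ne_zero (NeZero.ne N)) hd
  refine hasLaurent_narrow hNd (natCast_pos N') (mdiff_comp_smul P.2 δ) hy fun τ => ?_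
  have h1 := hinv _ (hgam (conj_T_pow_mem_gamma N' δ)) (δ • τ)
  rw [← h1, mul_smul, mul_smul, inv_smul_smul]
  have h2 := UpperHalfPlane.modular_T_zpow_smul τ (N' : ℤ)
  rw [zpow_natCast] at h2
  rw [h2]
  simp

end Fermat.Agent.LG
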