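import Fermat.Agent.LG.LowerRed
import Fermat.Agent.TW.H2
import Fermat.Agent.TWDeg.TlTr
import Fermat.Agent.Tate.Final
import Fermat.Agent.Cusps.GenusFinal

/-!
# Lowering the level of residual eigenclasses
-/

set_option autoImplicit false
set_option linter.unusedSectionVars false
set_option linter.style.haveILetI false

noncomputable section

namespace Fermat.Agent.LG.LowerQ

open IsLocalRing Module Matrix Fermat.Agent.DefRing Polynomial Fermat.Agent.TWDeg Fermat.Agent.TW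
open CongruenceSubgroup Fermat.Agent.LG.BaseW0 Fermat.Agent.LG.LowerRed

section Alg

variable {B : Type} [CommRing B] (𝔪 : Ideal B) [𝔪.IsMaximal] {N : Type} [AddCommGroup N]
  [Module B N]

theorem exists_lift_kill [Finite N] (hmk : Function.Surjective (Loc.mk 𝔪 N)) (a : Loc 𝔪 N)
    (ha : ∀ P ∈ 𝔪, P • a = 0) : ∃ a' : N, Loc.mk 𝔪 N a' = a ∧ ∀ P ∈ 𝔪, P • a' = 0 := by
  classical
  obtain ⟨x, rfl⟩ := hmk a
  have := Fintype.ofFinite N
  have h1 : ∀ y : N, ∃ s ∉ 𝔪, Loc.mk 𝔪 N y = 0 → s • y = 0 := by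
    intro y
    by_cases hy : Loc.mk 𝔪 N y = 0
    · obtain ⟨s, hs, h⟩ := Loc.mk_eq_zero.mp hy
      exact ⟨s, hs, fun _ => h⟩
    · exact ⟨1, fun h => (inferInstance : 𝔪.IsMaximal).ne_top ((Ideal.eq_top_iff_one _).mpr h),
        fun h => absurd h hy⟩
  choose s hs hs' using h1
  set S := ∏ y : N, s y with hS
  have hSm : S ∉ 𝔪 := by
    rw [hS, Ideal.IsPrime.prod_mem_iff]
    rintro ⟨y, -, hy⟩
    exact hs y hy
  have hSk : ∀ y : N, Loc.mk 𝔪 N y = 0 → S • y = 0 := by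
    intro y hy
    rw [hS, ← Finset.prod_erase_mul _ _ (Finset.mem_univ y), mul_smul, hs' y hy, smul_zero]
  obtain ⟨t, u, hu, htu⟩ : ∃ t, ∃ u ∈ 𝔪, t * S + u = 1 := by
    obtain ⟨t, u, hu, h⟩ := (inferInstance : 𝔪.IsMaximal).exists_inv hSm
    exact ⟨t, u, hu, h⟩
  refine ⟨(t * S) • x, ?_, fun P hP => ?_⟩
  · have h2 := ha u hu
    have h3 : Loc.mk 𝔪 N x = (t * S + u) • Loc.mk 𝔪 N x := by rw [htu, one_smul]
    rw [map_smul]
    conv_rhs => rw [h3]
    rw [add_smul, h2, add_zero]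
  · rw [smul_comm, mul_smul, hSk, smul_zero]
    rw [map_smul, ha P hP]

theorem eq_zero_of_kill {y : N} (hy : Loc.mk 𝔪 N y = 0) (hk : ∀ P ∈ 𝔪, P • y = 0) : y = 0 := by
  obtain ⟨s, hs, h⟩ := Loc.mk_eq_zero.mp hy
  obtain ⟨t, u, hu, htu⟩ := (inferInstance : 𝔪.IsMaximal).exists_inv hs
  have h1 : y = (t * s + u) • y := by rw [htu, one_smul]
  rw [h1, add_smul, mul_smul, h, smul_zero, hk u hu, add_zero]

end Alg

/-- units of the Hecke algebra act bijectively -/
theorem bij_of_unit {m p n : ℕ} {O : Type} [CommRing O] [IsLocalRing O]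
    {rbar : GQ →* M2 (ResidueField O)} {sd : SliceData rbar} {M : Type} [AddCommGroup M]
    [Module (TPoly m O) M] [Module O M]
    (R : HRep (m := m) p n sd M) {s : TPoly m O} (hs : IsUnit (R.φ s)) :
    Function.Bijective (fun x : M => s • x) := by
  obtain ⟨t, ht⟩ := hs.exists_left_inv
  obtain ⟨t, rfl⟩ := R.surj t
  have h1 : ∀ x : M, (t * s) • x = x := by
    intro x
    have h2 : R.φ (t * s - 1) = 0 := by rw [map_sub, map_mul, ht, map_one, sub_self]
    have h3 := (R.ker _).mp h2 x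
    rwa [sub_smul, one_smul, sub_eq_zero] at h3
  refine ⟨fun x y hxy => ?_, fun y => ⟨t • y, ?_⟩⟩
  · have h2 : s • x = s • y := hxy
    rw [← h1 x, ← h1 y, mul_smul, mul_smul, h2]
  · change s • t • y = y
    rw [← mul_smul, mul_comm, h1]

/-- transport of Hecke algebras -/
def congrH {m p n : ℕ} {O : Type} [CommRing O] [IsLocalRing O]
    {rbar : GQ →* M2 (ResidueField O)} {sd : SliceData rbar} {M M' : Type} [AddCommGroup M]
    [Module (TPoly m O) M] [Module O M] [AddCommGroup M'] [Module (TPoly m O) M'] [Module O M']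
    (R : HRep (m := m) p n sd M) (e : M' ≃ₗ[TPoly m O] M) : HRep (m := m) p n sd M' where
  C := R.C
  φ := R.φ
  surj := R.surj
  ker P := by
    rw [R.ker]
    constructor
    · intro h x
      apply e.injective
      rw [map_smul, map_zero]
      exact h _
    · intro h x
      obtain ⟨y, rfl⟩ := e.surjective x
      rw [← map_smul, h, map_zero]
  tr := R.tr
  unr := R.unr
  adj := R.adj
  free := R.free
  red := R.red
  rel := R.rel

section Main

variable {p n q m : ℕ} [Fact p.Prime] [NeZero n] (hq : q.Prime) (hqn : ¬ q ∣ n)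
  (hm : m ≠ 0) (hpm : p ∣ m) (hqp : q ≠ p) (hn : n ∣ m) (hnq : n * q ∣ m)
  {O : Type} [CommRing O] [IsDomain O]
  [IsDiscreteValuationRing O] [IsAdicComplete (maximalIdeal O) O] [Finite (ResidueField O)]
  [CharZero O] (hpO : (p : O) ∈ maximalIdeal O) {rbar : GQ →* M2 (ResidueField O)}
  (sd : SliceData rbar) (hspan : Submodule.span (ResidueField O) (Set.range rbar) = ⊤)
  (hrbar : ∃ L : IntermediateField ℚ (AlgebraicClosure ℚ), FiniteDimensional ℚ L ∧
      ∀ σ : GQ, (∀ x ∈ L, σ x = x) → rbar σ = 1)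
  {𝔪 : Ideal (TPoly m O)} [𝔪.IsMaximal]
  (h𝔪 : ResId rbar 𝔪) (hE : NonEis (n * q) 𝔪)
  {B : ValuationSubring (AlgebraicClosure ℚ)} (hB : B.LiesOverPrime q) {τ : GQ}
  (hτ : B.IsFrobeniusAt τ q) (hne : (rbar τ).trace ^ 2 ≠ ((q : ResidueField O) + 1) ^ 2)

include hq hqn in
theorem copr : q.Coprime n := (Nat.Prime.coprime_iff_not_dvd hq).mpr hqn

/-- the degeneracy data of the levels `Γ₀(n)`, `Γ₀(n q)` with trivial coefficients -/
abbrev DG (O A : Type) [CommRing O] [AddCommGroup A] [Module O A] :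
    DegData (TPoly m O) ((Stg.gamma0 n hn (one_dvd m)).H (triv 1 O A))
      ((Stg.gamma0 (n * q) hnq (one_dvd m)).H (triv 1 O A)) :=
  degData (triv 1 O A) hq (copr hq hqn) (Nat.coprime_one_right q) hn hnq (one_dvd m) rfl

theorem h30 : HeckeGal.S30Statement := Tate.s30' (fun N _ => Cusps.genusEq N)

theorem hES (n : ℕ) [NeZero n] : HeckeHom.ES n := Tate.es n

include hm hpm hqp hpO sd hspan hrbar h𝔪 hE hB hτ in
/-- `T_q` acts as a polynomial in the `T_l` -/
theorem exists_Tq [Nontrivial (Loc 𝔪 (HG m n hn O))] :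
    ∃ (R : HRep (m := m) p n sd (Loc 𝔪 (HG m n hn O))) (P : TPoly m O),
      R.φ P = (R.C.r τ).trace ∧
      ∀ x, ((DG hq hqn hn hnq O O).loc 𝔪).T x = P • x := by
  obtain ⟨R⟩ := exists_hrep_base h30 hn hpm hpO sd hspan hrbar (hES n) h𝔪
    (NonEis.mono (dvd_mul_right n q) hE) hm
  obtain ⟨P, hP⟩ := R.surj (R.C.r τ).trace
  refine ⟨R, P, hP, ?_⟩
  let W := W0 n (NeZero.ne n)
  have hQ : W.Q = ∅ := rfl
  have hlQ : q ∉ W.Q := Finset.notMem_empty q
  have hWM : W.M = n := W0_M n _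
  have hWM' : (raise W hq hlQ).M = n * q := by rw [raise_M, hWM]
  have hM : W.M ∣ m := by rw [hWM]; exact hn
  have hM' : (raise W hq hlQ).M ∣ m := by rw [hWM']; exact hnq
  obtain ⟨f₂, hf⟩ := exists_cmp' W hQ hq hlQ hM hM' hqn O O (W0_lev n (NeZero.ne n)) hn hnq
    (one_M_eq W hQ) (one_dvd m) (Nat.coprime_one_right q) (copr hq hqn)
  have hf' := hf.loc 𝔪
  have hE' : NonEis W.M 𝔪 := by
    rw [hWM]
    exact NonEis.mono (dvd_mul_right n q) hE
  let e₁ := locCongr 𝔪 (cmpA W hQ hM O O (W0_lev n (NeZero.ne n)) hn (one_M_eq W hQ) (one_dvd m))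
  intro x
  obtain ⟨y, rfl⟩ := e₁.surjective x
  have h1 := hf'.T y
  refine h1.trans ?_
  have h2 := Tl_eq_trace (fun n _ => hES n) W hq hlQ hM hM' hqn hm hpm hqp hpO 𝔪 hE' h30
    (congrH R e₁) B hB τ hτ P hP y
  rw [← map_smul]
  exact congrArg e₁ h2

/-- the module with coefficients in the residue field -/
abbrev HK (m n : ℕ) (hn : n ∣ m) (O : Type) [CommRing O] [IsLocalRing O] : Type :=
  (Stg.gamma0 n hn (one_dvd m)).H (triv 1 O (ResidueField O))

/-- reduction -/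
abbrev rd (m n : ℕ) (hn : n ∣ m) (O : Type) [CommRing O] [IsLocalRing O] :
    HG m n hn O →ₗ[TPoly m O] HK m n hn O :=
  (Stg.gamma0 n hn (one_dvd m)).map (trivC 1 (Algebra.linearMap O (ResidueField O)))

theorem rd_surjective (h2 : 2 ∣ n) (hO : IsUnit (2 : O)) :
    Function.Surjective (rd m n hn O) :=
  red_surjective hn (Algebra.linearMap O (ResidueField O)) h2 hO residue_surjective

theorem degHom_rd : DegHom (DG hq hqn hn hnq O O) (DG hq hqn hn hnq O (ResidueField O))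
    (rd m n hn O) (rd m (n * q) hnq O) :=
  degData_hom hq (copr hq hqn) (Nat.coprime_one_right q) hn hnq (one_dvd m) rfl rfl
    (trivC 1 (Algebra.linearMap O (ResidueField O)))

variable (h2 : 2 ∣ n) (hO : IsUnit (2 : O))

include hm hpm hqp hpO sd hspan hrbar h𝔪 hE hB hτ hne h2 hO in
/-- the degeneracy map is bijective on the localised modules with residual coefficients, and `T_q`
acts by a polynomial -/
theorem up_bij : Function.Bijective ((DG hq hqn hn hnq O (ResidueField O)).loc 𝔪).up ∧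
    ∃ P : TPoly m O, (∀ o : O, residue O o = (rbar τ).trace → P - MvPolynomial.C o ∈ 𝔪) ∧
      ∀ x, ((DG hq hqn hn hnq O (ResidueField O)).loc 𝔪).T x = P • x := by
  have hrd : Function.Surjective (Loc.map 𝔪 (rd m n hn O)) :=
    Loc.map_surjective 𝔪 _ (rd_surjective hn h2 hO)
  have : NeZero (n * q) := ⟨mul_ne_zero (NeZero.ne n) hq.ne_zero⟩
  have hrd' : Function.Surjective (Loc.map 𝔪 (rd m (n * q) hnq O)) :=
    Loc.map_surjective 𝔪 _ (rd_surjective hnq (h2.mul_right q) hO)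
  have hD := (degHom_rd (O := O) hq hqn hn hnq).loc 𝔪
  have hnew : ∀ x : Loc 𝔪 (HG m (n * q) hnq O), ((DG hq hqn hn hnq O O).loc 𝔪).down x = 0 →
      x = 0 := fun x hx => h2_base h30 hm hpm hpO sd hspan hrbar (fun n _ => hES n) locNew h𝔪 hq
    (copr hq hqn) (Nat.coprime_one_right q) hn hnq hE hqp hB hτ hne x hx
  rcases subsingleton_or_nontrivial (Loc 𝔪 (HG m n hn O)) with hss | hnt
  · have hss' : Subsingleton (Loc 𝔪 (HK m n hn O)) := hrd.subsingleton
    have hss1 : Subsingleton (Loc 𝔪 (HG m (n * q) hnq O)) := ⟨fun x y => by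
      have h3 : ∀ z : Loc 𝔪 (HG m (n * q) hnq O), z = 0 := fun z => hnew z
        (Prod.ext (Subsingleton.elim _ _) (Subsingleton.elim _ _))
      rw [h3 x, h3 y]⟩
    have hss2 : Subsingleton (Loc 𝔪 (HK m (n * q) hnq O)) := hrd'.subsingleton
    refine ⟨⟨fun x y _ => Subsingleton.elim _ _, fun y => ⟨0, Subsingleton.elim _ _⟩⟩, ?_⟩
    obtain ⟨o, ho⟩ := residue_surjective (R := O) (rbar τ).trace
    refine ⟨MvPolynomial.C o, fun o' ho' => ?_, fun x => Subsingleton.elim _ _⟩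
    rw [← map_sub]
    refine h𝔪.cmem _ ?_
    rw [← residue_eq_zero_iff, map_sub, ho, ho', sub_self]
  obtain ⟨R, P, hP, hT⟩ := exists_Tq hq hqn hm hpm hqp hn hnq hpO sd hspan hrbar h𝔪 hE hB hτ
  have hTk : ∀ x, ((DG hq hqn hn hnq O (ResidueField O)).loc 𝔪).T x = P • x := by
    intro x
    obtain ⟨y, rfl⟩ := hrd x
    rw [hD.T, hT, map_smul]
  set s : TPoly m O := MvPolynomial.C (((q : O) + 1) ^ 2) - P ^ 2 with hs
  have hsu : IsUnit (R.φ s) := by
    have h3 : R.φ s = -((R.C.r τ).trace ^ 2 - ((q : R.C.T) + 1) ^ 2) := by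
      have h4 : R.φ (MvPolynomial.C (((q : O) + 1) ^ 2)) =
          algebraMap O R.C.T (((q : O) + 1) ^ 2) := R.φ.commutes _
      rw [hs, map_sub, h4, map_pow R.φ P, hP, map_pow, map_add, map_natCast, map_one]
      ring
    rw [h3]
    exact (isUnit_trace_sq R hne).neg
  have hsb := bij_of_unit R hsu
  obtain ⟨t, ht⟩ := hsu.exists_left_inv
  obtain ⟨t, rfl⟩ := R.surj t
  have ht1 : ∀ x : Loc 𝔪 (HG m n hn O), (t * s) • x = x := by
    intro x
    have h2 : R.φ (t * s - 1) = 0 := by rw [map_sub, map_mul, ht, map_one, sub_self]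
    have h3 := (R.ker _).mp h2 x
    rwa [sub_smul, one_smul, sub_eq_zero] at h3
  have ht2 : ∀ x : Loc 𝔪 (HK m n hn O), (t * s) • x = x := by
    intro x
    obtain ⟨y, rfl⟩ := hrd x
    rw [← map_smul, ht1]
  have hdet : ∀ x, ((DG hq hqn hn hnq O O).loc 𝔪).det x = s • x := by
    intro x
    rw [DegData.det_apply, hT, hT, hs, sub_smul, pow_two P, mul_smul]
    congr 1
    rw [Loc.C_smul, ← Nat.cast_smul_eq_nsmul O]
    push_cast
    rfl
  have hdetk : ∀ x, ((DG hq hqn hn hnq O (ResidueField O)).loc 𝔪).det x = s • x := by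
    intro x
    obtain ⟨y, rfl⟩ := hrd x
    rw [hD.det, hdet, map_smul]
  have hup := DegData.up_bijective ((DG hq hqn hn hnq O O).loc 𝔪) (by
    have h3 : (((DG hq hqn hn hnq O O).loc 𝔪).det : _ → _) = fun x => s • x := funext hdet
    rw [h3]
    exact hsb) hnew
  refine ⟨⟨DegData.up_injective _ fun x y hxy => ?_, fun y => ?_⟩, P, fun o ho => ?_, hTk⟩
  · rw [hdetk, hdetk] at hxy
    have h3 := congrArg (fun z => t • z) hxy
    simp only [← mul_smul] at h3
    rwa [ht2, ht2] at h3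
  · obtain ⟨z, rfl⟩ := hrd' y
    obtain ⟨⟨a, b⟩, rfl⟩ := hup.2 z
    exact ⟨_, hD.up a b⟩
  · refine ResId.mem_of_eval h𝔪 R.φ (fun l B hB τ hτ o ho => ?_) _ ?_
    · rw [← (R.tr l B hB τ hτ).1]
      exact trace_sub_mem_of_red R.C.red τ o ho
    · rw [map_sub, hP]
      have h4 : R.φ (MvPolynomial.C o) = algebraMap O R.C.T o := R.φ.commutes _
      rw [h4]
      exact trace_sub_mem_of_red R.C.red τ o ho

end Main

end Fermat.Agent.LG.LowerQ
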