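import Fermat.Agent.LG.LowerQ2

/-!
# [HOM-4], the form used in the assembly
-/

set_option autoImplicit false
set_option linter.unusedSectionVars false
set_option linter.style.haveILetI false

noncomputable section

namespace Fermat.Agent.LG.LowerQ

open IsLocalRing Module Matrix Fermat.Agent.DefRing Fermat.Agent.TWDeg Fermat.Agent.TW
open CongruenceSubgroup ModularCurve.Period Fermat.Agent.HeckeHom

theorem prime_dvd_iff {m k : ℕ} (hk : ∀ l : ℕ, l.Prime → l ∣ k → l ∣ m) {l : ℕ} (hl : l.Prime) :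
    l ∣ m * k ↔ l ∣ m :=
  ⟨fun h => ((Nat.Prime.dvd_mul hl).mp h).elim id fun h => hk l hl h, fun h => h.mul_right k⟩

variable {p N q m : ℕ} [Fact p.Prime] [NeZero N] [NeZero q] (hp2 : p ≠ 2) (h2 : 2 ∣ N)
  (hq : q.Prime) (hqN : ¬ q ∣ N) (hm : m ≠ 0) (hpm : p ∣ m) (hqp : q ≠ p)
  (hpr : ∀ l : ℕ, l.Prime → l ∣ N * q → l ∣ m)
  {O : Type} [CommRing O] [IsDomain O] [IsDiscreteValuationRing O]
  [IsAdicComplete (maximalIdeal O) O] [Finite (ResidueField O)] [CharZero O]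
  (hpO : (p : O) ∈ maximalIdeal O) {rb : GQ →* M2 (ResidueField O)} (sd : SliceData rb)
  (hspan : Submodule.span (ResidueField O) (Set.range rb) = ⊤)
  (hrb : ∃ L : IntermediateField ℚ (AlgebraicClosure ℚ), FiniteDimensional ℚ L ∧
    ∀ σ : GQ, (∀ x ∈ L, σ x = x) → rb σ = 1)
  {B : ValuationSubring (AlgebraicClosure ℚ)} (hB : B.LiesOverPrime q) {τ : GQ}
  (hτ : B.IsFrobeniusAt τ q) (hne : (rb τ).trace ^ 2 ≠ ((q : ResidueField O) + 1) ^ 2)

include hp2 h2 hq hqN hm hpm hqp hpr hpO sd hspan hrb hB hτ hne in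
/-- **[HOM-4]**, only the prime divisors of `m` matter -/
theorem exists_lower'
    (Eb : Additive (Gamma0 (N * q)) →+ ResidueField O)
    (hT : ∀ (l : ℕ) (hl : l.Prime) (hlN : ¬ l ∣ N * q), ¬ l ∣ m →
      ∀ B : ValuationSubring (AlgebraicClosure ℚ), B.LiesOverPrime l → ∀ σ : GQ,
        B.IsFrobeniusAt σ l → heckeHom hl hlN (ResidueField O) Eb =
          (AddMonoidHom.mulLeft (rb σ).trace).comp Eb)
    {l₀ : ℕ} (hl₀ : l₀.Prime) (hl₀m : ¬ l₀ ∣ m) (hl₀1 : (l₀ : ZMod (N * q)) = 1)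
    {B₀ : ValuationSubring (AlgebraicClosure ℚ)} (hB₀ : B₀.LiesOverPrime l₀) {τ₀ : GQ}
    (hτ₀ : B₀.IsFrobeniusAt τ₀ l₀) (hne₀ : (rb τ₀).trace ≠ (l₀ : ResidueField O) + 1) :
    ∃ a b : Additive (Gamma0 N) →+ ResidueField O,
      a ∈ parabolicHoms (ResidueField O) (Gamma0 N) (ResidueField O) ∧
      b ∈ parabolicHoms (ResidueField O) (Gamma0 N) (ResidueField O) ∧
      Eb = (TorsCmp.alphaPull N q).hom _ a + (TorsCmp.betaPull N q).hom _ b ∧
      (∀ (l : ℕ) (hl : l.Prime) (hlN : ¬ l ∣ N), ¬ l ∣ m →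
        ∀ B : ValuationSubring (AlgebraicClosure ℚ), B.LiesOverPrime l → ∀ σ : GQ,
        B.IsFrobeniusAt σ l → heckeHom hl hlN (ResidueField O) a =
          (AddMonoidHom.mulLeft (rb σ).trace).comp a ∧
          heckeHom hl hlN (ResidueField O) b = (AddMonoidHom.mulLeft (rb σ).trace).comp b) ∧
      heckeHom hq hqN (ResidueField O) a = (AddMonoidHom.mulLeft (rb τ).trace).comp a ∧
      heckeHom hq hqN (ResidueField O) b = (AddMonoidHom.mulLeft (rb τ).trace).comp b := by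
  have hm' : m * (N * q) ≠ 0 := mul_ne_zero hm (mul_ne_zero (NeZero.ne N) (NeZero.ne q))
  obtain ⟨a, b, ha, hb, hab, h1, h2, h3⟩ := exists_lower hq hqN hm' (hpm.mul_right _) hqp
    (dvd_mul_left (N * q) m) hpO sd hspan hrb hB hτ hne hp2 h2 Eb
    (fun l hl hlN hlm => hT l hl hlN fun h => hlm ((prime_dvd_iff hpr hl).mpr h)) hl₀
    (fun h => hl₀m ((prime_dvd_iff hpr hl₀).mp h)) hl₀1 hB₀ hτ₀ hne₀
  exact ⟨a, b, ha, hb, hab, fun l hl hlN hlm => h1 l hl hlN fun h =>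
    hlm ((prime_dvd_iff hpr hl).mp h), h2, h3⟩

end Fermat.Agent.LG.LowerQ
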