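import Fermat.Agent.TW.Base2
import Fermat.Agent.IharaM.Tw
import Fermat.Agent.TorsCmp.Hecke

/-!
# Twisted cohomology with trivial coefficients as homomorphisms (general coefficients)
-/

set_option autoImplicit false
set_option linter.unusedSectionVars false
set_option linter.style.haveILetI false

noncomputable section

namespace Fermat.Agent.LG.TwHom

open Matrix CongruenceSubgroup
open scoped MatrixGroups
open Fermat.Agent.LR
open Fermat.Agent.HeckeHom
open Fermat.Agent.TW Fermat.Agent.TWDeg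

section Triv

variable {R : Type} [CommRing R] {𝒢 Γ Γ' : Type} [Group 𝒢] [Group Γ] [Group Γ']
  {ι : Γ →* 𝒢} {ι' : Γ' →* 𝒢} {A : Type} [AddCommGroup A] [Module R A]
  {rho : Representation R 𝒢 A} (hrho : ∀ g, rho g = 1)

/-- crossed homomorphisms for the trivial action -/
def z2h : Z1 ι rho →ₗ[R] (Additive Γ →+ A) where
  toFun f :=
    { toFun := fun γ => f.1 (Additive.toMul γ)
      map_zero' := Z1.one f
      map_add' := fun a b => by
        change f.1 (Additive.toMul a * Additive.toMul b) = _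
        rw [Z1.mul, hrho]
        rfl }
  map_add' _ _ := rfl
  map_smul' _ _ := rfl

/-- homomorphisms are crossed homomorphisms -/
def h2z : (Additive Γ →+ A) →ₗ[R] Z1 ι rho where
  toFun D := ⟨fun γ => D (Additive.ofMul γ), fun g h => by
    rw [hrho]
    exact map_add D (Additive.ofMul g) (Additive.ofMul h)⟩
  map_add' _ _ := rfl
  map_smul' _ _ := rfl

/-- classes are homomorphisms -/
def toHom : H1 ι rho →ₗ[R] (Additive Γ →+ A) :=
  (B1 ι rho).liftQ (z2h hrho) (by
    rintro _ ⟨v, rfl⟩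
    rw [LinearMap.mem_ker]
    refine AddMonoidHom.ext fun γ => ?_
    change rho (ι (Additive.toMul γ)) v - v = 0
    rw [hrho]
    exact sub_self v)

/-- homomorphisms give classes -/
def ofHom : (Additive Γ →+ A) →ₗ[R] H1 ι rho := H1.mk ι rho ∘ₗ h2z hrho

theorem toHom_mk (f : Z1 ι rho) (γ : Γ) :
    toHom hrho (H1.mk ι rho f) (Additive.ofMul γ) = f.1 γ := rfl

theorem toHom_ofHom (D : Additive Γ →+ A) : toHom (ι := ι) hrho (ofHom hrho D) = D := rfl

theorem ofHom_toHom (x : H1 ι rho) : ofHom hrho (toHom hrho x) = x := by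
  obtain ⟨f, rfl⟩ := H1.mk_surjective x
  rfl

theorem toHom_injective : Function.Injective (toHom (ι := ι) hrho) := fun x y h => by
  rw [← ofHom_toHom hrho x, h, ofHom_toHom]

theorem toHom_map (D : Corr ι ι') (x : H1 ι rho) (γ : Γ') :
    toHom hrho (D.map rho x) (Additive.ofMul γ) =
      ∑ i : D.X, toHom hrho x (Additive.ofMul (D.coc γ i)) := by
  obtain ⟨f, rfl⟩ := H1.mk_surjective x
  rw [Corr.map_mk, toHom_mk, Corr.zmap_apply]
  refine Finset.sum_congr rfl fun i _ => ?_
  rw [hrho]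
  rfl

/-- functoriality in the coefficients -/
theorem toHom_coef {B : Type} [AddCommGroup B] [Module R B] {sigma : Representation R 𝒢 B}
    (hsigma : ∀ g, sigma g = 1) (f : CHom rho sigma) (x : H1 ι rho) (γ : Γ) :
    toHom hsigma (H1.map ι f x) (Additive.ofMul γ) =
      f.toLinearMap (toHom hrho x (Additive.ofMul γ)) := by
  obtain ⟨g, rfl⟩ := H1.mk_surjective x
  rw [H1.map_mk, toHom_mk, toHom_mk]
  rfl

end Triv

variable {m n q M : ℕ} {R : Type} [CommRing R] {A : Type} [AddCommGroup A] [Module R A]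
  {rho : Representation R (Gp M) A} (hrho : ∀ g, rho g = 1)

/-- the Hecke operators agree -/
theorem toHom_corrT {l : ℕ} (hl : l.Prime) (hln : ¬ l ∣ n) (hlM : l.Coprime M)
    (h : (Lvl.gamma0 n).Ok l) (x : H1 ((Lvl.gamma0 n).ι M) rho) :
    toHom hrho (((Lvl.gamma0 n).corrT M hl hlM h).map rho x) =
      (dataT hl hln).hom A (toHom hrho x) := by
  refine AddMonoidHom.ext fun γ => ?_
  obtain ⟨γ, rfl⟩ := Additive.ofMul.surjective γ
  have : NeZero l := ⟨hl.ne_zero⟩
  refine (toHom_map hrho ((Lvl.gamma0 n).corrT M hl hlM h) x γ).trans ?_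
  rw [HData.hom_apply]
  refine Fintype.sum_equiv (Equiv.refl (OnePoint (ZMod l))) _ _ fun y => ?_
  congr 2
  refine (eq_of_spec_IM (dataT hl hln) (tr l) (dataT_α hl hln) (γ := γ) (x := y)
    (y := ((Lvl.gamma0 n).corrT M hl hlM h).actFun γ y) ?_).2
  have h1 := ((Lvl.gamma0 n).corrT M hl hlM h).spec γ y
  have h2 : ∀ z : OnePoint (ZMod l), (tr l z).1 = bI l z := by
    intro z
    induction z using OnePoint.rec with
    | infty => rfl
    | coe z => rfl
  apply IharaM.IM_eq
  have h3 := IharaM.spec_of_toGp (M := M) (g := (γ : SL(2, ℤ)))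
    (h := ((((Lvl.gamma0 n).corrT M hl hlM h).coc γ y : Gamma0 n) : SL(2, ℤ)))
    (isGd_bI hl hlM y) (isGd_bI hl hlM _) h1
  exact (congrArg (· * ((γ : SL(2, ℤ)) : TW.M2Z)) (h2 y)).trans (h3.trans
    (congrArg ((((((Lvl.gamma0 n).corrT M hl hlM h).coc γ y : Gamma0 n) : SL(2, ℤ)) : TW.M2Z) * ·)
      (h2 _).symm))

/-- restriction -/
theorem toHom_cI [NeZero n] [NeZero q] (x : H1 ((Lvl.gamma0 n).ι M) rho) :
    toHom hrho ((cI n q M).map rho x) = (TorsCmp.alphaPull n q).hom A (toHom hrho x) := by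
  refine AddMonoidHom.ext fun γ => ?_
  obtain ⟨γ, rfl⟩ := Additive.ofMul.surjective γ
  refine (toHom_map hrho (cI n q M) x γ).trans ?_
  rw [HData.hom_apply]
  refine Fintype.sum_equiv (Equiv.refl Unit) _ _ fun y => ?_
  congr 2
  have h2 := IharaM.spec_of_toGp (M := M) (g := (γ : SL(2, ℤ)))
      (h := (((cI n q M).coc γ y : Gamma0 n) : SL(2, ℤ))) (isGd_one M Matrix.det_one)
      (isGd_one M Matrix.det_one) ((cI n q M).spec γ y)
  rw [one_mul, mul_one] at h2
  have h3 : (((cI n q M).coc γ y : Gamma0 n) : SL(2, ℤ)) = (γ : SL(2, ℤ)) := Subtype.ext h2.symm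
  refine ((TorsCmp.alphaPull n q).eq_of_spec (γ := γ) (x := y) (y := y) ?_).2
  change 1 * _ = _ * 1
  rw [one_mul, mul_one, h3]

/-- the second degeneracy map -/
theorem toHom_cD [NeZero n] [NeZero q] (hq : q.Prime) (hqM : q.Coprime M)
    (x : H1 ((Lvl.gamma0 n).ι M) rho) :
    toHom hrho ((cD hq n hqM).map rho x) = (TorsCmp.betaPull n q).hom A (toHom hrho x) := by
  refine AddMonoidHom.ext fun γ => ?_
  obtain ⟨γ, rfl⟩ := Additive.ofMul.surjective γ
  refine (toHom_map hrho (cD hq n hqM) x γ).trans ?_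
  rw [HData.hom_apply]
  refine Fintype.sum_equiv (Equiv.refl Unit) _ _ fun y => ?_
  congr 2
  let dA : IM := ⟨dI q, by
    change (dI q).det ≠ 0
    rw [det_dI]
    exact_mod_cast hq.ne_zero⟩
  refine (eq_of_spec_IM (TorsCmp.betaPull n q) (fun _ => dA) (fun _ => ?_) (γ := γ) (x := y)
    (y := y) ?_).2
  · change ModularForm.heckeDiagMatrix q = toGL dA
    ext i j
    rw [toGL_apply, ModularForm.val_heckeDiagMatrix hq.ne_zero]
    fin_cases i <;> fin_cases j <;> simp [dA, dI]
  · apply IharaM.IM_eq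
    exact IharaM.spec_of_toGp (M := M) (g := (γ : SL(2, ℤ)))
      (h := (((cD hq n hqM).coc γ y : Gamma0 n) : SL(2, ℤ))) (isGd_prime hq hqM (det_dI q))
      (isGd_prime hq hqM (det_dI q)) ((cD hq n hqM).spec γ y)

end Fermat.Agent.LG.TwHom
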