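import Fermat.Agent.LG.BaseW0
import Fermat.Agent.TW.Base2
import Fermat.Agent.LG.TwHom
import Fermat.Agent.TW.Par

/-!
# Reduction of coefficients at the base level
-/

set_option autoImplicit false
set_option linter.unusedSectionVars false
set_option linter.style.haveILetI false

noncomputable section

namespace Fermat.Agent.LG.LowerRed

open IsLocalRing Module Matrix Fermat.Agent.DefRing Polynomial Fermat.Agent.TWDeg Fermat.Agent.TW
open CongruenceSubgroup Fermat.Agent.LG.BaseW0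

section Nat

variable {R A A' : Type} [CommRing R] [AddCommGroup A] [Module R A] [AddCommGroup A'] [Module R A']

/-- functoriality for trivial coefficients -/
def trivC (M : ℕ) (a : A →ₗ[R] A') : CHom (triv M R A) (triv M R A') :=
  { a with comm' := fun _ _ => rfl }

variable {D : Type} [CommGroup D] (W : TWD D) (hQ : W.Q = ∅) {m : ℕ} (hM : W.M ∣ m)

/-- naturality of the comparison in the coefficients -/
theorem cmpA_coef (a : A →ₗ[R] A') {n : ℕ} (hn : n = W.N * W.dd) (hnm : n ∣ m) {M₁ : ℕ}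
    (hM₁ : (one W).M = M₁) (h1 : M₁ ∣ m) (x : (XF hM).H (funRep (M := W.M) R A W.YQ)) :
    cmpA W hQ hM R A' hn hnm hM₁ h1 ((XF hM).map (coef W.YQ a) x) =
      (Stg.gamma0 n hnm h1).map (trivC M₁ a) (cmpA W hQ hM R A hn hnm hM₁ h1 x) := by
  subst hn hM₁
  obtain ⟨c, rfl⟩ := (XF hM).mk_surj x
  rfl

end Nat

section Red

variable {n m : ℕ} [NeZero n] (hn : n ∣ m) {O : Type} [CommRing O] {A A' : Type} [AddCommGroup A]
  [Module O A] [AddCommGroup A'] [Module O A'] (a : A →ₗ[O] A')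

theorem goodFor_W0 (h2 : 2 ∣ n) (hO : IsUnit (2 : O)) :
    GoodFor (W0 n (NeZero.ne n)).M O (W0 n (NeZero.ne n)).YQ :=
  ⟨hO, fun y => (W0 n (NeZero.ne n)).neg_smul _ y, Or.inr fun y =>
    (W0 n (NeZero.ne n)).U_free Nat.prime_two h2 (by norm_num) _ y⟩

/-- **reduction of coefficients is surjective** -/
theorem red_surjective (h2 : 2 ∣ n) (hO : IsUnit (2 : O)) (ha : Function.Surjective a) :
    Function.Surjective ((Stg.gamma0 n hn (one_dvd m)).map (trivC 1 a)) := by
  intro y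
  let W := W0 n (NeZero.ne n)
  have hWM : W.M = n := W0_M n _
  have hM : W.M ∣ m := by rw [hWM]; exact hn
  have hG := goodFor_W0 (n := n) (O := O) h2 hO
  obtain ⟨z, rfl⟩ := (cmpA W rfl hM O A' (W0_lev n (NeZero.ne n)) hn (one_M_eq W rfl) (one_dvd m)).surjective y
  have h3 : Function.Surjective ((XF hM).map (coef (M := W.M) W.YQ a)) :=
    H1.map_surjective _ (hG.good A).neg_one (hG.good A') (fun F => by
      choose G hG using fun y => ha (F y)
      exact ⟨G, funext hG⟩)
  obtain ⟨w, rfl⟩ := h3 z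
  exact ⟨_, (cmpA_coef W rfl hM a (W0_lev n (NeZero.ne n)) hn (one_M_eq W rfl) (one_dvd m) w).symm⟩

end Red

section Par

/-- `T_l - (l + 1)` maps to the parabolic part, for `l ≡ 1 mod n`. -/
theorem hecke_sub_par {n : ℕ} (hn0 : n ≠ 0) {R A : Type} [CommRing R] [AddCommGroup A]
    [Module R A]
    (hA : ∀ (n : ℕ) (a : A), n ≠ 0 → n • a = 0 → a = 0) {l : ℕ} (hl : l.Prime) (hln : ¬ l ∣ n)
    (h1 : (l : ZMod n) = 1) (φ : Additive (Gamma0 n) →+ A) :
    HeckeHom.heckeHom hl hln A φ - (l + 1) • φ ∈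
      ModularCurve.Period.parabolicHoms R (Gamma0 n) A := by
  let W := W0 n hn0
  have hWM : W.M = n := W0_M n _
  have key : ∀ (n' : ℕ) (h : n' = W.N * W.dd) (hln' : ¬ l ∣ n') (φ : Additive (Gamma0 n') →+ A),
      HeckeHom.heckeHom hl hln' A φ - (l + 1) • φ ∈
        ModularCurve.Period.parabolicHoms R (Gamma0 n') A := by
    intro n' h hln' φ
    subst h
    have hM : W.M ∣ n := by rw [hWM]
    obtain ⟨x, rfl⟩ := (W.shap_bor.equiv hM R A).surjective φ
    have h2 := W.shap_bor.parabolic hM R A hA ⟨l, hl, hln⟩ (by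
      obtain ⟨k, hk⟩ : ∃ k, W.M = k := ⟨_, rfl⟩
      rw [hk] at hWM ⊢
      subst hWM
      exact h1) x
    rw [map_sub, map_nsmul, W.shap_bor.equiv_T hM R A ⟨l, hl, hln⟩ hln'] at h2
    exact h2
  exact key n (W0_lev n hn0) hln φ

end Par

end Fermat.Agent.LG.LowerRed
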