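import Fermat.Agent.LG.MFZero
import Fermat.Agent.LGU.An
import Fermat.Agent.TorsCmp.Inject

/-!
# The kernel of a character of `Γ₀(M)` and its modular functions over `ℂ`
-/

set_option autoImplicit false
set_option linter.unusedSectionVars false
set_option linter.style.haveILetI false

noncomputable section

open UpperHalfPlane Function ModularCurve Filter ModularForm AlgebraicCurve WithZero
  CongruenceSubgroup IntermediateField
open scoped Manifold MatrixGroups Topology ModularForm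

namespace Fermat.Agent.LG

open Fermat.Agent.X0Places Fermat.Agent.TorsCmp Fermat.Agent.FunField Fermat.Agent.LGU
open Function.Periodic (qParam)

section Group

variable {L : Type*} [Field L] {q : ℕ}

/-- the elements of `Γ₀(M)` with `ω(g₁₁) = 1` -/
def GH (M : ℕ) (ω : DirichletCharacter L q) : Subgroup SL(2, ℤ) :=
  Gamma0 M ⊓ (MonoidHom.ker ((ω.toMonoidHom : ZMod q →* L).comp (Gamma0Map q))).map
    (Gamma0 q).subtype

variable {M : ℕ} (hqM : q ∣ M) (ω : DirichletCharacter L q)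

include hqM in
theorem gamma0_le_gamma0 : Gamma0 M ≤ Gamma0 q := by
  intro g hg
  rw [Gamma0_mem, ZMod.intCast_zmod_eq_zero_iff_dvd] at hg ⊢
  exact (Int.natCast_dvd_natCast.2 hqM).trans hg

include hqM in
theorem mem_GH {g : SL(2, ℤ)} :
    g ∈ GH M ω ↔ g ∈ Gamma0 M ∧ ω ((g 1 1 : ℤ) : ZMod q) = 1 := by
  rw [GH, Subgroup.mem_inf, Subgroup.mem_map]
  constructor
  · rintro ⟨h1, ⟨g', hg'⟩, h2, rfl⟩
    exact ⟨h1, h2⟩
  · rintro ⟨h1, h2⟩
    exact ⟨h1, ⟨g, gamma0_le_gamma0 hqM h1⟩, h2, rfl⟩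

theorem GH_le_gamma0 : GH M ω ≤ Gamma0 M := inf_le_left

/-- the character `g ↦ ω(g₁₁)` of `Γ₀(M)` -/
def chiM : Gamma0 M →* Lˣ :=
  MonoidHom.toHomUnits ((ω.toMonoidHom : ZMod q →* L).comp
    ((Gamma0Map q).comp (Subgroup.inclusion (gamma0_le_gamma0 hqM))))

theorem coe_chiM (g : Gamma0 M) : ((chiM hqM ω g : Lˣ) : L) =
    ω (((g : SL(2, ℤ)) 1 1 : ℤ) : ZMod q) := rfl

theorem chiM_eq_one_iff (g : Gamma0 M) : chiM hqM ω g = 1 ↔ (g : SL(2, ℤ)) ∈ GH M ω := by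
  rw [mem_GH hqM, ← Units.val_inj, coe_chiM, Units.val_one]
  exact ⟨fun h => ⟨g.2, h⟩, fun h => h.2⟩

theorem GH_eq_map : (GH M ω).subgroupOf (Gamma0 M) = (chiM hqM ω).ker := by
  ext g
  rw [Subgroup.mem_subgroupOf, MonoidHom.mem_ker, chiM_eq_one_iff]

theorem finite_range_chiM [NeZero q] : Finite (chiM hqM ω).range := by
  have h1 : (Set.range (ω : ZMod q → L)).Finite := Set.finite_range _
  have h2 : Finite (Set.range (ω : ZMod q → L)) := h1
  refine Finite.of_injective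
    (fun r : (chiM hqM ω).range => (⟨((r : Lˣ) : L), ?_⟩ : Set.range (ω : ZMod q → L))) ?_
  · obtain ⟨g, hg⟩ := r.2
    rw [← hg]
    exact ⟨_, (coe_chiM hqM ω g).symm⟩
  · intro r s h
    exact Subtype.ext (Units.ext (congrArg Subtype.val h))

theorem card_XG_GH : Nat.card (XG (GH M ω)) =
    Nat.card (chiM hqM ω).range * Nat.card (XG (Gamma0 M)) := by
  have h1 : (GH M ω).relIndex (Gamma0 M) * (Gamma0 M).index = (GH M ω).index :=
    Subgroup.relIndex_mul_index (GH_le_gamma0 ω)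
  have h2 : (GH M ω).relIndex (Gamma0 M) = Nat.card (chiM hqM ω).range := by
    rw [Subgroup.relIndex, GH_eq_map hqM, Subgroup.index_ker]
  rw [← h2]
  exact h1.symm

theorem GH_comp {L' : Type*} [Field L'] (σ : L →+* L') : GH M (ω.ringHomComp σ) = GH M ω := by
  ext g
  rw [GH, GH, Subgroup.mem_inf, Subgroup.mem_inf, Subgroup.mem_map, Subgroup.mem_map]
  refine and_congr_right fun _ => exists_congr fun g' => and_congr_left fun _ => ?_
  rw [MonoidHom.mem_ker, MonoidHom.mem_ker]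
  show (ω.ringHomComp σ) (Gamma0Map q g') = 1 ↔ ω (Gamma0Map q g') = 1
  rw [MulChar.ringHomComp_apply]
  exact ⟨fun h => σ.injective (h.trans (map_one σ).symm), fun h => by rw [h, map_one]⟩

include hqM in
theorem gamma_le_GH : Gamma M ≤ GH M ω := by
  intro g hg
  rw [mem_GH hqM]
  rw [Gamma_mem] at hg
  refine ⟨by rw [Gamma0_mem]; exact hg.2.2.1, ?_⟩
  have h1 : ((g 1 1 : ℤ) : ZMod q) = 1 := by
    have h2 : (((g 1 1 : ℤ) - 1 : ℤ) : ZMod M) = 0 := by push_cast; rw [hg.2.2.2, sub_self]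
    rw [ZMod.intCast_zmod_eq_zero_iff_dvd] at h2
    have h3 : ((q : ℕ) : ℤ) ∣ (g 1 1 : ℤ) - 1 := (Int.natCast_dvd_natCast.2 hqM).trans h2
    rw [← ZMod.intCast_zmod_eq_zero_iff_dvd] at h3
    push_cast at h3
    exact sub_eq_zero.1 h3
  rw [h1, map_one]

include hqM in
theorem neg_one_mem_GH (hω : ω (-1) = 1) : (-1 : SL(2, ℤ)) ∈ GH M ω := by
  rw [mem_GH hqM]
  refine ⟨by rw [Gamma0_mem]; simp, ?_⟩
  have : (((-1 : SL(2, ℤ)) 1 1 : ℤ) : ZMod q) = -1 := by simp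
  rw [this, hω]

end Group

section Complex

/-- translates -/
theorem isAnG_comp {M : ℕ} {f : ℍ → ℂ} (hf : IsAnG (Gamma M) M f) (g : SL(2, ℤ)) :
    IsAnG (Gamma M) M (fun τ => f (g • τ)) := by
  refine ⟨mdiff_comp_smul hf.hol g, fun γ => ?_, fun γ hγ τ => ?_⟩
  · obtain ⟨y, hy⟩ := hf.exp (g * γ)
    refine ⟨y, ?_⟩
    simpa only [mul_smul] using hy
  · have h1 : g * γ * g⁻¹ ∈ Gamma M := (Gamma_normal M).conj_mem _ hγ g
    have h2 := hf.inv _ h1 (g • τ)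
    rw [← h2, ← mul_smul, ← mul_smul]
    congr 2
    group

variable {M : ℕ} [NeZero M] {q : ℕ} [NeZero q] (hqM : q ∣ M) (ω : DirichletCharacter ℂ q)

include hqM in
/-- the function `U` is in the ring -/
theorem isAnG_of_width {U : ℍ → ℂ} (h1 : MDiff U)
    (h2 : ∀ g : SL(2, ℤ), ∃ y, HasLaurent q (fun z => U (g • z)) y) {Γ : Subgroup SL(2, ℤ)}
    (h3 : ∀ γ ∈ Γ, ∀ τ, U (γ • τ) = U τ) : IsAnG Γ M U := by
  refine ⟨h1, fun γ => ?_, h3⟩
  obtain ⟨y, hy⟩ := h2 γ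
  have hM0 : M ≠ 0 := NeZero.ne M
  obtain ⟨d, rfl⟩ := hqM
  have hd : NeZero d := ⟨right_ne_zero_of_mul hM0⟩
  refine ⟨_, hy.subst (h' := ((q * d : ℕ) : ℝ)) id 1 d fun τ => ?_⟩
  rw [Units.val_one, one_mul, id]
  have hq0 : (q : ℝ) ≠ 0 := by exact_mod_cast NeZero.ne q
  have := Fermat.Agent.X0Places.qParam_mul_width (h := (q : ℝ)) hq0 d (τ : ℂ)
  rw [← this]
  congr 2
  push_cast
  ring

variable {f U : ℍ → ℂ} (hf : IsAnG (GH M ω) M f) (hU : IsAnG (Gamma M) M U)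
  (hUχ : ∀ g : Gamma0 M, ∀ τ, U ((g : SL(2, ℤ)) • τ) = ((chiM hqM ω g : ℂˣ) : ℂ) * U τ)

/-- representatives -/
def del (r : (chiM hqM ω).range) : Gamma0 M := r.2.choose

omit [NeZero M] [NeZero q] in
theorem chiM_del (r : (chiM hqM ω).range) : chiM hqM ω (del hqM ω r) = r := r.2.choose_spec

variable (f) in
/-- the translate of `f` -/
def tr (r : (chiM hqM ω).range) (τ : ℍ) : ℂ := f ((del hqM ω r : SL(2, ℤ)) • τ)

omit [NeZero M] [NeZero q] in
include hf in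
theorem apply_smul (g : Gamma0 M) (τ : ℍ) :
    f ((g : SL(2, ℤ)) • τ) = tr hqM ω f ⟨chiM hqM ω g, ⟨g, rfl⟩⟩ τ := by
  set r : (chiM hqM ω).range := ⟨chiM hqM ω g, ⟨g, rfl⟩⟩ with hr
  have h1 : chiM hqM ω (g * (del hqM ω r)⁻¹) = 1 := by
    rw [map_mul, map_inv, chiM_del, hr, mul_inv_cancel]
  rw [chiM_eq_one_iff] at h1
  have h2 := hf.inv _ h1 ((del hqM ω r : SL(2, ℤ)) • τ)
  rw [tr, ← h2, ← mul_smul]
  congr 2
  rw [Subgroup.coe_mul, Subgroup.coe_inv, inv_mul_cancel_right]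

section Fourier

variable [Fintype (chiM hqM ω).range]

variable (f) in
/-- the component of `f` of type `χ^i` -/
def comp (i : ℕ) (τ : ℍ) : ℂ :=
  ∑ r : (chiM hqM ω).range, (((r : ℂˣ)⁻¹ : ℂˣ) : ℂ) ^ i * tr hqM ω f r τ

omit [NeZero M] [NeZero q] in
include hf in
theorem comp_smul (i : ℕ) (g : Gamma0 M) (τ : ℍ) :
    comp hqM ω f i ((g : SL(2, ℤ)) • τ) =
      ((chiM hqM ω g : ℂˣ) : ℂ) ^ i * comp hqM ω f i τ := by
  rw [comp, comp, Finset.mul_sum]
  set c : (chiM hqM ω).range := ⟨chiM hqM ω g, ⟨g, rfl⟩⟩ with hc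
  have h1 : ∀ r : (chiM hqM ω).range,
      tr hqM ω f r ((g : SL(2, ℤ)) • τ) = tr hqM ω f (r * c) τ := by
    intro r
    rw [tr, ← mul_smul, ← Subgroup.coe_mul, apply_smul hqM ω hf]
    congr 1
    apply Subtype.ext
    show chiM hqM ω (del hqM ω r * g) = (r : ℂˣ) * chiM hqM ω g
    rw [map_mul, chiM_del]
  have h2 := Equiv.sum_comp (Equiv.mulRight c) (fun r : (chiM hqM ω).range =>
    ((chiM hqM ω g : ℂˣ) : ℂ) ^ i * ((((r : ℂˣ)⁻¹ : ℂˣ) : ℂ) ^ i * tr hqM ω f r τ))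
  rw [← h2]
  refine Finset.sum_congr rfl fun r _ => ?_
  rw [h1]
  show _ = ((chiM hqM ω g : ℂˣ) : ℂ) ^ i *
    (((((r * c : (chiM hqM ω).range) : ℂˣ)⁻¹ : ℂˣ) : ℂ) ^ i * tr hqM ω f (r * c) τ)
  rw [← mul_assoc]
  congr 1
  rw [← mul_pow, ← Units.val_mul]
  congr 2
  show (r : ℂˣ)⁻¹ = chiM hqM ω g * ((r : ℂˣ) * chiM hqM ω g)⁻¹
  rw [mul_inv, mul_comm (r : ℂˣ)⁻¹, mul_inv_cancel_left]

omit [NeZero M] [NeZero q] in
include hf in
theorem sum_comp (τ : ℍ) : ∑ i ∈ Finset.range (Fintype.card (chiM hqM ω).range),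
    comp hqM ω f i τ = (Fintype.card (chiM hqM ω).range : ℂ) * f τ := by
  classical
  set m := Fintype.card (chiM hqM ω).range with hm
  simp only [comp]
  rw [Finset.sum_comm]
  rw [Finset.sum_eq_single (1 : (chiM hqM ω).range)]
  · have h1 : tr hqM ω f 1 τ = f τ := by
      have := apply_smul hqM ω hf 1 τ
      rw [Subgroup.coe_one, one_smul] at this
      rw [this]
      congr 1
      apply Subtype.ext
      show 1 = chiM hqM ω 1
      rw [map_one]
    have h2 : (((((1 : (chiM hqM ω).range) : ℂˣ))⁻¹ : ℂˣ) : ℂ) = 1 := by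
      rw [Subgroup.coe_one, inv_one, Units.val_one]
    rw [h1, h2]
    simp
  · intro r _ hr
    rw [← Finset.sum_mul]
    have h3 : ((((r : ℂˣ)⁻¹ : ℂˣ) : ℂ)) ≠ 1 := by
      intro h
      apply hr
      apply Subtype.ext
      have : ((r : ℂˣ)⁻¹ : ℂˣ) = 1 := Units.ext h
      rwa [inv_eq_one] at this
    have h4 : ((((r : ℂˣ)⁻¹ : ℂˣ) : ℂ)) ^ m = 1 := by
      have h5 : r ^ m = 1 := pow_card_eq_one
      have h6 : (r : ℂˣ) ^ m = 1 := congrArg Subtype.val h5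
      rw [← Units.val_pow_eq_pow_val, inv_pow, h6, inv_one, Units.val_one]
    have h5 : ∑ i ∈ Finset.range m, ((((r : ℂˣ)⁻¹ : ℂˣ) : ℂ)) ^ i = 0 := by
      have := geom_sum_mul ((((r : ℂˣ)⁻¹ : ℂˣ) : ℂ)) m
      rw [h4, sub_self] at this
      exact (mul_eq_zero.1 this).resolve_right (sub_ne_zero.2 h3)
    rw [h5, zero_mul]
  · intro h
    exact absurd (Finset.mem_univ _) h

omit [NeZero M] [NeZero q] in
include hf in
theorem isAnG_comp_f (i : ℕ) : IsAnG (Gamma M) M (comp hqM ω f i) := by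
  have h1 : comp hqM ω f i = ∑ r : (chiM hqM ω).range,
      (fun _ => (((r : ℂˣ)⁻¹ : ℂˣ) : ℂ) ^ i) * tr hqM ω f r := by
    funext τ
    rw [Finset.sum_apply]
    rfl
  rw [h1]
  refine (AnFunG (Gamma M) M).sum_mem fun r _ => (AnFunG (Gamma M) M).mul_mem ?_ ?_
  · exact isAnG_const _ _ _
  · exact isAnG_comp (hf.mono (gamma_le_GH hqM ω)) _

include hf hU hUχ in
/-- **the expansion of a modular function on `GH` is in the field generated by `FF` and `u`** -/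
theorem mem_adjoin_of_isAnG {u y : LaurentSeries ℂ} (hu : HasLaurent 1 U u) (hu0 : u ≠ 0)
    (hy : HasLaurent 1 f y) : y ∈ adjoin ℂ ((FF ℂ M : Set (LaurentSeries ℂ)) ∪ {u}) := by
  set m := Fintype.card (chiM hqM ω).range with hm
  have hm0 : (m : ℂ) ≠ 0 := by
    have : 0 < m := Fintype.card_pos
    exact_mod_cast this.ne'
  have h1 : ∀ i ∈ Finset.range m, IsAn M (comp hqM ω f i * U ^ (m - i)) := by
    intro i hi
    rw [Finset.mem_range] at hi
    have h2 : IsAnG (Gamma M) M (comp hqM ω f i * U ^ (m - i)) :=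
      (isAnG_comp_f hqM ω hf i).mul (hU.pow _)
    refine ⟨h2.hol, h2.exp, fun γ hγ τ => ?_⟩
    rw [Pi.mul_apply, Pi.mul_apply, Pi.pow_apply, Pi.pow_apply,
      comp_smul hqM ω hf i ⟨γ, hγ⟩, hUχ ⟨γ, hγ⟩]
    have h3 : ((chiM hqM ω ⟨γ, hγ⟩ : ℂˣ) : ℂ) ^ i * ((chiM hqM ω ⟨γ, hγ⟩ : ℂˣ) : ℂ) ^ (m - i) = 1 := by
      rw [← pow_add, Nat.add_sub_cancel' hi.le, ← Units.val_pow_eq_pow_val]
      have h5 : (⟨chiM hqM ω ⟨γ, hγ⟩, ⟨_, rfl⟩⟩ : (chiM hqM ω).range) ^ m = 1 := pow_card_eq_one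
      have h6 : (chiM hqM ω ⟨γ, hγ⟩) ^ m = 1 := congrArg Subtype.val h5
      rw [h6, Units.val_one]
    rw [mul_pow]
    linear_combination (comp hqM ω f i τ * U τ ^ (m - i)) * h3
  have h2 : ∀ i ∈ Finset.range m, ∃ z ∈ FF ℂ M, HasLaurent 1 (comp hqM ω f i * U ^ (m - i)) z := by
    intro i hi
    obtain ⟨z, hz⟩ := (h1 i hi).hasLaurent_one M
    exact ⟨z, (h1 i hi).mem_FF M hz, hz⟩
  choose! z hz hz' using h2
  set K := adjoin ℂ ((FF ℂ M : Set (LaurentSeries ℂ)) ∪ {u}) with hK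
  have hu' : u ∈ K := subset_adjoin _ _ (Or.inr rfl)
  have hzK : ∀ i ∈ Finset.range m, z i ∈ K := fun i hi => subset_adjoin _ _ (Or.inl (hz i hi))
  -- the sum
  have h3 : HasLaurent 1 ((fun _ => (m : ℂ)) * f * U ^ m) (HahnSeries.C (m : ℂ) * y * u ^ m) := by
    refine ((HasLaurent.const _).mul hy).mul ?_
    exact hasLaurent_pow hu m
  have h4 : HasLaurent 1 (∑ i ∈ Finset.range m, comp hqM ω f i * U ^ (m - i) * U ^ i)
      (∑ i ∈ Finset.range m, z i * u ^ i) := by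
    have h5 : ∀ t ⊆ Finset.range m, HasLaurent 1 (∑ i ∈ t, comp hqM ω f i * U ^ (m - i) * U ^ i)
      (∑ i ∈ t, z i * u ^ i) := by
      classical
      intro t
      induction t using Finset.induction_on with
      | empty =>
        intro _
        rw [Finset.sum_empty, Finset.sum_empty]
        exact HasLaurent.zero 1
      | insert a t ha ih =>
        intro hsub
        rw [Finset.sum_insert ha, Finset.sum_insert ha]
        exact ((hz' a (hsub (Finset.mem_insert_self _ _))).mul (hasLaurent_pow hu a)).add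
          (ih fun x hx => hsub (Finset.mem_insert_of_mem hx))
    exact h5 _ subset_rfl
  have h5 : (∑ i ∈ Finset.range m, comp hqM ω f i * U ^ (m - i) * U ^ i) =
      (fun _ => (m : ℂ)) * f * U ^ m := by
    funext τ
    rw [Finset.sum_apply, Pi.mul_apply, Pi.mul_apply, Pi.pow_apply, ← sum_comp hqM ω hf τ,
      Finset.sum_mul]
    refine Finset.sum_congr rfl fun i hi => ?_
    rw [Finset.mem_range] at hi
    rw [Pi.mul_apply, Pi.mul_apply, Pi.pow_apply, Pi.pow_apply, mul_assoc, ← pow_add,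
      Nat.sub_add_cancel hi.le]
  rw [h5] at h4
  have h6 := h3.unique one_pos h4
  have h7 : y = (∑ i ∈ Finset.range m, z i * u ^ i) / (HahnSeries.C (m : ℂ) * u ^ m) := by
    have hC : (HahnSeries.C (m : ℂ) : LaurentSeries ℂ) ≠ 0 := by
      rw [Ne, ← map_zero (HahnSeries.C (Γ := ℤ) (R := ℂ)), HahnSeries.C_injective.eq_iff]
      exact hm0
    rw [eq_div_iff (mul_ne_zero hC (pow_ne_zero _ hu0)), ← h6]
    ring
  rw [h7]
  refine div_mem (sum_mem fun i hi => mul_mem (hzK i hi) (pow_mem hu' i)) (mul_mem ?_ (pow_mem hu' m))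
  have : (HahnSeries.C (m : ℂ) : LaurentSeries ℂ) = algebraMap ℂ (LaurentSeries ℂ) m := by
    rw [algebraMap_laurentSeries_eq_single, HahnSeries.C_apply]
  rw [this]
  exact K.algebraMap_mem _

end Fourier

end Complex

end Fermat.Agent.LG
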