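import Fermat.Agent.LG.MFGrp

/-!
# The field of modular functions on the kernel of a character of `Γ₀(M)`
-/

set_option autoImplicit false
set_option linter.unusedSectionVars false
set_option linter.style.haveILetI false

noncomputable section

open UpperHalfPlane Function ModularCurve Filter ModularForm AlgebraicCurve WithZero
  CongruenceSubgroup IntermediateField
open scoped Manifold MatrixGroups Topology ModularForm

namespace Fermat.Agent.LG

open Fermat.Agent.X0Places Fermat.Agent.TorsCmp Fermat.Agent.FunField Fermat.Agent.LGU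

variable {L : Type*} [Field L] (ι : L →+* ℂ) {M : ℕ} [NeZero M] {q : ℕ} [hq : Fact q.Prime]
  (hqM : q ∣ M) (ω : DirichletCharacter L q)

/-- the function `U` -/
theorem exists_UH (hω : ω (-1) = 1) : ∃ U : ℍ → ℂ, IsAnG (GH M ω) M U ∧ IsAnG (Gamma M) M U ∧
    HasLaurent 1 U (coeffMap ι (uL ω)) ∧
    (∀ g : Gamma0 M, ∀ τ, U ((g : SL(2, ℤ)) • τ) = ι ((chiM hqM ω g : Lˣ) : L) * U τ) ∧
    ∃ z, U z ≠ 0 := by
  obtain ⟨U, h1, h2, h3, h4, h5⟩ := exists_U ι hq.out.one_lt ω hω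
  have h6 : ∀ g : Gamma0 M, ∀ τ, U ((g : SL(2, ℤ)) • τ) = ι ((chiM hqM ω g : Lˣ) : L) * U τ :=
    fun g τ => h3 _ (gamma0_le_gamma0 hqM g.2) τ
  have h7 : ∀ γ ∈ GH M ω, ∀ τ, U (γ • τ) = U τ := by
    intro γ hγ τ
    have h8 := (chiM_eq_one_iff hqM ω ⟨γ, GH_le_gamma0 ω hγ⟩).2 hγ
    have h9 := h6 ⟨γ, GH_le_gamma0 ω hγ⟩ τ
    rw [h8, Units.val_one, map_one, one_mul] at h9
    exact h9
  exact ⟨U, isAnG_of_width hqM h1 h4 h7,
    isAnG_of_width hqM h1 h4 fun γ hγ => h7 γ (gamma_le_GH hqM ω hγ), h2, h6, h5⟩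

include hqM in
theorem uL_mem_anR (hω : ω (-1) = 1) : uL ω ∈ AnR ι (GH M ω) M := by
  obtain ⟨U, h1, -, h2, -, -⟩ := exists_UH ι hqM ω hω
  exact ⟨U, h1, h2⟩

variable [Algebra ℚ L]

variable (M) in
/-- the field generated by `FF` and `u` -/
def SH : IntermediateField L (LaurentSeries L) :=
  adjoin L ((FF L M : Set (LaurentSeries L)) ∪ {uL ω})

include hqM in
theorem SH_le (hω : ω (-1) = 1) : SH M ω ≤ FG ι (GH M ω) M := by
  rw [SH, adjoin_le_iff]
  rintro x (hx | rfl)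
  · exact FG_mono (GH_le_gamma0 ω) (FF_le_FG ι M hx)
  · exact anR_le_FG (uL_mem_anR ι hqM ω hω)

include hqM in
theorem FG_id_le_genF (hω : ω (-1) = 1) :
    FG (RingHom.id ℂ) (GH M ω) M ≤ genF ι (SH M ω) := by
  classical
  obtain ⟨U, hU1, hU2, hU3, hU4, hU5⟩ := exists_UH ι hqM ω hω
  have hfin := finite_range_chiM hqM (ω.ringHomComp ι)
  letI : Fintype (chiM hqM (ω.ringHomComp ι)).range := Fintype.ofFinite _
  have hsub : adjoin ℂ ((FF ℂ M : Set (LaurentSeries ℂ)) ∪ {coeffMap ι (uL ω)}) ≤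
      genF ι (SH M ω) := by
    rw [adjoin_le_iff]
    rintro x (hx | rfl)
    · refine genF_mono ι ?_ (FF_le_genF ι M hx)
      rw [SH]
      exact fun y hy => subset_adjoin _ _ (Or.inl hy)
    · exact coeffMap_mem_genF ι (subset_adjoin _ _ (Or.inr rfl))
  have hu0 : coeffMap ι (uL ω) ≠ 0 := by
    rw [coeffMap_uL]
    exact uL_ne_zero _
  have key : ∀ a ∈ AnR (RingHom.id ℂ) (GH M ω) M, a ∈ genF ι (SH M ω) := by
    rintro a ⟨f, hf, hf'⟩
    rw [coeffMap_id] at hf'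
    apply hsub
    rw [← GH_comp ω ι] at hf
    refine mem_adjoin_of_isAnG hqM (ω.ringHomComp ι) hf hU2 (fun g τ => ?_) hU3 hu0 hf'
    rw [hU4 g τ, coe_chiM, coe_chiM, MulChar.ringHomComp_apply]
  rintro x ⟨a, ha, b, hb, hb0, h⟩
  rw [eq_div_of_mul_eq hb0 h]
  exact div_mem (key a ha) (key b hb)

include hqM in
/-- **The field of modular functions on `GH M ω` is generated by `u`.** -/
theorem FG_GH (hω : ω (-1) = 1) : FG ι (GH M ω) M = SH M ω :=
  FG_eq_of_gen ι _ M (SH_le ι hqM ω hω) (FG_id_le_genF ι hqM ω hω)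

include hqM in
theorem FG_GH_gen (hω : ω (-1) = 1) :
    FG (RingHom.id ℂ) (GH M ω) M ≤ genF ι (FG ι (GH M ω) M) :=
  FG_le_genF_of_gen ι _ M (SH_le ι hqM ω hω) (FG_id_le_genF ι hqM ω hω)

include hqM in
theorem sep_GH (hω : ω (-1) = 1) (g : SL(2, ℤ))
    (h : ∀ x : FG ι (GH M ω) M, compMer g (toM ι (GH M ω) M x) = toM ι (GH M ω) M x) :
    g ∈ GH M ω := by
  obtain ⟨U, hU1, hU2, hU3, hU4, z, hz⟩ := exists_UH ι hqM ω hω
  have h1 : g ∈ Gamma0 M := by
    apply sep_gamma0 ι M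
    intro x
    have h2 := h (inclFG (GH_le_gamma0 ω) x)
    rwa [toM_inclFG] at h2
  let u : FG ι (GH M ω) M := ⟨uL ω, anR_le_FG (uL_mem_anR ι hqM ω hω)⟩
  have h2 : toM ι (GH M ω) M u = algebraMap Holo Mer ⟨U, hU1.hol⟩ :=
    toM_of_mem ⟨U, hU1.hol⟩ hU1 hU3
  have h3 := h u
  rw [h2, compMer_algebraMap] at h3
  have h4 := congrArg Subtype.val (IsFractionRing.injective Holo Mer h3)
  have h5 : U (g • z) = U z := congrFun h4 z
  rw [hU4 ⟨g, h1⟩ z] at h5
  have h6 : ι ((chiM hqM ω ⟨g, h1⟩ : Lˣ) : L) = 1 := by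
    have h7 : (ι ((chiM hqM ω ⟨g, h1⟩ : Lˣ) : L) - 1) * U z = 0 := by rw [sub_mul, h5]; ring
    exact sub_eq_zero.1 ((mul_eq_zero.1 h7).resolve_right hz)
  rw [← chiM_eq_one_iff hqM ω ⟨g, h1⟩]
  apply Units.ext
  rw [Units.val_one]
  exact ι.injective (h6.trans (map_one ι).symm)

/-! ### the degree -/

theorem chiM_pow_card (g : Gamma0 M) :
    (chiM hqM ω g) ^ Nat.card (chiM hqM ω).range = 1 := by
  have h5 : (⟨chiM hqM ω g, ⟨_, rfl⟩⟩ : (chiM hqM ω).range) ^ Nat.card (chiM hqM ω).range = 1 :=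
    pow_card_eq_one'
  exact congrArg Subtype.val h5

include ι in
theorem uL_pow_mem (hω : ω (-1) = 1) : (uL ω) ^ Nat.card (chiM hqM ω).range ∈ FF L M := by
  obtain ⟨U, hU1, hU2, hU3, hU4, hU5⟩ := exists_UH ι hqM ω hω
  rw [← FG_gamma0 ι M]
  refine anR_le_FG ⟨U ^ Nat.card (chiM hqM ω).range, ⟨(hU2.pow _).hol, (hU2.pow _).exp,
    fun γ hγ τ => ?_⟩, ?_⟩
  · rw [Pi.pow_apply, Pi.pow_apply, hU4 ⟨γ, hγ⟩ τ, mul_pow, ← map_pow, ← Units.val_pow_eq_pow_val,
      chiM_pow_card, Units.val_one, map_one, one_mul]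
  · rw [map_pow]
    exact hasLaurent_pow hU3 _

omit [NeZero M] hq in
theorem FF_le_SH : FF L M ≤ SH M ω := fun _ hx => subset_adjoin _ _ (Or.inl hx)

omit [NeZero M] hq in
theorem extendScalars_SH : extendScalars (FF_le_SH (M := M) ω) = adjoin (FF L M) {uL ω} := by
  have h1 : extendScalars (FF_le_SH (M := M) ω) =
      adjoin (FF L M) ((FF L M : Set (LaurentSeries L)) ∪ {uL ω}) := extendScalars_adjoin _
  rw [h1]
  apply le_antisymm
  · rw [adjoin_le_iff]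
    rintro x (hx | hx)
    · exact (adjoin (FF L M) {uL ω}).algebraMap_mem ⟨x, hx⟩
    · exact subset_adjoin _ _ hx
  · exact adjoin.mono _ _ _ Set.subset_union_right

include ι in
theorem relfinrank_SH (hω : ω (-1) = 1) : 0 < relfinrank (FF L M) (SH M ω) ∧
    relfinrank (FF L M) (SH M ω) ≤ Nat.card (chiM hqM ω).range := by
  have hfin := finite_range_chiM hqM ω
  set m := Nat.card (chiM hqM ω).range with hm
  have hm0 : 0 < m := Nat.card_pos
  let b : FF L M := ⟨(uL ω) ^ m, uL_pow_mem ι hqM ω hω⟩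
  have hp : (Polynomial.X ^ m - Polynomial.C b : Polynomial (FF L M)).Monic :=
    Polynomial.monic_X_pow_sub_C b hm0.ne'
  have hpu : Polynomial.aeval (uL ω) (Polynomial.X ^ m - Polynomial.C b : Polynomial (FF L M)) =
      0 := by
    rw [map_sub, map_pow, Polynomial.aeval_X, Polynomial.aeval_C, sub_eq_zero]
    rfl
  have hint : IsIntegral (FF L M) (uL ω) := ⟨_, hp, hpu⟩
  rw [relfinrank_eq_finrank_of_le (FF_le_SH ω), extendScalars_SH, adjoin.finrank hint]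
  refine ⟨minpoly.natDegree_pos hint, ?_⟩
  have h1 := Polynomial.natDegree_le_of_dvd (minpoly.dvd _ _ hpu) hp.ne_zero
  rwa [Polynomial.natDegree_X_pow_sub_C] at h1

end Fermat.Agent.LG
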