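import Fermat.Agent.LG.MFH

/-!
# `GH M ω` satisfies the hypotheses of `MF`
-/

set_option autoImplicit false
set_option linter.unusedSectionVars false
set_option linter.style.haveILetI false

noncomputable section

open UpperHalfPlane Function ModularCurve Filter ModularForm AlgebraicCurve WithZero
  CongruenceSubgroup IntermediateField
open scoped Manifold MatrixGroups Topology ModularForm

namespace Fermat.Agent.LG

open Fermat.Agent.X0Places Fermat.Agent.TorsCmp Fermat.Agent.FunField Fermat.Agent.LGU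

section Lower

variable {L : Type*} [Field L] [Algebra ℚ L] {ι : L →+* ℂ} {Γ : Subgroup SL(2, ℤ)} {N : ℕ}
  [NeZero N]

theorem sig_inj_of_sep
    (hsep : ∀ g : SL(2, ℤ), (∀ x : FG ι Γ N, compMer g (toM ι Γ N x) = toM ι Γ N x) → g ∈ Γ) :
    Injective (sig ι Γ N) := by
  intro c c' hcc
  induction c using QuotientGroup.induction_on with
  | H g =>
  induction c' using QuotientGroup.induction_on with
  | H h =>
  rw [QuotientGroup.eq]
  apply hsep
  intro x
  have h1 := RingHom.congr_fun hcc x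
  rw [sig_mk, sig_mk] at h1
  have h2 := congrArg (compMer h) h1
  rw [compMer_mul, compMer_mul, inv_mul_cancel] at h2
  have h3 : compMer 1 (toM ι Γ N x) = toM ι Γ N x := compMer_toM (one_mem Γ) x
  rw [h3] at h2
  exact h2

/-- lower bound for the degree -/
theorem card_XG_le
    (hsep : ∀ g : SL(2, ℤ), (∀ x : FG ι Γ N, compMer g (toM ι Γ N x) = toM ι Γ N x) → g ∈ Γ)
    [FiniteDimensional L⟮jG ι Γ N⟯ (FG ι Γ N)] :
    Nat.card (XG Γ) ≤ Module.finrank L⟮jG ι Γ N⟯ (FG ι Γ N) := by
  let F := L⟮jG ι Γ N⟯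
  letI : Algebra F Mer := ((toM ι Γ N).comp (algebraMap F (FG ι Γ N))).toAlgebra
  have key : ∀ c : XG Γ, ∀ x : F, sig ι Γ N c (algebraMap F (FG ι Γ N) x) =
      toM ι Γ N (algebraMap F (FG ι Γ N) x) := by
    intro c
    have h1 : F.toSubfield ≤ (sig ι Γ N c).eqLocusField (toM ι Γ N) := by
      rw [adjoin_toSubfield, Subfield.closure_le]
      rintro x (⟨a, rfl⟩ | rfl)
      · show sig ι Γ N c _ = toM ι Γ N _
        rw [sig_algebraMap, toM_algebraMap]
      · show sig ι Γ N c _ = toM ι Γ N _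
        rw [sig_jG, toM_jG]
    exact fun x => h1 x.2
  let φ : XG Γ → (FG ι Γ N →ₐ[F] Mer) := fun c =>
    { sig ι Γ N c with commutes' := fun x => key c x }
  have hφ : Injective φ := by
    intro c c' h
    apply sig_inj_of_sep hsep
    exact RingHom.ext fun x => DFunLike.congr_fun h x
  exact (Nat.card_le_card_of_injective φ hφ).trans (card_algHom_le_finrank F (FG ι Γ N) Mer)

end Lower

variable {L : Type*} [Field L] [Algebra ℚ L] [IsAlgClosed L] (ι : L →+* ℂ) {M : ℕ} [NeZero M]
  {q : ℕ} [hq : Fact q.Prime] (hqM : q ∣ M) (ω : DirichletCharacter L q)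

include hqM in
theorem deg_GH (hω : ω (-1) = 1) :
    FiniteDimensional L⟮jG ι (GH M ω) M⟯ (FG ι (GH M ω) M) ∧
      Module.finrank L⟮jG ι (GH M ω) M⟯ (FG ι (GH M ω) M) = Nat.card (XG (GH M ω)) := by
  have h1 := finrank_adjoin_eq_relfinrank (FG ι (GH M ω) M) (jG ι (GH M ω) M)
  have h2 := finrank_adjoin_eq_relfinrank (FF L M) (jF L M)
  rw [finrank_jF] at h2
  have h3 : ((jG ι (GH M ω) M : FG ι (GH M ω) M) : LaurentSeries L) = (jF L M : FF L M) := rfl
  rw [h3] at h1
  have h4 : relfinrank (adjoin L {((jF L M : FF L M) : LaurentSeries L)}) (FF L M) *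
      relfinrank (FF L M) (SH M ω) =
      relfinrank (adjoin L {((jF L M : FF L M) : LaurentSeries L)}) (SH M ω) :=
    relfinrank_mul_relfinrank (by
      rw [adjoin_simple_le_iff]
      exact (jF L M).2) (FF_le_SH ω)
  obtain ⟨h5, h6⟩ := relfinrank_SH ι hqM ω hω
  have h7 : Module.finrank L⟮jG ι (GH M ω) M⟯ (FG ι (GH M ω) M) =
      Nat.card (XN M) * relfinrank (FF L M) (SH M ω) := by
    rw [h2, h4]
    exact h1.trans (congrArg (relfinrank _) (FG_GH ι hqM ω hω))
  have hX : 0 < Nat.card (XN M) := by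
    have := finite_XN M
    have : Nonempty (XN M) := ⟨((1 : SL(2, ℤ)) : XN M)⟩
    exact Nat.card_pos
  have h8 : FiniteDimensional L⟮jG ι (GH M ω) M⟯ (FG ι (GH M ω) M) := by
    apply FiniteDimensional.of_finrank_pos
    rw [h7]
    exact Nat.mul_pos hX h5
  refine ⟨h8, le_antisymm ?_ (card_XG_le (sep_GH ι hqM ω hω))⟩
  rw [h7, card_XG_GH hqM ω, mul_comm]
  exact Nat.mul_le_mul_right _ h6

include hqM in
/-- **`MF` for the kernel of an even character.** -/
theorem mf_GH (hω : ω (-1) = 1) : MF ι (GH M ω) M where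
  fin := by
    apply Nat.finite_of_card_ne_zero
    rw [card_XG_GH hqM ω]
    have h1 := finite_range_chiM hqM ω
    have h2 := finite_XN M
    have h3 : Nonempty (XN M) := ⟨((1 : SL(2, ℤ)) : XN M)⟩
    exact mul_ne_zero Nat.card_pos.ne' Nat.card_pos.ne'
  gam := gamma_le_GH hqM ω
  neg := neg_one_mem_GH hqM ω hω
  sep := sep_GH ι hqM ω hω
  isFF := by
    refine ⟨⟨jG ι (GH M ω) M, ?_, (deg_GH ι hqM ω hω).1⟩⟩
    have h := (embC ι (Gamma0 M) M).transcendental_t
    rw [embC_t] at h
    intro h1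
    apply h
    refine IsAlgebraic.inv ?_
    have h2 : IsAlgebraic L ((jG ι (GH M ω) M : FG ι (GH M ω) M) : LaurentSeries L) :=
      IsAlgebraic.algebraMap (A := LaurentSeries L) h1
    exact (isAlgebraic_algHom_iff (FG ι (Gamma0 M) M).val Subtype.val_injective).1 h2
  deg := (deg_GH ι hqM ω hω).2

end Fermat.Agent.LG
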