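import Fermat.Agent.TW.ThetaTW
import Fermat.Agent.TWDeg.DegTW

/-!
# Local-global compatibility at the Taylor-Wiles primes: reduction to a higher level

`LGHyp` for the datum of level `N l` implies `LGHyp` for the datum of level `N` (e.g. `l = 2` to
reduce to even levels).
-/

set_option autoImplicit false
set_option linter.unusedSectionVars false

noncomputable section

namespace Fermat.Agent.LG

open IsLocalRing Module Matrix Fermat.Agent.DefRing Fermat.Agent.TWDeg Fermat.Agent.TW

variable {D : Type} [CommGroup D] (W : TWD D) {l : ℕ} (hl : l.Prime) (hlQ : l ∉ W.Q)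
  {m : ℕ} (hM : W.M ∣ m) (hM' : (raise W hl hlQ).M ∣ m) (hlN : ¬ l ∣ W.N)

include hlN in
/-- reduction of the local-global compatibility to level `N l` -/
theorem lgHyp_of_raise {O : Type} [CommRing O] [IsLocalRing O] (rbar : GQ →* M2 (ResidueField O))
    (E : Type) [Field E] [CharZero E] (H : LGHyp (raise W hl hlQ) hM' rbar E) :
    LGHyp W hM rbar E := by
  intro O' _ _ _ _ _ _ _ _ _ ι hι r hr hred v hv hT ψ hψ q B hB s hs ζ hζ c hc
  let DD := degTW W hl hlQ E E (fun _ => .chi) hM hM' hlN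
  have hI : DD.I v ≠ 0 := by
    intro h0
    apply hv
    have h1 : DD.J (DD.I v) = (DD.q + 1) • v := DD.JI v
    rw [h0, map_zero] at h1
    have h2 : ((l + 1 : ℕ) : E) • v = 0 := by
      rw [Nat.cast_smul_eq_nsmul]
      exact h1.symm
    exact (smul_eq_zero.mp h2).resolve_left (Nat.cast_ne_zero.mpr (Nat.succ_ne_zero l))
  have hTX : ∀ l' : Pr m, (XF hM').T _ l' (DD.I v) = DD.I ((XF hM).T _ l' v) := by
    intro l'
    rw [← Stg.X_smul, ← Stg.X_smul, map_smul]
  have hC : ∀ (a : E) (x : (XF hM).H (funRep (M := W.M) E E W.YQ)), DD.I (a • x) = a • DD.I x := by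
    intro a x
    rw [← Stg.C_smul, ← Stg.C_smul, map_smul]
  let v' : (XF hM').H (funRep (M := (raise W hl hlQ).M) E E (raise W hl hlQ).YQ) := DD.I v
  refine H O' ι hι r hr hred v' hI (fun l' B hB τ hτ => ?_) ψ (fun δ => ?_) q B hB s hs ζ hζ
    c hc
  · obtain ⟨h1, h2⟩ := hT l' B hB τ hτ
    refine ⟨?_, h2⟩
    rw [hTX, h1, hC]
  · have h1 := (degTW_act W hl hlQ hM hM' hlN (R := E) (A := E) δ).I v
    refine Eq.trans ?_ ((h1.symm).trans ?_)
    · rfl
    have h2 : (XF hM).map (actC W.M E E W.YQ (Δ := W.Q → D) δ) v = ψ δ • v := hψ δ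
    rw [h2, hC]

end Fermat.Agent.LG
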