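import Fermat.Agent.TW.Par

/-!
# Right translations on the sets attached to Taylor–Wiles data
-/

set_option autoImplicit false
set_option linter.unusedSectionVars false

noncomputable section

namespace Fermat.Agent.LG.SH

open Fermat.Agent.TW
open Matrix.SpecialLinearGroup CongruenceSubgroup
open scoped MatrixGroups

section Gen

variable {G : Type} [Group G]

/-- right translation by an element normalising `K` -/
def rsm (K : Subgroup G) (k : G) (hk : ∀ x ∈ K, k⁻¹ * x * k ∈ K) : G ⧸ K → G ⧸ K :=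
  Quotient.map' (fun g => g * k) fun a b hab => by
    rw [QuotientGroup.leftRel_apply] at hab ⊢
    have : (a * k)⁻¹ * (b * k) = k⁻¹ * (a⁻¹ * b) * k := by group
    rw [this]
    exact hk _ hab

variable {K : Subgroup G} {k : G} (hk : ∀ x ∈ K, k⁻¹ * x * k ∈ K)

theorem rsm_mk (g : G) : rsm K k hk (g : G ⧸ K) = ((g * k : G) : G ⧸ K) := rfl

theorem rsm_smul (h : G) (y : G ⧸ K) : rsm K k hk (h • y) = h • rsm K k hk y := by
  induction y using QuotientGroup.induction_on with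
  | H g =>
    show rsm K k hk ((h * g : G) : G ⧸ K) = h • rsm K k hk (g : G ⧸ K)
    rw [rsm_mk, rsm_mk, mul_assoc]
    rfl

end Gen

section CHom

variable {M : ℕ} (R A : Type) [CommRing R] [AddCommGroup A] [Module R A]
  (K : Subgroup (GL (Fin 2) (ZMod M))) (k : GL (Fin 2) (ZMod M))
  (hk : ∀ x ∈ K, k⁻¹ * x * k ∈ K)

/-- right translation of functions -/
def rtC : CHom (funRep (M := M) R A (GL (Fin 2) (ZMod M) ⧸ K))
    (funRep (M := M) R A (GL (Fin 2) (ZMod M) ⧸ K)) where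
  toFun F := fun y => F (rsm K k hk y)
  map_add' _ _ := rfl
  map_smul' _ _ := rfl
  comm' g F := by
    funext y
    show F (g.2⁻¹ • rsm K k hk y) = F (rsm K k hk (g.2⁻¹ • y))
    rw [rsm_smul]

theorem rtC_apply (F : GL (Fin 2) (ZMod M) ⧸ K → A) (y : GL (Fin 2) (ZMod M) ⧸ K) :
    (rtC R A K k hk).toLinearMap F y = F (rsm K k hk y) := rfl

end CHom

section TWD

variable {D : Type} [CommGroup D] (W : TWD D) {q : ℕ} (hq : q ∈ W.Q)

/-- the matrix `diag(c, 1)` at `q`, trivial at the other places -/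
def kq (c : (ZMod q)ˣ) : GL (Fin 2) (ZMod W.M) := emb W.tws hq (diagG c 1)

theorem diagG_mul (c c' : (ZMod q)ˣ) : diagG (c * c') 1 = diagG c 1 * diagG c' (1 : (ZMod q)ˣ) := by
  apply Units.ext
  show !![((c * c' : (ZMod q)ˣ) : ZMod q), 0; 0, ((1 : (ZMod q)ˣ) : ZMod q)] =
    !![(c : ZMod q), 0; 0, ((1 : (ZMod q)ˣ) : ZMod q)] *
      !![(c' : ZMod q), 0; 0, ((1 : (ZMod q)ˣ) : ZMod q)]
  rw [Matrix.mul_fin_two]
  simp

theorem kq_mul (c c' : (ZMod q)ˣ) : kq W hq (c * c') = kq W hq c * kq W hq c' := by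
  rw [kq, diagG_mul, map_mul]
  rfl

theorem kq_one : kq W hq 1 = 1 := by
  have h := kq_mul W hq 1 1
  rw [mul_one] at h
  exact left_eq_mul.1 h

theorem diagG_conj_mem {A : Type} [CommRing A] (χ : Aˣ →* D) (c : Aˣ) {x : GL (Fin 2) A}
    (hx : x ∈ Kloc χ .chi) : (diagG c 1)⁻¹ * x * diagG c 1 ∈ Kloc χ .chi := by
  rw [mem_Kloc_chi] at hx ⊢
  obtain ⟨h, h'⟩ := hx
  have h1 : (diagG c 1 : GL (Fin 2) A) ∈ lowB A := diagG_mem c 1
  refine ⟨mul_mem (mul_mem (inv_mem h1) h) h1, ?_⟩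
  have h2 : (⟨(diagG c 1)⁻¹ * x * diagG c 1, mul_mem (mul_mem (inv_mem h1) h) h1⟩ : lowB A) =
      (⟨diagG c 1, h1⟩ : lowB A)⁻¹ * ⟨x, h⟩ * ⟨diagG c 1, h1⟩ := rfl
  rw [h2, map_mul, map_mul, map_mul, map_mul, map_inv, map_inv, h', mul_one, inv_mul_cancel]

theorem kq_conj (t : ℕ → LT) (ht : t q = .chi) (c : (ZMod q)ˣ) :
    ∀ x ∈ W.K t, (kq W hq c)⁻¹ * x * kq W hq c ∈ W.K t := by
  intro x hx
  refine ⟨?_, fun q' hq' => ?_⟩
  · rw [map_mul, map_mul, map_inv, kq, red_emb_N, inv_one, one_mul, mul_one]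
    exact hx.1
  · by_cases hqq : q' = q
    · subst hqq
      rw [map_mul, map_mul, map_inv, kq, red_emb, ht]
      have h1 := hx.2 q' hq'
      rw [ht] at h1
      exact diagG_conj_mem _ _ h1
    · rw [map_mul, map_mul, map_inv, kq, red_emb_ne W.tws hq hq' hqq, inv_one, one_mul, mul_one]
      exact hx.2 q' hq'

/-- right translation at `q` -/
def rtq (R A : Type) [CommRing R] [AddCommGroup A] [Module R A] (t : ℕ → LT) (ht : t q = .chi)
    (c : (ZMod q)ˣ) : CHom (funRep (M := W.M) R A (W.Yt t)) (funRep (M := W.M) R A (W.Yt t)) :=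
  rtC R A (W.K t) (kq W hq c) (kq_conj W hq t ht c)

theorem rtq_apply (R A : Type) [CommRing R] [AddCommGroup A] [Module R A] (t : ℕ → LT)
    (ht : t q = .chi) (c : (ZMod q)ˣ) (F : W.Yt t → A) (y : W.Yt t) :
    (rtq W hq R A t ht c).toLinearMap F y =
      F (rsm (W.K t) (kq W hq c) (kq_conj W hq t ht c) y) := rfl

/-- at the Taylor–Wiles level right translation is a diamond operator -/
theorem rtq_chi (R A : Type) [CommRing R] [AddCommGroup A] [Module R A] [DecidableEq W.Q]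
    (c : (ZMod q)ˣ) (F : W.YQ → A) (y : W.YQ) :
    (rtq W hq R A (fun _ => .chi) rfl c).toLinearMap F y =
      F ((Pi.mulSingle (⟨q, hq⟩ : W.Q) (W.χ q c) : W.Q → D) • y) := by
  rw [rtq_apply]
  congr 1
  induction y using QuotientGroup.induction_on with
  | H g =>
    have hmem : kq W hq c ∈ W.K fun _ => .bor := by
      rw [kq, emb_mem]
      exact diagG_mem _ _
    rw [TWD.smul_def, W.norm.sm_mk _ g ⟨kq W hq c, hmem⟩ ?_]
    · rfl
    · funext q'
      change nebq q'.2 _ = _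
      by_cases h : q' = ⟨q, hq⟩
      · subst h
        rw [Pi.mulSingle_eq_same, nebq, MonoidHom.comp_apply, MonoidHom.comp_apply]
        have h1 : toLow (⟨q, hq⟩ : W.Q).2 (⟨kq W hq c, hmem⟩ : W.K fun _ => .bor) =
            ⟨diagG c 1, diagG_mem _ _⟩ :=
          Subtype.ext (by rw [toLow_coe]; exact red_emb W.tws hq _)
        rw [h1, rat_diagG, div_one]
      · rw [Pi.mulSingle_eq_of_ne h, nebq, MonoidHom.comp_apply, MonoidHom.comp_apply]
        have h1 : toLow q'.2 (⟨kq W hq c, hmem⟩ : W.K fun _ => .bor) = 1 :=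
          Subtype.ext (by
            rw [toLow_coe]
            exact red_emb_ne W.tws hq q'.2 (fun h' => h (Subtype.ext h')) _)
        rw [h1, map_one, map_one]

theorem rsm_pt (t : ℕ → LT) (ht : t q = .chi) (c : (ZMod q)ˣ) :
    rsm (W.K t) (kq W hq c) (kq_conj W hq t ht c) (W.pt t) =
      ((kq W hq c : GL (Fin 2) (ZMod W.M)) : W.Yt t) := by
  show (((1 : GL (Fin 2) (ZMod W.M)) * kq W hq c : GL (Fin 2) (ZMod W.M)) : W.Yt t) = _
  rw [one_mul]

/-- action of integral matrices on the base point -/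
theorem toGp_smul_pt (t : ℕ → LT) (ht : t q = .chi) (htor : ∀ q' ∈ W.Q, q' ≠ q → t q' = .tor)
    {A : M2Z} (hA : IsGd W.M A) (hN : (W.N : ℤ) ∣ A 1 0)
    (h10 : ∀ q' ∈ W.Q, q' ≠ q → (q' : ℤ) ∣ A 1 0) (h01 : ∀ q' ∈ W.Q, (q' : ℤ) ∣ A 0 1)
    {r c : (ZMod q)ˣ} (hr : ((A 0 0 : ℤ) : ZMod q) = r * ((A 1 1 : ℤ) : ZMod q))
    (hχ : W.χ q r = W.χ q c) :
    (toGp W.M A hA).2 • W.pt t = rsm (W.K t) (kq W hq c) (kq_conj W hq t ht c) (W.pt t) := by
  rw [rsm_pt W hq t ht]
  show (((toGp W.M A hA).2 * 1 : GL (Fin 2) (ZMod W.M)) : W.Yt t) = _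
  rw [mul_one, eq_comm, QuotientGroup.eq]
  have h1 : ∀ (n : ℕ) (hn : n ∣ W.M) i j, red hn (toGp W.M A hA).2 i j = (A i j : ZMod n) := by
    intro n hn i j
    rw [red_apply]
    change ZMod.castHom hn (ZMod n) ((A i j : ℤ) : ZMod W.M) = _
    rw [map_intCast]
  refine ⟨?_, fun q' hq' => ?_⟩
  · rw [map_mul, map_inv, kq, red_emb_N, inv_one, one_mul, mem_upB, h1,
      ZMod.intCast_zmod_eq_zero_iff_dvd]
    exact hN
  · by_cases hqq : q' = q
    · subst hqq
      rw [map_mul, map_inv, kq, red_emb, ht, mem_Kloc_chi]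
      have h2 : red (q_dvd W.N hq') (toGp W.M A hA).2 ∈ lowB (ZMod q') := by
        rw [mem_lowB, h1, ZMod.intCast_zmod_eq_zero_iff_dvd]
        exact h01 _ hq'
      have h3 : (diagG c 1 : GL (Fin 2) (ZMod q')) ∈ lowB (ZMod q') := diagG_mem c 1
      refine ⟨mul_mem (inv_mem h3) h2, ?_⟩
      have h4 : (⟨(diagG c 1)⁻¹ * red (q_dvd W.N hq') (toGp W.M A hA).2,
          mul_mem (inv_mem h3) h2⟩ : lowB (ZMod q')) =
          (⟨diagG c 1, h3⟩ : lowB (ZMod q'))⁻¹ * ⟨_, h2⟩ := rfl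
      have h5 : rat (⟨_, h2⟩ : lowB (ZMod q')) = r := by
        rw [rat_apply, div_eq_iff_eq_mul]
        apply Units.ext
        show red (q_dvd W.N hq') (toGp W.M A hA).2 0 0 =
          (r : ZMod q') * red (q_dvd W.N hq') (toGp W.M A hA).2 1 1
        rw [h1, h1, hr]
      rw [h4, map_mul, map_inv, h5, map_mul, map_inv, hχ]
      have h6 : rat (⟨diagG c 1, h3⟩ : lowB (ZMod q')) = c := by
        have := rat_diagG (A := ZMod q') c 1
        rw [div_one] at this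
        exact this
      rw [h6, inv_mul_cancel]
    · rw [map_mul, map_inv, kq, red_emb_ne W.tws hq hq' hqq, inv_one, one_mul, htor q' hq' hqq]
      refine ⟨?_, ?_⟩
      · show _ ∈ lowB _
        rw [mem_lowB, h1, ZMod.intCast_zmod_eq_zero_iff_dvd]
        exact h01 q' hq'
      · show _ ∈ upB _
        rw [mem_upB, h1, ZMod.intCast_zmod_eq_zero_iff_dvd]
        exact h10 q' hq' hqq

end TWD

end Fermat.Agent.LG.SH

end
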