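import Fermat.Agent.LG.Roots
import Fermat.Agent.TorsCmp.GLAct

/-!
# Homomorphisms `Γ → ℤ/n` represented by modular functions
-/

set_option autoImplicit false
set_option linter.unusedSectionVars false
set_option linter.style.haveILetI false

noncomputable section

open UpperHalfPlane Function ModularCurve Filter ModularForm AlgebraicCurve WithZero
  CongruenceSubgroup
open scoped Manifold MatrixGroups Topology ModularForm

namespace Fermat.Agent.LG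

open Fermat.Agent.X0Places Fermat.Agent.FunField Fermat.Agent.FunField.PlaceLemmas
open Fermat.Agent.TorsCmp
open Matrix.SpecialLinearGroup (mapGL)

/-! ### roots of unity -/

/-- `a ↦ exp(2πi a/n)` -/
def mu (n : ℕ) (a : ZMod n) : ℂˣ := Additive.toMul (muHom n a)

theorem mu_zero (n : ℕ) : mu n 0 = 1 := by rw [mu, map_zero]; rfl

theorem mu_add (n : ℕ) (a b : ZMod n) : mu n (a + b) = mu n a * mu n b := by
  rw [mu, map_add]; rfl

theorem mu_neg (n : ℕ) (a : ZMod n) : mu n (-a) = (mu n a)⁻¹ := by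
  rw [mu, map_neg]; rfl

theorem mu_sum (n : ℕ) {X : Type*} (s : Finset X) (a : X → ZMod n) :
    mu n (∑ c ∈ s, a c) = ∏ c ∈ s, mu n (a c) := by
  rw [mu, map_sum, toMul_sum]; rfl

theorem mu_injective (n : ℕ) [NeZero n] : Injective (mu n) :=
  Additive.toMul.injective.comp (muHom_injective n)

theorem mu_pow_eq_one (n : ℕ) (a : ZMod n) : mu n a ^ n = 1 := by
  have h1 : mu n (n • a) = mu n a ^ n := by
    rw [mu, map_nsmul]; rfl
  rw [← h1, nsmul_eq_mul, ZMod.natCast_self, zero_mul, mu_zero]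

theorem exists_mu_eq (n : ℕ) [NeZero n] {c : ℂˣ} (hc : c ^ n = 1) : ∃ a, mu n a = c := by
  obtain ⟨a, ha⟩ := exists_muHom_eq n hc
  exact ⟨a, congrArg Additive.toMul ha⟩

theorem mu_cast (n k : ℕ) [NeZero n] [NeZero k] (a : ZMod (n * k)) :
    mu n (ZMod.castHom (dvd_mul_right n k) (ZMod n) a) = mu (n * k) a ^ k :=
  congrArg Additive.toMul (muHom_cast n k a)

/-- multiplication by `k`, as a map `ℤ/n → ℤ/nk` -/
def mulK (n k : ℕ) : ZMod n →+ ZMod (n * k) :=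
  ZMod.lift n ⟨zmultiplesHom (ZMod (n * k)) (k : ZMod (n * k)), by
    simp only [zmultiplesHom_apply]
    have : ((n : ℕ) : ℤ) • ((k : ℕ) : ZMod (n * k)) = ((n * k : ℕ) : ZMod (n * k)) := by
      rw [natCast_zsmul, nsmul_eq_mul, Nat.cast_mul]
    rw [this, ZMod.natCast_self]⟩

theorem mulK_intCast (n k : ℕ) (a : ℤ) : mulK n k (a : ZMod n) = ((a * k : ℤ) : ZMod (n * k)) := by
  rw [mulK, ZMod.lift_coe]
  simp only [zmultiplesHom_apply, zsmul_eq_mul]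
  push_cast
  rfl

theorem mu_mulK (n k : ℕ) [NeZero n] [NeZero k] (a : ZMod n) : mu (n * k) (mulK n k a) = mu n a := by
  obtain ⟨a, rfl⟩ := ZMod.intCast_surjective a
  rw [mulK_intCast, mu, mu, muHom_intCast, muHom_intCast, toMul_ofMul, toMul_ofMul, mul_comm a,
    zpow_mul, zpow_natCast, zetaN_mul_pow]

/-! ### homomorphisms -/

/-- homomorphisms killing parabolic and elliptic elements -/
def PE (Γ : Subgroup SL(2, ℤ)) (A : Type*) [AddCommGroup A] : AddSubgroup (Additive Γ →+ A) where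
  carrier := {x | Period.IsParabolicHom Γ x ∧
    ∀ (γ : Γ) (τ : ℍ), (γ : SL(2, ℤ)) • τ = τ → x (Additive.ofMul γ) = 0}
  add_mem' {x y} hx hy := ⟨fun γ hγ => by
    rw [AddMonoidHom.add_apply, hx.1 γ hγ, hy.1 γ hγ, add_zero], fun γ τ hγ => by
    rw [AddMonoidHom.add_apply, hx.2 γ τ hγ, hy.2 γ τ hγ, add_zero]⟩
  zero_mem' := ⟨fun _ _ => rfl, fun _ _ _ => rfl⟩
  neg_mem' {x} hx := ⟨fun γ hγ => by
    rw [AddMonoidHom.neg_apply, hx.1 γ hγ, neg_zero], fun γ τ hγ => by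
    rw [AddMonoidHom.neg_apply, hx.2 γ τ hγ, neg_zero]⟩

theorem mem_PE {Γ : Subgroup SL(2, ℤ)} {A : Type*} [AddCommGroup A] {x : Additive Γ →+ A} :
    x ∈ PE Γ A ↔ Period.IsParabolicHom Γ x ∧
      ∀ (γ : Γ) (τ : ℍ), (γ : SL(2, ℤ)) • τ = τ → x (Additive.ofMul γ) = 0 := Iff.rfl

theorem comp_mem_PE {Γ : Subgroup SL(2, ℤ)} {A B : Type*} [AddCommGroup A] [AddCommGroup B]
    (f : A →+ B) {x : Additive Γ →+ A} (hx : x ∈ PE Γ A) : f.comp x ∈ PE Γ B :=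
  ⟨fun γ hγ => by rw [AddMonoidHom.comp_apply, hx.1 γ hγ, map_zero], fun γ τ hγ => by
    rw [AddMonoidHom.comp_apply, hx.2 γ τ hγ, map_zero]⟩

theorem mem_PE_of_comp {Γ : Subgroup SL(2, ℤ)} {A B : Type*} [AddCommGroup A] [AddCommGroup B]
    (f : A →+ B) (hf : Injective f) {x : Additive Γ →+ A} (hx : f.comp x ∈ PE Γ B) :
    x ∈ PE Γ A :=
  ⟨fun γ hγ => hf (by rw [map_zero]; exact hx.1 γ hγ), fun γ τ hγ =>
    hf (by rw [map_zero]; exact hx.2 γ τ hγ)⟩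

variable {L : Type*} [Field L] (ι : L →+* ℂ) (Γ : Subgroup SL(2, ℤ)) (N : ℕ)

/-- `f` represents the homomorphism `x : Γ → ℤ/n` -/
def Rep (n : ℕ) (x : Additive Γ →+ ZMod n) (f : FG ι Γ N) : Prop :=
  f ≠ 0 ∧ ∃ G : Mer, G ^ n = toM ι Γ N f ∧
    ∀ γ : Γ, compMer (γ : SL(2, ℤ)) G = cM (mu n (x (Additive.ofMul γ))) * G

variable {ι Γ N}

theorem Rep.ne_zero {n : ℕ} {x : Additive Γ →+ ZMod n} {f : FG ι Γ N} (h : Rep ι Γ N n x f) :
    f ≠ 0 := h.1

theorem Rep.mul {n : ℕ} {x y : Additive Γ →+ ZMod n} {f g : FG ι Γ N} (h : Rep ι Γ N n x f)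
    (h' : Rep ι Γ N n y g) : Rep ι Γ N n (x + y) (f * g) := by
  obtain ⟨hf, G, hG, hGx⟩ := h
  obtain ⟨hg, H, hH, hHy⟩ := h'
  refine ⟨mul_ne_zero hf hg, G * H, ?_, fun γ => ?_⟩
  · rw [mul_pow, hG, hH, map_mul]
  · rw [map_mul, hGx, hHy, AddMonoidHom.add_apply, mu_add, Units.val_mul, map_mul]
    ring

theorem Rep.inv {n : ℕ} {x : Additive Γ →+ ZMod n} {f : FG ι Γ N} (h : Rep ι Γ N n x f) :
    Rep ι Γ N n (-x) f⁻¹ := by
  obtain ⟨hf, G, hG, hGx⟩ := h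
  refine ⟨inv_ne_zero hf, G⁻¹, ?_, fun γ => ?_⟩
  · rw [inv_pow, hG, map_inv₀]
  · rw [map_inv₀, hGx, mul_inv, AddMonoidHom.neg_apply, mu_neg, Units.val_inv_eq_inv_val,
      map_inv₀]

theorem Rep.div {n : ℕ} {x y : Additive Γ →+ ZMod n} {f g : FG ι Γ N} (h : Rep ι Γ N n x f)
    (h' : Rep ι Γ N n y g) : Rep ι Γ N n (x - y) (f / g) := by
  rw [sub_eq_add_neg, div_eq_mul_inv]
  exact h.mul h'.inv

theorem rep_pow {n : ℕ} {h : FG ι Γ N} (hh : h ≠ 0) : Rep ι Γ N n 0 (h ^ n) := by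
  refine ⟨pow_ne_zero _ hh, toM ι Γ N h, by rw [map_pow], fun γ => ?_⟩
  rw [compMer_toM γ.2, AddMonoidHom.zero_apply, mu_zero, Units.val_one, map_one, one_mul]

theorem rep_one {n : ℕ} : Rep ι Γ N n 0 1 := by
  have := rep_pow (ι := ι) (Γ := Γ) (N := N) (n := n) one_ne_zero
  rwa [one_pow] at this

theorem Rep.mul_pow {n : ℕ} {x : Additive Γ →+ ZMod n} {f : FG ι Γ N} (h : Rep ι Γ N n x f)
    {g : FG ι Γ N} (hg : g ≠ 0) : Rep ι Γ N n x (f * g ^ n) := by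
  have := h.mul (rep_pow (n := n) hg)
  rwa [add_zero] at this

theorem Rep.pow {n : ℕ} {x : Additive Γ →+ ZMod n} {f : FG ι Γ N} (h : Rep ι Γ N n x f) (k : ℕ) :
    Rep ι Γ N n (k • x) (f ^ k) := by
  induction k with
  | zero => rw [zero_smul, pow_zero]; exact rep_one
  | succ k ih => rw [succ_nsmul, pow_succ]; exact ih.mul h

theorem Rep.G_ne_zero {n : ℕ} (hn : n ≠ 0) {f : FG ι Γ N} (hf : f ≠ 0) {G : Mer}
    (hG : G ^ n = toM ι Γ N f) : G ≠ 0 := root_ne_zero' hn hf hG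

/-- the homomorphism is determined by the function -/
theorem Rep.unique {n : ℕ} [NeZero n] {x y : Additive Γ →+ ZMod n} {f : FG ι Γ N}
    (h : Rep ι Γ N n x f) (h' : Rep ι Γ N n y f) : x = y := by
  obtain ⟨hf, G, hG, hGx⟩ := h
  obtain ⟨hg, H, hH, hHy⟩ := h'
  have hG0 := root_ne_zero' (NeZero.ne n) hf hG
  have hH0 := root_ne_zero' (NeZero.ne n) hg hH
  have h1 : (G / H) ^ n = 1 := by
    rw [div_pow, hG, hH, div_self]
    rwa [map_ne_zero]
  obtain ⟨c, -, hc⟩ := exists_cM_of_pow_eq_one (NeZero.ne n) h1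
  rw [div_eq_iff hH0] at hc
  refine AddMonoidHom.ext fun γ' => mu_injective n ?_
  obtain ⟨γ, rfl⟩ := Additive.ofMul.surjective γ'
  have h2 := hGx γ
  rw [hc, map_mul, compMer_cM, hHy] at h2
  have hc0 : cM (c : ℂ) ≠ 0 := by rw [map_ne_zero]; exact c.ne_zero
  have h3 : cM (mu n (y (Additive.ofMul γ))) * (cM c * H) =
      cM (mu n (x (Additive.ofMul γ))) * (cM c * H) := by
    rw [← h2]; ring
  exact (Units.ext (cM.injective (mul_right_cancel₀ (mul_ne_zero hc0 hH0) h3))).symm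

theorem Rep.eq_zero_of_pow {n : ℕ} [NeZero n] {x : Additive Γ →+ ZMod n} {f h : FG ι Γ N}
    (hf : Rep ι Γ N n x f) (e : f = h ^ n) : x = 0 := by
  subst e
  refine hf.unique (rep_pow ?_)
  rintro rfl
  have h1 := hf.ne_zero
  rw [zero_pow (NeZero.ne n)] at h1
  exact h1 rfl

/-- reduction of the level -/
theorem Rep.cast {n k : ℕ} [NeZero n] [NeZero k] {x : Additive Γ →+ ZMod (n * k)} {f : FG ι Γ N}
    (h : Rep ι Γ N (n * k) x f) :
    Rep ι Γ N n ((ZMod.castHom (dvd_mul_right n k) (ZMod n) : ZMod (n * k) →+ ZMod n).comp x) f := by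
  obtain ⟨hf, G, hG, hGx⟩ := h
  refine ⟨hf, G ^ k, by rw [← pow_mul, mul_comm k n, hG], fun γ => ?_⟩
  rw [map_pow, hGx, _root_.mul_pow, ← map_pow, ← Units.val_pow_eq_pow_val]
  have h1 := mu_cast n k (x (Additive.ofMul γ))
  rw [← h1]
  rfl

/-- raising the level -/
theorem Rep.mulK {n k : ℕ} [NeZero n] [NeZero k] {x : Additive Γ →+ ZMod n} {f : FG ι Γ N}
    (h : Rep ι Γ N n x f) : Rep ι Γ N (n * k) ((mulK n k).comp x) (f ^ k) := by
  obtain ⟨hf, G, hG, hGx⟩ := h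
  refine ⟨pow_ne_zero _ hf, G, by rw [pow_mul, hG, map_pow], fun γ => ?_⟩
  rw [hGx, AddMonoidHom.comp_apply, mu_mulK]

/-- Hecke operators -/
theorem Rep.hdata {Γ' : Subgroup SL(2, ℤ)} {N' : ℕ}
    (H : HeckeHom.HData Γ Γ') (hpos : ∀ x, 0 < ((H.α x).det : ℝ)) {n : ℕ}
    {x : Additive Γ →+ ZMod n} {f : FG ι Γ N} (h : Rep ι Γ N n x f) {g : FG ι Γ' N'}
    (hg : toM ι Γ' N' g = ∏ c : H.X, compG (H.α c) (toM ι Γ N f)) :
    Rep ι Γ' N' n (H.hom (ZMod n) x) g := by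
  obtain ⟨hf, G, hG, hGx⟩ := h
  refine ⟨?_, ∏ c : H.X, compG (H.α c) G, ?_, fun γ => ?_⟩
  · rintro rfl
    rw [map_zero, eq_comm, Finset.prod_eq_zero_iff] at hg
    obtain ⟨c, -, hc⟩ := hg
    rw [map_eq_zero, map_eq_zero] at hc
    exact hf hc
  · rw [hg, ← Finset.prod_pow]
    refine Finset.prod_congr rfl fun c _ => ?_
    rw [← map_pow, hG]
  · have h1 : ∀ c : H.X, compMer (γ : SL(2, ℤ)) (compG (H.α c) G) =
        cM (mu n (x (Additive.ofMul (H.coc γ c)))) * compG (H.α (H.actFun γ c)) G := by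
      intro c
      rw [← compG_mapGL, ← compG_mul _ _ (hpos c) (det_mapGL_pos _), H.spec γ c,
        compG_mul _ _ (det_mapGL_pos _) (hpos _), compG_mapGL, hGx, map_mul, compG_cM]
    rw [map_prod, Finset.prod_congr rfl fun c _ => h1 c, Finset.prod_mul_distrib,
      HeckeHom.HData.hom_apply, mu_sum, Units.coe_prod, map_prod]
    congr 1
    exact Equiv.prod_comp (H.perm γ) (fun c => compG (H.α c) G)

/-- restriction to a subgroup -/
theorem Rep.res {Γ' : Subgroup SL(2, ℤ)} (hle : Γ' ≤ Γ) {n : ℕ} {x : Additive Γ →+ ZMod n}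
    {f : FG ι Γ N} (h : Rep ι Γ N n x f) :
    Rep ι Γ' N n (x.comp (MonoidHom.toAdditive (Subgroup.inclusion hle))) (inclFG hle f) := by
  obtain ⟨hf, G, hG, hGx⟩ := h
  refine ⟨?_, G, ?_, fun γ => ?_⟩
  · rwa [map_ne_zero]
  · rw [hG, toM_inclFG]
  · exact hGx (Subgroup.inclusion hle γ)

variable [NeZero N] [Algebra ℚ L] [IsAlgClosed L] [hMF : MF ι Γ N]

/-- functions representing the same homomorphism agree up to `n`-th powers -/
theorem Rep.exists_pow {n : ℕ} [NeZero n] {x : Additive Γ →+ ZMod n} {f g : FG ι Γ N}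
    (h : Rep ι Γ N n x f) (h' : Rep ι Γ N n x g) : ∃ u : FG ι Γ N, u ≠ 0 ∧ f = g * u ^ n := by
  have h1 := h.div h'
  rw [sub_self] at h1
  obtain ⟨hfg, G, hG, hGx⟩ := h1
  obtain ⟨u, hu, -⟩ := exists_of_invariant' (NeZero.ne n) hfg hG (fun γ hγ => by
    have h2 := hGx ⟨γ, hγ⟩
    rw [AddMonoidHom.zero_apply, mu_zero, Units.val_one, map_one, one_mul] at h2
    exact h2)
  refine ⟨u, ?_, ?_⟩
  · rintro rfl
    rw [zero_pow (NeZero.ne n)] at hu
    exact hfg hu.symm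
  · rw [hu, mul_div_cancel₀ _ h'.ne_zero]

theorem rep_zero_iff {n : ℕ} [NeZero n] {f : FG ι Γ N} :
    Rep ι Γ N n 0 f ↔ ∃ u : FG ι Γ N, u ≠ 0 ∧ f = u ^ n := by
  constructor
  · intro h
    obtain ⟨u, hu, h1⟩ := h.exists_pow rep_one
    exact ⟨u, hu, by rw [h1, one_mul]⟩
  · rintro ⟨u, hu, rfl⟩
    exact rep_pow hu

/-- represented homomorphisms kill parabolic and elliptic elements iff the divisor is divisible by
`n` -/
theorem Rep.dvd {n : ℕ} [NeZero n] {x : Additive Γ →+ ZMod n} {f : FG ι Γ N}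
    (h : Rep ι Γ N n x f) (hx : x ∈ PE Γ (ZMod n)) (v : Place L (FG ι Γ N)) :
    (n : ℤ) ∣ v.ord f := by
  obtain ⟨hf, G, hG, hGx⟩ := h
  let χ : Γ →* ℂˣ := AddMonoidHom.toMultiplicativeRight ((muHom n).comp x)
  have hχ : ∀ γ : Γ, χ γ = mu n (x (Additive.ofMul γ)) := fun γ => rfl
  refine dvd_ord_of_char (NeZero.ne n) hf hG (χ := χ) (fun γ => by rw [hχ]; exact hGx γ) ?_ ?_ v
  · intro γ hγ
    rw [hχ, hx.1 γ hγ, mu_zero]
  · intro γ τ hγ
    rw [hχ, hx.2 γ τ hγ, mu_zero]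

theorem exists_rep_of_dvd {n : ℕ} [NeZero n] {f : FG ι Γ N} (hf : f ≠ 0)
    (hn : ∀ v : Place L (FG ι Γ N), (n : ℤ) ∣ v.ord f) :
    ∃ x ∈ PE Γ (ZMod n), Rep ι Γ N n x f := by
  obtain ⟨G, hG⟩ := exists_root_mer' (NeZero.ne n) hf hn
  have hG0 := root_ne_zero' (NeZero.ne n) hf hG
  obtain ⟨χ, hχn, hχ⟩ := exists_char Γ (NeZero.ne n) hG0 (fun γ hγ => by
    rw [hG]
    exact compMer_toM hγ f)
  obtain ⟨x, hx⟩ := exists_lift n χ hχn
  have hx' : ∀ γ : Γ, mu n (x (Additive.ofMul γ)) = χ γ := by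
    intro γ
    exact congrArg Additive.toMul (DFunLike.congr_fun hx (Additive.ofMul γ))
  refine ⟨x, ⟨fun γ hγ => ?_, fun γ τ hγ => ?_⟩, hf, G, hG, fun γ => ?_⟩
  · apply mu_injective n
    rw [mu_zero, hx']
    exact char_parabolic' (NeZero.ne n) hf hn hG hχn hχ γ hγ
  · apply mu_injective n
    rw [mu_zero, hx']
    exact char_elliptic' (NeZero.ne n) hf hn hG γ.2 hγ (hχ γ)
  · rw [hx', hχ]

end Fermat.Agent.LG
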