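import Fermat.Agent.LG.Emb
import Fermat.Agent.TorsCmp.Parabolic
import Fermat.Agent.TorsCmp.Inject

/-!
# Roots of modular functions on `Γ` and their characters
-/

set_option autoImplicit false
set_option linter.unusedSectionVars false
set_option linter.style.haveILetI false

noncomputable section

open UpperHalfPlane Function ModularCurve Filter ModularForm AlgebraicCurve WithZero
  CongruenceSubgroup
open scoped Manifold MatrixGroups Topology ModularForm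

namespace Fermat.Agent.LG

open Fermat.Agent.X0Places Fermat.Agent.FunField Fermat.Agent.FunField.PlaceLemmas
open Fermat.Agent.TorsCmp
open Function.Periodic (qParam)

variable {L : Type*} [Field L] {ι : L →+* ℂ} {Γ : Subgroup SL(2, ℤ)} {N : ℕ}

/-- write a function as a quotient `a / b` -/
theorem exists_num_den (n : ℕ) (hn : n ≠ 0) (x : FG ι Γ N) : ∃ b c : AnR ι Γ N,
    algebraMap (AnR ι Γ N) (FG ι Γ N) b ≠ 0 ∧
      algebraMap (AnR ι Γ N) (FG ι Γ N) c = x * algebraMap (AnR ι Γ N) (FG ι Γ N) b ^ n := by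
  obtain ⟨a, b, hb, rfl⟩ := IsFractionRing.div_surjective (A := AnR ι Γ N) x
  have hb0 : algebraMap (AnR ι Γ N) (FG ι Γ N) b ≠ 0 := by
    rw [map_ne_zero_iff _ (IsFractionRing.injective _ _)]
    exact nonZeroDivisors.ne_zero hb
  refine ⟨b, a * b ^ (n - 1), hb0, ?_⟩
  obtain ⟨m, rfl⟩ := Nat.exists_eq_succ_of_ne_zero hn
  rw [map_mul, map_pow, Nat.succ_sub_one, pow_succ]
  field_simp

theorem root_ne_zero' {n : ℕ} (hn : n ≠ 0) {x : FG ι Γ N} (hx : x ≠ 0) {G : Mer}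
    (hG : G ^ n = toM ι Γ N x) : G ≠ 0 := by
  rintro rfl
  rw [zero_pow hn] at hG
  have : toM ι Γ N x ≠ 0 := by rwa [map_ne_zero]
  exact this hG.symm

theorem ordH_eq_of_root {n : ℕ} {G : Mer} {φ : Holo} (hφ0 : φ ≠ 0)
    (h : G ^ n = algebraMap Holo Mer φ) (hG0 : G ≠ 0) (τ : ℍ) :
    n ∣ (ordH τ (φ : ℍ → ℂ)).toNat := by
  obtain ⟨k, hk⟩ := exists_val_eq_exp (valMer τ) hG0
  have h1 : valMer τ (algebraMap Holo Mer φ) = exp (-((n : ℤ) * k)) := by
    rw [← h, map_pow, hk, ← exp_nsmul]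
    congr 1
    simp
  rw [valMer_algebraMap, valHolo_apply τ hφ0, exp_inj, neg_inj] at h1
  have h2 : (n : ℤ) ∣ ((ordH τ (φ : ℍ → ℂ)).toNat : ℤ) := ⟨k, h1⟩
  exact_mod_cast h2

/-- a meromorphic function whose power is holomorphic is holomorphic -/
theorem exists_holo_of_pow {n : ℕ} (hn0 : n ≠ 0) {y : Mer} {φ : Holo} (hφ0 : φ ≠ 0)
    (h : y ^ n = algebraMap Holo Mer φ) : ∃ H : Holo, algebraMap Holo Mer H = y := by
  have hy0 : y ≠ 0 := by
    rintro rfl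
    rw [zero_pow hn0] at h
    have := (map_ne_zero_iff _ (IsFractionRing.injective Holo Mer)).2 hφ0
    exact this h.symm
  obtain ⟨H, hH⟩ := exists_root_holo hφ0 hn0 (fun τ => ordH_eq_of_root hφ0 h hy0 τ)
  have hH0 : H ≠ 0 := by
    rintro rfl
    rw [zero_pow hn0] at hH
    exact hφ0 hH.symm
  have hH0' : algebraMap Holo Mer H ≠ 0 := by
    rwa [map_ne_zero_iff _ (IsFractionRing.injective Holo Mer)]
  have h1 : (y / algebraMap Holo Mer H) ^ n = 1 := by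
    rw [div_pow, h, ← map_pow, hH, div_self]
    rw [map_ne_zero_iff _ (IsFractionRing.injective Holo Mer)]
    exact hφ0
  obtain ⟨z, hz, hz'⟩ := exists_cM_of_pow_eq_one hn0 h1
  rw [div_eq_iff hH0'] at hz'
  refine ⟨constHolo z * H, ?_⟩
  rw [map_mul, hz']
  rfl

/-- reduction to holomorphic roots -/
theorem exists_holo' {n : ℕ} (hn0 : n ≠ 0) {x : FG ι Γ N} (hx : x ≠ 0) {G : Mer}
    (hG : G ^ n = toM ι Γ N x) :
    ∃ (b a : AnR ι Γ N) (H : Holo), algebraMap (AnR ι Γ N) (FG ι Γ N) b ≠ 0 ∧ H ≠ 0 ∧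
      algebraMap (AnR ι Γ N) (FG ι Γ N) a = x * algebraMap (AnR ι Γ N) (FG ι Γ N) b ^ n ∧
      algebraMap Holo Mer H = G * toM ι Γ N (algebraMap (AnR ι Γ N) (FG ι Γ N) b) ∧
      H ^ n = anHom ι Γ N a := by
  obtain ⟨b, c, hb0, hc1⟩ := exists_num_den n hn0 x
  set φ : Holo := anHom ι Γ N c with hφ
  have hφc : toM ι Γ N (algebraMap (AnR ι Γ N) (FG ι Γ N) c) = algebraMap Holo Mer φ := toM_coe c
  have hφ0 : φ ≠ 0 := by
    intro h
    rw [h, map_zero, map_eq_zero, hc1] at hφc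
    exact mul_ne_zero hx (pow_ne_zero _ hb0) hφc
  have h1 : (G * toM ι Γ N (algebraMap (AnR ι Γ N) (FG ι Γ N) b)) ^ n = algebraMap Holo Mer φ := by
    rw [mul_pow, hG, ← map_pow, ← map_mul, ← hc1, hφc]
  obtain ⟨H, hH⟩ := exists_holo_of_pow hn0 hφ0 h1
  have hHn : H ^ n = φ := by
    apply IsFractionRing.injective Holo Mer
    rw [map_pow, hH, h1]
  refine ⟨b, c, H, hb0, ?_, hc1, hH, hHn⟩
  rintro rfl
  rw [zero_pow hn0] at hHn
  exact hφ0 hHn.symm

theorem compMer_const (γ : SL(2, ℤ)) (c : ℂ) : compMer γ (cM c) = cM c := compMer_cM γ c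

/-- the holomorphic root has the same character -/
theorem holo_char {H : Holo} {G : Mer} {b : AnR ι Γ N} {χ : Γ →* ℂˣ}
    (hχ : ∀ γ : Γ, compMer (γ : SL(2, ℤ)) G = cM (χ γ) * G)
    (hHG : algebraMap Holo Mer H = G * toM ι Γ N (algebraMap (AnR ι Γ N) (FG ι Γ N) b))
    (γ : Γ) (τ : ℍ) : (H : ℍ → ℂ) ((γ : SL(2, ℤ)) • τ) = χ γ * (H : ℍ → ℂ) τ := by
  have h1 : compMer (γ : SL(2, ℤ)) (algebraMap Holo Mer H) = cM (χ γ) * algebraMap Holo Mer H := by
    rw [hHG, map_mul, hχ γ, compMer_toM γ.2]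
    ring
  rw [compMer_algebraMap, cM_apply, ← map_mul] at h1
  exact congrFun (congrArg Subtype.val (IsFractionRing.injective Holo Mer h1)) τ

theorem conj_T_pow_mem_gamma (N : ℕ) (γ : SL(2, ℤ)) :
    γ * ModularGroup.T ^ N * γ⁻¹ ∈ Gamma N := by
  have h1 : ModularGroup.T ^ N ∈ Gamma N := by
    rw [Gamma_mem]
    have h2 := ModularGroup.coe_T_zpow (N : ℤ)
    rw [zpow_natCast] at h2
    have h3 : ∀ i j, ((ModularGroup.T ^ N : SL(2, ℤ)) i j : ℤ) = !![1, (N : ℤ); 0, 1] i j := by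
      intro i j; rw [h2]
    refine ⟨?_, ?_, ?_, ?_⟩ <;> rw [h3] <;> simp
  exact (Gamma_normal N).conj_mem _ h1 γ

theorem trace_conj_T_zpow (γ : SL(2, ℤ)) (m : ℤ) :
    ((γ * ModularGroup.T ^ m * γ⁻¹ : SL(2, ℤ)) : Matrix (Fin 2) (Fin 2) ℤ).trace ^ 2 = 4 := by
  have h1 : ((γ * ModularGroup.T ^ m * γ⁻¹ : SL(2, ℤ)) : Matrix (Fin 2) (Fin 2) ℤ).trace =
      ((ModularGroup.T ^ m : SL(2, ℤ)) : Matrix (Fin 2) (Fin 2) ℤ).trace := by
    rw [Matrix.SpecialLinearGroup.coe_mul, Matrix.trace_mul_comm, ← Matrix.SpecialLinearGroup.coe_mul,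
      ← mul_assoc, inv_mul_cancel, one_mul]
  rw [h1, ModularGroup.coe_T_zpow, Matrix.trace_fin_two]
  simp

/-- trivial on elements of trace `± 2` -/
def IsPar (χ : Γ →* ℂˣ) : Prop :=
  ∀ γ : Γ, ((γ : SL(2, ℤ)) : Matrix (Fin 2) (Fin 2) ℤ).trace ^ 2 = 4 → χ γ = 1

/-- trivial on elements with fixed points -/
def IsEll (χ : Γ →* ℂˣ) : Prop :=
  ∀ γ : Γ, ∀ τ : ℍ, (γ : SL(2, ℤ)) • τ = τ → χ γ = 1

variable [NeZero N]

/-- expansions of holomorphic roots with parabolic character -/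
theorem exists_exp_root {n : ℕ} (hn0 : n ≠ 0) {H φ : ℍ → ℂ} (hH : MDiff H)
    (hHφ : ∀ τ, H τ ^ n = φ τ) (δ : SL(2, ℤ)) {X : LaurentSeries ℂ}
    (hX : HasLaurent N (fun τ => φ (δ • τ)) X)
    (hT : ∀ τ, H ((δ * ModularGroup.T ^ N * δ⁻¹) • τ) = H τ) :
    ∃ y, HasLaurent N (fun τ => H (δ • τ)) y ∧ y ^ n = X := by
  obtain ⟨y, hy⟩ := exists_hasLaurent_root (N := N) (k := 1) hn0 (mdiff_comp_smul hH δ)
    (fun τ => hHφ (δ • τ)) hX (fun τ => by
      rw [mul_one]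
      have h1 := hT (δ • τ)
      rw [← h1, mul_smul, mul_smul, inv_smul_smul])
  rw [mul_one] at hy
  refine ⟨y, hy, ?_⟩
  have h1 := hasLaurent_pow hy n
  have h2 : (fun τ => H (δ • τ)) ^ n = fun τ => φ (δ • τ) := by
    funext τ; exact hHφ (δ • τ)
  rw [h2] at h1
  exact h1.unique (natCast_pos N) hX

/-- the cusp condition -/
theorem hcusp_of_char (hgam : Gamma N ≤ Γ) {n : ℕ} (hn0 : n ≠ 0) {x : FG ι Γ N} (hx : x ≠ 0)
    {G : Mer} (hG : G ^ n = toM ι Γ N x) {χ : Γ →* ℂˣ}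
    (hχ : ∀ γ : Γ, compMer (γ : SL(2, ℤ)) G = cM (χ γ) * G) (hpar : IsPar χ) (δ : SL(2, ℤ)) :
    ∃ y : LaurentSeries ℂ, y ^ n = cuspE ι Γ N δ x ∧
      ∀ m : ℤ, δ * ModularGroup.T ^ m * δ⁻¹ ∈ Γ →
        Fermat.Agent.ModPoly.twist (zetaN N ^ m) y = y := by
  obtain ⟨b, a, H, hb, hH0, ha, hHG, hHn⟩ := exists_holo' hn0 hx hG
  have hHχ := holo_char hχ hHG
  have hφ : ∀ τ, (H : ℍ → ℂ) τ ^ n = anFn a τ := fun τ =>
    congrFun (congrArg Subtype.val hHn) τ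
  have hinv : ∀ m : ℤ, δ * ModularGroup.T ^ m * δ⁻¹ ∈ Γ →
      ∀ τ, (H : ℍ → ℂ) ((δ * ModularGroup.T ^ m * δ⁻¹) • τ) = (H : ℍ → ℂ) τ := by
    intro m hm τ
    have h1 := hHχ ⟨_, hm⟩ τ
    rw [hpar ⟨_, hm⟩ (trace_conj_T_zpow δ m), Units.val_one, one_mul] at h1
    exact h1
  obtain ⟨y, hy, hyn⟩ := exists_exp_root hn0 H.2 hφ δ (hasLaurent_anExp δ a) (by
    intro τ
    have h1 := hinv N (by rw [zpow_natCast]; exact hgam (conj_T_pow_mem_gamma N δ)) τ
    rw [zpow_natCast] at h1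
    exact h1)
  have hbne : cuspE ι Γ N δ (algebraMap (AnR ι Γ N) (FG ι Γ N) b) ≠ 0 := by
    rwa [map_ne_zero]
  refine ⟨y / cuspE ι Γ N δ (algebraMap (AnR ι Γ N) (FG ι Γ N) b), ?_, fun m hm => ?_⟩
  · rw [div_pow, hyn, div_eq_iff (pow_ne_zero _ hbne), ← map_pow, ← map_mul, ← ha, cuspE_coe]
  · rw [map_div₀]
    congr 1
    · have h1 := hy.subst (h' := (N : ℝ)) (fun τ => ModularGroup.T ^ m • τ)
        (zetaN N ^ m) 1 (by
          intro τ
          rw [pow_one]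
          exact qParam_T_zpow N m τ)
      rw [qExpand_one_apply] at h1
      have h3 : (fun τ => (H : ℍ → ℂ) (δ • τ)) ∘ (fun τ => ModularGroup.T ^ m • τ) =
          (fun τ => (H : ℍ → ℂ) (δ • τ)) := by
        funext τ
        rw [comp_apply]
        have h4 := hinv m hm (δ • τ)
        rw [← h4, mul_smul, mul_smul, inv_smul_smul]
      rw [h3] at h1
      exact h1.unique (natCast_pos N) hy
    · rw [← cuspE_mul_T_zpow]
      have h1 : δ * ModularGroup.T ^ m = (δ * ModularGroup.T ^ m * δ⁻¹) * δ := by group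
      rw [h1, cuspE_mul hm]

variable [Algebra ℚ L] [IsAlgClosed L] [hMF : MF ι Γ N]

/-- **If `x = G ^ n` and `G` has a parabolic character the divisor of `x` is divisible by `n`.** -/
theorem dvd_ord_of_char {n : ℕ} (hn0 : n ≠ 0) {x : FG ι Γ N} (hx : x ≠ 0)
    {G : Mer} (hG : G ^ n = toM ι Γ N x) {χ : Γ →* ℂˣ}
    (hχ : ∀ γ : Γ, compMer (γ : SL(2, ℤ)) G = cM (χ γ) * G) (hpar : IsPar χ) (hell : IsEll χ)
    (v : Place L (FG ι Γ N)) : (n : ℤ) ∣ v.ord x := by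
  refine dvd_ord_of_root hn0 hx hG (fun γ hγ τ hτ => ?_)
    (hcusp_of_char (MF.gam ι) hn0 hx hG hχ hpar) v
  have h1 := hχ ⟨γ, hγ⟩
  rw [hell ⟨γ, hγ⟩ τ hτ, Units.val_one, map_one, one_mul] at h1
  exact h1

theorem dvd_valMer' {e n : ℤ} {x : FG ι Γ N} (hx : x ≠ 0)
    (hn : ∀ v : Place L (FG ι Γ N), n ∣ v.ord x) (τ : ℍ)
    (he : ∀ y : FG ι Γ N, y ≠ 0 → ∀ k : ℤ, valMer τ (toM ι Γ N y) = exp (-k) → e ∣ k) {k : ℤ}
    (hk : valMer τ (toM ι Γ N x) = exp (-k)) : e * n ∣ k := by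
  refine dvd_of_dvd_ord ((valMer τ).comap (toM ι Γ N)) (fun c => ?_) he hx hn hk
  rw [Valuation.comap_apply, toM_algebraMap, valMer_algebraMap]
  exact valHolo_le_one _ _

/-- Existence of roots. -/
theorem exists_root_mer' {n : ℕ} (hn0 : n ≠ 0) {x : FG ι Γ N} (hx : x ≠ 0)
    (hn : ∀ v : Place L (FG ι Γ N), (n : ℤ) ∣ v.ord x) : ∃ G : Mer, G ^ n = toM ι Γ N x := by
  obtain ⟨b, c, hb0, hc1⟩ := exists_num_den n hn0 x
  have hc0 : algebraMap (AnR ι Γ N) (FG ι Γ N) c ≠ 0 := by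
    rw [hc1]
    exact mul_ne_zero hx (pow_ne_zero _ hb0)
  have hcn : ∀ v : Place L (FG ι Γ N),
      (n : ℤ) ∣ v.ord (algebraMap (AnR ι Γ N) (FG ι Γ N) c) := by
    intro v
    rw [hc1, v.ord_mul hx (pow_ne_zero _ hb0), ord_pow]
    exact dvd_add (hn v) (dvd_mul_right _ _)
  set φ : Holo := anHom ι Γ N c with hφ
  have hφc : toM ι Γ N (algebraMap (AnR ι Γ N) (FG ι Γ N) c) = algebraMap Holo Mer φ := toM_coe c
  have hφ0 : φ ≠ 0 := by
    intro h
    rw [h, map_zero, map_eq_zero] at hφc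
    exact hc0 hφc
  obtain ⟨G, hG⟩ := exists_root_holo hφ0 hn0 (by
    intro τ
    have h1 := dvd_valMer' (e := 1) hc0 hcn τ (fun _ _ k _ => one_dvd k)
      (k := ((ordH τ (φ : ℍ → ℂ)).toNat : ℤ)) (by
        rw [hφc, valMer_algebraMap, valHolo_apply τ hφ0])
    rw [one_mul] at h1
    exact_mod_cast h1)
  refine ⟨algebraMap Holo Mer G / toM ι Γ N (algebraMap (AnR ι Γ N) (FG ι Γ N) b), ?_⟩
  have hb1 : toM ι Γ N (algebraMap (AnR ι Γ N) (FG ι Γ N) b) ≠ 0 := by rwa [map_ne_zero]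
  rw [div_pow, ← map_pow, hG, ← hφc, hc1, map_mul, map_pow, mul_div_assoc,
    div_self (pow_ne_zero _ hb1), mul_one]

/-- The character of a root is trivial on elliptic elements. -/
theorem char_elliptic' {n : ℕ} (hn0 : n ≠ 0) {x : FG ι Γ N} (hx : x ≠ 0)
    (hn : ∀ v : Place L (FG ι Γ N), (n : ℤ) ∣ v.ord x) {G : Mer} (hG : G ^ n = toM ι Γ N x)
    {γ : SL(2, ℤ)} (hγN : γ ∈ Γ) {τ : ℍ} (hγ : γ • τ = τ) {c : ℂˣ}
    (hc : compMer γ G = cM c * G) : c = 1 := by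
  have hx' : toM ι Γ N x ≠ 0 := by rwa [map_ne_zero]
  have hG0 := root_ne_zero' hn0 hx hG
  obtain ⟨k, hk⟩ := exists_val_eq_exp (valMer τ) hG0
  have h1 : valMer τ (toM ι Γ N x) = exp (-((n : ℤ) * k)) := by
    rw [← hG, map_pow, hk, ← exp_nsmul]
    congr 1
    simp
  have h2 := dvd_valMer' (e := orderOf (derivAt γ τ)) hx hn τ (by
    intro y hy k hk
    refine orderOf_dvd_of_compMer_eq hγ (by rwa [map_ne_zero]) ?_ hk
    exact compMer_toM hγN y) h1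
  rw [mul_comm (n : ℤ) k] at h2
  have hn' : (n : ℤ) ≠ 0 := by exact_mod_cast hn0
  have h3 := (mul_dvd_mul_iff_right hn').1 h2
  have h4 := eq_derivAt_zpow hγ hG0 hc hk
  have h5 : derivAt γ τ ^ k = 1 := by
    obtain ⟨j, rfl⟩ := h3
    rw [zpow_mul, zpow_natCast, pow_orderOf_eq_one, one_zpow]
  exact Units.ext (h4.trans h5)

/-- The character of a root is trivial on elements conjugate to a translation. -/
theorem char_conj_T' {n : ℕ} (hn0 : n ≠ 0) {x : FG ι Γ N} (hx : x ≠ 0)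
    (hn : ∀ v : Place L (FG ι Γ N), (n : ℤ) ∣ v.ord x) {G : Mer} (hG : G ^ n = toM ι Γ N x)
    {χ : Γ →* ℂˣ} (hχn : ∀ γ, χ γ ^ n = 1)
    (hχ : ∀ γ : Γ, compMer (γ : SL(2, ℤ)) G = cM (χ γ) * G) (E : Γ)
    (δ : SL(2, ℤ)) (m : ℤ) (hE : (E : SL(2, ℤ)) = δ * ModularGroup.T ^ m * δ⁻¹) : χ E = 1 := by
  have : NeZero n := ⟨hn0⟩
  obtain ⟨b, a, H, hb, hH0, ha, hHG, hHn⟩ := exists_holo' hn0 hx hG
  have hHχ := holo_char hχ hHG
  have hφ : ∀ τ, (H : ℍ → ℂ) τ ^ n = anFn a τ := fun τ =>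
    congrFun (congrArg Subtype.val hHn) τ
  set A : FG ι Γ N := algebraMap (AnR ι Γ N) (FG ι Γ N) a with hA
  set X := cuspE ι Γ N δ A with hX
  have hXL : HasLaurent N (fun τ => anFn a (δ • τ)) X := by
    rw [hX, cuspE_coe]
    exact hasLaurent_anExp δ a
  obtain ⟨y, hy⟩ := exists_hasLaurent_root (N := N) (k := n) hn0 (mdiff_comp_smul H.2 δ)
    (fun τ => hφ (δ • τ)) hXL (fun τ => by
      set E' : Γ := ⟨δ * ModularGroup.T ^ N * δ⁻¹, MF.gam ι (conj_T_pow_mem_gamma N δ)⟩ with hE'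
      have h1 := hHχ (E' ^ n) (δ • τ)
      rw [map_pow, hχn, Units.val_one, one_mul] at h1
      rw [← h1, Subgroup.coe_pow, hE', conj_pow, ← pow_mul, mul_smul, mul_smul, inv_smul_smul])
  have hpos : (0 : ℝ) < ((N * n : ℕ) : ℝ) := natCast_pos (N * n)
  have hyn : y ^ n = qExpand ℂ n X := by
    have h1 := hasLaurent_pow hy n
    have h2 := hXL.subst (h' := ((N * n : ℕ) : ℝ)) (id : ℍ → ℍ) 1 n (by
      intro τ
      rw [Units.val_one, one_mul, id]
      have hN : (N : ℝ) ≠ 0 := by exact_mod_cast NeZero.ne N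
      have := qParam_mul_width (h := (N : ℝ)) hN n (τ : ℂ)
      rw [← this]
      congr 2
      push_cast
      ring)
    rw [Fermat.Agent.ModPoly.twist_one] at h2
    have h3 : ((fun τ => (H : ℍ → ℂ) (δ • τ)) ^ n) =
        (fun τ => anFn a (δ • τ)) ∘ (id : ℍ → ℍ) := by
      funext τ
      exact hφ (δ • τ)
    rw [h3] at h1
    exact h1.unique hpos h2
  have ha0 : A ≠ 0 := by
    rw [ha]
    exact mul_ne_zero hx (pow_ne_zero _ hb)
  have hX0 : X ≠ 0 := by rw [hX, map_ne_zero]; exact ha0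
  have hqX0 : qExpand ℂ n X ≠ 0 := by
    rw [map_ne_zero_iff _ (qExpand_injective n)]; exact hX0
  have hy0 : y ≠ 0 := by
    rintro rfl
    rw [zero_pow hn0] at hyn
    exact hqX0 hyn.symm
  have hord : y.order = X.order := by
    have h1 := congrArg HahnSeries.order hyn
    rw [HahnSeries.order_pow, order_qExpand n X hX0] at h1
    have h2 : (n : ℤ) ≠ 0 := by exact_mod_cast hn0
    rw [nsmul_eq_mul] at h1
    exact mul_left_cancel₀ h2 h1
  -- twisting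
  have htw : Fermat.Agent.ModPoly.twist (zetaN (N * n) ^ m) y = HahnSeries.C (χ E : ℂ) * y := by
    have h1 := hy.subst (h' := ((N * n : ℕ) : ℝ)) (fun τ => ModularGroup.T ^ m • τ)
      (zetaN (N * n) ^ m) 1 (by
        intro τ
        rw [pow_one]
        exact qParam_T_zpow (N * n) m τ)
    rw [qExpand_one_apply] at h1
    have h2 : HasLaurent (N * n : ℕ) ((fun _ => (χ E : ℂ)) * (fun τ => (H : ℍ → ℂ) (δ • τ)))
        (HahnSeries.C (χ E : ℂ) * y) := (HasLaurent.const _).mul hy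
    have h3 : (fun τ => (H : ℍ → ℂ) (δ • τ)) ∘ (fun τ => ModularGroup.T ^ m • τ) =
        ((fun _ => (χ E : ℂ)) * (fun τ => (H : ℍ → ℂ) (δ • τ))) := by
      funext τ
      rw [comp_apply, Pi.mul_apply]
      rw [← hHχ E (δ • τ), hE, mul_smul, mul_smul, inv_smul_smul]
    rw [h3] at h1
    exact h1.unique hpos h2
  have hcoef := congrArg (fun z => z.coeff y.order) htw
  simp only [Fermat.Agent.ModPoly.twist_coeff] at hcoef
  rw [HahnSeries.C_mul_eq_smul, HahnSeries.coeff_smul, smul_eq_mul] at hcoef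
  have hlead := HahnSeries.coeff_order_eq_zero.not.2 hy0
  have hval := mul_right_cancel₀ hlead hcoef
  -- divisibility
  have hdvd : (orderOf (zetaN N ^ m) : ℤ) * n ∣ X.order := by
    refine dvd_of_dvd_ord (L := L) (valLaur.comap (cuspE ι Γ N δ)) (fun c => ?_) ?_ ha0 ?_
      (by rw [Valuation.comap_apply, ← hX, valLaur_apply hX0])
    · rw [Valuation.comap_apply, cuspE_algebraMap]
      rcases eq_or_ne (ι c) 0 with h | h
      · rw [h]; simp
      · rw [valLaur_apply (by simpa using h), HahnSeries.C_apply, HahnSeries.order_single h]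
        simp
    · intro z hz k hk
      have hz0 : cuspE ι Γ N δ z ≠ 0 := by rwa [map_ne_zero]
      rw [Valuation.comap_apply, valLaur_apply hz0, exp_inj, neg_inj] at hk
      rw [← hk]
      apply dvd_order_of_twist_eq hz0
      rw [← cuspE_mul_T_zpow]
      have h1 : δ * ModularGroup.T ^ m = (E : SL(2, ℤ)) * δ := by rw [hE]; group
      rw [h1, cuspE_mul E.2]
    · intro v
      rw [ha, v.ord_mul hx (pow_ne_zero _ hb), ord_pow]
      exact dvd_add (hn v) (dvd_mul_right _ _)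
  obtain ⟨j, hj⟩ := hdvd
  have hfin : (zetaN (N * n) ^ m) ^ y.order = 1 := by
    have h1 : (zetaN (N * n) ^ m) ^ ((orderOf (zetaN N ^ m) : ℤ) * n * j) =
        (((zetaN (N * n) ^ n) ^ m) ^ (orderOf (zetaN N ^ m))) ^ j := by
      simp only [← zpow_natCast, ← zpow_mul]
      congr 1
      ring
    rw [hord, hj, h1, zetaN_mul_pow, pow_orderOf_eq_one, one_zpow]
  rw [hfin] at hval
  exact (Units.ext hval).symm

/-- The character of a root is trivial on parabolic elements. -/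
theorem char_parabolic' {n : ℕ} (hn0 : n ≠ 0) {x : FG ι Γ N} (hx : x ≠ 0)
    (hn : ∀ v : Place L (FG ι Γ N), (n : ℤ) ∣ v.ord x) {G : Mer} (hG : G ^ n = toM ι Γ N x)
    {χ : Γ →* ℂˣ} (hχn : ∀ γ, χ γ ^ n = 1)
    (hχ : ∀ γ : Γ, compMer (γ : SL(2, ℤ)) G = cM (χ γ) * G) : IsPar χ := by
  intro E hE
  have hG0 := root_ne_zero' hn0 hx hG
  have hnegΓ : (-1 : SL(2, ℤ)) ∈ Γ := MF.neg (ι := ι) (N := N)
  obtain ⟨δ, hδ⟩ := Fermat.Agent.Period.exists_conj_upper (E : SL(2, ℤ)) hE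
  set M := δ⁻¹ * (E : SL(2, ℤ)) * δ with hM
  have hdet : M 0 0 * M 1 1 = 1 := by
    have := Fermat.Agent.JInv.det_eq M
    rw [hδ] at this
    simpa using this
  rcases Int.eq_one_or_neg_one_of_mul_eq_one hdet with h | h
  · have h1 : M 1 1 = 1 := by rw [h, one_mul] at hdet; exact hdet
    have h2 : M = ModularGroup.T ^ (M 0 1) := by
      ext i j
      rw [ModularGroup.coe_T_zpow]
      fin_cases i <;> fin_cases j <;> simp [h, h1, hδ]
    apply char_conj_T' hn0 hx hn hG hχn hχ E δ (M 0 1)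
    rw [← h2, hM]
    group
  · have h1 : M 1 1 = -1 := by rw [h] at hdet; linarith
    obtain ⟨t, ht⟩ : ∃ t, t = M 0 1 := ⟨_, rfl⟩
    have h2 : M = -ModularGroup.T ^ (-t) := by
      ext i j
      rw [Matrix.SpecialLinearGroup.coe_neg, ModularGroup.coe_T_zpow]
      fin_cases i <;> fin_cases j <;> simp [h, h1, hδ, ht]
    have hneg : χ ⟨-1, hnegΓ⟩ = 1 := by
      have h3 := hχ ⟨-1, hnegΓ⟩
      have h4 : compMer (-1) G = _ := h3
      rw [compMer_neg_one] at h4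
      have h5 : (1 : Mer) * G = cM (χ ⟨-1, hnegΓ⟩) * G := by rw [one_mul]; exact h4
      have h6 := mul_right_cancel₀ hG0 h5
      rw [← map_one cM] at h6
      exact Units.ext (cM.injective h6).symm
    have h3 := char_conj_T' hn0 hx hn hG hχn hχ (⟨-1, hnegΓ⟩ * E) δ (-t) (by
      have h4 : (E : SL(2, ℤ)) = δ * M * δ⁻¹ := by rw [hM]; group
      rw [Subgroup.coe_mul, h4, h2]
      show -1 * (δ * -ModularGroup.T ^ (-t) * δ⁻¹) = _
      rw [neg_mul, one_mul, mul_neg, neg_mul, neg_neg])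
    rw [map_mul, hneg, one_mul] at h3
    exact h3

omit [NeZero N] [Algebra ℚ L] [IsAlgClosed L] hMF in
theorem hasLaurent_comp_T {f : ℍ → ℂ} {y : LaurentSeries ℂ} (hf : HasLaurent 1 f y) (τ : ℍ) :
    f (ModularGroup.T • τ) = f τ := by
  have h0 : zetaN 1 = 1 := by
    have := orderOf_zetaN 1
    rwa [orderOf_eq_one_iff] at this
  have hf' : HasLaurent (1 : ℕ) f y := by rwa [Nat.cast_one]
  have h1 := hf'.subst (h' := ((1 : ℕ) : ℝ)) (fun τ => ModularGroup.T ^ (1 : ℤ) • τ)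
    (zetaN 1 ^ (1 : ℤ)) 1 (by
      intro τ
      rw [pow_one]
      exact qParam_T_zpow 1 1 τ)
  rw [qExpand_one_apply, h0, one_zpow, Fermat.Agent.ModPoly.twist_one] at h1
  have h2 := congrFun (h1.unique_fun hf') τ
  rw [comp_apply, zpow_one] at h2
  exact h2

omit [IsAlgClosed L] in
include hMF in
variable (ι Γ N) in
theorem T_mem : ModularGroup.T ∈ Γ := by
  apply MF.sep (ι := ι) (N := N)
  have h : (compMer ModularGroup.T).comp (toM ι Γ N) = toM ι Γ N := by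
    apply fg_ringHom_ext
    intro a
    rw [RingHom.comp_apply, toM_coe, compMer_algebraMap]
    congr 1
    apply Subtype.ext
    funext τ
    exact hasLaurent_comp_T (hasLaurent_anFn a) τ
  exact fun x => RingHom.congr_fun h x

/-- An invariant root is a function of the field (with the same constants). -/
theorem exists_of_invariant' {n : ℕ} (hn0 : n ≠ 0) {x : FG ι Γ N} (hx : x ≠ 0) {G : Mer}
    (hG : G ^ n = toM ι Γ N x) (hinv : ∀ γ ∈ Γ, compMer γ G = G) :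
    ∃ h : FG ι Γ N, h ^ n = x ∧ toM ι Γ N h = G := by
  have hchar : CharZero L := algebraRat.charZero L
  obtain ⟨b, a, H, hb, hH0, ha, hHG, hHn⟩ := exists_holo' hn0 hx hG
  have hHχ : ∀ γ ∈ Γ, ∀ τ, (H : ℍ → ℂ) (γ • τ) = (H : ℍ → ℂ) τ := by
    intro γ hγ τ
    have h1 := holo_char (χ := (1 : Γ →* ℂˣ)) (G := G) (b := b) (H := H) (fun γ => by
      rw [MonoidHom.one_apply, Units.val_one, map_one, one_mul]
      exact hinv γ γ.2) hHG ⟨γ, hγ⟩ τ
    rw [MonoidHom.one_apply, Units.val_one, one_mul] at h1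
    exact h1
  have hφ : ∀ τ, (H : ℍ → ℂ) τ ^ n = anFn a τ := fun τ =>
    congrFun (congrArg Subtype.val hHn) τ
  have hAn : IsAnG Γ N (H : ℍ → ℂ) := by
    refine ⟨H.2, fun γ => ?_, hHχ⟩
    obtain ⟨y, hy, -⟩ := exists_exp_root hn0 H.2 hφ γ (hasLaurent_anExp γ a)
      (fun τ => hHχ _ (MF.gam ι (conj_T_pow_mem_gamma N γ)) τ)
    exact ⟨y, hy⟩
  obtain ⟨y, hy⟩ : ∃ y, HasLaurent 1 (H : ℍ → ℂ) y := by
    obtain ⟨y, hy⟩ := hAn.exp 1
    have h1 : (fun τ => (H : ℍ → ℂ) ((1 : SL(2, ℤ)) • τ)) = (H : ℍ → ℂ) := by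
      funext τ; rw [one_smul]
    rw [h1] at hy
    exact hasLaurent_one_of_T hy fun τ => hHχ _ (T_mem ι Γ N) τ
  have hyn : y ^ n = coeffMap ι (a : LaurentSeries L) := by
    have h1 := hasLaurent_pow hy n
    have h2 : (H : ℍ → ℂ) ^ n = anFn a := by
      funext τ; exact hφ τ
    rw [h2] at h1
    exact h1.unique one_pos (hasLaurent_anFn a)
  have ha0 : (a : LaurentSeries L) ≠ 0 := by
    intro h
    have h1 : algebraMap (AnR ι Γ N) (FG ι Γ N) a ≠ 0 := by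
      rw [ha]
      exact mul_ne_zero hx (pow_ne_zero _ hb)
    exact h1 (Subtype.ext h)
  obtain ⟨w, hw, hwy⟩ := exists_coeffMap_eq_of_pow ι (n := n) (by exact_mod_cast hn0)
    ha0 hyn
  have hwA : w ∈ AnR ι Γ N := ⟨_, hAn, by rw [hwy]; exact hy⟩
  set w' : FG ι Γ N := algebraMap (AnR ι Γ N) (FG ι Γ N) ⟨w, hwA⟩ with hw'
  have hw'n : w' ^ n = algebraMap (AnR ι Γ N) (FG ι Γ N) a := Subtype.ext hw
  have hw'H : toM ι Γ N w' = algebraMap Holo Mer H := by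
    apply toM_of_mem H hAn
    show HasLaurent 1 _ (coeffMap ι w)
    rw [hwy]
    exact hy
  have hb1 : toM ι Γ N (algebraMap (AnR ι Γ N) (FG ι Γ N) b) ≠ 0 := by rwa [map_ne_zero]
  refine ⟨w' / algebraMap (AnR ι Γ N) (FG ι Γ N) b, ?_, ?_⟩
  · rw [div_pow, hw'n, ha, mul_div_assoc, div_self (pow_ne_zero _ hb), mul_one]
  · rw [map_div₀, hw'H, hHG, mul_div_assoc, div_self hb1, mul_one]

end Fermat.Agent.LG
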