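import Fermat.Agent.LG.Deg

/-!
# Classes coming from level `N` at a place above `q`
-/

set_option autoImplicit false
set_option linter.unusedSectionVars false
set_option linter.style.haveILetI false

noncomputable section

open UpperHalfPlane Function ModularCurve Filter ModularForm AlgebraicCurve WithZero
  CongruenceSubgroup
open scoped Manifold MatrixGroups Topology ModularForm

namespace Fermat.Agent.LG

open Fermat.Agent.X0Places Fermat.Agent.FunField Fermat.Agent.FunField.PlaceLemmas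
open Fermat.Agent.TorsCmp Fermat.Agent.Igusa Fermat.Agent.LGRes Fermat.Agent.LGR
open Fermat.Agent.HeckeHom (HData)
open Matrix.SpecialLinearGroup (mapGL)

section Img

variable {L : Type*} [Field L] [Algebra ℚ L] [CharZero L] [IsAlgClosed L] {ι : L →+* ℂ}
variable (A : ValuationSubring L) {κ : Type*} [Field κ] [IsAlgClosed κ] (π : A →+* κ)
  [IsLocalHom π] (hπ : Function.Surjective π) (N : ℕ) [NeZero N]

theorem gaussImage_FG_good (hFG : FG ι (Gamma0 N) N = modularFunctionFieldFullC L N)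
    (hK : IsTameField (FG ι (Gamma0 N) N)) (hN : (N : κ) ≠ 0) :
    gaussImage A π hK hπ ≤ modularFunctionFieldFullC κ N := by
  rw [gaussImage_congr A π hπ hFG hK (isTameField_full N)]
  exact gaussImage_good A π hπ N hN

theorem full_le_gaussImage_FG (hFG : FG ι (Gamma0 N) N = modularFunctionFieldFullC L N)
    (hK : IsTameField (FG ι (Gamma0 N) N)) :
    modularFunctionFieldFullC κ N ≤ gaussImage A π hK hπ := by
  rw [gaussImage_congr A π hπ hFG hK (isTameField_full N)]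
  exact full_le_gaussImage A π hπ N

theorem gaussImage_FG_bad (r : ℕ) [hr : Fact r.Prime] [NeZero r] [CharP κ r] (hrN : ¬ r ∣ N)
    (hFG : FG ι (Gamma0 (N * r)) (N * r) = modularFunctionFieldFullC L (N * r))
    (hK : IsTameField (FG ι (Gamma0 (N * r)) (N * r)))
    (harch : ∀ a : A, π a = 0 → ∀ b : L, ∃ B : ℕ, (a : L) ^ B * b ∈ A) :
    gaussImage A π hK hπ ≤ modularFunctionFieldFullC κ N := by
  rw [gaussImage_congr A π hπ hFG hK (isTameField_full (N * r))]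
  exact gaussImage_le A π hπ N r hrN (IsArch.archA harch)

end Img

section Main

variable {A : ValuationSubring (AlgebraicClosure ℚ)} {κ : Type*} [Field κ]
    [IsAlgClosed κ] {π : A →+* κ} [hloc : IsLocalHom π] (hπ : Function.Surjective π)
    (harch : ∀ a : A, π a = 0 → ∀ b : AlgebraicClosure ℚ, ∃ B : ℕ,
      (a : AlgebraicClosure ℚ) ^ B * b ∈ A)
    {ι : AlgebraicClosure ℚ →+* ℂ} {N q : ℕ} [NeZero N] [hq : Fact q.Prime] [NeZero q]
    [CharP κ q] (hqN : ¬ q ∣ N)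
    [MF ι (Gamma0 N) N] [MF ι (Gamma0 (N * q)) (N * q)] [GalSt ι (Gamma0 N) N]
    [RepEx ι (Gamma0 N) N] [RepEx ι (Gamma0 (N * q)) (N * q)]
    (hFG : FG ι (Gamma0 N) N = modularFunctionFieldFullC (AlgebraicClosure ℚ) N)
    (hFG' : FG ι (Gamma0 (N * q)) (N * q) =
      modularFunctionFieldFullC (AlgebraicClosure ℚ) (N * q))
    (hK : IsTameField (FG ι (Gamma0 N) N))
    (hK' : IsTameField (FG ι (Gamma0 (N * q)) (N * q)))
    {p : ℕ} [hp : Fact p.Prime] (hpκ : (p : κ) ≠ 0)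

include hπ harch hqN hFG hFG' hK hK' hpκ in
theorem key2 {r : ℕ} (hq1 : q = 1 + p * r) {Φ : AlgebraicClosure ℚ ≃ₐ[ℚ] AlgebraicClosure ℚ}
    (hΦ : A.IsFrobeniusAt Φ q) (a b : PE (Gamma0 N) (ZMod p))
    {f : FG ι (Gamma0 (N * q)) (N * q)}
    (hf : Rep ι (Gamma0 (N * q)) (N * q) p ((alphaPull N q).hom (ZMod p) a +
      (betaPull N q).hom (ZMod p) b) f) {y : LaurentSeries κ}
    (hy : y ∈ gaussImage A π hK' hπ) (hy0 : y ≠ 0)
    (hr : Red A π (f : LaurentSeries (AlgebraicClosure ℚ)) (y ^ p)) :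
    have : NeZero p := ⟨hp.out.ne_zero⟩
    galH ι N p Φ a + b = 0 := by
  intro hp0
  have hNκ : (N : κ) ≠ 0 := by
    rw [Ne, CharP.cast_eq_zero_iff κ q]
    exact hqN
  obtain ⟨fa₀, hfa₀⟩ := RepEx.ex (ι := ι) (Γ := Gamma0 N) (N := N) p
    (a : Additive (Gamma0 N) →+ ZMod p) a.2
  obtain ⟨fb₀, hfb₀⟩ := RepEx.ex (ι := ι) (Γ := Gamma0 N) (N := N) p
    (b : Additive (Gamma0 N) →+ ZMod p) b.2
  obtain ⟨fa, hfa, ya, hya, hra⟩ := exists_rep_red (A := A) (π := π) hK hfa₀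
  obtain ⟨fb, hfb, yb, hyb, hrb⟩ := exists_rep_red (A := A) (π := π) hK hfb₀
  have hg := (rep_alpha N q ι hfa).mul (rep_beta N q ι hfb)
  obtain ⟨u, hu, hfu⟩ := hf.exists_pow hg
  have hu' : (u : LaurentSeries (AlgebraicClosure ℚ)) ≠ 0 := fun h => hu (Subtype.ext h)
  obtain ⟨c, hc, w, yw, hyw, hw, hcw⟩ := exists_norm (A := A) (π := π) (le_tameQ hK' u.2) hu'
  have hwmem : w ∈ FG ι (Gamma0 (N * q)) (N * q) := by
    have h1 : w = algebraMap (AlgebraicClosure ℚ) (LaurentSeries (AlgebraicClosure ℚ)) c⁻¹ *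
        (u : LaurentSeries (AlgebraicClosure ℚ)) := by
      rw [hcw, ← mul_assoc, ← map_mul, inv_mul_cancel₀ hc, map_one, one_mul]
    rw [h1]
    exact mul_mem ((FG ι (Gamma0 (N * q)) (N * q)).algebraMap_mem _) u.2
  have hywmem : yw ∈ gaussImage A π hK' hπ := by
    rw [mem_gaussImage_iff_red hπ hK']
    exact ⟨w, hwmem, hw⟩
  have hqyb : qExpand κ q yb ≠ 0 := fun h => hyb (qExpand_injective q (h.trans (map_zero _).symm))
  -- the reduction
  have h1 : Red A π ((fa : LaurentSeries (AlgebraicClosure ℚ)) *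
      qExpand (AlgebraicClosure ℚ) q (fb : LaurentSeries (AlgebraicClosure ℚ)) * w ^ p)
      (ya * qExpand κ q yb * yw ^ p) := (hra.mul (Fermat.Agent.LG.Red.qExpand hrb q)).mul (hw.pow p)
  have h2 : (f : LaurentSeries (AlgebraicClosure ℚ)) =
      algebraMap (AlgebraicClosure ℚ) (LaurentSeries (AlgebraicClosure ℚ)) (c ^ p) *
      ((fa : LaurentSeries (AlgebraicClosure ℚ)) *
      qExpand (AlgebraicClosure ℚ) q (fb : LaurentSeries (AlgebraicClosure ℚ)) * w ^ p) := by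
    have h3 : (f : LaurentSeries (AlgebraicClosure ℚ)) =
        (fa : LaurentSeries (AlgebraicClosure ℚ)) *
        qExpand (AlgebraicClosure ℚ) q (fb : LaurentSeries (AlgebraicClosure ℚ)) *
        (u : LaurentSeries (AlgebraicClosure ℚ)) ^ p :=
      congrArg (fun z : FG ι (Gamma0 (N * q)) (N * q) =>
        (z : LaurentSeries (AlgebraicClosure ℚ))) hfu
    rw [h3, hcw, mul_pow, map_pow]
    ring
  rw [h2] at hr
  have hne : ya * qExpand κ q yb * yw ^ p ≠ 0 :=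
    mul_ne_zero (mul_ne_zero hya hqyb) (pow_ne_zero _ hyw)
  obtain ⟨hcA, hy'⟩ := mem_of_red_mul h1 hne hr
  have hcA' : c ∈ A := mem_of_pow_mem hp.out.ne_zero hcA
  set cb := π ⟨c, hcA'⟩ with hcb
  have h4 : π ⟨c ^ p, hcA⟩ = cb ^ p := by
    rw [hcb, ← map_pow]; rfl
  rw [h4] at hy'
  have hcb0 : cb ≠ 0 := by
    intro h0
    rw [h0, zero_pow hp.out.ne_zero, map_zero, zero_mul] at hy'
    exact pow_ne_zero _ hy0 hy'
  have hcbL : algebraMap κ (LaurentSeries κ) cb ≠ 0 := by rwa [Ne, map_eq_zero]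
  set v : LaurentSeries κ := y / (algebraMap κ (LaurentSeries κ) cb * yw) with hv
  have hvp : v ^ p = ya * qExpand κ q yb := by
    rw [hv, div_pow, hy', mul_pow, map_pow (algebraMap κ (LaurentSeries κ)) cb p,
      mul_div_mul_left _ _ (pow_ne_zero p hcbL), mul_div_cancel_right₀ _ (pow_ne_zero _ hyw)]
  have hv0 : v ≠ 0 := div_ne_zero hy0 (mul_ne_zero hcbL hyw)
  have hvmem : v ∈ gaussImage A π hK' hπ :=
    div_mem hy (mul_mem ((gaussImage A π hK' hπ).algebraMap_mem cb) hywmem)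
  have hvN := full_le_gaussImage_FG A π hπ N hFG hK
    (gaussImage_FG_bad A π hπ N q hqN hFG' hK' harch hvmem)
  rw [mem_gaussImage_iff_red hπ hK] at hvN
  obtain ⟨vt, hvt, hvr⟩ := hvN
  -- apply Frobenius
  have e1 := congrArg (coeffMap (frobenius κ q)) hvp
  rw [map_pow, map_mul, coeffMap_qExpand, ← Fermat.Agent.HeckeRed.pow_char_laurent] at e1
  have hybr : yb ^ r ≠ 0 := pow_ne_zero _ hyb
  have e2 : (coeffMap (frobenius κ q) v / yb ^ r) ^ p = coeffMap (frobenius κ q) ya * yb := by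
    rw [div_pow, e1, ← pow_mul, div_eq_iff (pow_ne_zero _ hyb), mul_assoc, ← pow_succ']
    congr 2
    rw [hq1]; ring
  have hfr : coeffMap (frobenius κ q) v ≠ 0 := by
    rwa [Ne, map_eq_zero_iff _ (Fermat.Agent.ModPoly.coeffMap_injective (frobenius_inj κ q))]
  -- the function at level `N`
  have hgR : Rep ι (Gamma0 N) N p ((galH ι N p Φ a + b : PE (Gamma0 N) (ZMod p)) :
      Additive (Gamma0 N) →+ ZMod p) (galF ι (Gamma0 N) N Φ fa * fb) :=
    (rep_galH Φ hfa).mul hfb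
  have hgr : Red A π ((galF ι (Gamma0 N) N Φ fa * fb : FG ι (Gamma0 N) N) :
      LaurentSeries (AlgebraicClosure ℚ)) ((coeffMap (frobenius κ q) v / yb ^ r) ^ p) := by
    rw [e2]
    exact (Red.frob hΦ hra).mul hrb
  have hmem : coeffMap (frobenius κ q) v / yb ^ r ∈ modularFunctionFieldFullC κ N := by
    apply gaussImage_FG_good A π hπ N hFG hK hNκ
    rw [mem_gaussImage_iff_red hπ hK]
    refine ⟨((galF ι (Gamma0 N) N Φ ⟨vt, hvt⟩ / fb ^ r : FG ι (Gamma0 N) N) :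
      LaurentSeries (AlgebraicClosure ℚ)), Subtype.prop _, ?_⟩
    exact Red.div (Red.frob hΦ hvr) (hrb.pow r) hybr
  exact Subtype.ext (eq_zero_of_red hπ hFG hNκ hpκ
    (galH ι N p Φ a + b : PE (Gamma0 N) (ZMod p)).2 hgR hmem (div_ne_zero hfr hybr) hgr)

include hπ hFG hK hpκ hqN in
/-- the Eichler–Shimura relation at a good prime -/
theorem es_good {Φ : AlgebraicClosure ℚ ≃ₐ[ℚ] AlgebraicClosure ℚ}
    (hΦ : A.IsFrobeniusAt Φ q) (x Tx : PE (Gamma0 N) (ZMod p))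
    (hTx : (Tx : Additive (Gamma0 N) →+ ZMod p) =
      (tdata0 N hqN 1 (one_mem _)).H.hom (ZMod p) x) :
    have : NeZero p := ⟨hp.out.ne_zero⟩
    galH ι N p Φ (galH ι N p Φ x) - galH ι N p Φ Tx + q • x = 0 := by
  intro hp0
  have hNκ : (N : κ) ≠ 0 := by
    rw [Ne, CharP.cast_eq_zero_iff κ q]
    exact hqN
  have : PerfectRing κ q := PerfectRing.ofSurjective κ q (fun x => by
    obtain ⟨y, hy⟩ := IsAlgClosed.exists_pow_nat_eq x hq.out.pos
    exact ⟨y, hy⟩)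
  obtain ⟨ζ, hζ⟩ := exists_zeta ι q
  have hconj : (x : Additive (Gamma0 N) →+ ZMod p) =
      conjH 1 (conj_mem_gamma0 (one_mem (Gamma0 N))) (x : Additive (Gamma0 N) →+ ZMod p) := by
    refine AddMonoidHom.ext fun γ' => ?_
    obtain ⟨γ, rfl⟩ := Additive.ofMul.surjective γ'
    rw [conjH_apply]
    congr 2
    exact Subtype.ext (by simp)
  have h1 := TR_frob (κ := κ) (π := π) hK (tdata0 N hqN 1 (one_mem _)) (dia := RingHom.id _)
    (fun f => (compMer_toM (one_mem (Gamma0 N)) f).symm) (conj_mem_gamma0 (one_mem (Gamma0 N)))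
    hζ (n := p) (x := x) (Tx := Tx) (dx := x) hTx hconj hΦ
  obtain ⟨f, hf, hr⟩ := h1
  refine Subtype.ext (eq_zero_of_red hπ hFG hNκ hpκ (Subtype.prop _) hf
    (one_mem (modularFunctionFieldFullC κ N)) one_ne_zero ?_)
  rwa [one_pow]

variable {Γ : Subgroup SL(2, ℤ)} [MF ι Γ (N * q)] [GalSt ι Γ (N * q)] [RepEx ι Γ (N * q)]

include hπ harch hqN hFG hFG' hK hK' hpκ in
/-- **Consequence of trivial reduction for classes coming from level `N`.** -/
theorem step2a (G : Geo ι Γ (N * q) q p) (h2 : 2 ∣ N) (hp2 : p ≠ 2)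
    {r : ℕ} (hq1 : q = 1 + p * r)
    {ub : LaurentSeries κ} (hur : Red A π (G.u : LaurentSeries (AlgebraicClosure ℚ)) ub)
    (hub : ub ≠ 0) {Φ : AlgebraicClosure ℚ ≃ₐ[ℚ] AlgebraicClosure ℚ}
    (hΦ : A.IsFrobeniusAt Φ q) {k : Type*} [CommRing k] {a b : Additive (Gamma0 N) →+ k}
    (ha : a ∈ PE (Gamma0 N) k) (hb : b ∈ PE (Gamma0 N) k) {F : Additive Γ →+ k}
    (hF : F = ((alphaPull N q).hom k a + (betaPull N q).hom k b).comp
      (MonoidHom.toAdditive (Subgroup.inclusion G.cong.le)))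
    (hTR : ∀ φ : k →+ ZMod p, TR A π ι (N * q) p (φ.comp F))
    {l : ℕ} [hl : Fact l.Prime] (hlM : ¬ l ∣ N * q) (hlN : ¬ l ∣ N) {σ : SL(2, ℤ)}
    (hσ : σ ∈ Gamma0 (N * q))
    (hql : IsCoprime (q : ℤ) (l : ℤ)) (hσl : (q : ℤ) ∣ σ 1 1 - l) {t : k}
    (hta : (tdata0 N hlN 1 (one_mem _)).H.hom k a = (AddMonoidHom.mulLeft t).comp a)
    (htb : (tdata0 N hlN 1 (one_mem _)).H.hom k b = (AddMonoidHom.mulLeft t).comp b)
    (hu : IsUnit (t - (l + 1))) (φ : k →+ ZMod p) :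
    have : NeZero p := ⟨hp.out.ne_zero⟩
    galH ι N p Φ ⟨φ.comp a, comp_mem_PE φ ha⟩ + ⟨φ.comp b, comp_mem_PE φ hb⟩ = 0 := by
  intro hp0
  have hl0 : NeZero l := ⟨hl.out.ne_zero⟩
  obtain ⟨v, hv⟩ := hu
  obtain ⟨ζ, hζ⟩ := exists_zeta ι l
  have h4 : ∀ b : ZMod p, (4 : ℕ) • b = 0 → b = 0 := by
    have := zmod_four_torsionFree hp.out hp2 1
    rwa [pow_one] at this
  set ψ : k →+ ZMod p := φ.comp (AddMonoidHom.mulLeft ((v⁻¹ : kˣ) : k)) with hψ
  set E : Additive (Gamma0 (N * q)) →+ ZMod p := (alphaPull N q).hom (ZMod p) (ψ.comp a) +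
    (betaPull N q).hom (ZMod p) (ψ.comp b) with hE
  have hE' : E = ψ.comp ((alphaPull N q).hom k a + (betaPull N q).hom k b) := by
    rw [hE, HData.hom_comp, HData.hom_comp]
    refine AddMonoidHom.ext fun g => ?_
    simp only [AddMonoidHom.comp_apply, AddMonoidHom.add_apply, map_add]
  have h2M : 2 ∣ N * q := h2.mul_right q
  have hEPE : E ∈ PE (Gamma0 (N * q)) (ZMod p) := by
    refine mem_PE_of_parabolic h2M le_rfl h4 ?_
    have e1 := (alphaPull N q).isParabolicHom_hom (comp_mem_PE ψ ha).1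
    have e2 := (betaPull N q).isParabolicHom_hom (comp_mem_PE ψ hb).1
    intro γ hγ
    rw [hE, AddMonoidHom.add_apply, e1 γ hγ, e2 γ hγ, add_zero]
  obtain ⟨f₀, hf₀⟩ := RepEx.ex (ι := ι) (N := N * q) p E hEPE
  have hM0 : NeZero (N * q) := ⟨mul_ne_zero (NeZero.ne N) (NeZero.ne q)⟩
  obtain ⟨f, y, hy, hy0, hf, hr⟩ := exists_ext_red (A := A) (π := π) G.cong hlM hσ hql hσl hζ
    (G.dia σ) (G.hdia σ hσ) (G.hn σ hσ) hπ harch hK' hp2 hpκ G.gen G.tame hur hub G.pow_mem G.hχ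
    G.hχc G.hχm hf₀ (by
      have e1 : E.comp (MonoidHom.toAdditive (Subgroup.inclusion G.cong.le)) = ψ.comp F := by
        rw [hE', hF]; rfl
      rw [e1]
      exact hTR ψ)
  have hcomp : ∀ c : Additive (Gamma0 N) →+ k,
      (tdata0 N hlN 1 (one_mem _)).H.hom k c = (AddMonoidHom.mulLeft t).comp c →
      (tdata0 N hlN 1 (one_mem _)).H.hom (ZMod p) (ψ.comp c) - (l + 1) • ψ.comp c =
        φ.comp c := by
    intro c hc
    rw [HData.hom_comp, hc]
    refine AddMonoidHom.ext fun g => ?_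
    show φ ((v⁻¹ : kˣ) * (t * c g)) - (l + 1) • φ ((v⁻¹ : kˣ) * c g) = φ (c g)
    rw [← map_nsmul, ← map_sub]
    congr 1
    have e3 : ((v⁻¹ : kˣ) : k) * (t * c g) - (l + 1) • (((v⁻¹ : kˣ) : k) * c g) =
        ((v⁻¹ : kˣ) : k) * (t - (l + 1)) * c g := by
      rw [nsmul_eq_mul]; push_cast; ring
    rw [e3, ← hv, Units.inv_mul, one_mul]
  have hfin : (tdata0 (N * q) hlM σ hσ).H.hom (ZMod p) E - (l + 1) • E =
      (alphaPull N q).hom (ZMod p) (φ.comp a) + (betaPull N q).hom (ZMod p) (φ.comp b) := by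
    rw [hE, map_add, alpha_T N q hlM hlN hσ (one_mem (Gamma0 N)),
      beta_T N q hlM hlN hσ (one_mem (Gamma0 N)), ← hcomp a hta, ← hcomp b htb, map_sub, map_sub,
      map_nsmul, map_nsmul, smul_add]
    abel
  rw [hfin] at hf
  exact key2 hπ harch hqN hFG hFG' hK hK' hpκ hq1 hΦ ⟨φ.comp a, comp_mem_PE φ ha⟩
    ⟨φ.comp b, comp_mem_PE φ hb⟩ hf hy hy0 hr

include hπ hFG hK hpκ hqN in
/-- **Step 2.** -/
theorem step2 {r : ℕ} (hq1 : q = 1 + p * r) {Φ : AlgebraicClosure ℚ ≃ₐ[ℚ] AlgebraicClosure ℚ}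
    (hΦ : A.IsFrobeniusAt Φ q) {k : Type*} [CommRing k]
    (hk : ∀ x : k, (∀ φ : k →+ ZMod p, φ x = 0) → x = 0) {a b : Additive (Gamma0 N) →+ k}
    (ha : a ∈ PE (Gamma0 N) k) (hb : b ∈ PE (Gamma0 N) k) {τ : k}
    (hτa : (tdata0 N hqN 1 (one_mem _)).H.hom k a = (AddMonoidHom.mulLeft τ).comp a)
    (hτb : (tdata0 N hqN 1 (one_mem _)).H.hom k b = (AddMonoidHom.mulLeft τ).comp b)
    (hτ : IsUnit (τ ^ 2 - 4))
    (h1 : ∀ φ : k →+ ZMod p, have : NeZero p := ⟨hp.out.ne_zero⟩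
      galH ι N p Φ ⟨φ.comp a, comp_mem_PE φ ha⟩ + ⟨φ.comp b, comp_mem_PE φ hb⟩ = 0)
    (h2 : ∀ φ : k →+ ZMod p, have : NeZero p := ⟨hp.out.ne_zero⟩
      galH ι N p Φ ⟨φ.comp b, comp_mem_PE φ hb⟩ + ⟨φ.comp a, comp_mem_PE φ ha⟩ = 0) :
    a = 0 ∧ b = 0 := by
  have hp0 : NeZero p := ⟨hp.out.ne_zero⟩
  have key : ∀ {a b : Additive (Gamma0 N) →+ k} (ha : a ∈ PE (Gamma0 N) k)
      (hb : b ∈ PE (Gamma0 N) k)
      (_ : (tdata0 N hqN 1 (one_mem _)).H.hom k a = (AddMonoidHom.mulLeft τ).comp a)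
      (_ : ∀ φ : k →+ ZMod p,
        galH ι N p Φ ⟨φ.comp a, comp_mem_PE φ ha⟩ + ⟨φ.comp b, comp_mem_PE φ hb⟩ = 0)
      (_ : ∀ φ : k →+ ZMod p,
        galH ι N p Φ ⟨φ.comp b, comp_mem_PE φ hb⟩ + ⟨φ.comp a, comp_mem_PE φ ha⟩ = 0),
      ∀ γ, 2 * a γ + τ * b γ = 0 := by
    intro a b ha hb hτa h1 h2 γ
    apply hk
    intro φ
    set ψ : k →+ ZMod p := φ.comp (AddMonoidHom.mulLeft τ) with hψ
    have e1 := eq_neg_of_add_eq_zero_left (h1 φ)
    have e2 := eq_neg_of_add_eq_zero_left (h2 φ)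
    have e3 := eq_neg_of_add_eq_zero_left (h1 ψ)
    have e4 : galH ι N p Φ (galH ι N p Φ ⟨φ.comp a, comp_mem_PE φ ha⟩) -
        galH ι N p Φ ⟨ψ.comp a, comp_mem_PE ψ ha⟩ +
          q • (⟨φ.comp a, comp_mem_PE φ ha⟩ : PE (Gamma0 N) (ZMod p)) = 0 :=
      es_good (π := π) hπ hqN hFG hK hpκ hΦ (⟨φ.comp a, comp_mem_PE φ ha⟩)
      (⟨ψ.comp a, comp_mem_PE ψ ha⟩) (by
        show ψ.comp a = (tdata0 N hqN 1 (one_mem _)).H.hom (ZMod p) (φ.comp a)
        rw [HData.hom_comp, hτa]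
        rfl)
    rw [e1, map_neg, e2, neg_neg, e3, sub_neg_eq_add] at e4
    have e5 := DFunLike.congr_fun (congrArg Subtype.val e4) γ
    have e6 : φ (a γ) + φ (τ * b γ) + q • φ (a γ) = 0 := e5
    have e7 : q • φ (a γ) = φ (a γ) := by
      rw [hq1, add_smul, one_smul, mul_smul, nsmul_eq_mul p, ZMod.natCast_self, zero_mul, add_zero]
    rw [e7] at e6
    rw [map_add, two_mul, map_add]
    rw [← e6]
    abel
  have ka := key ha hb hτa h1 h2
  have kb := key hb ha hτb h2 h1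
  constructor
  · refine AddMonoidHom.ext fun γ => ?_
    have e1 : (τ ^ 2 - 4) * a γ = 0 := by linear_combination τ * kb γ - 2 * ka γ
    exact (hτ.mul_right_eq_zero).1 e1
  · refine AddMonoidHom.ext fun γ => ?_
    have e1 : (τ ^ 2 - 4) * b γ = 0 := by linear_combination τ * ka γ - 2 * kb γ
    exact (hτ.mul_right_eq_zero).1 e1

end Main

/-! ### inertia -/

section Inertia

variable {L : Type*} [Field L] [Algebra ℚ L] [CharZero L] [IsAlgClosed L] {ι : L →+* ℂ}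
variable {M : ℕ} [NeZero M] {Γ : Subgroup SL(2, ℤ)} [MF ι Γ M] [GalSt ι Γ M] [RepEx ι Γ M]
variable {A : ValuationSubring L} {κ : Type*} [Field κ] {π : A →+* κ} [hloc : IsLocalHom π]
variable {R : Type*} [CommRing R] {F : Additive Γ →+ R} (hF : F ∈ PE Γ R)

theorem TR_one_sub {n : ℕ} [NeZero n] (ht : IsTameField (FG ι Γ M)) {s : L ≃ₐ[ℚ] L}
    (hs : s ∈ A.inertiaSubgroupIn ℚ) {t d : R} {φ : R →+ ZMod n}
    (h : RF ι M hF s t d φ = 0) :
    TR A π ι M n (Yh hF φ (1 - t + d) : Additive Γ →+ ZMod n) := by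
  have h1 := DFunLike.congr_fun h 1
  rw [RF_apply, one_mul, one_mul] at h1
  have h2 := TR_inertia (A := A) (π := π) ht hs (Yh hF φ 1)
  have h3 := TR_inertia (A := A) (π := π) ht hs (galH ι M n s (Yh hF φ 1))
  have h4 := TR_inertia (A := A) (π := π) ht hs (Yh hF φ t)
  have h5 := (h4.sub h2).sub h3
  have h6 : (Yh hF φ (1 - t + d) : PE Γ (ZMod n)) =
      (galH ι M n s (Yh hF φ t) - Yh hF φ t) - (galH ι M n s (Yh hF φ 1) - Yh hF φ 1) -
        (galH ι M n s (galH ι M n s (Yh hF φ 1)) - galH ι M n s (Yh hF φ 1)) := by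
    have h7 : (Yh hF φ (1 - t + d) : PE Γ (ZMod n)) = Yh hF φ 1 - Yh hF φ t + Yh hF φ d := by
      rw [map_add, map_sub]
    rw [h7]
    have h8 : galH ι M n s (galH ι M n s (Yh hF φ 1)) =
        galH ι M n s (Yh hF φ t) - Yh hF φ d := by
      have h9 := h1
      rw [AddMonoidHom.zero_apply] at h9
      have h10 : galH ι M n s (galH ι M n s (Yh hF φ 1)) = (galH ι M n s
          (galH ι M n s (Yh hF φ 1)) - galH ι M n s (Yh hF φ t) + Yh hF φ d) +
          (galH ι M n s (Yh hF φ t) - Yh hF φ d) := by abel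
      rw [h10, h9, zero_add]
    rw [h8]
    abel
  rw [h6]
  exact h5

theorem mulK_cast {p m : ℕ} [NeZero p] [NeZero m] (z : ZMod (p * m)) :
    mulK p m (ZMod.castHom (dvd_mul_right p m) (ZMod p) z) = m * z := by
  obtain ⟨a, rfl⟩ := ZMod.intCast_surjective z
  rw [map_intCast, mulK_intCast]
  push_cast
  ring

/-- **Step 3.** -/
theorem TR_of_inertia [IsAlgClosed κ] (hπ : Function.Surjective π) (ht : IsTameField (FG ι Γ M))
    {p m : ℕ} [hp : NeZero p] [NeZero m] {s : L ≃ₐ[ℚ] L} (hs : s ∈ A.inertiaSubgroupIn ℚ) {t d : R}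
    (h : ∀ φ : R →+ ZMod (p * m), have : NeZero (p * m) := ⟨mul_ne_zero (NeZero.ne p) (NeZero.ne m)⟩
      RF ι M hF s t d φ = 0) {c' : R} (hc' : (1 - t + d) * c' = m) {φ : R →+ ZMod p}
    {ψ : R →+ ZMod (p * m)}
    (hψ : ∀ x, ZMod.castHom (dvd_mul_right p m) (ZMod p) (ψ x) = φ x) :
    TR A π ι M p (φ.comp F) := by
  have : NeZero (p * m) := ⟨mul_ne_zero (NeZero.ne p) (NeZero.ne m)⟩
  obtain ⟨f, hf⟩ := RepEx.ex (ι := ι) (N := M) p (φ.comp F) (comp_mem_PE φ hF)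
  refine TR.of_mulK (m := m) hπ ht hf ?_
  have h1 := TR_one_sub (π := π) hF ht hs (h (ψ.comp (AddMonoidHom.mulLeft c')))
  rw [Yh_mulLeft] at h1
  have h2 : (Yh hF ψ (c' * (1 - t + d)) : Additive Γ →+ ZMod (p * m)) =
      (mulK p m).comp (φ.comp F) := by
    rw [Yh_coe, mul_comm c', hc']
    refine AddMonoidHom.ext fun γ => ?_
    show ψ ((m : R) * F γ) = mulK p m (φ (F γ))
    rw [← hψ, mulK_cast, ← nsmul_eq_mul, map_nsmul, nsmul_eq_mul]
  rw [h2] at h1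
  exact h1

end Inertia

end Fermat.Agent.LG
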