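import Fermat.Agent.LG.HeckeFn

/-!
# The multiplicative Hecke operators `T_l` on modular functions for `Γ`
-/

set_option autoImplicit false
set_option linter.unusedSectionVars false
set_option linter.style.haveILetI false

noncomputable section

open UpperHalfPlane Function ModularCurve Filter ModularForm AlgebraicCurve WithZero
  CongruenceSubgroup
open scoped Manifold MatrixGroups Topology ModularForm

namespace Fermat.Agent.LG

open Fermat.Agent.X0Places Fermat.Agent.FunField Fermat.Agent.FunField.PlaceLemmas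
open Fermat.Agent.TorsCmp Fermat.Agent.LGR
open Fermat.Agent.ModPoly (twist twist_coeff)
open Matrix.SpecialLinearGroup (mapGL)
open Function.Periodic (qParam)

/-! ### Laurent series in `X^l` -/

theorem exists_qExpand_eq {K : Type*} [Field K] (l : ℕ) [NeZero l] (S : LaurentSeries K)
    (hS : ∀ k : ℤ, ¬ (l : ℤ) ∣ k → S.coeff k = 0) : ∃ h, qExpand K l h = S := by
  have hl : (0 : ℤ) < l := by exact_mod_cast Nat.pos_of_ne_zero (NeZero.ne l)
  have hb : BddBelow (Function.support fun k : ℤ => S.coeff (l * k)) := by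
    refine ⟨-|S.order|, fun k hk => ?_⟩
    by_contra hcon
    push Not at hcon
    apply hk
    apply HahnSeries.coeff_eq_zero_of_lt_order
    have h1 : (l : ℤ) * k ≤ k := by
      have h2 := abs_nonneg S.order
      nlinarith
    have h3 := neg_abs_le S.order
    omega
  refine ⟨HahnSeries.ofSuppBddBelow (fun k : ℤ => S.coeff (l * k)) hb, ?_⟩
  ext k
  by_cases hk : (l : ℤ) ∣ k
  · obtain ⟨c, rfl⟩ := hk
    rw [qExpand_coeff_mul]
    rfl
  · rw [qExpand_coeff_of_not_dvd _ _ hk, hS k hk]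

theorem exists_of_coeffMap_qExpand {K K' : Type*} [Field K] [Field K'] (ι : K →+* K') (l : ℕ)
    [NeZero l] {S : LaurentSeries K} {y : LaurentSeries K'}
    (h : qExpand K' l y = coeffMap ι S) : ∃ g, qExpand K l g = S ∧ coeffMap ι g = y := by
  obtain ⟨g, hg⟩ := exists_qExpand_eq l S fun k hk => by
    apply ι.injective
    rw [map_zero, ← coeffMap_coeff, ← h, qExpand_coeff_of_not_dvd _ _ hk]
  refine ⟨g, hg, ?_⟩
  apply qExpand_injective l
  rw [h, ← hg, coeffMap_qExpand]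

/-! ### the matrices -/

theorem heckeDiag_smul (l : ℕ) (hl : 0 < l) (τ : ℍ) : heckeDiagMatrix l • τ = scaleH l hl τ := by
  apply UpperHalfPlane.ext
  rw [coe_heckeDiagMatrix_smul hl.ne', coe_scaleH]

theorem heckeMatrix_smul (l j : ℕ) (hl : 0 < l) (τ : ℍ) :
    heckeMatrix l j • τ = affH 1 l j one_pos hl τ := by
  apply UpperHalfPlane.ext
  rw [coe_heckeMatrix_smul hl.ne', coe_affH]
  push_cast
  ring

theorem heckeMatrix_decomp (l j : ℕ) (hl : 0 < l) (τ : ℍ) :
    heckeMatrix l j • τ = ModularGroup.S • scaleH l hl ((ModularGroup.S * ModularGroup.T ^ j) • τ) := by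
  have h1 : ModularGroup.T ^ j • τ = ((j : ℝ) +ᵥ τ : ℍ) := by
    have h2 := UpperHalfPlane.modular_T_zpow_smul τ (j : ℤ)
    rw [zpow_natCast] at h2
    rw [h2]
    simp
  have h0 : ((j : ℂ) + τ) ≠ 0 := by
    have h3 := ((j : ℝ) +ᵥ τ : ℍ).ne_zero
    rwa [UpperHalfPlane.coe_vadd] at h3
  have hlc : (l : ℂ) ≠ 0 := by exact_mod_cast hl.ne'
  apply UpperHalfPlane.ext
  rw [coe_heckeMatrix_smul hl.ne', coe_SL_smul, coe_scaleH, mul_smul, h1, coe_SL_smul,
    UpperHalfPlane.coe_vadd]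
  simp [ModularGroup.S]
  field_simp
  ring

/-- Data for `T_l` on `Γ`. -/
structure TData (Γ : Subgroup SL(2, ℤ)) (l : ℕ) [Fact l.Prime] where
  /-- the underlying data -/
  H : HeckeHom.HData Γ Γ
  /-- the index set -/
  e : OnePoint (ZMod l) ≃ H.X
  /-- the matrix of the diamond operator -/
  σ : SL(2, ℤ)
  α_coe : ∀ j : ZMod l, H.α (e j) = heckeMatrix l j.val
  α_infty : H.α (e OnePoint.infty) = mapGL ℝ σ * heckeDiagMatrix l

namespace TData

variable {Γ : Subgroup SL(2, ℤ)} {l : ℕ} [hl : Fact l.Prime] (D : TData Γ l)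

theorem prod_eq {M : Type*} [CommMonoid M] (f : D.H.X → M) :
    ∏ x : D.H.X, f x = f (D.e OnePoint.infty) * ∏ j : ZMod l, f (D.e j) := by
  rw [← D.e.prod_comp]
  exact Fintype.prod_option _

theorem pos (x : D.H.X) : 0 < ((D.H.α x).det : ℝ) := by
  obtain ⟨x, rfl⟩ := D.e.surjective x
  induction x using OnePoint.rec with
  | infty =>
    rw [D.α_infty, map_mul, Units.val_mul]
    exact mul_pos (det_mapGL_pos _) (det_heckeDiagMatrix_pos l)
  | coe j =>
    rw [D.α_coe]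
    exact det_heckeMatrix_pos l _

theorem dec (x : D.H.X) : ∃ γ₁ γ₂ : SL(2, ℤ), ∀ τ : ℍ,
    D.H.α x • τ = γ₁ • scaleH l hl.out.pos (γ₂ • τ) := by
  obtain ⟨x, rfl⟩ := D.e.surjective x
  induction x using OnePoint.rec with
  | infty =>
    refine ⟨D.σ, 1, fun τ => ?_⟩
    rw [D.α_infty, mul_smul, heckeDiag_smul l hl.out.pos, one_smul]
    rfl
  | coe j =>
    refine ⟨ModularGroup.S, ModularGroup.S * ModularGroup.T ^ j.val, fun τ => ?_⟩
    rw [D.α_coe, heckeMatrix_decomp l _ hl.out.pos]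

/-- the product on holomorphic functions -/
def tHolo (F : Holo) : Holo := ∏ x : D.H.X, glHolo (D.H.α x) (D.pos x) F

theorem isAnG_tHolo {N : ℕ} [NeZero N] (hgam : Gamma N ≤ Γ) {F : Holo}
    (hF : IsAnG Γ N (F : ℍ → ℂ)) : IsAnG Γ N (D.tHolo F : ℍ → ℂ) :=
  IsAnG.hecke D.H D.pos hl.out.pos D.dec hgam hF

theorem tHolo_apply (F : Holo) (τ : ℍ) : (D.tHolo F : ℍ → ℂ) τ =
    (∏ j ∈ Finset.range l, (F : ℍ → ℂ) (heckeMatrix l j • τ)) *
      (F : ℍ → ℂ) (D.σ • scaleH l hl.out.pos τ) := by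
  have : NeZero l := ⟨hl.out.ne_zero⟩
  have h1 : (D.tHolo F : ℍ → ℂ) = ∏ x : D.H.X, ((glHolo (D.H.α x) (D.pos x) F : Holo) : ℍ → ℂ) :=
    map_prod (Holo.subtype) _ _
  rw [h1, Finset.prod_apply, D.prod_eq, mul_comm]
  congr 1
  · have h2 : ∀ j : ZMod l, ((glHolo (D.H.α (D.e j)) (D.pos (D.e j)) F : Holo) : ℍ → ℂ) τ =
        (F : ℍ → ℂ) (heckeMatrix l j.val • τ) := by
      intro j
      rw [glHolo_apply, D.α_coe]
    rw [Finset.prod_congr rfl fun j _ => h2 j]
    refine Finset.prod_nbij' (fun j => j.val) (fun j => (j : ZMod l)) ?_ ?_ ?_ ?_ ?_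
    · intro j _
      rw [Finset.mem_range]
      exact ZMod.val_lt j
    · intro j _
      exact Finset.mem_univ _
    · intro j _
      exact ZMod.natCast_zmod_val j
    · intro j hj
      exact ZMod.val_cast_of_lt (Finset.mem_range.1 hj)
    · intro j _
      rfl
  · rw [glHolo_apply, D.α_infty, mul_smul, heckeDiag_smul l hl.out.pos]
    rfl

theorem tHolo_hasLaurent {F : Holo} {a g : LaurentSeries ℂ} (ha : HasLaurent 1 (F : ℍ → ℂ) a)
    (hg : HasLaurent 1 (fun τ => (F : ℍ → ℂ) (D.σ • τ)) g) [NeZero l] :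
    HasLaurent l (D.tHolo F : ℍ → ℂ)
      ((∏ j ∈ Finset.range l, twist (zetaN l ^ j) a) * qExpand ℂ l (qExpand ℂ l g)) := by
  have hlc : (l : ℂ) ≠ 0 := by exact_mod_cast hl.out.ne_zero
  have h1 : (D.tHolo F : ℍ → ℂ) = (∏ j ∈ Finset.range l,
      fun τ : ℍ => (F : ℍ → ℂ) (heckeMatrix l j • τ)) *
      fun τ => (F : ℍ → ℂ) (D.σ • scaleH l hl.out.pos τ) := by
    funext τ
    rw [D.tHolo_apply, Pi.mul_apply, Finset.prod_apply]
  rw [h1]
  refine HasLaurent.mul ?_ ?_
  · have key : ∀ s : Finset ℕ, HasLaurent l (∏ j ∈ s, fun τ : ℍ => (F : ℍ → ℂ) (heckeMatrix l j • τ))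
        (∏ j ∈ s, twist (zetaN l ^ j) a) := by
      intro s
      induction s using Finset.induction_on with
      | empty => exact HasLaurent.const 1
      | insert j s hj ih =>
        rw [Finset.prod_insert hj, Finset.prod_insert hj]
        refine HasLaurent.mul ?_ ih
        have h2 := ha.subst (h' := (l : ℝ)) (fun τ => heckeMatrix l j • τ) (zetaN l ^ j) 1 (by
          intro τ
          rw [pow_one]
          simp only [qParam, coe_heckeMatrix_smul hl.out.ne_zero, zetaN, Units.val_pow_eq_pow_val,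
            Units.val_mk0]
          rw [← Complex.exp_nat_mul, ← Complex.exp_add]
          congr 1
          push_cast
          field_simp
          ring)
        rw [qExpand_one_apply] at h2
        exact h2
    exact key _
  · have h2 := hg.subst (h' := (l : ℝ)) (fun τ => scaleH l hl.out.pos τ) 1 (l * l) (by
      intro τ
      simp only [qParam, coe_scaleH, Units.val_one, one_mul]
      rw [← Complex.exp_nat_mul]
      congr 1
      push_cast
      field_simp)
    rw [Fermat.Agent.ModPoly.twist_one, ← qExpand_qExpand] at h2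
    exact h2

variable {L : Type*} [Field L] {ι : L →+* ℂ} {N : ℕ} [NeZero N]

/-- the operator `T_l` on analytic elements -/
theorem exists_an (hT : ModularGroup.T ∈ Γ) (hgam : Gamma N ≤ Γ) [NeZero l] {ζ : Lˣ}
    (hζ : Units.map (ι : L →* ℂ) ζ = zetaN l) (a : AnR ι Γ N) {g : LaurentSeries L}
    (hg : HasLaurent 1 (fun τ => anFn a (D.σ • τ)) (coeffMap ι g)) :
    ∃ h : AnR ι Γ N, anHom ι Γ N h = D.tHolo (anHom ι Γ N a) ∧
      IsT l ζ (a : LaurentSeries L) g (h : LaurentSeries L) := by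
  have hAn := D.isAnG_tHolo hgam (F := anHom ι Γ N a) (isAnG_anFn a)
  obtain ⟨y, hy⟩ : ∃ y, HasLaurent 1 (D.tHolo (anHom ι Γ N a) : ℍ → ℂ) y := by
    obtain ⟨y, hy⟩ := hAn.exp 1
    have h1 : (fun τ => (D.tHolo (anHom ι Γ N a) : ℍ → ℂ) ((1 : SL(2, ℤ)) • τ)) =
        (D.tHolo (anHom ι Γ N a) : ℍ → ℂ) := by
      funext τ; rw [one_smul]
    rw [h1] at hy
    exact hasLaurent_one_of_T hy fun τ => hAn.inv _ hT τ
  have h2 := D.tHolo_hasLaurent (F := anHom ι Γ N a) (hasLaurent_anFn a) hg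
  have h3 : HasLaurent l (D.tHolo (anHom ι Γ N a) : ℍ → ℂ) (qExpand ℂ l y) := by
    have h4 := hy.subst (h' := (l : ℝ)) id 1 l (by
      intro τ
      rw [Units.val_one, one_mul, id]
      have := qParam_mul_width (h := 1) one_ne_zero l (τ : ℂ)
      rw [mul_one] at this
      exact this.symm)
    rwa [Fermat.Agent.ModPoly.twist_one] at h4
  have h4 := h3.unique (natCast_pos l) h2
  set S : LaurentSeries L := (∏ j ∈ Finset.range l, twist (ζ ^ j) (a : LaurentSeries L)) *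
    qExpand L l (qExpand L l g) with hS
  have h5 : coeffMap ι S = (∏ j ∈ Finset.range l, twist (zetaN l ^ j)
      (coeffMap ι (a : LaurentSeries L))) * qExpand ℂ l (qExpand ℂ l (coeffMap ι g)) := by
    rw [hS, map_mul, map_prod, coeffMap_qExpand, coeffMap_qExpand]
    congr 1
    refine Finset.prod_congr rfl fun j _ => ?_
    rw [Fermat.Agent.ModPoly.coeffMap_twist, map_pow, hζ]
  rw [← h5] at h4
  obtain ⟨h, hh, hh'⟩ := exists_of_coeffMap_qExpand ι l h4
  have hA : h ∈ AnR ι Γ N := ⟨_, hAn, by rw [hh']; exact hy⟩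
  refine ⟨⟨h, hA⟩, ?_, hh⟩
  apply Subtype.ext
  exact anFn_eq (a := ⟨h, hA⟩) (by
    show HasLaurent 1 _ (coeffMap ι h)
    rw [hh']; exact hy)

end TData

variable {L : Type*} [Field L] {ι : L →+* ℂ} {Γ : Subgroup SL(2, ℤ)} {N : ℕ}

/-- the expansion of a holomorphic element of the field -/
theorem hasLaurent_of_toM {f : FG ι Γ N} {F : Holo} (h : toM ι Γ N f = algebraMap Holo Mer F)
    {z : LaurentSeries ℂ} (hz : HasLaurent 1 (F : ℍ → ℂ) z) :
    z = coeffMap ι (f : LaurentSeries L) := by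
  obtain ⟨b, c, hc0, hc⟩ := exists_num_den 1 one_ne_zero f
  rw [pow_one] at hc
  have h1 := congrArg (toM ι Γ N) hc
  rw [map_mul, h, toM_coe, toM_coe, ← map_mul] at h1
  have h2 : (anFn c : ℍ → ℂ) = (F : ℍ → ℂ) * anFn b :=
    congrArg Subtype.val (IsFractionRing.injective Holo Mer h1)
  have h3 := hasLaurent_anFn c
  rw [h2] at h3
  have h4 := (hz.mul (hasLaurent_anFn b)).unique one_pos h3
  have h5 : (c : LaurentSeries L) = (f : LaurentSeries L) * (b : LaurentSeries L) :=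
    congrArg (fun z : FG ι Γ N => (z : LaurentSeries L)) hc
  have hb : (b : LaurentSeries L) ≠ 0 := by
    intro h0
    exact hc0 (Subtype.ext h0)
  have hb' : coeffMap ι (b : LaurentSeries L) ≠ 0 := by
    rwa [Ne, map_eq_zero_iff _ (Fermat.Agent.ModPoly.coeffMap_injective ι.injective)]
  apply mul_right_cancel₀ hb'
  rw [h4, h5, map_mul]

/-- a holomorphic element with expansions at the cusps is analytic -/
theorem isAnG_of_toM [NeZero N] {f : FG ι Γ N} {F : Holo}
    (h : toM ι Γ N f = algebraMap Holo Mer F)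
    (hexp : ∀ γ : SL(2, ℤ), ∃ y, HasLaurent N (fun τ => (F : ℍ → ℂ) (γ • τ)) y)
    (hT : ModularGroup.T ∈ Γ) :
    IsAnG Γ N (F : ℍ → ℂ) ∧ HasLaurent 1 (F : ℍ → ℂ) (coeffMap ι (f : LaurentSeries L)) := by
  have hAn : IsAnG Γ N (F : ℍ → ℂ) := by
    refine ⟨F.2, hexp, fun γ hγ τ => ?_⟩
    have h1 := compMer_toM hγ f
    rw [h, compMer_algebraMap] at h1
    exact congrFun (congrArg Subtype.val (IsFractionRing.injective Holo Mer h1)) τ
  refine ⟨hAn, ?_⟩
  obtain ⟨y, hy⟩ : ∃ y, HasLaurent 1 (F : ℍ → ℂ) y := by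
    obtain ⟨y, hy⟩ := hAn.exp 1
    have h1 : (fun τ => (F : ℍ → ℂ) ((1 : SL(2, ℤ)) • τ)) = (F : ℍ → ℂ) := by
      funext τ; rw [one_smul]
    rw [h1] at hy
    exact hasLaurent_one_of_T hy fun τ => hAn.inv _ hT τ
  rw [← hasLaurent_of_toM h hy]
  exact hy

theorem toM_injective : Injective (toM ι Γ N) := (toM ι Γ N).injective

theorem algebraMap_tHolo {l : ℕ} [Fact l.Prime] (D : TData Γ l) (F : Holo) :
    algebraMap Holo Mer (D.tHolo F) = ∏ x : D.H.X, compG (D.H.α x) (algebraMap Holo Mer F) := by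
  rw [TData.tHolo, map_prod]
  refine Finset.prod_congr rfl fun x _ => ?_
  rw [compG_algebraMap _ (D.pos x)]

/-- **The multiplicative Hecke operator `T_l`.** -/
theorem TData.exists_T [NeZero N] {l : ℕ} [hl : Fact l.Prime] [NeZero l] (D : TData Γ l)
    (hT : ModularGroup.T ∈ Γ) (hgam : Gamma N ≤ Γ) {ζ : Lˣ}
    (hζ : Units.map (ι : L →* ℂ) ζ = zetaN l) (dia : FG ι Γ N →+* FG ι Γ N)
    (hdia : ∀ f, toM ι Γ N (dia f) = compMer D.σ (toM ι Γ N f)) (f : FG ι Γ N) :
    ∃ h : FG ι Γ N, toM ι Γ N h = ∏ x : D.H.X, compG (D.H.α x) (toM ι Γ N f) ∧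
      IsT l ζ (f : LaurentSeries L) (dia f : FG ι Γ N) (h : LaurentSeries L) := by
  have key : ∀ a : AnR ι Γ N, ∃ h : AnR ι Γ N, anHom ι Γ N h = D.tHolo (anHom ι Γ N a) ∧
      IsT l ζ (a : LaurentSeries L)
        ((dia (algebraMap (AnR ι Γ N) (FG ι Γ N) a) : FG ι Γ N) : LaurentSeries L)
        (h : LaurentSeries L) := by
    intro a
    apply D.exists_an hT hgam hζ a
    have h1 : toM ι Γ N (dia (algebraMap (AnR ι Γ N) (FG ι Γ N) a)) =
        algebraMap Holo Mer (compHolo D.σ (anHom ι Γ N a)) := by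
      rw [hdia, toM_coe, compMer_algebraMap]
    refine (isAnG_of_toM h1 (fun γ => ?_) hT).2
    obtain ⟨y, hy⟩ := (isAnG_anFn a).exp (D.σ * γ)
    refine ⟨y, ?_⟩
    have h2 : (fun τ => ((compHolo D.σ (anHom ι Γ N a) : Holo) : ℍ → ℂ) (γ • τ)) =
        fun τ => anFn a ((D.σ * γ) • τ) := by
      funext τ
      rw [mul_smul]; rfl
    rw [h2]
    exact hy
  obtain ⟨a, b, hb, rfl⟩ := IsFractionRing.div_surjective (A := AnR ι Γ N) f
  obtain ⟨ha, ha1, ha2⟩ := key a
  obtain ⟨hb', hb1, hb2⟩ := key b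
  refine ⟨algebraMap (AnR ι Γ N) (FG ι Γ N) ha / algebraMap (AnR ι Γ N) (FG ι Γ N) hb', ?_, ?_⟩
  · rw [map_div₀, toM_coe, toM_coe, ha1, hb1, algebraMap_tHolo, algebraMap_tHolo,
      ← Finset.prod_div_distrib]
    refine Finset.prod_congr rfl fun x _ => ?_
    rw [map_div₀, map_div₀, toM_coe, toM_coe]
  · rw [map_div₀]
    exact ha2.div hb2

end Fermat.Agent.LG
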